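import Fermat.Agent.S16.helper26_HeckeGlue

/-!
# S16: the induction over Hecke polynomials (sub-piece of [B4])

For every `P : HeckeAlg`, the endomorphism `heckeEvalForms N 2 P` of `S₂(Γ₀(N))` acts on
integral period homomorphisms, and on characters of the upper-left entry it acts through
`aeval (eisensteinSystem N) P`.
-/

set_option autoImplicit false

open Matrix.SpecialLinearGroup CongruenceSubgroup ModularCurve ModularCurve.Period
open scoped MatrixGroups ModularForm

namespace Fermat.Agent.S16.helper26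

universe w

variable (N : ℕ) [NeZero N]

/-- The endomorphism `heckeEvalForms N 2 P` acting on pairs of cusp forms. -/
noncomputable def evalPair (P : HeckeAlg)
    (x : CuspForm (Gamma0 N) 2 × CuspForm (Gamma0 N) 2) :
    CuspForm (Gamma0 N) 2 × CuspForm (Gamma0 N) 2 :=
  ((CuspForm.heckeEvalForms N 2 P : Module.End ℂ (CuspForm (Gamma0 N) 2)) x.1,
    (CuspForm.heckeEvalForms N 2 P : Module.End ℂ (CuspForm (Gamma0 N) 2)) x.2)

theorem evalPair_C (a : ℤ) (x : CuspForm (Gamma0 N) 2 × CuspForm (Gamma0 N) 2) :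
    evalPair N (MvPolynomial.C a) x = (a : ℂ) • x := by
  unfold evalPair
  rw [CuspForm.heckeEvalForms_C]
  ext1
  · simpa using (Int.cast_smul_eq_zsmul ℂ a x.1).symm
  · simpa using (Int.cast_smul_eq_zsmul ℂ a x.2).symm

theorem evalPair_add (P Q : HeckeAlg) (x : CuspForm (Gamma0 N) 2 × CuspForm (Gamma0 N) 2) :
    evalPair N (P + Q) x = evalPair N P x + evalPair N Q x := by
  unfold evalPair
  rw [map_add]
  ext1 <;> simp

theorem evalPair_mul_X (P : HeckeAlg) (ℓ : Nat.Primes)
    (x : CuspForm (Gamma0 N) 2 × CuspForm (Gamma0 N) 2) :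
    evalPair N (P * MvPolynomial.X ℓ) x = evalPair N P (heckePair N ℓ x) := by
  unfold evalPair heckePair
  rw [map_mul]
  have h : CuspForm.heckeEvalForms N 2 (MvPolynomial.X ℓ) = CuspForm.heckeFormsGen N 2 ℓ :=
    CuspForm.heckeEvalForms_heckeGen N 2 ℓ
  rw [h]
  rfl

variable {A : Type w} [AddCommGroup A]

/-- **The `R(P)` induction.** If `φ` is an integral homomorphism whose complexification is the
period pairing of `x`, and whose reduction along `ρ : ℤ →+ A` is `c` times a character of the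
upper-left entry, then the same holds for `P x` with `c` replaced by
`aeval (eisensteinSystem N) P * c`. -/
theorem exists_hom_evalPair
    (hA : ∀ ℓ : Nat.Primes, (ℓ : ℕ) ∣ N → ∀ a : A, (ℓ : ℕ) • a = a)
    (χ : Additive (ZMod N)ˣ →+ A) (ρ : ℤ →+ A) (P : HeckeAlg) :
    ∀ (x : CuspForm (Gamma0 N) 2 × CuspForm (Gamma0 N) 2) (φ : Additive (Gamma0 N) →+ ℤ)
      (c : ℤ), periodHomPair N x = (Int.castAddHom ℂ).comp φ →
      ρ.comp φ = c • χ.comp (MonoidHom.toAdditive (ulUnit N)) →
      ∃ φ' : Additive (Gamma0 N) →+ ℤ,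
        periodHomPair N (evalPair N P x) = (Int.castAddHom ℂ).comp φ' ∧
        ρ.comp φ' = (MvPolynomial.aeval (eisensteinSystem N) P * c) •
          χ.comp (MonoidHom.toAdditive (ulUnit N)) := by
  induction P using MvPolynomial.induction_on with
  | C a =>
    intro x φ c hx hφ
    refine ⟨a • φ, ?_, ?_⟩
    · rw [evalPair_C, map_smul, hx]
      refine AddMonoidHom.ext fun γ => ?_
      simp
    · rw [MvPolynomial.aeval_C, mul_smul, ← hφ]
      refine AddMonoidHom.ext fun γ => ?_
      simp only [AddMonoidHom.coe_comp, Function.comp_apply, AddMonoidHom.coe_smul,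
        Pi.smul_apply, Algebra.algebraMap_self, RingHom.id_apply]
      rw [map_zsmul]
  | add P Q hP hQ =>
    intro x φ c hx hφ
    obtain ⟨φ₁, h1, h1'⟩ := hP x φ c hx hφ
    obtain ⟨φ₂, h2, h2'⟩ := hQ x φ c hx hφ
    refine ⟨φ₁ + φ₂, ?_, ?_⟩
    · rw [evalPair_add, map_add, h1, h2]
      refine AddMonoidHom.ext fun γ => ?_
      simp
    · rw [map_add, add_mul, add_smul, ← h1', ← h2']
      refine AddMonoidHom.ext fun γ => ?_
      simp
  | mul_X P ℓ hP =>
    intro x φ c hx hφ
    have hx' : periodHomPair N (heckePair N ℓ x) =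
        (Int.castAddHom ℂ).comp (heckeHom N ℓ φ) := by
      rw [periodHomPair_heckePair, hx, heckeHom_comp]
    have hφ' : ρ.comp (heckeHom N ℓ φ) =
        (eisensteinSystem N ℓ * c) • χ.comp (MonoidHom.toAdditive (ulUnit N)) := by
      rw [← heckeHom_comp, hφ, map_zsmul, heckeHom_ulUnit_eisenstein N hA, smul_smul, mul_comm]
    obtain ⟨φ', h1, h2⟩ := hP (heckePair N ℓ x) (heckeHom N ℓ φ) (eisensteinSystem N ℓ * c) hx' hφ'
    refine ⟨φ', ?_, ?_⟩
    · rw [evalPair_mul_X, h1]
    · rw [h2, map_mul, MvPolynomial.aeval_X, mul_assoc]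

end Fermat.Agent.S16.helper26
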