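import Mathlib
import Fermat.Prelude.Def_ModularForm_HeckeOperator
import Fermat.Prelude.Def_FLTPrelim_Modularity

/-!
# S16 package [A0] (helper24): the Eisenstein series of weight 2 and level `Γ₀(p)`

`eisFun p = (-1/24) • (E₂ - E₂ ∣[2] heckeDiagMatrix p)`, i.e. `τ ↦ -(E₂(τ) - p E₂(pτ))/24`,
is a modular form of weight 2 for `Γ₀(p)` with `q`-expansion
`(p-1)/24 + ∑_{n ≥ 1} σ'(n) qⁿ`, `σ'(n)` = sum of the divisors of `n` prime to `p`.
-/

set_option autoImplicit false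

namespace Fermat.Agent.S16.helper24

open UpperHalfPlane ModularForm EisensteinSeries CongruenceSubgroup Matrix
open Matrix.SpecialLinearGroup (mapGL mapGL_coe_matrix)
open scoped MatrixGroups Real Manifold Topology

noncomputable section

/-! ## The arithmetic function `σ'` -/

/-- Sum of the divisors of `n` that are prime to `p` (for `p` prime). -/
def sigmaP (p n : ℕ) : ℕ := ∑ d ∈ n.divisors with ¬ p ∣ d, d

@[simp] lemma sigmaP_zero (p : ℕ) : sigmaP p 0 = 0 := by simp [sigmaP]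

lemma sigmaP_one {p : ℕ} (hp : p.Prime) : sigmaP p 1 = 1 := by
  simp [sigmaP, Finset.filter_singleton, hp.one_lt.ne']

lemma sigmaP_of_not_dvd {p n : ℕ} (h : ¬ p ∣ n) : sigmaP p n = ArithmeticFunction.sigma 1 n := by
  rw [sigmaP, ArithmeticFunction.sigma_one_apply]
  refine Finset.sum_congr ?_ fun _ _ => rfl
  refine Finset.filter_true_of_mem fun d hd hpd => h ?_
  exact hpd.trans (Nat.dvd_of_mem_divisors hd)

lemma sigma_eq_sigmaP_add {p : ℕ} (hp : p.Prime) (m : ℕ) :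
    ArithmeticFunction.sigma 1 (p * m) = sigmaP p (p * m) + p * ArithmeticFunction.sigma 1 m := by
  rcases Nat.eq_zero_or_pos m with rfl | hm
  · simp
  rw [sigmaP, ArithmeticFunction.sigma_one_apply, ArithmeticFunction.sigma_one_apply,
    ← Finset.sum_filter_not_add_sum_filter (p := fun d => ¬ p ∣ d) (s := (p * m).divisors)]
  simp only [not_not]
  rw [add_comm]
  congr 1
  rw [Finset.mul_sum]
  symm
  refine Finset.sum_bij (fun d _ => p * d) ?_ ?_ ?_ ?_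
  · intro d hd
    simp only [Finset.mem_filter, Nat.mem_divisors] at hd ⊢
    exact ⟨⟨Nat.mul_dvd_mul_left p (Nat.dvd_of_mem_divisors (by simpa using hd)),
      Nat.mul_ne_zero hp.ne_zero hm.ne'⟩, dvd_mul_right _ _⟩
  · intro a _ b _ h
    exact Nat.eq_of_mul_eq_mul_left hp.pos h
  · intro d hd
    simp only [Finset.mem_filter, Nat.mem_divisors] at hd
    obtain ⟨⟨hd1, _⟩, e, rfl⟩ := hd
    refine ⟨e, ?_, rfl⟩
    simp only [Nat.mem_divisors]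
    exact ⟨(Nat.mul_dvd_mul_iff_left hp.pos).mp hd1, hm.ne'⟩
  · intro d _
    rfl

/-! ## The function -/

/-- The underlying function of the weight 2 Eisenstein series of level `Γ₀(p)`:
`τ ↦ -(E₂(τ) - p E₂(p τ)) / 24`. -/
def eisFun (p : ℕ) : ℍ → ℂ :=
  (-(1 : ℂ) / 24) • (E2 - E2 ∣[(2 : ℤ)] heckeDiagMatrix p)

lemma eisFun_apply {p : ℕ} (hp : p ≠ 0) (τ : ℍ) :
    eisFun p τ = -(1 : ℂ) / 24 * (E2 τ - p * E2 (heckeDiagMatrix p • τ)) := by
  simp [eisFun, slash_heckeDiagMatrix_apply 2 hp]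

lemma mdiff_eisFun (p : ℕ) : MDifferentiable 𝓘(ℂ) 𝓘(ℂ) (eisFun p) := by
  unfold eisFun
  exact (E2_mdifferentiable.sub (E2_mdifferentiable.slash 2 _)).const_smul _

/-! ## Boundedness of `D2` -/

lemma norm_D2_le (γ : SL(2, ℤ)) (z : ℍ) (hz : 1 ≤ z.im) : ‖D2 γ z‖ ≤ 2 * π := by
  unfold D2
  by_cases hc : γ 1 0 = 0
  · simp [hc, Real.pi_pos.le]
  have hc' : (0 : ℝ) < |((γ 1 0 : ℤ) : ℝ)| := abs_pos.mpr (by exact_mod_cast hc)
  have hden : |((γ 1 0 : ℤ) : ℝ)| ≤ ‖denom γ z‖ := by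
    have h1 : |(denom γ z).im| ≤ ‖denom γ z‖ := Complex.abs_im_le_norm _
    have h2 : (denom γ z).im = ((γ 1 0 : ℤ) : ℝ) * z.im := by
      simp [denom]
    rw [h2, abs_mul, abs_of_pos z.im_pos] at h1
    calc |((γ 1 0 : ℤ) : ℝ)| = |((γ 1 0 : ℤ) : ℝ)| * 1 := (mul_one _).symm
      _ ≤ |((γ 1 0 : ℤ) : ℝ)| * z.im := by gcongr
      _ ≤ _ := h1
  rw [norm_div]
  have hpos : 0 < ‖denom γ z‖ := lt_of_lt_of_le hc' hden
  rw [div_le_iff₀ hpos]
  have : ‖2 * (π : ℂ) * Complex.I * ((γ 1 0 : ℤ) : ℂ)‖ = 2 * π * |((γ 1 0 : ℤ) : ℝ)| := by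
    simp [abs_of_pos Real.pi_pos]
  rw [this]
  gcongr

lemma isBoundedAtImInfty_D2 (γ : SL(2, ℤ)) : IsBoundedAtImInfty (D2 γ) :=
  isBoundedAtImInfty_iff.mpr ⟨2 * π, 1, fun z hz => norm_D2_le γ z hz⟩

lemma isBoundedAtImInfty_E2_slash (γ : SL(2, ℤ)) : IsBoundedAtImInfty (E2 ∣[(2 : ℤ)] γ) := by
  rw [E2_slash_action]
  exact isBoundedAtImInfty_E2.sub ((isBoundedAtImInfty_D2 γ).const_smul_left _)

/-! ## Matrix identities -/

/-- For `γ ∈ Γ₀(p)`, the conjugate `α γ α⁻¹`, `α = diag(p, 1)`. -/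
def conjSL (p : ℕ) (γ : SL(2, ℤ)) (c' : ℤ) (hc : γ 1 0 = p * c') : SL(2, ℤ) :=
  ⟨!![γ 0 0, p * γ 0 1; c', γ 1 1], by
    have hdet := γ.det_coe
    rw [Matrix.det_fin_two] at hdet
    rw [Matrix.det_fin_two_of]
    rw [hc] at hdet
    linear_combination hdet⟩

lemma coeGL_apply (γ : SL(2, ℤ)) (i j : Fin 2) :
    ((γ : GL (Fin 2) ℝ) : Matrix (Fin 2) (Fin 2) ℝ) i j = ((γ i j : ℤ) : ℝ) := rfl

lemma heckeDiag_mul_eq {p : ℕ} (hp : p ≠ 0) (γ : SL(2, ℤ)) (c' : ℤ) (hc : γ 1 0 = p * c') :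
    heckeDiagMatrix p * (γ : GL (Fin 2) ℝ)
      = ((conjSL p γ c' hc : SL(2, ℤ)) : GL (Fin 2) ℝ) * heckeDiagMatrix p := by
  apply Matrix.GeneralLinearGroup.ext
  intro i j
  simp only [Matrix.GeneralLinearGroup.coe_mul, val_heckeDiagMatrix hp,
    Matrix.mul_apply, Fin.sum_univ_two, coeGL_apply]
  fin_cases i <;> fin_cases j <;> simp [conjSL, hc] <;> ring

/-! ## Slash invariance under `Γ₀(p)` -/

lemma denom_SL (γ : SL(2, ℤ)) (z : ℂ) :
    denom (γ : GL (Fin 2) ℝ) z = ((γ 1 0 : ℤ) : ℂ) * z + ((γ 1 1 : ℤ) : ℂ) := by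
  simp [denom, coeGL_apply]

lemma D2_apply (γ : SL(2, ℤ)) (z : ℍ) :
    D2 γ z = (2 * π * Complex.I * ((γ 1 0 : ℤ) : ℂ)) / (((γ 1 0 : ℤ) : ℂ) * z + ((γ 1 1 : ℤ) : ℂ)) := by
  rw [← denom_SL]
  rfl

lemma D2_conj_slash {p : ℕ} (hp : p ≠ 0) (γ : SL(2, ℤ)) (c' : ℤ) (hc : γ 1 0 = p * c') :
    (D2 (conjSL p γ c' hc)) ∣[(2 : ℤ)] heckeDiagMatrix p = D2 γ := by
  ext z
  have hp' : (p : ℂ) ≠ 0 := by exact_mod_cast hp
  rw [slash_heckeDiagMatrix_apply 2 hp, D2_apply, D2_apply, coe_heckeDiagMatrix_smul hp, hc]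
  have e1 : ((conjSL p γ c' hc) 1 0 : ℤ) = c' := rfl
  have e2 : ((conjSL p γ c' hc) 1 1 : ℤ) = γ 1 1 := rfl
  rw [e1, e2]
  push_cast
  have e3 : (c' : ℂ) * ((p : ℂ) * (z : ℂ)) = (p : ℂ) * c' * z := by ring
  rw [e3]
  norm_num
  ring

lemma E2_slash_heckeDiag_slash {p : ℕ} (hp : p ≠ 0) (γ : SL(2, ℤ)) (c' : ℤ)
    (hc : γ 1 0 = p * c') :
    (E2 ∣[(2 : ℤ)] heckeDiagMatrix p) ∣[(2 : ℤ)] γ
      = E2 ∣[(2 : ℤ)] heckeDiagMatrix p - (1 / (2 * riemannZeta 2)) • D2 γ := by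
  rw [SL_slash, ← SlashAction.slash_mul, heckeDiag_mul_eq hp γ c' hc, SlashAction.slash_mul,
    ← SL_slash, E2_slash_action, sub_eq_add_neg, SlashAction.add_slash, SlashAction.neg_slash,
    smul_slash, σ_heckeDiagMatrix, D2_conj_slash hp γ c' hc, ← sub_eq_add_neg]
  rfl

lemma eisFun_slash_of_dvd {p : ℕ} (hp : p ≠ 0) (γ : SL(2, ℤ)) (c' : ℤ) (hc : γ 1 0 = p * c') :
    eisFun p ∣[(2 : ℤ)] γ = eisFun p := by
  unfold eisFun
  rw [SL_smul_slash, sub_eq_add_neg, SlashAction.add_slash, SlashAction.neg_slash,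
    E2_slash_heckeDiag_slash hp γ c' hc, E2_slash_action]
  congr 1
  abel

lemma eisFun_slash_of_mem_Gamma0 {p : ℕ} (hp : p ≠ 0) {γ : SL(2, ℤ)} (hγ : γ ∈ Gamma0 p) :
    eisFun p ∣[(2 : ℤ)] γ = eisFun p := by
  have h := Gamma0_mem.mp hγ
  rw [ZMod.intCast_zmod_eq_zero_iff_dvd] at h
  obtain ⟨c', hc⟩ := h
  exact eisFun_slash_of_dvd hp γ c' hc

/-! ## Boundedness at all cusps -/

/-- The Bezout matrix used to bring `diag(p,1) * γ` into upper triangular form. -/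
def bezSL (p : ℕ) (γ : SL(2, ℤ)) (x y : ℤ) (hxy : x * (p * γ 0 0) + y * γ 1 0 = 1) :
    SL(2, ℤ) :=
  ⟨!![p * γ 0 0, -y; γ 1 0, x], by
    rw [Matrix.det_fin_two_of]
    linear_combination hxy⟩

lemma exists_decomp_of_not_dvd {p : ℕ} (hp : p.Prime) (γ : SL(2, ℤ))
    (hc : ¬ (p : ℤ) ∣ γ 1 0) :
    ∃ (δ : SL(2, ℤ)) (β : GL (Fin 2) ℝ), β 1 0 = 0 ∧
      heckeDiagMatrix p * (γ : GL (Fin 2) ℝ) = (δ : GL (Fin 2) ℝ) * β := by
  have hdet := γ.det_coe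
  rw [Matrix.det_fin_two] at hdet
  have hcop1 : IsCoprime (γ 0 0) (γ 1 0) := ⟨γ 1 1, -γ 0 1, by linear_combination hdet⟩
  have hcop2 : IsCoprime (p : ℤ) (γ 1 0) :=
    (Nat.prime_iff_prime_int.mp hp).coprime_iff_not_dvd.mpr hc
  obtain ⟨x, y, hxy⟩ := hcop2.mul_left hcop1
  have hp0 : (p : ℝ) ≠ 0 := by exact_mod_cast hp.ne_zero
  refine ⟨bezSL p γ x y hxy,
    upperTriangularGL 1 ((x * p * γ 0 1 + y * γ 1 1 : ℤ) : ℝ) p (by rwa [one_mul]), ?_, ?_⟩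
  · simp [upperTriangularGL]
  · have hdetR : ((γ 0 0 : ℤ) : ℝ) * (γ 1 1 : ℤ) - ((γ 0 1 : ℤ) : ℝ) * (γ 1 0 : ℤ) = 1 := by
      exact_mod_cast hdet
    have hxyR : (x : ℝ) * ((p : ℝ) * (γ 0 0 : ℤ)) + (y : ℝ) * (γ 1 0 : ℤ) = 1 := by
      exact_mod_cast hxy
    have e00 : ((bezSL p γ x y hxy) 0 0 : ℤ) = p * γ 0 0 := rfl
    have e01 : ((bezSL p γ x y hxy) 0 1 : ℤ) = -y := rfl
    have e10 : ((bezSL p γ x y hxy) 1 0 : ℤ) = γ 1 0 := rfl
    have e11 : ((bezSL p γ x y hxy) 1 1 : ℤ) = x := rfl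
    apply Matrix.GeneralLinearGroup.ext
    intro i j
    simp only [Matrix.GeneralLinearGroup.coe_mul, val_heckeDiagMatrix hp.ne_zero,
      val_upperTriangularGL, Matrix.mul_apply, Fin.sum_univ_two, coeGL_apply]
    fin_cases i <;> fin_cases j
    · simp [e00]
    · simp [e00, e01]
      linear_combination (-(p : ℝ) * (γ 0 1 : ℤ)) * hxyR - ((p : ℝ) * y) * hdetR
    · simp [e10]
    · simp [e10, e11]
      linear_combination (-((γ 1 1 : ℤ) : ℝ)) * hxyR + ((x : ℝ) * p) * hdetR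

lemma exists_decomp {p : ℕ} (hp : p.Prime) (γ : SL(2, ℤ)) :
    ∃ (δ : SL(2, ℤ)) (β : GL (Fin 2) ℝ), β 1 0 = 0 ∧
      heckeDiagMatrix p * (γ : GL (Fin 2) ℝ) = (δ : GL (Fin 2) ℝ) * β := by
  by_cases hc : (p : ℤ) ∣ γ 1 0
  · obtain ⟨c', hc'⟩ := hc
    exact ⟨conjSL p γ c' hc', heckeDiagMatrix p, by simp [val_heckeDiagMatrix hp.ne_zero],
      heckeDiag_mul_eq hp.ne_zero γ c' hc'⟩
  · exact exists_decomp_of_not_dvd hp γ hc

lemma isBoundedAtImInfty_E2_heckeDiag_slash {p : ℕ} (hp : p.Prime) (γ : SL(2, ℤ)) :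
    IsBoundedAtImInfty ((E2 ∣[(2 : ℤ)] heckeDiagMatrix p) ∣[(2 : ℤ)] γ) := by
  obtain ⟨δ, β, hβ, h⟩ := exists_decomp hp γ
  rw [SL_slash, ← SlashAction.slash_mul, h, SlashAction.slash_mul, ← SL_slash]
  exact (isBoundedAtImInfty_E2_slash δ).slash 2 hβ

lemma isBoundedAtImInfty_eisFun_slash {p : ℕ} (hp : p.Prime) (γ : SL(2, ℤ)) :
    IsBoundedAtImInfty (eisFun p ∣[(2 : ℤ)] γ) := by
  unfold eisFun
  rw [SL_smul_slash, sub_eq_add_neg, SlashAction.add_slash, SlashAction.neg_slash,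
    ← sub_eq_add_neg]
  exact ((isBoundedAtImInfty_E2_slash γ).sub
    (isBoundedAtImInfty_E2_heckeDiag_slash hp γ)).const_smul_left _

/-! ## The modular form -/

/-- The Eisenstein series of weight `2` and level `Γ₀(p)`, `p` prime:
`E(τ) = -(E₂(τ) - p E₂(p τ)) / 24 = (p-1)/24 + ∑_{n ≥ 1} σ'(n) qⁿ`. -/
def eisForm (p : ℕ) [Fact p.Prime] : ModularForm (Gamma0 p) 2 where
  toFun := eisFun p
  slash_action_eq' A hA := by
    obtain ⟨γ, hγ, rfl⟩ := hA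
    have := eisFun_slash_of_mem_Gamma0 (Fact.out : p.Prime).ne_zero hγ
    rw [SL_slash] at this
    exact this
  holo' := mdiff_eisFun p
  bdd_at_cusps' {c} hc := by
    rw [Subgroup.IsArithmetic.isCusp_iff_isCusp_SL2Z] at hc
    rw [OnePoint.isBoundedAt_iff_forall_SL2Z hc]
    intro γ _
    exact isBoundedAtImInfty_eisFun_slash Fact.out γ

@[simp] lemma coe_eisForm (p : ℕ) [Fact p.Prime] : ⇑(eisForm p) = eisFun p := rfl

/-! ## The `q`-expansion -/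

local notation "𝕢" => Function.Periodic.qParam 1

/-- The coefficients of the `q`-expansion of `E₂`. -/
def cE2 (n : ℕ) : ℂ := if n = 0 then 1 else -24 * (ArithmeticFunction.sigma 1 n : ℂ)

lemma qParam_one_eq (z : ℂ) : 𝕢 z = Complex.exp (2 * π * Complex.I * z) := by
  simp [Function.Periodic.qParam]

lemma qParam_heckeDiag {p : ℕ} (hp : p ≠ 0) (τ : ℍ) :
    𝕢 ((heckeDiagMatrix p • τ : ℍ) : ℂ) = 𝕢 (τ : ℂ) ^ p := by
  rw [coe_heckeDiagMatrix_smul hp, qParam_one_eq, qParam_one_eq, ← Complex.exp_nat_mul]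
  congr 1
  ring

lemma hasSum_E2_qParam (τ : ℍ) : HasSum (fun n : ℕ => cE2 n • 𝕢 (τ : ℂ) ^ n) (E2 τ) := by
  have h := hasSum_qExpansion_E2 (z := τ)
  rw [← qParam_one_eq] at h
  exact h


lemma hasSum_E2_heckeDiag {p : ℕ} (hp : p ≠ 0) (τ : ℍ) :
    HasSum (fun n : ℕ => (if p ∣ n then cE2 (n / p) else 0) • 𝕢 (τ : ℂ) ^ n)
      (E2 (heckeDiagMatrix p • τ)) := by
  have h := hasSum_E2_qParam (heckeDiagMatrix p • τ)
  rw [qParam_heckeDiag hp] at h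
  have hinj : Function.Injective (fun m : ℕ => p * m) := fun a b hab =>
    Nat.eq_of_mul_eq_mul_left (Nat.pos_of_ne_zero hp) hab
  rw [← hinj.hasSum_iff]
  · convert h using 1
    funext m
    simp only [Function.comp_apply, dvd_mul_right, if_true,
      Nat.mul_div_cancel_left m (Nat.pos_of_ne_zero hp), cE2, pow_mul]
  · intro n hn
    have : ¬ p ∣ n := fun ⟨m, hm⟩ => hn ⟨m, hm.symm⟩
    simp [this]

/-- The coefficients of the `q`-expansion of `eisFun p`. -/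
def eisCoeff (p n : ℕ) : ℂ := if n = 0 then ((p : ℂ) - 1) / 24 else (sigmaP p n : ℂ)

lemma eisCoeff_zero (p : ℕ) : eisCoeff p 0 = ((p : ℂ) - 1) / 24 := by simp [eisCoeff]

lemma eisCoeff_of_pos (p : ℕ) {n : ℕ} (hn : 0 < n) : eisCoeff p n = (sigmaP p n : ℂ) := by
  simp [eisCoeff, hn.ne']

lemma eisCoeff_eq {p : ℕ} (hp : p.Prime) (n : ℕ) :
    eisCoeff p n = -(1 : ℂ) / 24 * (cE2 n - p * (if p ∣ n then cE2 (n / p) else 0)) := by
  rcases Nat.eq_zero_or_pos n with rfl | hn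
  · simp [eisCoeff, cE2]
    ring
  · rw [eisCoeff_of_pos p hn]
    by_cases hpn : p ∣ n
    · obtain ⟨m, rfl⟩ := hpn
      have hm : m ≠ 0 := by rintro rfl; simp at hn
      have h := sigma_eq_sigmaP_add hp m
      have h' : (ArithmeticFunction.sigma 1 (p * m) : ℂ)
          = (sigmaP p (p * m) : ℂ) + p * (ArithmeticFunction.sigma 1 m : ℂ) := by
        exact_mod_cast congrArg (Nat.cast : ℕ → ℂ) h
      simp only [cE2, hn.ne', if_false, dvd_mul_right, if_true,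
        Nat.mul_div_cancel_left m hp.pos, hm, h']
      ring
    · simp only [cE2, hn.ne', if_false, hpn, sigmaP_of_not_dvd hpn]
      ring

lemma hasSum_eisFun {p : ℕ} (hp : p.Prime) (τ : ℍ) :
    HasSum (fun n : ℕ => eisCoeff p n • 𝕢 (τ : ℂ) ^ n) (eisFun p τ) := by
  rw [eisFun_apply hp.ne_zero]
  have h1 := hasSum_E2_qParam τ
  have h2 := hasSum_E2_heckeDiag hp.ne_zero τ
  have h3 := ((h1.sub (h2.mul_left (p : ℂ))).mul_left (-(1 : ℂ) / 24))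
  have e : (fun n : ℕ => eisCoeff p n • 𝕢 (τ : ℂ) ^ n)
      = fun i => -1 / 24 * (cE2 i • 𝕢 (τ : ℂ) ^ i
          - (p : ℂ) * ((if p ∣ i then cE2 (i / p) else 0) • 𝕢 (τ : ℂ) ^ i)) := by
    funext n
    rw [eisCoeff_eq hp n]
    simp only [smul_eq_mul]
    ring
  rw [e]
  exact h3

lemma one_mem_strictPeriods_Gamma0 (N : ℕ) :
    (1 : ℝ) ∈ ((Gamma0 N : Subgroup SL(2, ℤ)) : Subgroup (GL (Fin 2) ℝ)).strictPeriods := by
  rw [Subgroup.strictPeriods_eq_zmultiples_one_of_T_mem]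
  · exact AddSubgroup.mem_zmultiples 1
  · rw [Gamma0_mem]
    simp [ModularGroup.T]

/-- **The `q`-expansion of the Eisenstein series of level `Γ₀(p)`.** -/
theorem qExpansion_eisForm_coeff (p : ℕ) [Fact p.Prime] (n : ℕ) :
    (qExpansion 1 (eisForm p)).coeff n = eisCoeff p n :=
  (ModularFormClass.qExpansion_coeff_unique (f := eisForm p) one_pos
    (one_mem_strictPeriods_Gamma0 p) (fun τ => by
      simpa using hasSum_eisFun (Fact.out : p.Prime) τ) n).symm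

theorem qExpansion_eisForm_coeff_zero (p : ℕ) [Fact p.Prime] :
    (qExpansion 1 (eisForm p)).coeff 0 = ((p : ℂ) - 1) / 24 := by
  rw [qExpansion_eisForm_coeff, eisCoeff_zero]

theorem qExpansion_eisForm_coeff_of_pos (p : ℕ) [Fact p.Prime] {n : ℕ} (hn : 0 < n) :
    (qExpansion 1 (eisForm p)).coeff n = (sigmaP p n : ℂ) := by
  rw [qExpansion_eisForm_coeff, eisCoeff_of_pos p hn]

/-- Prelude form (`ModularFormClass.qCoeff`) of the `q`-expansion. -/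
theorem qCoeff_eisForm (p : ℕ) [Fact p.Prime] (n : ℕ) :
    ModularFormClass.qCoeff (eisForm p) n = eisCoeff p n :=
  qExpansion_eisForm_coeff p n

theorem qCoeff_eisForm_zero (p : ℕ) [Fact p.Prime] :
    ModularFormClass.qCoeff (eisForm p) 0 = ((p : ℂ) - 1) / 24 :=
  qExpansion_eisForm_coeff_zero p

theorem qCoeff_eisForm_of_pos (p : ℕ) [Fact p.Prime] {n : ℕ} (hn : 0 < n) :
    ModularFormClass.qCoeff (eisForm p) n = (sigmaP p n : ℂ) :=
  qExpansion_eisForm_coeff_of_pos p hn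

end

end Fermat.Agent.S16.helper24
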