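import Mathlib
import Fermat.Prelude.Def_ModularCurve_PeriodHomPair
import Fermat.Prelude.Def_HeckeGalois_EichlerShimura
import Fermat.Prelude.Sol.S_ModularForm_heckeT_slash_eq_self_of_mem_Gamma0

/-!
# S16, package [B1]: Hecke operators on homomorphisms `Γ₀(N) → A`

* `CosetSystem Γ ι` : a finite family `α i ∈ GL₂(ℝ)` whose right cosets `Γ α i` are pairwise
  distinct and permuted by right multiplication by `Γ`.
* `CosetSystem.step`, `CosetSystem.perm` : `α i * γ = step γ i * α (perm γ i)`.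
* `CosetSystem.heckeFun` : the operator `φ ↦ (γ ↦ ∑ i, φ (step γ i))` on `Additive Γ →+ A`.
-/

set_option autoImplicit false

open Matrix.SpecialLinearGroup CongruenceSubgroup
open scoped MatrixGroups

namespace Fermat.Agent.S16.helper26

universe u v

/-- A finite system of representatives `α i ∈ GL₂(ℝ)` whose right cosets `Γ α i` are distinct and
permuted by right multiplication by `Γ`. -/
structure CosetSystem (Γ : Subgroup SL(2, ℤ)) (ι : Type u) : Type u where
  /-- the representatives -/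
  α : ι → GL (Fin 2) ℝ
  exists_step : ∀ γ ∈ Γ, ∀ i, ∃ j, ∃ γ' ∈ Γ, α i * mapGL ℝ γ = mapGL ℝ γ' * α j
  inj : ∀ i j, ∀ g ∈ Γ, α i = mapGL ℝ g * α j → i = j

namespace CosetSystem

variable {Γ : Subgroup SL(2, ℤ)} {ι : Type u} (S : CosetSystem Γ ι)

/-- The index permutation attached to `γ`. -/
noncomputable def perm (γ : Γ) (i : ι) : ι := (S.exists_step γ γ.2 i).choose

/-- The cocycle attached to `γ`. -/
noncomputable def step (γ : Γ) (i : ι) : Γ :=
  ⟨(S.exists_step γ γ.2 i).choose_spec.choose, (S.exists_step γ γ.2 i).choose_spec.choose_spec.1⟩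

theorem rel (γ : Γ) (i : ι) :
    S.α i * mapGL ℝ (γ : SL(2, ℤ)) = mapGL ℝ (S.step γ i : SL(2, ℤ)) * S.α (S.perm γ i) :=
  (S.exists_step γ γ.2 i).choose_spec.choose_spec.2

theorem unique {γ : Γ} {i j : ι} {g : Γ}
    (h : S.α i * mapGL ℝ (γ : SL(2, ℤ)) = mapGL ℝ (g : SL(2, ℤ)) * S.α j) :
    j = S.perm γ i ∧ g = S.step γ i := by
  have h1 := S.rel γ i
  rw [h] at h1
  have hj : j = S.perm γ i := by
    apply S.inj j (S.perm γ i) ((g⁻¹ * S.step γ i : Γ) : SL(2, ℤ)) (g⁻¹ * S.step γ i).2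
    rw [Subgroup.coe_mul, Subgroup.coe_inv, map_mul, map_inv, mul_assoc, ← h1, ← mul_assoc,
      inv_mul_cancel, one_mul]
  refine ⟨hj, ?_⟩
  rw [← hj] at h1
  have h2 : mapGL ℝ (g : SL(2, ℤ)) = mapGL ℝ (S.step γ i : SL(2, ℤ)) := mul_right_cancel h1
  exact Subtype.ext (mapGL_injective h2)

theorem perm_one (i : ι) : S.perm 1 i = i :=
  ((S.unique (γ := 1) (i := i) (j := i) (g := 1) (by simp)).1).symm

theorem step_one (i : ι) : S.step 1 i = 1 :=
  ((S.unique (γ := 1) (i := i) (j := i) (g := 1) (by simp)).2).symm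

theorem perm_mul (γ δ : Γ) (i : ι) : S.perm (γ * δ) i = S.perm δ (S.perm γ i) ∧
    S.step (γ * δ) i = S.step γ i * S.step δ (S.perm γ i) := by
  have h : S.α i * mapGL ℝ ((γ * δ : Γ) : SL(2, ℤ)) =
      mapGL ℝ ((S.step γ i * S.step δ (S.perm γ i) : Γ) : SL(2, ℤ)) *
        S.α (S.perm δ (S.perm γ i)) := by
    rw [Subgroup.coe_mul, Subgroup.coe_mul, map_mul, map_mul, ← mul_assoc, S.rel γ i, mul_assoc,
      S.rel δ (S.perm γ i), mul_assoc]
  obtain ⟨h1, h2⟩ := S.unique h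
  exact ⟨h1.symm, h2.symm⟩

theorem perm_inv_perm (γ : Γ) (i : ι) : S.perm γ⁻¹ (S.perm γ i) = i := by
  have := (S.perm_mul γ γ⁻¹ i).1
  rw [mul_inv_cancel, perm_one] at this
  exact this.symm

theorem perm_perm_inv (γ : Γ) (i : ι) : S.perm γ (S.perm γ⁻¹ i) = i := by
  have := S.perm_inv_perm γ⁻¹ i
  rwa [inv_inv] at this

/-- `perm γ` as a permutation. -/
noncomputable def permEquiv (γ : Γ) : Equiv.Perm ι where
  toFun := S.perm γ
  invFun := S.perm γ⁻¹
  left_inv := S.perm_inv_perm γ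
  right_inv := S.perm_perm_inv γ

@[simp] theorem permEquiv_apply (γ : Γ) (i : ι) : S.permEquiv γ i = S.perm γ i := rfl

variable [Fintype ι] {A : Type v} [AddCommGroup A]

/-- The Hecke operator attached to the coset system on homomorphisms `Γ → A`. -/
noncomputable def heckeFun : (Additive Γ →+ A) →+ (Additive Γ →+ A) where
  toFun φ :=
    { toFun := fun γ => ∑ i, φ (Additive.ofMul (S.step (Additive.toMul γ) i))
      map_zero' := by
        simp only [toMul_zero, step_one, ofMul_one, map_zero, Finset.sum_const_zero]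
      map_add' := fun γ δ => by
        simp only [toMul_add]
        rw [← Equiv.sum_comp (S.permEquiv (Additive.toMul γ))
          (fun i => φ (Additive.ofMul (S.step (Additive.toMul δ) i))), ← Finset.sum_add_distrib]
        refine Finset.sum_congr rfl fun i _ => ?_
        rw [(S.perm_mul _ _ i).2, ofMul_mul, map_add, permEquiv_apply] }
  map_zero' := by
    ext γ
    simp
  map_add' φ ψ := by
    ext γ
    simp [Finset.sum_add_distrib]

theorem heckeFun_apply (φ : Additive Γ →+ A) (γ : Γ) :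
    S.heckeFun φ (Additive.ofMul γ) = ∑ i, φ (Additive.ofMul (S.step γ i)) := rfl

/-- Naturality in the coefficient group. -/
theorem heckeFun_comp {B : Type*} [AddCommGroup B] (f : A →+ B) (φ : Additive Γ →+ A) :
    S.heckeFun (f.comp φ) = f.comp (S.heckeFun φ) := by
  ext γ
  simp [heckeFun, map_sum]

/-- Change of representatives: the Hecke operator may be computed with any other system of
representatives `β i = τ i * α (π i)` of the same cosets. -/
theorem sum_eq_heckeFun_of_twist (φ : Additive Γ →+ A) (π : Equiv.Perm ι) (τ : ι → Γ) (γ : Γ)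
    (k : ι → ι) (g : ι → Γ)
    (h : ∀ i, (mapGL ℝ (τ i : SL(2, ℤ)) * S.α (π i)) * mapGL ℝ (γ : SL(2, ℤ)) =
      mapGL ℝ (g i : SL(2, ℤ)) * (mapGL ℝ (τ (k i) : SL(2, ℤ)) * S.α (π (k i)))) :
    ∑ i, φ (Additive.ofMul (g i)) = S.heckeFun φ (Additive.ofMul γ) := by
  have key : ∀ i, π (k i) = S.perm γ (π i) ∧ (τ i)⁻¹ * g i * τ (k i) = S.step γ (π i) := by
    intro i
    apply S.unique
    have := h i
    simp only [Subgroup.coe_mul, Subgroup.coe_inv, map_mul, map_inv]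
    rw [mul_assoc, mul_assoc, ← this, mul_assoc, ← mul_assoc, ← mul_assoc, inv_mul_cancel,
      one_mul]
  have hk : k = fun i => π.symm (S.permEquiv γ (π i)) := by
    funext i
    rw [Equiv.eq_symm_apply]
    exact (key i).1
  let e : Equiv.Perm ι := (π.trans (S.permEquiv γ)).trans π.symm
  have hke : ∀ i, k i = e i := fun i => by rw [hk]; rfl
  have h1 : ∀ i, φ (Additive.ofMul (g i)) =
      φ (Additive.ofMul (τ i)) + φ (Additive.ofMul (S.step γ (π i))) -
        φ (Additive.ofMul (τ (k i))) := by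
    intro i
    have e1 : g i = τ i * S.step γ (π i) * (τ (k i))⁻¹ := by
      rw [← (key i).2]; group
    rw [e1, ofMul_mul, ofMul_mul, map_add, map_add, ofMul_inv, map_neg]
    abel
  rw [Finset.sum_congr rfl fun i _ => h1 i, Finset.sum_sub_distrib, Finset.sum_add_distrib,
    heckeFun_apply]
  have h2 : ∑ i, φ (Additive.ofMul (τ (k i))) = ∑ i, φ (Additive.ofMul (τ i)) := by
    rw [Finset.sum_congr rfl fun i _ => by rw [hke i]]
    exact Equiv.sum_comp e (fun i => φ (Additive.ofMul (τ i)))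
  have h3 : ∑ i, φ (Additive.ofMul (S.step γ (π i))) = ∑ i, φ (Additive.ofMul (S.step γ i)) :=
    Equiv.sum_comp π (fun i => φ (Additive.ofMul (S.step γ i)))
  rw [h2, h3]
  abel

/-- Compatibility with an automorphism `θ` of `Γ` induced by an automorphism `Θ` of `GL₂(ℝ)`
which permutes the cosets `Γ α i`. -/
theorem heckeFun_apply_aut (φ : Additive Γ →+ A) (Θ : GL (Fin 2) ℝ →* GL (Fin 2) ℝ) (θ : Γ →* Γ)
    (hθ : ∀ γ : Γ, Θ (mapGL ℝ (γ : SL(2, ℤ))) = mapGL ℝ (θ γ : SL(2, ℤ)))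
    (π : Equiv.Perm ι) (τ : ι → Γ)
    (hα : ∀ i, Θ (S.α i) = mapGL ℝ (τ i : SL(2, ℤ)) * S.α (π i)) (γ : Γ) :
    S.heckeFun φ (Additive.ofMul (θ γ)) = ∑ i, φ (Additive.ofMul (θ (S.step γ i))) := by
  symm
  apply S.sum_eq_heckeFun_of_twist φ π τ (θ γ) (S.perm γ) (fun i => θ (S.step γ i))
  intro i
  rw [← hα, ← hα, ← hθ, ← hθ, ← map_mul, ← map_mul, S.rel γ i]

end CosetSystem

/-! ### The coset systems of `T_p` (`p ∤ N`) and `U_p` (`p ∣ N`) -/

section Instances

open P2MW.S_ModularForm_heckeT_slash_eq_self_of_mem_Gamma0.ModularForm.HeckeSlashInvariance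
open ModularForm

variable {p : ℕ}

theorem dvd_of_mem_Gamma0 {N : ℕ} {g : SL(2, ℤ)} (hg : g ∈ Gamma0 N) : (N : ℤ) ∣ g 1 0 :=
  (ZMod.intCast_zmod_eq_zero_iff_dvd _ _).mp (Gamma0_mem.mp hg)

theorem mem_Gamma0_of_dvd {N : ℕ} {g : SL(2, ℤ)} (hg : (N : ℤ) ∣ g 1 0) : g ∈ Gamma0 N :=
  Gamma0_mem.mpr ((ZMod.intCast_zmod_eq_zero_iff_dvd _ _).mpr hg)

/-- Entrywise form of a relation `α * γ = γ' * β` between upper triangular `α`, `β`. -/
theorem entries_of_rel {α β : GL (Fin 2) ℝ} {g g' : SL(2, ℤ)} {a b d a' b' d' : ℤ}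
    (hα : (α : Matrix (Fin 2) (Fin 2) ℝ) = !![(a : ℝ), (b : ℝ); 0, (d : ℝ)])
    (hβ : (β : Matrix (Fin 2) (Fin 2) ℝ) = !![(a' : ℝ), (b' : ℝ); 0, (d' : ℝ)])
    (h : α * mapGL ℝ g = mapGL ℝ g' * β) :
    a * g 0 0 + b * g 1 0 = g' 0 0 * a' ∧ d * g 1 0 = g' 1 0 * a' ∧
      a * g 0 1 + b * g 1 1 = g' 0 0 * b' + g' 0 1 * d' ∧
      d * g 1 1 = g' 1 0 * b' + g' 1 1 * d' := by
  have h' := congrArg (fun M : GL (Fin 2) ℝ => (M : Matrix (Fin 2) (Fin 2) ℝ)) h
  simp only [Matrix.GeneralLinearGroup.coe_mul, hα, hβ] at h'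
  have e00 := congrFun (congrFun h' 0) 0
  have e01 := congrFun (congrFun h' 0) 1
  have e10 := congrFun (congrFun h' 1) 0
  have e11 := congrFun (congrFun h' 1) 1
  simp [Matrix.mul_apply, Fin.sum_univ_two] at e00 e01 e10 e11
  refine ⟨?_, ?_, ?_, ?_⟩
  · exact_mod_cast e00
  · exact_mod_cast e10
  · exact_mod_cast e01
  · exact_mod_cast e11

theorem val_heckeMatrix_int (hp : p ≠ 0) (j : ℕ) :
    ((heckeMatrix p j : GL (Fin 2) ℝ) : Matrix (Fin 2) (Fin 2) ℝ) =
      !![((1 : ℤ) : ℝ), ((j : ℤ) : ℝ); 0, ((p : ℤ) : ℝ)] := by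
  rw [val_heckeMatrix hp]; simp

theorem val_heckeDiagMatrix_int (hp : p ≠ 0) :
    ((heckeDiagMatrix p : GL (Fin 2) ℝ) : Matrix (Fin 2) (Fin 2) ℝ) =
      !![((p : ℤ) : ℝ), ((0 : ℤ) : ℝ); 0, ((1 : ℤ) : ℝ)] := by
  rw [val_heckeDiagMatrix hp]; simp

theorem heckeMatrix_inj [NeZero p] (i j : ZMod p) (g : SL(2, ℤ))
    (h : heckeMatrix p i.val = mapGL ℝ g * heckeMatrix p j.val) : i = j := by
  have hp : p ≠ 0 := NeZero.ne p
  have h1 : heckeMatrix p i.val * mapGL ℝ (1 : SL(2, ℤ)) = mapGL ℝ g * heckeMatrix p j.val := by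
    rw [map_one, mul_one, h]
  obtain ⟨e1, -, e3, -⟩ := entries_of_rel (val_heckeMatrix_int hp i.val)
    (val_heckeMatrix_int hp j.val) h1
  simp at e1 e3
  have := congrArg (Int.cast : ℤ → ZMod p) e3
  rw [← e1] at this
  simpa using this

theorem heckeMatrix_ne_heckeDiagMatrix (hp : 1 < p) (i : ℕ) (g : SL(2, ℤ)) :
    heckeMatrix p i ≠ mapGL ℝ g * heckeDiagMatrix p := by
  intro h
  have hp0 : p ≠ 0 := by omega
  have h1 : heckeMatrix p i * mapGL ℝ (1 : SL(2, ℤ)) = mapGL ℝ g * heckeDiagMatrix p := by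
    rw [map_one, mul_one, h]
  obtain ⟨e1, -, -, -⟩ := entries_of_rel (val_heckeMatrix_int hp0 i)
    (val_heckeDiagMatrix_int hp0) h1
  simp at e1
  have h2 : (p : ℤ) ∣ 1 := ⟨g 0 0, e1.trans (mul_comm _ _)⟩
  have h3 := Int.le_of_dvd one_pos h2
  omega

theorem heckeDiagMatrix_ne_heckeMatrix (hp : 1 < p) (j : ℕ) (g : SL(2, ℤ)) :
    heckeDiagMatrix p ≠ mapGL ℝ g * heckeMatrix p j := by
  intro h
  have hp0 : p ≠ 0 := by omega
  have h1 : heckeDiagMatrix p * mapGL ℝ (1 : SL(2, ℤ)) = mapGL ℝ g * heckeMatrix p j := by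
    rw [map_one, mul_one, h]
  obtain ⟨-, e2, -, e4⟩ := entries_of_rel (val_heckeDiagMatrix_int hp0)
    (val_heckeMatrix_int hp0 j) h1
  simp at e2 e4
  rw [← e2] at e4
  simp at e4
  have h2 : (p : ℤ) ∣ 1 := ⟨g 1 1, e4.trans (mul_comm _ _)⟩
  have h3 := Int.le_of_dvd one_pos h2
  omega

variable (N : ℕ)

/-- The coset system of `T_p`, `p ∤ N`: representatives `heckeRep p x`, `x ∈ ℙ¹(𝔽_p)`. -/
noncomputable def systemT (p : ℕ) [Fact p.Prime] (hpN : ¬ p ∣ N) :
    CosetSystem (Gamma0 N) (OnePoint (ZMod p)) where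
  α := heckeRep p
  exists_step γ hγ x := by
    obtain ⟨g', hg', h⟩ := heckeRep_mul hpN γ (dvd_of_mem_Gamma0 hγ) x
    exact ⟨_, g', mem_Gamma0_of_dvd hg', h⟩
  inj x y g _ h := by
    have hp1 : 1 < p := (Fact.out : p.Prime).one_lt
    induction x using OnePoint.rec with
    | infty =>
      induction y using OnePoint.rec with
      | infty => rfl
      | coe j => exact absurd h (heckeDiagMatrix_ne_heckeMatrix hp1 j.val g)
    | coe i =>
      induction y using OnePoint.rec with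
      | infty => exact absurd h (heckeMatrix_ne_heckeDiagMatrix hp1 i.val g)
      | coe j => exact congrArg _ (heckeMatrix_inj i j g h)

/-- The coset system of `U_p`, `p ∣ N`: representatives `heckeMatrix p j`, `j ∈ 𝔽_p`. -/
noncomputable def systemU (p : ℕ) [NeZero p] (hpN : p ∣ N) :
    CosetSystem (Gamma0 N) (ZMod p) where
  α j := heckeMatrix p j.val
  exists_step γ hγ x := by
    have hc : (p : ℤ) ∣ γ 1 0 := (Int.natCast_dvd_natCast.mpr hpN).trans (dvd_of_mem_Gamma0 hγ)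
    obtain ⟨g', hg', h⟩ := heckeMatrix_mul_of_dvd γ hc x
    refine ⟨_, g', mem_Gamma0_of_dvd ?_, h⟩
    rw [hg']
    exact dvd_mul_of_dvd_right (dvd_of_mem_Gamma0 hγ) _
  inj x y g _ h := heckeMatrix_inj x y g h

@[simp] theorem systemT_α (p : ℕ) [Fact p.Prime] (hpN : ¬ p ∣ N) (x : OnePoint (ZMod p)) :
    (systemT N p hpN).α x = heckeRep p x := rfl

@[simp] theorem systemU_α (p : ℕ) [NeZero p] (hpN : p ∣ N) (j : ZMod p) :
    (systemU N p hpN).α j = heckeMatrix p j.val := rfl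

end Instances

/-! ### The eigen-property of characters of the upper-left entry -/

section Eigen

open P2MW.S_ModularForm_heckeT_slash_eq_self_of_mem_Gamma0.ModularForm.HeckeSlashInvariance
open ModularForm

/-- The upper-left entry of an element of `Γ₀(N)`, as a unit modulo `N`. -/
def ulUnit (N : ℕ) : Gamma0 N →* (ZMod N)ˣ where
  toFun γ := ⟨(((γ : SL(2, ℤ)) 0 0 : ℤ) : ZMod N), (((γ : SL(2, ℤ)) 1 1 : ℤ) : ZMod N),
    unit_of_apply_one_zero_eq_zero _ (Gamma0_mem.mp γ.2),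
    (mul_comm _ _).trans (unit_of_apply_one_zero_eq_zero _ (Gamma0_mem.mp γ.2))⟩
  map_one' := by
    apply Units.ext
    simp
  map_mul' γ δ := by
    apply Units.ext
    have hδ : ((((δ : SL(2, ℤ)) 1 0 : ℤ)) : ZMod N) = 0 := Gamma0_mem.mp δ.2
    simp only [Subgroup.coe_mul, Matrix.SpecialLinearGroup.coe_mul, Units.val_mul]
    rw [Matrix.mul_apply, Fin.sum_univ_two]
    push_cast
    rw [hδ, mul_zero, add_zero]

@[simp] theorem coe_ulUnit (N : ℕ) (γ : Gamma0 N) :
    ((ulUnit N γ : (ZMod N)ˣ) : ZMod N) = (((γ : SL(2, ℤ)) 0 0 : ℤ) : ZMod N) := rfl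

namespace CosetSystem

variable {Γ : Subgroup SL(2, ℤ)} {ι : Type u} (S : CosetSystem Γ ι) [Fintype ι]
  {A : Type v} [AddCommGroup A]

/-- Abstract eigen-property: if `ψ : Γ →* M` (`M` commutative) satisfies
`u i * ψ γ = ψ (step γ i) * u (perm γ i)` for a family of units `u i`, then every character
of `ψ` is an eigenvector of the Hecke operator with eigenvalue the number of cosets. -/
theorem heckeFun_comp_eq_card_smul {M : Type*} [CommGroup M] (ψ : Γ →* M) (u : ι → M)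
    (hu : ∀ (γ : Γ) (i : ι), u i * ψ γ = ψ (S.step γ i) * u (S.perm γ i))
    (χ : Additive M →+ A) :
    S.heckeFun (χ.comp (MonoidHom.toAdditive ψ)) =
      Fintype.card ι • χ.comp (MonoidHom.toAdditive ψ) := by
  refine AddMonoidHom.ext fun γ' => ?_
  set γ : Γ := Additive.toMul γ' with hγ
  change S.heckeFun (χ.comp (MonoidHom.toAdditive ψ)) (Additive.ofMul γ) =
    Fintype.card ι • χ (Additive.ofMul (ψ γ))
  rw [heckeFun_apply]
  simp only [AddMonoidHom.coe_comp, Function.comp_apply, MonoidHom.toAdditive_apply_apply,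
    toMul_ofMul]
  have h1 : ∀ i, χ (Additive.ofMul (ψ (S.step γ i))) =
      χ (Additive.ofMul (u i)) + χ (Additive.ofMul (ψ γ)) -
        χ (Additive.ofMul (u (S.perm γ i))) := by
    intro i
    have e : ψ (S.step γ i) = u i * ψ γ * (u (S.perm γ i))⁻¹ := by
      rw [hu γ i]; group
    rw [e, ofMul_mul, ofMul_mul, map_add, map_add, ofMul_inv, map_neg]
    abel
  rw [Finset.sum_congr rfl fun i _ => h1 i, Finset.sum_sub_distrib, Finset.sum_add_distrib]
  have h2 : ∑ i, χ (Additive.ofMul (u (S.perm γ i))) = ∑ i, χ (Additive.ofMul (u i)) :=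
    Equiv.sum_comp (S.permEquiv γ) (fun i => χ (Additive.ofMul (u i)))
  rw [h2, Finset.sum_const, Finset.card_univ]
  abel

end CosetSystem

variable {p : ℕ} (N : ℕ)

/-- The upper-left entry of `heckeRep p x`. -/
def ulEntry (p : ℕ) (x : OnePoint (ZMod p)) : ℤ := x.elim (p : ℤ) (fun _ => 1)

theorem val_heckeRep_int (hp : p ≠ 0) (x : OnePoint (ZMod p)) : ∃ b d : ℤ,
    ((heckeRep p x : GL (Fin 2) ℝ) : Matrix (Fin 2) (Fin 2) ℝ) =
      !![((ulEntry p x : ℤ) : ℝ), (b : ℝ); 0, (d : ℝ)] := by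
  induction x using OnePoint.rec with
  | infty => exact ⟨0, 1, val_heckeDiagMatrix_int hp⟩
  | coe j => exact ⟨j.val, p, val_heckeMatrix_int hp j.val⟩

/-- The upper-left entry of `heckeRep p x` as a unit modulo `N` (for `p` prime to `N`). -/
noncomputable def ulRepUnit (hcop : Nat.Coprime p N) (x : OnePoint (ZMod p)) : (ZMod N)ˣ :=
  x.elim (ZMod.unitOfCoprime p hcop) (fun _ => 1)

theorem coe_ulRepUnit (hcop : Nat.Coprime p N) (x : OnePoint (ZMod p)) :
    ((ulRepUnit N hcop x : (ZMod N)ˣ) : ZMod N) = ((ulEntry p x : ℤ) : ZMod N) := by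
  induction x using OnePoint.rec with
  | infty => simp [ulRepUnit, ulEntry, OnePoint.elim_infty]
  | coe j => simp [ulRepUnit, ulEntry, OnePoint.elim_some]

theorem systemT_ulUnit_step (p : ℕ) [Fact p.Prime] (hpN : ¬ p ∣ N) (γ : Gamma0 N)
    (x : OnePoint (ZMod p)) :
    ulRepUnit N ((Nat.Prime.coprime_iff_not_dvd Fact.out).mpr hpN) x * ulUnit N γ =
      ulUnit N ((systemT N p hpN).step γ x) *
        ulRepUnit N ((Nat.Prime.coprime_iff_not_dvd Fact.out).mpr hpN)
          ((systemT N p hpN).perm γ x) := by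
  have hp : p ≠ 0 := (Fact.out : p.Prime).ne_zero
  obtain ⟨b, d, hα⟩ := val_heckeRep_int hp x
  obtain ⟨b', d', hβ⟩ := val_heckeRep_int hp ((systemT N p hpN).perm γ x)
  obtain ⟨e1, -, -, -⟩ := entries_of_rel hα hβ ((systemT N p hpN).rel γ x)
  have hγ : ((((γ : SL(2, ℤ)) 1 0 : ℤ)) : ZMod N) = 0 := Gamma0_mem.mp γ.2
  apply Units.ext
  rw [Units.val_mul, Units.val_mul, coe_ulRepUnit, coe_ulRepUnit, coe_ulUnit, coe_ulUnit]
  have := congrArg (Int.cast : ℤ → ZMod N) e1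
  push_cast at this
  rw [hγ, mul_zero, add_zero] at this
  exact this

/-- **Eigen-property for `T_p`, `p ∤ N`**: characters of the upper-left entry are eigenvectors
with eigenvalue `p + 1`. -/
theorem systemT_heckeFun_ulUnit {A : Type v} [AddCommGroup A] (p : ℕ) [Fact p.Prime]
    (hpN : ¬ p ∣ N) (χ : Additive (ZMod N)ˣ →+ A) :
    (systemT N p hpN).heckeFun (χ.comp (MonoidHom.toAdditive (ulUnit N))) =
      (p + 1) • χ.comp (MonoidHom.toAdditive (ulUnit N)) := by
  rw [(systemT N p hpN).heckeFun_comp_eq_card_smul (ulUnit N) _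
    (fun γ x => systemT_ulUnit_step N p hpN γ x) χ]
  congr 1
  have : Fintype.card (OnePoint (ZMod p)) = Fintype.card (Option (ZMod p)) := rfl
  rw [this, Fintype.card_option, ZMod.card]

theorem systemU_ulUnit_step (p : ℕ) [NeZero p] (hpN : p ∣ N) (γ : Gamma0 N) (x : ZMod p) :
    (1 : (ZMod N)ˣ) * ulUnit N γ = ulUnit N ((systemU N p hpN).step γ x) * 1 := by
  have hp : p ≠ 0 := NeZero.ne p
  obtain ⟨e1, -, -, -⟩ := entries_of_rel (val_heckeMatrix_int hp _) (val_heckeMatrix_int hp _)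
    ((systemU N p hpN).rel γ x)
  have hγ : ((((γ : SL(2, ℤ)) 1 0 : ℤ)) : ZMod N) = 0 := Gamma0_mem.mp γ.2
  apply Units.ext
  rw [one_mul, mul_one, coe_ulUnit, coe_ulUnit]
  have := congrArg (Int.cast : ℤ → ZMod N) e1
  push_cast at this
  rw [hγ, mul_zero, add_zero, one_mul, mul_one] at this
  exact this

/-- **Eigen-property for `U_p`, `p ∣ N`**: characters of the upper-left entry are eigenvectors
with eigenvalue `p`. -/
theorem systemU_heckeFun_ulUnit {A : Type v} [AddCommGroup A] (p : ℕ) [NeZero p]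
    (hpN : p ∣ N) (χ : Additive (ZMod N)ˣ →+ A) :
    (systemU N p hpN).heckeFun (χ.comp (MonoidHom.toAdditive (ulUnit N))) =
      p • χ.comp (MonoidHom.toAdditive (ulUnit N)) := by
  rw [(systemU N p hpN).heckeFun_comp_eq_card_smul (ulUnit N) (fun _ => 1)
    (fun γ x => systemU_ulUnit_step N p hpN γ x) χ, ZMod.card]

end Eigen

/-! ### Compatibility with the character involution -/

section Involution

open P2MW.S_ModularForm_heckeT_slash_eq_self_of_mem_Gamma0.ModularForm.HeckeSlashInvariance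
open ModularForm ModularCurve.Period

/-- The matrix `diag(1, -1)`. -/
noncomputable def matJ : GL (Fin 2) ℝ :=
  Matrix.GeneralLinearGroup.mkOfDetNeZero !![1, 0; 0, -1] (by simp [Matrix.det_fin_two_of])

theorem val_matJ : ((matJ : GL (Fin 2) ℝ) : Matrix (Fin 2) (Fin 2) ℝ) = !![1, 0; 0, -1] := rfl

/-- Conjugation by `diag(1, -1)`. -/
noncomputable def conjJ : GL (Fin 2) ℝ →* GL (Fin 2) ℝ := (MulAut.conj matJ).toMonoidHom

theorem conjJ_apply (M : GL (Fin 2) ℝ) : conjJ M = matJ * M * matJ⁻¹ := rfl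

theorem conjJ_eq_iff (M M' : GL (Fin 2) ℝ) : conjJ M = M' ↔ matJ * M = M' * matJ := by
  rw [conjJ_apply, mul_inv_eq_iff_eq_mul]

theorem conjJ_mapGL (g : SL(2, ℤ)) : conjJ (mapGL ℝ g) = mapGL ℝ (jConjSL g) := by
  rw [conjJ_eq_iff]
  ext i j
  fin_cases i <;> fin_cases j <;>
    simp [val_matJ, Matrix.mul_apply, Fin.sum_univ_two, jConjMat]

/-- The upper unipotent matrix `[[1, t], [0, 1]]`. -/
def unip (t : ℤ) : SL(2, ℤ) := ⟨!![1, t; 0, 1], by simp [Matrix.det_fin_two_of]⟩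

theorem unip_mem_Gamma0 (N : ℕ) (t : ℤ) : unip t ∈ Gamma0 N := by
  rw [Gamma0_mem]
  simp [unip]

@[simp] theorem unip_apply (t : ℤ) (a b : Fin 2) :
    (unip t) a b = (!![1, t; 0, 1] : Matrix (Fin 2) (Fin 2) ℤ) a b := rfl

theorem val_mapGL_unip (t : ℤ) :
    ((mapGL ℝ (unip t) : GL (Fin 2) ℝ) : Matrix (Fin 2) (Fin 2) ℝ) = !![1, (t : ℝ); 0, 1] := by
  ext a b
  fin_cases a <;> fin_cases b <;> simp

/-- The translation exponent relating `J α_j J⁻¹` to `α_{-j}`. -/
def negShift (p : ℕ) (j : ZMod p) : ℤ := -(((j.val + (-j).val : ℕ) / p : ℕ) : ℤ)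

theorem negShift_mul (p : ℕ) [NeZero p] (j : ZMod p) :
    negShift p j * p = -((j.val : ℤ) + ((-j).val : ℤ)) := by
  have hdvd : p ∣ j.val + (-j).val := by
    rw [← ZMod.natCast_eq_zero_iff]
    push_cast
    rw [ZMod.natCast_zmod_val, ZMod.natCast_zmod_val, add_neg_cancel]
  have := Nat.div_mul_cancel hdvd
  unfold negShift
  rw [neg_mul]
  congr 1
  exact_mod_cast this

theorem conjJ_heckeMatrix_aux {p : ℕ} (hp : p ≠ 0) (a a' : ℕ) (t : ℤ)
    (ht : t * p = -((a : ℤ) + (a' : ℤ))) :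
    conjJ (heckeMatrix p a) = mapGL ℝ (unip t) * heckeMatrix p a' := by
  have h := congrArg (Int.cast : ℤ → ℝ) ht
  push_cast at h
  rw [conjJ_eq_iff]
  apply Units.ext
  simp only [Matrix.GeneralLinearGroup.coe_mul, val_mapGL_unip, val_matJ, val_heckeMatrix hp]
  ext i j
  fin_cases i <;> fin_cases j <;>
    simp [Matrix.mul_apply, Fin.sum_univ_two]
  linear_combination h

theorem conjJ_heckeMatrix (p : ℕ) [NeZero p] (j : ZMod p) :
    conjJ (heckeMatrix p j.val) = mapGL ℝ (unip (negShift p j)) * heckeMatrix p (-j).val :=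
  conjJ_heckeMatrix_aux (NeZero.ne p) _ _ _ (negShift_mul p j)

theorem conjJ_heckeDiagMatrix (p : ℕ) [NeZero p] :
    conjJ (heckeDiagMatrix p) = mapGL ℝ (1 : SL(2, ℤ)) * heckeDiagMatrix p := by
  have hp : p ≠ 0 := NeZero.ne p
  rw [conjJ_eq_iff]
  ext a b
  fin_cases a <;> fin_cases b <;>
    simp [val_matJ, hp, Matrix.mul_apply, Fin.sum_univ_two]

variable (N : ℕ) (R : Type*) [Semiring R] {A : Type v} [AddCommGroup A] [Module R A]

theorem conjJ_mapGL_Gamma0 (γ : Gamma0 N) :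
    conjJ (mapGL ℝ (γ : SL(2, ℤ))) = mapGL ℝ ((jConjGamma0 N γ : Gamma0 N) : SL(2, ℤ)) :=
  conjJ_mapGL _

/-- `U_p` commutes with the character involution. -/
theorem systemU_heckeFun_charInvolution (p : ℕ) [NeZero p] (hpN : p ∣ N)
    (φ : Additive (Gamma0 N) →+ A) :
    (systemU N p hpN).heckeFun (charInvolution N R A φ) =
      charInvolution N R A ((systemU N p hpN).heckeFun φ) := by
  refine AddMonoidHom.ext fun γ' => ?_
  set γ : Gamma0 N := Additive.toMul γ' with hγ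
  change (systemU N p hpN).heckeFun (charInvolution N R A φ) (Additive.ofMul γ) =
    (systemU N p hpN).heckeFun φ (Additive.ofMul (jConjGamma0 N γ))
  rw [(systemU N p hpN).heckeFun_apply_aut φ conjJ (jConjGamma0 N) (conjJ_mapGL_Gamma0 N)
    (Equiv.neg (ZMod p)) (fun j => ⟨unip (negShift p j), unip_mem_Gamma0 N _⟩)
    (fun j => conjJ_heckeMatrix p j) γ, CosetSystem.heckeFun_apply]
  rfl

/-- `T_p` commutes with the character involution. -/
theorem systemT_heckeFun_charInvolution (p : ℕ) [Fact p.Prime] (hpN : ¬ p ∣ N)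
    (φ : Additive (Gamma0 N) →+ A) :
    (systemT N p hpN).heckeFun (charInvolution N R A φ) =
      charInvolution N R A ((systemT N p hpN).heckeFun φ) := by
  refine AddMonoidHom.ext fun γ' => ?_
  set γ : Gamma0 N := Additive.toMul γ' with hγ
  change (systemT N p hpN).heckeFun (charInvolution N R A φ) (Additive.ofMul γ) =
    (systemT N p hpN).heckeFun φ (Additive.ofMul (jConjGamma0 N γ))
  rw [(systemT N p hpN).heckeFun_apply_aut φ conjJ (jConjGamma0 N) (conjJ_mapGL_Gamma0 N)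
    (Equiv.optionCongr (Equiv.neg (ZMod p)))
    (fun x => x.elim 1 (fun j => ⟨unip (negShift p j), unip_mem_Gamma0 N _⟩))
    (fun x => by
      induction x using OnePoint.rec with
      | infty => exact conjJ_heckeDiagMatrix p
      | coe j => exact conjJ_heckeMatrix p j) γ, CosetSystem.heckeFun_apply]
  rfl

end Involution

/-! ### The Hecke operator at a prime -/

section HeckeHom

open P2MW.S_ModularForm_heckeT_slash_eq_self_of_mem_Gamma0.ModularForm.HeckeSlashInvariance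
open ModularForm ModularCurve.Period ModularCurve

variable (N : ℕ) {A : Type v} [AddCommGroup A]

scoped instance factPrime (ℓ : Nat.Primes) : Fact (ℓ : ℕ).Prime := ⟨ℓ.2⟩

scoped instance neZeroPrime (ℓ : Nat.Primes) : NeZero (ℓ : ℕ) := ⟨ℓ.2.ne_zero⟩

/-- The Hecke operator at the prime `ℓ` on homomorphisms `Γ₀(N) → A`:
`T_ℓ` if `ℓ ∤ N` and `U_ℓ` if `ℓ ∣ N` (same convention as `CuspForm.heckeFormsGen`). -/
noncomputable def heckeHom (ℓ : Nat.Primes) :
    (Additive (Gamma0 N) →+ A) →+ (Additive (Gamma0 N) →+ A) :=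
  if h : (ℓ : ℕ) ∣ N then (systemU N ℓ h).heckeFun else (systemT N ℓ h).heckeFun

theorem heckeHom_of_dvd {ℓ : Nat.Primes} (h : (ℓ : ℕ) ∣ N) :
    (heckeHom N ℓ : (Additive (Gamma0 N) →+ A) →+ _) = (systemU N ℓ h).heckeFun := dif_pos h

theorem heckeHom_of_not_dvd {ℓ : Nat.Primes} (h : ¬ (ℓ : ℕ) ∣ N) :
    (heckeHom N ℓ : (Additive (Gamma0 N) →+ A) →+ _) = (systemT N ℓ h).heckeFun := dif_neg h

/-- `U_ℓ` in terms of the cocycle: `α_j γ = step γ j · α_{perm γ j}`. -/
theorem heckeHom_apply_of_dvd {ℓ : Nat.Primes} (h : (ℓ : ℕ) ∣ N) (φ : Additive (Gamma0 N) →+ A)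
    (γ : Gamma0 N) :
    heckeHom N ℓ φ (Additive.ofMul γ) =
      ∑ j : ZMod ℓ, φ (Additive.ofMul ((systemU N ℓ h).step γ j)) := by
  rw [heckeHom_of_dvd N h, CosetSystem.heckeFun_apply]

/-- `T_ℓ` in terms of the cocycle: `α_x γ = step γ x · α_{perm γ x}`. -/
theorem heckeHom_apply_of_not_dvd {ℓ : Nat.Primes} (h : ¬ (ℓ : ℕ) ∣ N)
    (φ : Additive (Gamma0 N) →+ A) (γ : Gamma0 N) :
    heckeHom N ℓ φ (Additive.ofMul γ) =
      ∑ x : OnePoint (ZMod ℓ), φ (Additive.ofMul ((systemT N ℓ h).step γ x)) := by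
  rw [heckeHom_of_not_dvd N h, CosetSystem.heckeFun_apply]

/-- The defining relation of the `U_ℓ`-cocycle. -/
theorem heckeMatrix_mul_mapGL {ℓ : Nat.Primes} (h : (ℓ : ℕ) ∣ N) (γ : Gamma0 N) (j : ZMod ℓ) :
    heckeMatrix ℓ j.val * mapGL ℝ (γ : SL(2, ℤ)) =
      mapGL ℝ ((systemU N ℓ h).step γ j : SL(2, ℤ)) *
        heckeMatrix ℓ ((systemU N ℓ h).perm γ j).val :=
  (systemU N ℓ h).rel γ j

/-- The defining relation of the `T_ℓ`-cocycle. -/
theorem heckeRep_mul_mapGL {ℓ : Nat.Primes} (h : ¬ (ℓ : ℕ) ∣ N) (γ : Gamma0 N)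
    (x : OnePoint (ZMod ℓ)) :
    heckeRep ℓ x * mapGL ℝ (γ : SL(2, ℤ)) =
      mapGL ℝ ((systemT N ℓ h).step γ x : SL(2, ℤ)) *
        heckeRep ℓ ((systemT N ℓ h).perm γ x) :=
  (systemT N ℓ h).rel γ x

/-- Naturality of the Hecke operators in the coefficient group. -/
theorem heckeHom_comp {B : Type*} [AddCommGroup B] (ℓ : Nat.Primes) (f : A →+ B)
    (φ : Additive (Gamma0 N) →+ A) :
    heckeHom N ℓ (f.comp φ) = f.comp (heckeHom N ℓ φ) := by
  by_cases h : (ℓ : ℕ) ∣ N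
  · rw [heckeHom_of_dvd N h, heckeHom_of_dvd N h, CosetSystem.heckeFun_comp]
  · rw [heckeHom_of_not_dvd N h, heckeHom_of_not_dvd N h, CosetSystem.heckeFun_comp]

/-- The Hecke operators commute with the character involution. -/
theorem heckeHom_charInvolution (R : Type*) [Semiring R] [Module R A] (ℓ : Nat.Primes)
    (φ : Additive (Gamma0 N) →+ A) :
    heckeHom N ℓ (charInvolution N R A φ) = charInvolution N R A (heckeHom N ℓ φ) := by
  by_cases h : (ℓ : ℕ) ∣ N
  · rw [heckeHom_of_dvd N h, systemU_heckeFun_charInvolution]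
  · rw [heckeHom_of_not_dvd N h, systemT_heckeFun_charInvolution]

/-- **Eigen-property**: a character of the upper-left entry is an eigenvector of every Hecke
operator, with eigenvalue `ℓ + 1` (`ℓ ∤ N`) resp. `ℓ` (`ℓ ∣ N`). -/
theorem heckeHom_ulUnit (ℓ : Nat.Primes) (χ : Additive (ZMod N)ˣ →+ A) :
    heckeHom N ℓ (χ.comp (MonoidHom.toAdditive (ulUnit N))) =
      (if (ℓ : ℕ) ∣ N then (ℓ : ℕ) else (ℓ : ℕ) + 1) •
        χ.comp (MonoidHom.toAdditive (ulUnit N)) := by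
  by_cases h : (ℓ : ℕ) ∣ N
  · rw [heckeHom_of_dvd N h, if_pos h, systemU_heckeFun_ulUnit]
  · rw [heckeHom_of_not_dvd N h, if_neg h, systemT_heckeFun_ulUnit]

/-- **Eisenstein eigen-property**: if every prime divisor `ℓ` of `N` acts as the identity on `A`
(e.g. `N = p` prime and `A = ℤ/n` with `n ∣ p - 1`), then a character of the upper-left entry has
the Hecke eigenvalues `eisensteinSystem N`. -/
theorem heckeHom_ulUnit_eisenstein (hA : ∀ ℓ : Nat.Primes, (ℓ : ℕ) ∣ N → ∀ a : A, (ℓ : ℕ) • a = a)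
    (ℓ : Nat.Primes) (χ : Additive (ZMod N)ˣ →+ A) :
    heckeHom N ℓ (χ.comp (MonoidHom.toAdditive (ulUnit N))) =
      eisensteinSystem N ℓ • χ.comp (MonoidHom.toAdditive (ulUnit N)) := by
  rw [heckeHom_ulUnit]
  by_cases h : (ℓ : ℕ) ∣ N
  · rw [if_pos h, eisensteinSystem_of_dvd h, one_smul]
    refine AddMonoidHom.ext fun γ => ?_
    exact hA ℓ h _
  · rw [if_neg h, eisensteinSystem_of_not_dvd h]
    refine AddMonoidHom.ext fun γ => ?_
    rw [AddMonoidHom.smul_apply, AddMonoidHom.smul_apply, add_comm, ← Nat.cast_one (R := ℤ),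
      ← Nat.cast_add, natCast_zsmul]

end HeckeHom

end Fermat.Agent.S16.helper26
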