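import Mathlib

/-!
# S16 [B3], part 1: the cocycle group `Fun(X, A) ⋊ Perm X`

Elements are pairs `(f, σ)` with `f : X → A`, `σ : Perm X`, multiplication
`(f₁, σ₁) * (f₂, σ₂) = (f₁ ∘ σ₂ + f₂, σ₁ * σ₂)`.  A group homomorphism `Φ : G →* CoGrp X A`
lying over an action of `G` on `X` is the same thing as a cocycle
`e (g * h) x = e g (h • x) + e h x`.
-/

set_option autoImplicit false

namespace Fermat.Agent.S16.helper21

/-- The cocycle group `Fun(X, A) ⋊ Perm X`. -/
@[ext] structure CoGrp (X A : Type*) where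
  /-- the function part -/
  f : X → A
  /-- the permutation part -/
  σ : Equiv.Perm X

namespace CoGrp

variable {X A B : Type*} [AddCommGroup A] [AddCommGroup B]

instance : Mul (CoGrp X A) := ⟨fun a b => ⟨fun x => a.f (b.σ x) + b.f x, a.σ * b.σ⟩⟩
instance : One (CoGrp X A) := ⟨⟨fun _ => 0, 1⟩⟩
instance : Inv (CoGrp X A) := ⟨fun a => ⟨fun x => - a.f (a.σ⁻¹ x), a.σ⁻¹⟩⟩

@[simp] lemma mul_f (a b : CoGrp X A) (x : X) : (a * b).f x = a.f (b.σ x) + b.f x := rfl
@[simp] lemma mul_σ (a b : CoGrp X A) : (a * b).σ = a.σ * b.σ := rfl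
@[simp] lemma one_f (x : X) : (1 : CoGrp X A).f x = 0 := rfl
@[simp] lemma one_σ : (1 : CoGrp X A).σ = 1 := rfl
@[simp] lemma inv_f (a : CoGrp X A) (x : X) : (a⁻¹).f x = - a.f (a.σ⁻¹ x) := rfl
@[simp] lemma inv_σ (a : CoGrp X A) : (a⁻¹).σ = a.σ⁻¹ := rfl

instance : Group (CoGrp X A) :=
  Group.ofLeftAxioms
    (fun a b c => by
      ext x
      · simp only [mul_f, mul_σ, Equiv.Perm.coe_mul, Function.comp_apply]
        abel
      · simp only [mul_σ, mul_assoc])
    (fun a => by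
      ext x
      · simp
      · simp)
    (fun a => by
      ext x
      · simp
      · simp)

/-- The projection to the permutation part. -/
def projHom : CoGrp X A →* Equiv.Perm X where
  toFun a := a.σ
  map_one' := rfl
  map_mul' _ _ := rfl

@[simp] lemma projHom_apply (a : CoGrp X A) : projHom a = a.σ := rfl

/-- Functoriality in the coefficient group. -/
def mapHom (φ : A →+ B) : CoGrp X A →* CoGrp X B where
  toFun a := ⟨fun x => φ (a.f x), a.σ⟩
  map_one' := by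
    ext x
    · simp
    · rfl
  map_mul' a b := by
    ext x
    · simp
    · rfl

@[simp] lemma mapHom_f (φ : A →+ B) (a : CoGrp X A) (x : X) : (mapHom φ a).f x = φ (a.f x) := rfl
@[simp] lemma mapHom_σ (φ : A →+ B) (a : CoGrp X A) : (mapHom φ a).σ = a.σ := rfl

/-- The conjugate `(w, 1)⁻¹ * (0, σ) * (w, 1) = (w - w ∘ σ, σ)`. -/
def conjOf (w : X → A) (σ : Equiv.Perm X) : CoGrp X A := ⟨fun x => w x - w (σ x), σ⟩

@[simp] lemma conjOf_f (w : X → A) (σ : Equiv.Perm X) (x : X) :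
    (conjOf w σ).f x = w x - w (σ x) := rfl
@[simp] lemma conjOf_σ (w : X → A) (σ : Equiv.Perm X) : (conjOf w σ).σ = σ := rfl

lemma conjOf_pow (w : X → A) (σ : Equiv.Perm X) (k : ℕ) :
    (conjOf w σ) ^ k = conjOf w (σ ^ k) := by
  induction k with
  | zero =>
    ext x
    · simp
    · simp
  | succ k ih =>
    rw [pow_succ, ih]
    ext x
    · simp only [mul_f, conjOf_f, conjOf_σ, pow_succ, Equiv.Perm.coe_mul, Function.comp_apply]
      abel
    · simp [pow_succ]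

lemma conjOf_pow_eq_one (w : X → A) (σ : Equiv.Perm X) (k : ℕ) (h : σ ^ k = 1) :
    (conjOf w σ) ^ k = 1 := by
  rw [conjOf_pow, h]
  ext x
  · simp
  · simp

lemma mapHom_conjOf (φ : A →+ B) (w : X → A) (σ : Equiv.Perm X) :
    mapHom φ (conjOf w σ) = conjOf (fun x => φ (w x)) σ := by
  ext x
  · simp
  · simp

/-- function part of `a⁻¹ * b`. -/
lemma inv_mul_f (a b : CoGrp X A) (x : X) :
    (a⁻¹ * b).f x = - a.f (a.σ⁻¹ (b.σ x)) + b.f x := by
  simp

section Cocycle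

variable {G : Type*} [Group G] [MulAction G X]

/-- A hom to `CoGrp X A` lying over the action gives a cocycle. -/
lemma hom_f_mul (Φ : G →* CoGrp X A) (hΦ : ∀ g, (Φ g).σ = MulAction.toPerm g) (g h : G) (x : X) :
    (Φ (g * h)).f x = (Φ g).f (h • x) + (Φ h).f x := by
  rw [map_mul, mul_f, hΦ h]
  rfl

omit [MulAction G X] in
lemma hom_f_one (Φ : G →* CoGrp X A) (x : X) : (Φ 1).f x = 0 := by
  rw [map_one]; rfl

lemma hom_f_inv (Φ : G →* CoGrp X A) (hΦ : ∀ g, (Φ g).σ = MulAction.toPerm g) (g : G) (x : X) :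
    (Φ g⁻¹).f x = - (Φ g).f (g⁻¹ • x) := by
  have h := hom_f_mul Φ hΦ g g⁻¹ x
  rw [mul_inv_cancel, hom_f_one] at h
  exact eq_neg_of_add_eq_zero_right h.symm

lemma hom_f_pow (Φ : G →* CoGrp X A) (hΦ : ∀ g, (Φ g).σ = MulAction.toPerm g) (g : G) (k : ℕ)
    (x : X) : (Φ (g ^ k)).f x = ∑ i ∈ Finset.range k, (Φ g).f (g ^ i • x) := by
  induction k with
  | zero => simp
  | succ k ih =>
    rw [pow_succ', hom_f_mul Φ hΦ, Finset.sum_range_succ, ih, add_comm]

/-- conjugation formula at a fixed point -/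
lemma hom_f_conj (Φ : G →* CoGrp X A) (hΦ : ∀ g, (Φ g).σ = MulAction.toPerm g) (δ h : G) (x : X)
    (hx : h • (δ⁻¹ • x) = δ⁻¹ • x) :
    (Φ (δ * h * δ⁻¹)).f x = (Φ h).f (δ⁻¹ • x) := by
  rw [hom_f_mul Φ hΦ, hom_f_mul Φ hΦ, hx, hom_f_inv Φ hΦ δ x]
  abel

/-- the sum of the values of the cocycle is additive -/
lemma sum_hom_f_mul [Fintype X] (Φ : G →* CoGrp X A) (hΦ : ∀ g, (Φ g).σ = MulAction.toPerm g)
    (g h : G) : ∑ x, (Φ (g * h)).f x = ∑ x, (Φ g).f x + ∑ x, (Φ h).f x := by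
  simp only [hom_f_mul Φ hΦ, Finset.sum_add_distrib]
  congr 1
  exact Equiv.sum_comp (MulAction.toPerm h) (fun x => (Φ g).f x)

end Cocycle

end CoGrp

end Fermat.Agent.S16.helper21
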