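import Mathlib

/-!
# S16 [B3], part 2: the coboundary lemma

Let `σ` be a permutation of `X` with `σ ^ k = 1`, `k` prime, and `u : X → A` with
`∑ i < k, u (σ^i x) = 0` for all `x` and `u x = 0` at the fixed points of `σ`.
Then `u = w - w ∘ σ` for some `w : X → A`.
-/

set_option autoImplicit false

namespace Fermat.Agent.S16.helper21

variable {X A : Type*} [AddCommGroup A]

/-- if `σ ^ d` fixes `y` and `σ` does not, then the prime order `k` of `σ` divides `d`. -/
lemma dvd_of_pow_apply_eq {σ : Equiv.Perm X} {k : ℕ} (hk : k.Prime) (hσ : σ ^ k = 1)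
    {d : ℕ} {y : X} (hd : (σ ^ d) y = y) (hy : σ y ≠ y) : k ∣ d := by
  by_contra hnd
  have hcop : Nat.Coprime d k := ((Nat.Prime.coprime_iff_not_dvd hk).2 hnd).symm
  apply hy
  have h1 : ((σ ^ d) ^ (Nat.gcdA d k)) y = y :=
    Equiv.Perm.zpow_apply_eq_self_of_apply_eq_self hd _
  have h2 : (σ ^ d) ^ (Nat.gcdA d k) * (σ ^ k) ^ (Nat.gcdB d k) = σ := by
    rw [← zpow_natCast σ d, ← zpow_natCast σ k, ← zpow_mul, ← zpow_mul, ← zpow_add,
      ← Nat.gcd_eq_gcd_ab, hcop.gcd_eq_one]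
    simp
  rw [hσ, one_zpow, mul_one] at h2
  rw [h2] at h1
  exact h1

/-- sums over a closed path vanish. -/
lemma sum_range_eq_zero_of_pow_apply_eq {σ : Equiv.Perm X} {k : ℕ} (hk : k.Prime)
    (hσ : σ ^ k = 1) (u : X → A)
    (hN : ∀ x, ∑ i ∈ Finset.range k, u ((σ ^ i) x) = 0)
    (hfix : ∀ x, σ x = x → u x = 0) {d : ℕ} {y : X} (hd : (σ ^ d) y = y) :
    ∑ j ∈ Finset.range d, u ((σ ^ j) y) = 0 := by
  by_cases hy : σ y = y
  · apply Finset.sum_eq_zero
    intro j _
    rw [Equiv.Perm.pow_apply_eq_self_of_apply_eq_self hy]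
    exact hfix y hy
  · obtain ⟨q, rfl⟩ := dvd_of_pow_apply_eq hk hσ hd hy
    clear hd
    induction q with
    | zero => simp
    | succ q ih =>
      rw [Nat.mul_succ, Finset.sum_range_add, ih, zero_add]
      have : ∀ j ∈ Finset.range k, u ((σ ^ (k * q + j)) y) = u ((σ ^ j) y) := by
        intro j _
        rw [pow_add, pow_mul, hσ, one_pow, one_mul]
      rw [Finset.sum_congr rfl this]
      exact hN y

/-- path sums only depend on the end point. -/
lemma sum_range_eq_of_pow_apply_eq {σ : Equiv.Perm X} {k : ℕ} (hk : k.Prime)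
    (hσ : σ ^ k = 1) (u : X → A)
    (hN : ∀ x, ∑ i ∈ Finset.range k, u ((σ ^ i) x) = 0)
    (hfix : ∀ x, σ x = x → u x = 0) {a b : ℕ} {m : X} (hab : (σ ^ a) m = (σ ^ b) m) :
    ∑ j ∈ Finset.range a, u ((σ ^ j) m) = ∑ j ∈ Finset.range b, u ((σ ^ j) m) := by
  wlog h : a ≤ b generalizing a b
  · exact (this hab.symm (le_of_not_ge h)).symm
  obtain ⟨d, rfl⟩ := Nat.exists_eq_add_of_le h
  rw [Finset.sum_range_add]
  have hd : (σ ^ d) ((σ ^ a) m) = (σ ^ a) m := by
    rw [← Equiv.Perm.mul_apply, ← pow_add, add_comm d a]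
    exact hab.symm
  have := sum_range_eq_zero_of_pow_apply_eq hk hσ u hN hfix hd
  have h2 : ∀ j ∈ Finset.range d, u ((σ ^ (a + j)) m) = u ((σ ^ j) ((σ ^ a) m)) := by
    intro j _
    rw [← Equiv.Perm.mul_apply, ← pow_add, add_comm j a]
  rw [Finset.sum_congr rfl h2, this, add_zero]

/-- The orbit relation of a permutation of finite order. -/
def powRel (σ : Equiv.Perm X) (k : ℕ) (hk : 0 < k) (hσ : σ ^ k = 1) : Setoid X where
  r x y := ∃ i : ℕ, (σ ^ i) x = y
  iseqv :=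
    { refl := fun x => ⟨0, by simp⟩
      symm := by
        rintro x y ⟨i, rfl⟩
        refine ⟨(k - 1) * i, ?_⟩
        rw [← Equiv.Perm.mul_apply, ← pow_add, ← Nat.succ_mul, Nat.succ_eq_add_one,
          Nat.sub_add_cancel hk, pow_mul, hσ, one_pow]
        rfl
      trans := by
        rintro x y z ⟨i, rfl⟩ ⟨j, rfl⟩
        exact ⟨j + i, by rw [pow_add, Equiv.Perm.mul_apply]⟩ }

/-- **Coboundary lemma.** -/
theorem exists_cobdry {σ : Equiv.Perm X} {k : ℕ} (hk : k.Prime) (hσ : σ ^ k = 1) (u : X → A)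
    (hN : ∀ x, ∑ i ∈ Finset.range k, u ((σ ^ i) x) = 0)
    (hfix : ∀ x, σ x = x → u x = 0) :
    ∃ w : X → A, ∀ x, u x = w x - w (σ x) := by
  classical
  let r : Setoid X := powRel σ k hk.pos hσ
  let rep : X → X := fun x => @Quotient.out _ r (@Quotient.mk _ r x)
  have hrep : ∀ x, ∃ i : ℕ, (σ ^ i) (rep x) = x := fun x =>
    @Quotient.mk_out _ r x
  have hrep_σ : ∀ x, rep (σ x) = rep x := by
    intro x
    have : @Quotient.mk _ r (σ x) = @Quotient.mk _ r x :=
      Quotient.sound (s := r) ((powRel σ k hk.pos hσ).symm ⟨1, by simp⟩)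
    show @Quotient.out _ r (@Quotient.mk _ r (σ x)) = @Quotient.out _ r (@Quotient.mk _ r x)
    rw [this]
  choose idx hidx using hrep
  refine ⟨fun x => - ∑ j ∈ Finset.range (idx x), u ((σ ^ j) (rep x)), fun x => ?_⟩
  have h1 : (σ ^ (idx (σ x))) (rep x) = (σ ^ (idx x + 1)) (rep x) := by
    have := hidx (σ x)
    rw [hrep_σ] at this
    rw [this, pow_succ', Equiv.Perm.mul_apply, hidx x]
  have h2 := sum_range_eq_of_pow_apply_eq hk hσ u hN hfix h1
  simp only [hrep_σ]
  rw [h2, Finset.sum_range_succ, hidx x]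
  abel

end Fermat.Agent.S16.helper21
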