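import Mathlib
import Fermat.Agent.S24.helper83_CuspCount
import Fermat.Agent.S21.helper83_ParabolicBound

/-!
# S16 [B3], part 3: the `T`-orbits on `SL(2, ℤ) ⧸ Γ₀(p)`, `p` prime

The orbits of `T` are `{x0}` and its complement (of size `p`).
-/

set_option autoImplicit false

open scoped MatrixGroups
open CongruenceSubgroup

namespace Fermat.Agent.S16.helper21

open Fermat.Agent.S21.helper83 (x0 smul_x0 smul_x0_of_mem)

/-- upper triangular elements of `SL(2, ℤ)` are `± T ^ k`. -/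
theorem eq_T_zpow_or_neg_of_apply_one_zero (g : SL(2, ℤ)) (hg : g 1 0 = 0) :
    ∃ k : ℤ, g = ModularGroup.T ^ k ∨ g = -ModularGroup.T ^ k := by
  have hdet : g 0 0 * g 1 1 - g 0 1 * g 1 0 = 1 := by
    have := g.det_coe
    rwa [Matrix.det_fin_two] at this
  rw [hg, mul_zero, sub_zero] at hdet
  rcases Int.eq_one_or_neg_one_of_mul_eq_one' hdet with ⟨h0, h1⟩ | ⟨h0, h1⟩
  · refine ⟨g 0 1, Or.inl ?_⟩
    apply Subtype.ext
    rw [ModularGroup.coe_T_zpow]
    ext i j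
    fin_cases i <;> fin_cases j <;> simp [h0, h1, hg]
  · refine ⟨- g 0 1, Or.inr ?_⟩
    apply Subtype.ext
    rw [Matrix.SpecialLinearGroup.coe_neg, ModularGroup.coe_T_zpow]
    ext i j
    fin_cases i <;> fin_cases j <;> simp [h0, h1, hg]

variable (p : ℕ)

lemma mk_eq_x0_iff (g : SL(2, ℤ)) :
    ((g : SL(2, ℤ)) : SL(2, ℤ) ⧸ Gamma0 p) = x0 (Gamma0 p) ↔ (p : ℤ) ∣ g 1 0 := by
  unfold x0
  rw [QuotientGroup.eq, mul_one, inv_mem_iff, Gamma0_mem, ZMod.intCast_zmod_eq_zero_iff_dvd]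

lemma T_mem_Gamma0 : ModularGroup.T ∈ Gamma0 p := by
  rw [Gamma0_mem]
  simp [ModularGroup.T]

lemma neg_one_mem_Gamma0 : (-1 : SL(2, ℤ)) ∈ Gamma0 p := by
  rw [Gamma0_mem]
  simp

lemma T_smul_x0 : ModularGroup.T • x0 (Gamma0 p) = x0 (Gamma0 p) :=
  smul_x0_of_mem _ (T_mem_Gamma0 p)

lemma T_pow_smul_x0 (k : ℕ) : ModularGroup.T ^ k • x0 (Gamma0 p) = x0 (Gamma0 p) :=
  smul_x0_of_mem _ (Subgroup.pow_mem _ (T_mem_Gamma0 p) k)

lemma neg_one_smul_quot (x : SL(2, ℤ) ⧸ Gamma0 p) : (-1 : SL(2, ℤ)) • x = x :=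
  Fermat.Agent.S21.helper83.neg_one_smul' (Gamma0 p) (neg_one_mem_Gamma0 p) x

lemma T_zpow_smul_mk_eq_iff (k : ℤ) (g h : SL(2, ℤ)) :
    (ModularGroup.T ^ k) • ((g : SL(2, ℤ)) : SL(2, ℤ) ⧸ Gamma0 p) = (h : SL(2, ℤ) ⧸ Gamma0 p) ↔
      (p : ℤ) ∣ g 0 0 * h 1 0 - h 0 0 * g 1 0 + k * (g 1 0 * h 1 0) := by
  show ((ModularGroup.T ^ k * g : SL(2, ℤ)) : SL(2, ℤ) ⧸ Gamma0 p) = h ↔ _
  rw [QuotientGroup.eq, Gamma0_mem, Fermat.Agent.S24.helper83.lowerLeft_inv_mul,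
    ZMod.intCast_zmod_eq_zero_iff_dvd]

variable [hp : Fact p.Prime]

/-- the stabilizer in `⟨T⟩` of a point `≠ x0` is `⟨T ^ p⟩`. -/
lemma T_pow_smul_eq_iff (k : ℕ) (y : SL(2, ℤ) ⧸ Gamma0 p) (hy : y ≠ x0 (Gamma0 p)) :
    ModularGroup.T ^ k • y = y ↔ p ∣ k := by
  induction y using QuotientGroup.induction_on with
  | H g =>
    rw [Ne, mk_eq_x0_iff] at hy
    rw [← zpow_natCast, T_zpow_smul_mk_eq_iff]
    have hpp : Prime (p : ℤ) := Nat.prime_iff_prime_int.mp hp.out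
    have e : g 0 0 * g 1 0 - g 0 0 * g 1 0 + (k : ℤ) * (g 1 0 * g 1 0) =
        (k : ℤ) * (g 1 0 * g 1 0) := by ring
    rw [e]
    constructor
    · intro h
      rcases hpp.dvd_or_dvd h with h | h
      · exact_mod_cast h
      · rcases hpp.dvd_or_dvd h with h | h <;> exact absurd h hy
    · intro h
      exact Dvd.dvd.mul_right (by exact_mod_cast h) _

/-- `T` acts transitively on the complement of `x0`. -/
lemma exists_T_pow_smul_eq (y z : SL(2, ℤ) ⧸ Gamma0 p) (hy : y ≠ x0 (Gamma0 p))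
    (hz : z ≠ x0 (Gamma0 p)) : ∃ i ∈ Finset.range p, ModularGroup.T ^ i • y = z := by
  induction y using QuotientGroup.induction_on with
  | H g =>
  induction z using QuotientGroup.induction_on with
  | H h =>
    rw [Ne, mk_eq_x0_iff, ← ZMod.intCast_zmod_eq_zero_iff_dvd] at hy hz
    have : NeZero p := ⟨hp.out.ne_zero⟩
    let κ : ZMod p := - ((g 0 0 : ZMod p) * (h 1 0 : ZMod p) - (h 0 0 : ZMod p) * (g 1 0 : ZMod p)) *
      ((g 1 0 : ZMod p) * (h 1 0 : ZMod p))⁻¹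
    refine ⟨κ.val, Finset.mem_range.mpr (ZMod.val_lt κ), ?_⟩
    rw [← zpow_natCast, T_zpow_smul_mk_eq_iff, ← ZMod.intCast_zmod_eq_zero_iff_dvd]
    push_cast
    rw [ZMod.natCast_zmod_val]
    have hne : (g 1 0 : ZMod p) * (h 1 0 : ZMod p) ≠ 0 := mul_ne_zero hy hz
    show _ + (- ((g 0 0 : ZMod p) * (h 1 0 : ZMod p) - (h 0 0 : ZMod p) * (g 1 0 : ZMod p)) *
      ((g 1 0 : ZMod p) * (h 1 0 : ZMod p))⁻¹) * _ = 0
    field_simp
    ring

omit hp in
lemma T_pow_smul_ne_x0 (i : ℕ) (y : SL(2, ℤ) ⧸ Gamma0 p) (hy : y ≠ x0 (Gamma0 p)) :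
    ModularGroup.T ^ i • y ≠ x0 (Gamma0 p) := by
  intro h
  apply hy
  have := congrArg (fun x => (ModularGroup.T ^ i)⁻¹ • x) h
  simp only [inv_smul_smul] at this
  rw [this, inv_smul_eq_iff, T_pow_smul_x0]

lemma T_pow_smul_injOn (y : SL(2, ℤ) ⧸ Gamma0 p) (hy : y ≠ x0 (Gamma0 p)) :
    Set.InjOn (fun i : ℕ => ModularGroup.T ^ i • y) (Finset.range p : Set ℕ) := by
  have key : ∀ i j : ℕ, i ≤ j → j < p → ModularGroup.T ^ i • y = ModularGroup.T ^ j • y → i = j := by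
    intro i j hij hj h
    obtain ⟨d, rfl⟩ := Nat.exists_eq_add_of_le hij
    rw [pow_add, mul_smul] at h
    have h2 : ModularGroup.T ^ d • y = y := by
      have := congrArg (fun x => (ModularGroup.T ^ i)⁻¹ • x) h
      simp only [inv_smul_smul] at this
      exact this.symm
    rw [T_pow_smul_eq_iff p d y hy] at h2
    have hd : d = 0 := by
      by_contra hd
      have := Nat.le_of_dvd (Nat.pos_of_ne_zero hd) h2
      omega
    omega
  intro i hi j hj h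
  simp only [Finset.coe_range, Set.mem_Iio] at hi hj
  rcases le_total i j with hij | hij
  · exact key i j hij hj h
  · exact (key j i hij hi h.symm).symm

/-- the sum over the big `T`-orbit. -/
lemma sum_T_orbit {A : Type*} [AddCommGroup A] [Fintype (SL(2, ℤ) ⧸ Gamma0 p)]
    (f : (SL(2, ℤ) ⧸ Gamma0 p) → A) (y : SL(2, ℤ) ⧸ Gamma0 p) (hy : y ≠ x0 (Gamma0 p)) :
    ∑ i ∈ Finset.range p, f (ModularGroup.T ^ i • y) = ∑ x, f x - f (x0 (Gamma0 p)) := by
  classical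
  have himg : (Finset.range p).image (fun i : ℕ => ModularGroup.T ^ i • y) =
      Finset.univ.erase (x0 (Gamma0 p)) := by
    ext z
    simp only [Finset.mem_image, Finset.mem_erase, Finset.mem_univ, and_true]
    constructor
    · rintro ⟨i, _, rfl⟩
      exact T_pow_smul_ne_x0 p i y hy
    · intro hz
      exact exists_T_pow_smul_eq p y z hy hz
  rw [eq_sub_iff_add_eq, ← Finset.sum_image (f := f) (T_pow_smul_injOn p y hy), himg,
    Finset.sum_erase_add _ _ (Finset.mem_univ _)]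

/-- `S` moves the base point. -/
lemma S_smul_x0_ne : ModularGroup.S • x0 (Gamma0 p) ≠ x0 (Gamma0 p) := by
  rw [smul_x0, Ne, mk_eq_x0_iff]
  have : (ModularGroup.S : SL(2, ℤ)) 1 0 = 1 := by simp [ModularGroup.S]
  rw [this]
  intro h
  have := Int.eq_one_of_dvd_one (by positivity) h
  have h2 := hp.out.one_lt
  omega

omit hp in
lemma ST_smul_x0 : (ModularGroup.S * ModularGroup.T) • x0 (Gamma0 p) =
    ModularGroup.S • x0 (Gamma0 p) := by
  rw [mul_smul, T_smul_x0]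

end Fermat.Agent.S16.helper21
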