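import Mathlib
import Fermat.Prelude.Def_ModularCurve_PeriodMap
import Fermat.Agent.S21.Parabolic
import Fermat.Agent.S21.helper83_ParabolicBound
import Fermat.Agent.S16.helper21_CoGrp
import Fermat.Agent.S16.helper21_Cobdry
import Fermat.Agent.S16.helper21_TOrbit

/-!
# S16 [B3]: lifting a character of `Γ₀(p)` mod `n` to an integral parabolic character

Main result `exists_parabolic_lift_of_UP`: assuming the universal property of
`PSL(2, ℤ) = C₂ * C₃` (package [B0]), every `ψ : Γ₀(p) → ℤ/n` killing all elements of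
`|trace| ≤ 2` lifts to a parabolic hom `Γ₀(p) → ℤ`.
-/

set_option autoImplicit false

open scoped MatrixGroups
open CongruenceSubgroup ModularCurve.Period

namespace Fermat.Agent.S16.helper21

open Fermat.Agent.S21.helper83 (x0 smul_x0 smul_x0_of_mem sch sch_mul trace_sch_of_fixed
  out_x0_mem)

/-- The universal property of `PSL(2, ℤ) = C₂ * C₃` (package [B0]), in universe `0`. -/
def HasUP : Prop :=
  ∀ (H : Type) [Group H] (s r : H), s ^ 2 = 1 → r ^ 3 = 1 →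
    ∃ φ : SL(2, ℤ) →* H, φ ModularGroup.S = s ∧ φ (ModularGroup.S * ModularGroup.T) = r

/-- Two homs out of `SL(2, ℤ)` agreeing on `S` and `S * T` are equal. -/
theorem hom_ext_S_ST {H : Type*} [Group H] (φ φ' : SL(2, ℤ) →* H)
    (hS : φ ModularGroup.S = φ' ModularGroup.S)
    (hR : φ (ModularGroup.S * ModularGroup.T) = φ' (ModularGroup.S * ModularGroup.T)) :
    φ = φ' := by
  have hT : φ ModularGroup.T = φ' ModularGroup.T := by
    have h1 : φ ModularGroup.T = (φ ModularGroup.S)⁻¹ * φ (ModularGroup.S * ModularGroup.T) := by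
      rw [map_mul, inv_mul_cancel_left]
    have h2 : φ' ModularGroup.T = (φ' ModularGroup.S)⁻¹ * φ' (ModularGroup.S * ModularGroup.T) := by
      rw [map_mul, inv_mul_cancel_left]
    rw [h1, h2, hS, hR]
  apply MonoidHom.eq_of_eqOn_dense SpecialLinearGroup.SL2Z_generators
  rintro y (rfl | rfl)
  · exact hS
  · exact hT

section Criterion

variable {p : ℕ} [hp : Fact p.Prime] {A : Type*} [AddCommGroup A]
  [Fintype (SL(2, ℤ) ⧸ Gamma0 p)]

/-- vanishing of the cocycle of `T ^ k` at fixed points. -/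
lemma hom_f_T_pow (Φ : SL(2, ℤ) →* CoGrp (SL(2, ℤ) ⧸ Gamma0 p) A)
    (hΦ : ∀ g, (Φ g).σ = MulAction.toPerm g)
    (hT : (Φ ModularGroup.T).f (x0 (Gamma0 p)) = 0)
    (hsum : ∑ x, (Φ ModularGroup.T).f x = 0)
    (k : ℕ) (y : SL(2, ℤ) ⧸ Gamma0 p) (hy : ModularGroup.T ^ k • y = y) :
    (Φ (ModularGroup.T ^ k)).f y = 0 := by
  rw [CoGrp.hom_f_pow Φ hΦ]
  by_cases hy0 : y = x0 (Gamma0 p)
  · apply Finset.sum_eq_zero
    intro i _
    rw [hy0, T_pow_smul_x0, hT]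
  · rw [T_pow_smul_eq_iff p k y hy0] at hy
    obtain ⟨q, rfl⟩ := hy
    have horb : ∑ i ∈ Finset.range p, (Φ ModularGroup.T).f (ModularGroup.T ^ i • y) = 0 := by
      rw [sum_T_orbit p _ y hy0, hsum, hT, sub_zero]
    have hper : ModularGroup.T ^ p • y = y := (T_pow_smul_eq_iff p p y hy0).2 dvd_rfl
    induction q with
    | zero => simp
    | succ q ih =>
      rw [Nat.mul_succ, Finset.sum_range_add, ih, zero_add]
      have : ∀ j ∈ Finset.range p, (Φ ModularGroup.T).f (ModularGroup.T ^ (p * q + j) • y) =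
          (Φ ModularGroup.T).f (ModularGroup.T ^ j • y) := by
        intro j _
        have h1 : ModularGroup.T ^ (p * q) • y = y := by
          rw [T_pow_smul_eq_iff p _ y hy0]
          exact dvd_mul_right p q
        rw [add_comm, pow_add, mul_smul, h1]
      rw [Finset.sum_congr rfl this, horb]

lemma hom_f_T_zpow (Φ : SL(2, ℤ) →* CoGrp (SL(2, ℤ) ⧸ Gamma0 p) A)
    (hΦ : ∀ g, (Φ g).σ = MulAction.toPerm g)
    (hT : (Φ ModularGroup.T).f (x0 (Gamma0 p)) = 0)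
    (hsum : ∑ x, (Φ ModularGroup.T).f x = 0)
    (k : ℤ) (y : SL(2, ℤ) ⧸ Gamma0 p) (hy : ModularGroup.T ^ k • y = y) :
    (Φ (ModularGroup.T ^ k)).f y = 0 := by
  obtain ⟨m, rfl | rfl⟩ := Int.eq_nat_or_neg k
  · rw [zpow_natCast] at hy ⊢
    exact hom_f_T_pow Φ hΦ hT hsum m y hy
  · rw [zpow_neg, zpow_natCast] at hy ⊢
    have hy' : ModularGroup.T ^ m • y = y := by
      rw [inv_smul_eq_iff] at hy
      exact hy.symm
    rw [CoGrp.hom_f_inv Φ hΦ, hy, hom_f_T_pow Φ hΦ hT hsum m y hy', neg_zero]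

/-- **Parabolicity criterion.** -/
theorem hom_f_eq_zero_of_trace_sq (Φ : SL(2, ℤ) →* CoGrp (SL(2, ℤ) ⧸ Gamma0 p) A)
    (hΦ : ∀ g, (Φ g).σ = MulAction.toPerm g) (hneg : Φ (-1) = 1)
    (hT : (Φ ModularGroup.T).f (x0 (Gamma0 p)) = 0)
    (hsum : ∑ x, (Φ ModularGroup.T).f x = 0)
    (γ : SL(2, ℤ)) (hγ : γ ∈ Gamma0 p)
    (htr : (γ : Matrix (Fin 2) (Fin 2) ℤ).trace ^ 2 = 4) :
    (Φ γ).f (x0 (Gamma0 p)) = 0 := by
  obtain ⟨δ, hδ⟩ := Fermat.Agent.S21.exists_conj_apply_one_zero_eq_zero γ htr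
  set h := δ⁻¹ * γ * δ with hh
  have hγeq : γ = δ * h * δ⁻¹ := by rw [hh]; group
  have hfix : h • (δ⁻¹ • x0 (Gamma0 p)) = δ⁻¹ • x0 (Gamma0 p) := by
    rw [hh, ← mul_smul, mul_assoc, mul_assoc, mul_inv_cancel, mul_one, mul_smul,
      smul_x0_of_mem _ hγ]
  rw [hγeq, CoGrp.hom_f_conj Φ hΦ δ h _ hfix]
  obtain ⟨k, hk | hk⟩ := eq_T_zpow_or_neg_of_apply_one_zero h hδ
  · rw [hk] at hfix ⊢
    exact hom_f_T_zpow Φ hΦ hT hsum k _ hfix
  · have e : h = (-1) * ModularGroup.T ^ k := by rw [hk]; simp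
    rw [e, mul_smul, neg_one_smul_quot] at hfix
    rw [e, map_mul, hneg, one_mul]
    exact hom_f_T_zpow Φ hΦ hT hsum k _ hfix

end Criterion

section Shapiro

variable (Γ : Subgroup SL(2, ℤ)) {A : Type*} [AddCommGroup A]

lemma sch_one (x : SL(2, ℤ) ⧸ Γ) : sch Γ 1 x = 1 := by
  apply Subtype.ext
  simp [sch]

/-- The Schreier cocycle of a character of `Γ`, as a hom to the cocycle group. -/
noncomputable def shapiro (ψ : Additive Γ →+ A) : SL(2, ℤ) →* CoGrp (SL(2, ℤ) ⧸ Γ) A where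
  toFun g := ⟨fun x => ψ (Additive.ofMul (sch Γ g x)), MulAction.toPerm g⟩
  map_one' := by
    ext x
    · simp [sch_one]
    · simp
  map_mul' g h := by
    ext x
    · simp only [CoGrp.mul_f, sch_mul, ofMul_mul, map_add]
      rfl
    · simp [mul_smul]

@[simp] lemma shapiro_f (ψ : Additive Γ →+ A) (g : SL(2, ℤ)) (x : SL(2, ℤ) ⧸ Γ) :
    (shapiro Γ ψ g).f x = ψ (Additive.ofMul (sch Γ g x)) := rfl

@[simp] lemma shapiro_σ (ψ : Additive Γ →+ A) (g : SL(2, ℤ)) :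
    (shapiro Γ ψ g).σ = MulAction.toPerm g := rfl

lemma shapiro_f_x0 (ψ : Additive Γ →+ A) (γ : Γ) :
    (shapiro Γ ψ (γ : SL(2, ℤ))).f (x0 Γ) = ψ (Additive.ofMul γ) := by
  have hfix := smul_x0_of_mem Γ γ.2
  have h : sch Γ (γ : SL(2, ℤ)) (x0 Γ) =
      (⟨Quotient.out (x0 Γ), out_x0_mem Γ⟩ : Γ)⁻¹ * (γ * ⟨Quotient.out (x0 Γ), out_x0_mem Γ⟩) := by
    apply Subtype.ext
    simp only [sch, Subgroup.coe_mul, Subgroup.coe_inv]
    rw [hfix]
  rw [shapiro_f, h, ofMul_mul, ofMul_mul, ofMul_inv, map_add, map_add, map_neg]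
  abel

/-- restriction of a cocycle hom to `Γ`, evaluated at the base point. -/
def res (Φ : SL(2, ℤ) →* CoGrp (SL(2, ℤ) ⧸ Γ) A) (hΦ : ∀ g, (Φ g).σ = MulAction.toPerm g) :
    Additive Γ →+ A where
  toFun γ := (Φ ((Additive.toMul γ : Γ) : SL(2, ℤ))).f (x0 Γ)
  map_zero' := by
    show (Φ ((1 : Γ) : SL(2, ℤ))).f (x0 Γ) = 0
    rw [Subgroup.coe_one, CoGrp.hom_f_one]
  map_add' a b := by
    show (Φ ((Additive.toMul a * Additive.toMul b : Γ) : SL(2, ℤ))).f (x0 Γ) = _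
    rw [Subgroup.coe_mul, CoGrp.hom_f_mul Φ hΦ, smul_x0_of_mem Γ (Additive.toMul b).2]

@[simp] lemma res_apply (Φ : SL(2, ℤ) →* CoGrp (SL(2, ℤ) ⧸ Γ) A)
    (hΦ : ∀ g, (Φ g).σ = MulAction.toPerm g) (γ : Γ) :
    res Γ Φ hΦ (Additive.ofMul γ) = (Φ (γ : SL(2, ℤ))).f (x0 Γ) := rfl

end Shapiro

section Main

variable (p : ℕ) [hp : Fact p.Prime]

lemma S_mul_S : ModularGroup.S * ModularGroup.S = (-1 : SL(2, ℤ)) := by decide

lemma ST_mul_ST_mul_ST : (ModularGroup.S * ModularGroup.T) *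
    ((ModularGroup.S * ModularGroup.T) * (ModularGroup.S * ModularGroup.T)) = (-1 : SL(2, ℤ)) := by
  decide

omit hp in
lemma toPerm_S_sq :
    (MulAction.toPerm ModularGroup.S : Equiv.Perm (SL(2, ℤ) ⧸ Gamma0 p)) ^ 2 = 1 := by
  ext x
  rw [pow_two, Equiv.Perm.mul_apply]
  show ModularGroup.S • ModularGroup.S • x = x
  rw [← mul_smul, S_mul_S, neg_one_smul_quot]

omit hp in
lemma toPerm_ST_cube :
    (MulAction.toPerm (ModularGroup.S * ModularGroup.T) :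
      Equiv.Perm (SL(2, ℤ) ⧸ Gamma0 p)) ^ 3 = 1 := by
  ext x
  rw [pow_succ, pow_two, Equiv.Perm.mul_apply, Equiv.Perm.mul_apply]
  show (ModularGroup.S * ModularGroup.T) • (ModularGroup.S * ModularGroup.T) •
    (ModularGroup.S * ModularGroup.T) • x = x
  rw [← mul_smul, ← mul_smul, mul_assoc, ST_mul_ST_mul_ST, neg_one_smul_quot]

/-- **[B3], conditional on [B0].** -/
theorem exists_parabolic_lift_of_UP (hUP : HasUP) (n : ℕ)
    (ψ : Additive (Gamma0 p) →+ ZMod n)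
    (hψ : ∀ γ : Gamma0 p,
      ((γ : SL(2, ℤ)) : Matrix (Fin 2) (Fin 2) ℤ).trace ^ 2 ≤ 4 → ψ (Additive.ofMul γ) = 0) :
    ∃ ψ' : Additive (Gamma0 p) →+ ℤ,
      IsParabolicHom (Gamma0 p) ψ' ∧ ∀ γ, ((ψ' γ : ℤ) : ZMod n) = ψ γ := by
  classical
  have : NeZero p := ⟨hp.out.ne_zero⟩
  have : Finite (SL(2, ℤ) ⧸ Gamma0 p) := Subgroup.finite_quotient_of_finiteIndex
  let _ : Fintype (SL(2, ℤ) ⧸ Gamma0 p) := Fintype.ofFinite _
  set σS : Equiv.Perm (SL(2, ℤ) ⧸ Gamma0 p) := MulAction.toPerm ModularGroup.S with hσS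
  set σR : Equiv.Perm (SL(2, ℤ) ⧸ Gamma0 p) := MulAction.toPerm (ModularGroup.S * ModularGroup.T) with hσR
  set Φψ := shapiro (Gamma0 p) ψ with hΦψ
  have hΦψσ : ∀ g, (Φψ g).σ = MulAction.toPerm g := fun g => rfl
  -- the cocycle of `ψ` vanishes at fixed points of elements of small trace
  have hvan : ∀ (g : SL(2, ℤ)) (x : SL(2, ℤ) ⧸ Gamma0 p), g • x = x →
      (g : Matrix (Fin 2) (Fin 2) ℤ).trace ^ 2 ≤ 4 → (Φψ g).f x = 0 := by
    intro g x hx htr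
    rw [hΦψ, shapiro_f]
    apply hψ
    rw [trace_sch_of_fixed (Gamma0 p) g x hx]
    exact htr
  have hnegψ : ∀ x : SL(2, ℤ) ⧸ Gamma0 p, (Φψ (-1)).f x = 0 := fun x =>
    hvan (-1) x (neg_one_smul_quot p x) (by simp)
  -- Step 1: coboundary form of the values at `S` and `S * T`
  obtain ⟨w₁, hw₁⟩ : ∃ w : (SL(2, ℤ) ⧸ Gamma0 p) → ZMod n, ∀ x, (Φψ ModularGroup.S).f x = w x - w (σS x) := by
    apply exists_cobdry Nat.prime_two (toPerm_S_sq p)
    · intro x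
      rw [Finset.sum_range_succ, Finset.sum_range_one, pow_zero, pow_one, add_comm,
        Equiv.Perm.one_apply]
      have := CoGrp.hom_f_mul Φψ hΦψσ ModularGroup.S ModularGroup.S x
      rw [S_mul_S, hnegψ] at this
      exact this.symm
    · intro x hx
      exact hvan _ x hx (by simp [ModularGroup.S, Matrix.trace_fin_two])
  obtain ⟨w₂, hw₂⟩ : ∃ w : (SL(2, ℤ) ⧸ Gamma0 p) → ZMod n,
      ∀ x, (Φψ (ModularGroup.S * ModularGroup.T)).f x = w x - w (σR x) := by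
    apply exists_cobdry Nat.prime_three (toPerm_ST_cube p)
    · intro x
      rw [Finset.sum_range_succ, Finset.sum_range_succ, Finset.sum_range_one, pow_zero, pow_one,
        pow_two, Equiv.Perm.one_apply, Equiv.Perm.mul_apply]
      have h3 := CoGrp.hom_f_mul Φψ hΦψσ (ModularGroup.S * ModularGroup.T)
        ((ModularGroup.S * ModularGroup.T) * (ModularGroup.S * ModularGroup.T)) x
      rw [ST_mul_ST_mul_ST, hnegψ, CoGrp.hom_f_mul Φψ hΦψσ (ModularGroup.S * ModularGroup.T)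
        (ModularGroup.S * ModularGroup.T) x, mul_smul] at h3
      rw [h3]
      simp only [MulAction.toPerm_apply]
      abel
    · intro x hx
      exact hvan _ x hx (by simp [ModularGroup.S, ModularGroup.T, Matrix.trace_fin_two])
  have hΦψS : Φψ ModularGroup.S = CoGrp.conjOf w₁ σS := by
    ext x
    · rw [hw₁]; rfl
    · rfl
  have hΦψR : Φψ (ModularGroup.S * ModularGroup.T) = CoGrp.conjOf w₂ σR := by
    ext x
    · rw [hw₂]; rfl
    · rfl
  -- the value at `T`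
  have hTeq : ModularGroup.T = ModularGroup.S⁻¹ * (ModularGroup.S * ModularGroup.T) := by group
  have hσx0 : σS⁻¹ (σR (x0 (Gamma0 p))) = x0 (Gamma0 p) := by
    rw [Equiv.Perm.inv_eq_iff_eq]
    show (ModularGroup.S * ModularGroup.T) • x0 (Gamma0 p) = ModularGroup.S • x0 (Gamma0 p)
    exact ST_smul_x0 p
  have hσRx0 : σR (x0 (Gamma0 p)) = ModularGroup.S • x0 (Gamma0 p) := ST_smul_x0 p
  have hσSx0 : σS (x0 (Gamma0 p)) = ModularGroup.S • x0 (Gamma0 p) := rfl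
  have hTmem : ModularGroup.T ∈ Gamma0 p := T_mem_Gamma0 p
  have hψT : (Φψ ModularGroup.T).f (x0 (Gamma0 p)) = 0 :=
    hvan _ _ (T_smul_x0 p) (by simp [ModularGroup.T, Matrix.trace_fin_two])
  have hrel : w₂ (x0 (Gamma0 p)) = w₁ (x0 (Gamma0 p)) - w₁ (ModularGroup.S • x0 (Gamma0 p)) + w₂ (ModularGroup.S • x0 (Gamma0 p)) := by
    have h := hψT
    rw [hTeq, map_mul, map_inv, CoGrp.inv_mul_f, hΦψS, hΦψR] at h
    simp only [CoGrp.conjOf_f, CoGrp.conjOf_σ] at h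
    rw [hσx0, hσRx0, hσSx0] at h
    linear_combination h
  -- Step 2: lifts
  have hsurj : Function.Surjective (Int.cast : ℤ → ZMod n) := ZMod.intCast_surjective
  choose lift hlift using hsurj
  set W₁ : (SL(2, ℤ) ⧸ Gamma0 p) → ℤ := fun x => lift (w₁ x) with hW₁
  set W₂ : (SL(2, ℤ) ⧸ Gamma0 p) → ℤ := Function.update (fun x => lift (w₂ x)) (x0 (Gamma0 p))
    (W₁ (x0 (Gamma0 p)) - W₁ (ModularGroup.S • x0 (Gamma0 p)) + lift (w₂ (ModularGroup.S • x0 (Gamma0 p)))) with hW₂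
  have hW₁c : ∀ x, ((W₁ x : ℤ) : ZMod n) = w₁ x := fun x => hlift _
  have hSx0 : ModularGroup.S • x0 (Gamma0 p) ≠ x0 (Gamma0 p) := S_smul_x0_ne p
  have hW₂S : W₂ (ModularGroup.S • x0 (Gamma0 p)) = lift (w₂ (ModularGroup.S • x0 (Gamma0 p))) := by
    rw [hW₂, Function.update_of_ne hSx0]
  have hW₂0 : W₂ (x0 (Gamma0 p)) = W₁ (x0 (Gamma0 p)) - W₁ (ModularGroup.S • x0 (Gamma0 p)) + W₂ (ModularGroup.S • x0 (Gamma0 p)) := by
    rw [hW₂S, hW₂, Function.update_self]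
  have hW₂c : ∀ x, ((W₂ x : ℤ) : ZMod n) = w₂ x := by
    intro x
    by_cases hx : x = x0 (Gamma0 p)
    · rw [hx, hW₂0, hW₂S]
      push_cast
      rw [hW₁c, hW₁c, hlift, hrel]
    · rw [hW₂, Function.update_of_ne hx]
      exact hlift _
  -- Step 3: the integral cocycle
  obtain ⟨Φ, hΦS, hΦR⟩ := hUP (CoGrp (SL(2, ℤ) ⧸ Gamma0 p) ℤ) (CoGrp.conjOf W₁ σS) (CoGrp.conjOf W₂ σR)
    (CoGrp.conjOf_pow_eq_one _ _ 2 (toPerm_S_sq p))
    (CoGrp.conjOf_pow_eq_one _ _ 3 (toPerm_ST_cube p))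
  -- Step 4: it lies over the action and reduces to the cocycle of `ψ`
  have hΦσ' : (CoGrp.projHom (X := SL(2, ℤ) ⧸ Gamma0 p) (A := ℤ)).comp Φ = MulAction.toPermHom SL(2, ℤ) (SL(2, ℤ) ⧸ Gamma0 p) := by
    apply hom_ext_S_ST
    · show (Φ ModularGroup.S).σ = _
      rw [hΦS]; rfl
    · show (Φ (ModularGroup.S * ModularGroup.T)).σ = _
      rw [hΦR]; rfl
  have hΦσ : ∀ g, (Φ g).σ = MulAction.toPerm g := fun g =>
    congrArg (fun F : SL(2, ℤ) →* Equiv.Perm (SL(2, ℤ) ⧸ Gamma0 p) => F g) hΦσ'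
  have hΦmap : (CoGrp.mapHom (X := SL(2, ℤ) ⧸ Gamma0 p) (Int.castAddHom (ZMod n))).comp Φ = Φψ := by
    apply hom_ext_S_ST
    · show CoGrp.mapHom _ (Φ ModularGroup.S) = _
      rw [hΦS, hΦψS, CoGrp.mapHom_conjOf]
      congr 1
      funext x
      exact hW₁c x
    · show CoGrp.mapHom _ (Φ (ModularGroup.S * ModularGroup.T)) = _
      rw [hΦR, hΦψR, CoGrp.mapHom_conjOf]
      congr 1
      funext x
      exact hW₂c x
  refine ⟨res (Gamma0 p) Φ hΦσ, ?_, ?_⟩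
  · -- parabolicity
    intro γ htr
    rw [res_apply]
    have hneg : Φ (-1) = 1 := by
      rw [← S_mul_S, map_mul, hΦS, ← pow_two]
      exact CoGrp.conjOf_pow_eq_one _ _ 2 (toPerm_S_sq p)
    have hTf : ∀ x, (Φ ModularGroup.T).f x =
        - (W₁ (σS⁻¹ (σR x)) - W₁ (σR x)) + (W₂ x - W₂ (σR x)) := by
      intro x
      rw [hTeq, map_mul, map_inv, CoGrp.inv_mul_f, hΦS, hΦR]
      simp only [CoGrp.conjOf_f, CoGrp.conjOf_σ, Equiv.Perm.coe_inv, Equiv.apply_symm_apply]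
    refine hom_f_eq_zero_of_trace_sq Φ hΦσ hneg ?_ ?_ γ γ.2 htr
    · rw [hTf, hσx0, hσRx0, hW₂0]
      ring
    · simp only [hTf]
      rw [Finset.sum_add_distrib, Finset.sum_neg_distrib, Finset.sum_sub_distrib,
        Finset.sum_sub_distrib]
      have e1 : ∑ x, W₁ (σS⁻¹ (σR x)) = ∑ x, W₁ x :=
        Equiv.sum_comp (σR.trans σS⁻¹) W₁
      have e2 : ∑ x, W₁ (σR x) = ∑ x, W₁ x := Equiv.sum_comp σR W₁
      have e3 : ∑ x, W₂ (σR x) = ∑ x, W₂ x := Equiv.sum_comp σR W₂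
      rw [e1, e2, e3]
      ring
  · -- congruence
    intro γ
    induction γ using Additive.rec with
    | ofMul γ =>
    rw [res_apply]
    have h1 : (((Φ (γ : SL(2, ℤ))).f (x0 (Gamma0 p)) : ℤ) : ZMod n) =
        ((CoGrp.mapHom (X := SL(2, ℤ) ⧸ Gamma0 p) (Int.castAddHom (ZMod n))).comp Φ (γ : SL(2, ℤ))).f (x0 (Gamma0 p)) := rfl
    rw [h1, hΦmap, hΦψ, shapiro_f_x0]

end Main

end Fermat.Agent.S16.helper21
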