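import Mathlib

/-!
# `PSL(2, ℤ) = C₂ * C₃` : the universal property (helper64, S16 package [B0])

For any group `H` and `s r : H` with `s ^ 2 = 1` and `r ^ 3 = 1` there is a (unique) group
homomorphism `φ : SL(2, ℤ) →* H` with `φ S = s` and `φ (S * T) = r`; it kills `-1`.

The proof is the classical ping-pong argument for the action on the upper half plane:
the free product `C₂ * C₃` maps injectively to `Equiv.Perm ℍ` via `S` and `T * S`
(ping-pong sets `{re < 0}` and `{0 < re}`), and its image contains the image of `SL(2, ℤ)`.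
-/

set_option autoImplicit false

open scoped MatrixGroups
open ModularGroup UpperHalfPlane

namespace Fermat.Agent.S16.helper64

/-- The homomorphism `Multiplicative (ZMod n) →* G` sending the generator to an element `g`
with `g ^ n = 1`. -/
noncomputable def cycHom {G : Type*} [Group G] (n : ℕ) (g : G) (hg : g ^ n = 1) :
    Multiplicative (ZMod n) →* G :=
  AddMonoidHom.toMultiplicativeLeft
    (ZMod.lift n ⟨zmultiplesHom (Additive G) (Additive.ofMul g), by
      simp only [zmultiplesHom_apply, natCast_zsmul]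
      rw [← ofMul_pow, hg]; rfl⟩)

lemma cycHom_ofAdd_natCast {G : Type*} [Group G] (n : ℕ) (g : G) (hg : g ^ n = 1) (k : ℕ) :
    cycHom n g hg (Multiplicative.ofAdd (k : ZMod n)) = g ^ k := by
  have : ((k : ℤ) : ZMod n) = (k : ZMod n) := by push_cast; rfl
  simp only [cycHom, AddMonoidHom.coe_toMultiplicativeLeft, Function.comp_apply, toAdd_ofAdd]
  rw [← this, ZMod.lift_coe]
  simp

lemma cycHom_gen {G : Type*} [Group G] (n : ℕ) (g : G) (hg : g ^ n = 1) :
    cycHom n g hg (Multiplicative.ofAdd (1 : ZMod n)) = g := by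
  have := cycHom_ofAdd_natCast n g hg 1
  simpa using this


/-! ### The Möbius action of `S` and `T * S` -/

lemma S_mul_S : (S * S : SL(2, ℤ)) = -1 := by
  ext i j
  simp only [Matrix.SpecialLinearGroup.coe_mul, Matrix.SpecialLinearGroup.coe_neg,
    Matrix.SpecialLinearGroup.coe_one, coe_S]
  fin_cases i <;> fin_cases j <;> simp [Matrix.mul_apply, Fin.sum_univ_two]

lemma TS_pow_three : ((T * S) ^ 3 : SL(2, ℤ)) = -1 := by
  ext i j
  simp only [Matrix.SpecialLinearGroup.coe_mul,
    Matrix.SpecialLinearGroup.coe_neg, Matrix.SpecialLinearGroup.coe_one, coe_S, coe_T,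
    pow_succ, pow_zero, one_mul]
  fin_cases i <;> fin_cases j <;> simp [Matrix.mul_apply, Fin.sum_univ_two]

lemma neg_one_smul' (z : ℍ) : (-1 : SL(2, ℤ)) • z = z := by
  rw [SL_neg_smul, one_smul]

lemma re_S_smul (z : ℍ) : (S • z).re = -z.re / Complex.normSq z := by
  rw [modular_S_smul]
  change ((-(z : ℂ))⁻¹).re = _
  rw [Complex.inv_re, Complex.normSq_neg, Complex.neg_re]
  rfl

lemma re_TS_smul (z : ℍ) : ((T * S) • z).re = 1 - z.re / Complex.normSq z := by
  rw [mul_smul, modular_T_smul, UpperHalfPlane.vadd_re, re_S_smul]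
  ring

lemma normSq_pos' (z : ℍ) : 0 < Complex.normSq (z : ℂ) :=
  Complex.normSq_pos.mpr z.ne_zero

lemma re_S_smul_neg {z : ℍ} (hz : 0 < z.re) : (S • z).re < 0 := by
  rw [re_S_smul]
  exact div_neg_of_neg_of_pos (by linarith) (normSq_pos' z)

lemma one_lt_re_TS_smul {z : ℍ} (hz : z.re < 0) : 1 < ((T * S) • z).re := by
  rw [re_TS_smul]
  have : z.re / Complex.normSq z < 0 := div_neg_of_neg_of_pos hz (normSq_pos' z)
  linarith

lemma re_TS_smul_pos {z : ℍ} (hz : 1 < z.re) : 0 < ((T * S) • z).re := by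
  rw [re_TS_smul]
  have hpos := normSq_pos' z
  have h1 : z.re < Complex.normSq z := by
    have him := z.im_pos
    have : Complex.normSq (z : ℂ) = z.re * z.re + z.im * z.im := Complex.normSq_apply _
    rw [this]
    nlinarith
  have : z.re / Complex.normSq z < 1 := by
    rw [div_lt_one hpos]; exact h1
  linarith

/-! ### The two cyclic groups inside `Equiv.Perm ℍ` -/

/-- The permutation representation of `SL(2, ℤ)` on `ℍ`. -/
noncomputable def permRep : SL(2, ℤ) →* Equiv.Perm ℍ := MulAction.toPermHom SL(2, ℤ) ℍ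

lemma permRep_apply (g : SL(2, ℤ)) (z : ℍ) : permRep g z = g • z := rfl

lemma permRep_neg_one : permRep (-1) = 1 := by
  ext z
  rw [permRep_apply, neg_one_smul']
  rfl

lemma permRep_S_sq : permRep S ^ 2 = 1 := by
  rw [← map_pow, pow_two, S_mul_S, permRep_neg_one]

lemma permRep_TS_cube : permRep (T * S) ^ 3 = 1 := by
  rw [← map_pow, TS_pow_three, permRep_neg_one]

/-- orders of the two free factors -/
def ord : Bool → ℕ := fun b => cond b 3 2

/-- The two homomorphisms `C₂ → Perm ℍ` and `C₃ → Perm ℍ`. -/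
noncomputable def facHom : ∀ b : Bool, Multiplicative (ZMod (ord b)) →* Equiv.Perm ℍ
  | false => cycHom 2 (permRep S) permRep_S_sq
  | true => cycHom 3 (permRep (T * S)) permRep_TS_cube

/-- The ping-pong sets. -/
def pp : Bool → Set ℍ
  | false => {z | z.re < 0}
  | true => {z | 0 < z.re}

lemma c2_cases : ∀ h : Multiplicative (ZMod 2), h ≠ 1 → h = Multiplicative.ofAdd 1 := by decide

lemma c3_cases : ∀ h : Multiplicative (ZMod 3), h ≠ 1 →
    h = Multiplicative.ofAdd 1 ∨ h = Multiplicative.ofAdd ((2 : ℕ) : ZMod 3) := by decide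

theorem lift_facHom_injective : Function.Injective (Monoid.CoprodI.lift facHom) := by
  refine Monoid.CoprodI.lift_injective_of_ping_pong facHom (Or.inr ⟨true, ?_⟩) pp ?_ ?_ ?_
  · change (3 : Cardinal) ≤ Cardinal.mk (Multiplicative (ZMod 3))
    rw [Cardinal.mk_fintype, Fintype.card_multiplicative, ZMod.card]
    norm_num
  · intro b
    cases b
    · refine ⟨⟨⟨-1, 1⟩, by simp⟩, ?_⟩
      change (-1 : ℝ) < 0
      norm_num
    · refine ⟨⟨⟨1, 1⟩, by simp⟩, ?_⟩
      change (0 : ℝ) < 1
      norm_num
  · intro i j hij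
    have key : Disjoint (pp false) (pp true) := by
      rw [Set.disjoint_left]
      intro z hz hz'
      have h1 : z.re < 0 := hz
      have h2 : 0 < z.re := hz'
      linarith
    cases i <;> cases j
    · exact absurd rfl hij
    · exact key
    · exact key.symm
    · exact absurd rfl hij
  · intro i j hij h hh
    cases i <;> cases j
    · exact absurd rfl hij
    · -- `C₂` maps `{0 < re}` into `{re < 0}`
      have h1 := c2_cases h hh
      subst h1
      rintro _ ⟨z, hz, rfl⟩
      have e : facHom false (Multiplicative.ofAdd 1) = permRep S :=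
        cycHom_gen 2 _ permRep_S_sq
      change ((facHom false (Multiplicative.ofAdd 1)) z).re < 0
      rw [e, permRep_apply]
      exact re_S_smul_neg hz
    · -- `C₃` maps `{re < 0}` into `{0 < re}`
      rcases c3_cases h hh with h1 | h1
      · subst h1
        rintro _ ⟨z, hz, rfl⟩
        have e : facHom true (Multiplicative.ofAdd 1) = permRep (T * S) := cycHom_gen 3 _ permRep_TS_cube
        change 0 < ((facHom true (Multiplicative.ofAdd 1)) z).re
        rw [e, permRep_apply]
        have := one_lt_re_TS_smul (z := z) hz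
        linarith
      · subst h1
        rintro _ ⟨z, hz, rfl⟩
        have e : facHom true (Multiplicative.ofAdd ((2 : ℕ) : ZMod 3)) = permRep (T * S) ^ 2 :=
          cycHom_ofAdd_natCast 3 _ permRep_TS_cube 2
        change 0 < ((facHom true (Multiplicative.ofAdd ((2 : ℕ) : ZMod 3))) z).re
        rw [e, pow_two, Equiv.Perm.mul_apply, permRep_apply, permRep_apply]
        exact re_TS_smul_pos (one_lt_re_TS_smul (z := z) hz)
    · exact absurd rfl hij


/-! ### `SL(2, ℤ) → C₂ * C₃` -/

/-- the generator of the factor `C₂` in the free product -/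
noncomputable def genS : Monoid.CoprodI fun b : Bool => Multiplicative (ZMod (ord b)) :=
  Monoid.CoprodI.of (i := false) (Multiplicative.ofAdd (1 : ZMod 2))

/-- the generator of the factor `C₃` in the free product -/
noncomputable def genR : Monoid.CoprodI fun b : Bool => Multiplicative (ZMod (ord b)) :=
  Monoid.CoprodI.of (i := true) (Multiplicative.ofAdd (1 : ZMod 3))

lemma lift_genS : Monoid.CoprodI.lift facHom genS = permRep S := by
  rw [genS, Monoid.CoprodI.lift_of]
  exact cycHom_gen 2 _ permRep_S_sq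

lemma lift_genR : Monoid.CoprodI.lift facHom genR = permRep (T * S) := by
  rw [genR, Monoid.CoprodI.lift_of]
  exact cycHom_gen 3 _ permRep_TS_cube

lemma permRep_mem_range (g : SL(2, ℤ)) : permRep g ∈ (Monoid.CoprodI.lift facHom).range := by
  have hle : (⊤ : Subgroup SL(2, ℤ)) ≤ (Monoid.CoprodI.lift facHom).range.comap permRep := by
    rw [← SpecialLinearGroup.SL2Z_generators, Subgroup.closure_le]
    rintro x (rfl | rfl)
    · exact ⟨genS, lift_genS⟩
    · refine ⟨genR * genS⁻¹, ?_⟩
      rw [map_mul, map_inv, lift_genR, lift_genS, map_mul, mul_inv_cancel_right]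
  exact hle (Subgroup.mem_top g)

/-- The homomorphism `SL(2, ℤ) → C₂ * C₃`. -/
noncomputable def toCoprod :
    SL(2, ℤ) →* Monoid.CoprodI fun b : Bool => Multiplicative (ZMod (ord b)) :=
  (MonoidHom.ofInjective lift_facHom_injective).symm.toMonoidHom.comp
    (permRep.codRestrict (Monoid.CoprodI.lift facHom).range permRep_mem_range)

lemma lift_toCoprod (g : SL(2, ℤ)) : Monoid.CoprodI.lift facHom (toCoprod g) = permRep g := by
  have := (MonoidHom.ofInjective lift_facHom_injective).apply_symm_apply
    (permRep.codRestrict (Monoid.CoprodI.lift facHom).range permRep_mem_range g)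
  exact congrArg Subtype.val this

lemma toCoprod_eq_iff (g : SL(2, ℤ))
    (w : Monoid.CoprodI fun b : Bool => Multiplicative (ZMod (ord b))) :
    toCoprod g = w ↔ permRep g = Monoid.CoprodI.lift facHom w := by
  rw [← lift_toCoprod]
  exact ⟨fun h => by rw [h], fun h => lift_facHom_injective h⟩

lemma toCoprod_S : toCoprod S = genS := by
  rw [toCoprod_eq_iff, lift_genS]

lemma toCoprod_TS : toCoprod (T * S) = genR := by
  rw [toCoprod_eq_iff, lift_genR]

/-! ### The universal property -/

/-- **Universal property of `PSL(2, ℤ) = C₂ * C₃`**, generators `S` and `T * S`. -/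
theorem exists_hom_of_sq_cube' {H : Type*} [Group H] (s r : H) (hs : s ^ 2 = 1)
    (hr : r ^ 3 = 1) :
    ∃ φ : SL(2, ℤ) →* H, φ S = s ∧ φ (T * S) = r ∧ φ (-1) = 1 := by
  let F : ∀ b : Bool, Multiplicative (ZMod (ord b)) →* H := fun b =>
    match b with
    | false => cycHom 2 s hs
    | true => cycHom 3 r hr
  refine ⟨(Monoid.CoprodI.lift F).comp toCoprod, ?_, ?_, ?_⟩
  · rw [MonoidHom.comp_apply, toCoprod_S, genS, Monoid.CoprodI.lift_of]
    exact cycHom_gen 2 s hs
  · rw [MonoidHom.comp_apply, toCoprod_TS, genR, Monoid.CoprodI.lift_of]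
    exact cycHom_gen 3 r hr
  · rw [← S_mul_S, map_mul, MonoidHom.comp_apply, toCoprod_S, genS, Monoid.CoprodI.lift_of]
    have : F false (Multiplicative.ofAdd (1 : ZMod 2)) = s := cycHom_gen 2 s hs
    rw [this, ← pow_two, hs]

/-- **Universal property of `PSL(2, ℤ) = C₂ * C₃`**, generators `S` and `S * T`: for
`s ^ 2 = 1 = r ^ 3` in a group `H` there is a homomorphism `SL(2, ℤ) →* H` with `S ↦ s`,
`S * T ↦ r`, `-1 ↦ 1`. -/
theorem exists_hom_of_sq_cube {H : Type*} [Group H] (s r : H) (hs : s ^ 2 = 1)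
    (hr : r ^ 3 = 1) :
    ∃ φ : SL(2, ℤ) →* H, φ S = s ∧ φ (S * T) = r ∧ φ (-1) = 1 := by
  have hr' : (s⁻¹ * r * s) ^ 3 = 1 := by
    have : (s⁻¹ * r * s) ^ 3 = s⁻¹ * r ^ 3 * s := by
      simp only [pow_succ, pow_zero, one_mul]
      group
    rw [this, hr]; group
  obtain ⟨φ, h1, h2, h3⟩ := exists_hom_of_sq_cube' s (s⁻¹ * r * s) hs hr'
  refine ⟨φ, h1, ?_, h3⟩
  have : (S * T : SL(2, ℤ)) = S * (T * S) * S⁻¹ := by group
  rw [this, map_mul, map_mul, map_inv, h1, h2]
  group

/-- A homomorphism out of `SL(2, ℤ)` is determined by its values on `S` and `T`. -/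
theorem hom_ext_S_T {M : Type*} [Monoid M] {φ ψ : SL(2, ℤ) →* M} (hS : φ S = ψ S)
    (hT : φ T = ψ T) : φ = ψ := by
  refine MonoidHom.eq_of_eqOn_dense SpecialLinearGroup.SL2Z_generators ?_
  rintro x (rfl | rfl)
  · exact hS
  · exact hT

/-- A homomorphism from `SL(2, ℤ)` to a group is determined by its values on `S` and `S * T`. -/
theorem hom_ext_S_ST {H : Type*} [Group H] {φ ψ : SL(2, ℤ) →* H} (hS : φ S = ψ S)
    (hST : φ (S * T) = ψ (S * T)) : φ = ψ := by
  refine hom_ext_S_T hS ?_
  rw [map_mul, map_mul, hS] at hST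
  exact mul_left_cancel hST

end Fermat.Agent.S16.helper64
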