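import Fermat.Agent.S16.helper1_PeriodInvol

/-!
# S16, package [B2] (helper1): period equivariance for `T_ℓ` and `U_p`

For the Prelude coset matrices `heckeMatrix ℓ j` (`j < ℓ`) and `heckeDiagMatrix ℓ`:
if `α i * γ = δ i * α (s i)` with `δ i ∈ Γ₀(N)` and `s` a permutation of the index set, then
`periodHomPair (T_ℓ x) γ = ∑ i, periodHomPair x (δ i)`, and similarly for `U_p`.
-/

set_option autoImplicit false
set_option linter.style.haveILetI false

namespace Fermat.Agent.S16.helper1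

open Filter Topology Complex Function CongruenceSubgroup ModularCurve ModularCurve.Period
open UpperHalfPlane hiding I
open scoped Manifold MatrixGroups ModularForm

/-- The coset representatives of `T_ℓ`: `none ↦ diag(ℓ, 1)`, `some j ↦ [[1, j], [0, ℓ]]`. -/
noncomputable def cosetMatT (ℓ : ℕ) : Option (Fin ℓ) → GL (Fin 2) ℝ
  | none => ModularForm.heckeDiagMatrix ℓ
  | some j => ModularForm.heckeMatrix ℓ j

/-- The coset representatives of `U_p`: `j ↦ [[1, j], [0, p]]`. -/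
noncomputable def cosetMatU (p : ℕ) : Fin p → GL (Fin 2) ℝ :=
  fun j => ModularForm.heckeMatrix p j

@[simp] theorem cosetMatT_none (ℓ : ℕ) : cosetMatT ℓ none = ModularForm.heckeDiagMatrix ℓ := rfl

@[simp] theorem cosetMatT_some (ℓ : ℕ) (j : Fin ℓ) :
    cosetMatT ℓ (some j) = ModularForm.heckeMatrix ℓ j := rfl

@[simp] theorem cosetMatU_apply (p : ℕ) (j : Fin p) :
    cosetMatU p j = ModularForm.heckeMatrix p j := rfl

theorem det_cosetMatT_pos (ℓ : ℕ) (i : Option (Fin ℓ)) : 0 < ((cosetMatT ℓ i).det : ℝ) := by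
  cases i with
  | none => exact ModularForm.det_heckeDiagMatrix_pos ℓ
  | some j => exact ModularForm.det_heckeMatrix_pos ℓ j

theorem det_cosetMatU_pos (p : ℕ) (j : Fin p) : 0 < ((cosetMatU p j).det : ℝ) :=
  ModularForm.det_heckeMatrix_pos p j

theorem heckeU_eq_sum_cosetMatU (p : ℕ) (f : ℍ → ℂ) :
    ModularForm.heckeU 2 p f = ∑ j, f ∣[(2 : ℤ)] cosetMatU p j := by
  rw [ModularForm.heckeU_def]
  exact (Fin.sum_univ_eq_sum_range (fun j => f ∣[(2 : ℤ)] ModularForm.heckeMatrix p j) p).symm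

theorem heckeT_eq_sum_cosetMatT (ℓ : ℕ) (f : ℍ → ℂ) :
    ModularForm.heckeT 2 ℓ f = ∑ i, f ∣[(2 : ℤ)] cosetMatT ℓ i := by
  rw [ModularForm.heckeT_def, Fintype.sum_option, add_comm]
  congr 1
  exact (Fin.sum_univ_eq_sum_range (fun j => f ∣[(2 : ℤ)] ModularForm.heckeMatrix ℓ j) ℓ).symm


/-- The matrix `[[1, -1], [0, 1]]` (that is `T⁻¹`) in `SL(2, ℤ)`. -/
def tInvSL : SL(2, ℤ) :=
  ⟨!![1, -1; 0, 1], by rw [Matrix.det_fin_two_of]; norm_num⟩

@[simp] theorem coe_tInvSL : (tInvSL : Matrix (Fin 2) (Fin 2) ℤ) = !![1, -1; 0, 1] := rfl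

theorem val_mapGL_tInvSL :
    ((Matrix.SpecialLinearGroup.mapGL ℝ tInvSL : GL (Fin 2) ℝ) : Matrix (Fin 2) (Fin 2) ℝ) =
      !![1, -1; 0, 1] := by
  ext a b
  fin_cases a <;> fin_cases b <;> simp

/-- `T⁻¹` as an element of `Γ₀(N)`. -/
def tInvGamma0 (N : ℕ) : Gamma0 N :=
  ⟨tInvSL, by
    rw [Gamma0_mem, coe_tInvSL]
    simp⟩

@[simp] theorem coe_tInvGamma0 (N : ℕ) :
    ((tInvGamma0 N : Gamma0 N) : SL(2, ℤ)) = tInvSL := rfl

/-- The correction terms for conjugation by `J`. -/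
def tFin (N : ℕ) {ℓ : ℕ} [NeZero ℓ] (j : Fin ℓ) : Gamma0 N :=
  if j = 0 then 1 else tInvGamma0 N

theorem jGL_heckeMatrix {ℓ : ℕ} [NeZero ℓ] (N : ℕ) (j : Fin ℓ) :
    jGL * ModularForm.heckeMatrix ℓ j * jGL =
      Matrix.SpecialLinearGroup.mapGL ℝ ((tFin N j : Gamma0 N) : SL(2, ℤ)) *
        ModularForm.heckeMatrix ℓ ((-j : Fin ℓ) : ℕ) := by
  have hℓ : ℓ ≠ 0 := NeZero.ne ℓ
  apply Units.ext
  rw [Units.val_mul, Units.val_mul, Units.val_mul, val_jGL, ModularForm.val_heckeMatrix hℓ,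
    ModularForm.val_heckeMatrix hℓ, Fin.val_neg]
  by_cases hj : j = 0
  · subst hj
    simp only [tFin, if_true]
    ext a b
    fin_cases a <;> fin_cases b <;>
      simp [Matrix.mul_apply, Fin.sum_univ_two]
  · have hj' : (j : ℕ) ≤ ℓ := j.2.le
    simp only [tFin, if_neg hj, coe_tInvGamma0]
    rw [val_mapGL_tInvSL]
    ext a b
    fin_cases a <;> fin_cases b <;>
      simp [Matrix.mul_apply, Fin.sum_univ_two, Nat.cast_sub hj'] <;> ring

theorem jGL_heckeDiagMatrix (ℓ : ℕ) :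
    jGL * ModularForm.heckeDiagMatrix ℓ * jGL = ModularForm.heckeDiagMatrix ℓ := by
  rcases eq_or_ne ℓ 0 with rfl | hℓ
  · rw [ModularForm.heckeDiagMatrix_zero, mul_one, jGL_mul_jGL]
  apply Units.ext
  rw [Units.val_mul, Units.val_mul, val_jGL, ModularForm.val_heckeDiagMatrix hℓ]
  ext a b
  fin_cases a <;> fin_cases b <;>
    simp [Matrix.mul_apply, Fin.sum_univ_two]

/-- The involution on the index set of `T_ℓ` induced by conjugation by `J`. -/
def starT (ℓ : ℕ) [NeZero ℓ] : Equiv.Perm (Option (Fin ℓ)) :=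
  Equiv.optionCongr (Equiv.neg (Fin ℓ))

/-- The correction terms for `T_ℓ`. -/
def tT (N : ℕ) {ℓ : ℕ} [NeZero ℓ] : Option (Fin ℓ) → Gamma0 N
  | none => 1
  | some j => tFin N j

theorem jGL_cosetMatT {ℓ : ℕ} [NeZero ℓ] (N : ℕ) (i : Option (Fin ℓ)) :
    jGL * cosetMatT ℓ i * jGL =
      Matrix.SpecialLinearGroup.mapGL ℝ ((tT N i : Gamma0 N) : SL(2, ℤ)) *
        cosetMatT ℓ (starT ℓ i) := by
  cases i with
  | none =>
    simp only [tT, starT, cosetMatT_none, Equiv.optionCongr_apply, Option.map_none,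
      OneMemClass.coe_one, map_one, one_mul]
    exact jGL_heckeDiagMatrix ℓ
  | some j =>
    simp only [tT, starT, cosetMatT_some, Equiv.optionCongr_apply, Option.map_some,
      Equiv.neg_apply]
    exact jGL_heckeMatrix N j

theorem jGL_cosetMatU {p : ℕ} [NeZero p] (N : ℕ) (j : Fin p) :
    jGL * cosetMatU p j * jGL =
      Matrix.SpecialLinearGroup.mapGL ℝ ((tFin N j : Gamma0 N) : SL(2, ℤ)) *
        cosetMatU p (Equiv.neg (Fin p) j) :=
  jGL_heckeMatrix N j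

variable (N : ℕ) [NeZero N]

/-- **Period equivariance for `T_ℓ`** (`ℓ ∤ N`). -/
theorem periodHomPair_heckeT {ℓ : ℕ} (hℓ : ℓ.Prime) (hℓN : ¬ ℓ ∣ N)
    (x : CuspForm (Gamma0 N) 2 × CuspForm (Gamma0 N) 2)
    (γ : Gamma0 N) (δ : Option (Fin ℓ) → Gamma0 N) (s : Equiv.Perm (Option (Fin ℓ)))
    (h : ∀ i, cosetMatT ℓ i * Matrix.SpecialLinearGroup.mapGL ℝ (γ : SL(2, ℤ)) =
      Matrix.SpecialLinearGroup.mapGL ℝ (δ i : SL(2, ℤ)) * cosetMatT ℓ (s i)) :
    periodHomPair N (CuspForm.heckeTLin 2 hℓ hℓN x.1, CuspForm.heckeTLin 2 hℓ hℓN x.2)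
        (Additive.ofMul γ) =
      ∑ i, periodHomPair N x (Additive.ofMul (δ i)) := by
  haveI : NeZero ℓ := ⟨hℓ.ne_zero⟩
  exact periodHomPair_eq_sum_of_slash N (cosetMatT ℓ) (det_cosetMatT_pos ℓ) x
    (CuspForm.heckeTLin 2 hℓ hℓN x.1, CuspForm.heckeTLin 2 hℓ hℓN x.2)
    (by rw [CuspForm.coe_heckeTLin_apply]; exact heckeT_eq_sum_cosetMatT ℓ _)
    (by rw [CuspForm.coe_heckeTLin_apply]; exact heckeT_eq_sum_cosetMatT ℓ _)
    γ δ s h (starT ℓ) (tT N) (jGL_cosetMatT N)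

/-- **Period equivariance for `U_p`** (`p ∣ N`). -/
theorem periodHomPair_heckeU {p : ℕ} (hpN : p ∣ N)
    (x : CuspForm (Gamma0 N) 2 × CuspForm (Gamma0 N) 2)
    (γ : Gamma0 N) (δ : Fin p → Gamma0 N) (s : Equiv.Perm (Fin p))
    (h : ∀ j, cosetMatU p j * Matrix.SpecialLinearGroup.mapGL ℝ (γ : SL(2, ℤ)) =
      Matrix.SpecialLinearGroup.mapGL ℝ (δ j : SL(2, ℤ)) * cosetMatU p (s j)) :
    periodHomPair N (CuspForm.heckeULin 2 hpN x.1, CuspForm.heckeULin 2 hpN x.2)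
        (Additive.ofMul γ) =
      ∑ j, periodHomPair N x (Additive.ofMul (δ j)) := by
  haveI : NeZero p := ⟨fun h0 => NeZero.ne N (by rw [h0] at hpN; exact zero_dvd_iff.mp hpN)⟩
  exact periodHomPair_eq_sum_of_slash N (cosetMatU p) (det_cosetMatU_pos p) x
    (CuspForm.heckeULin 2 hpN x.1, CuspForm.heckeULin 2 hpN x.2)
    (by rw [CuspForm.coe_heckeULin_apply]; exact heckeU_eq_sum_cosetMatU p _)
    (by rw [CuspForm.coe_heckeULin_apply]; exact heckeU_eq_sum_cosetMatU p _)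
    γ δ s h (Equiv.neg (Fin p)) (fun j => tFin N j) (jGL_cosetMatU N)

/-- Period equivariance for `T_ℓ`, for `periodMap` alone. -/
theorem periodMap_heckeT {ℓ : ℕ} (hℓ : ℓ.Prime) (hℓN : ¬ ℓ ∣ N)
    (f : CuspForm (Gamma0 N) 2)
    (γ : Gamma0 N) (δ : Option (Fin ℓ) → Gamma0 N) (s : Equiv.Perm (Option (Fin ℓ)))
    (h : ∀ i, cosetMatT ℓ i * Matrix.SpecialLinearGroup.mapGL ℝ (γ : SL(2, ℤ)) =
      Matrix.SpecialLinearGroup.mapGL ℝ (δ i : SL(2, ℤ)) * cosetMatT ℓ (s i)) :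
    periodMap N (CuspForm.heckeTLin 2 hℓ hℓN f) (Additive.ofMul γ) =
      ∑ i, periodMap N f (Additive.ofMul (δ i)) :=
  periodMap_eq_sum_of_slash N (cosetMatT ℓ) (det_cosetMatT_pos ℓ) f
    (CuspForm.heckeTLin 2 hℓ hℓN f)
    (by rw [CuspForm.coe_heckeTLin_apply]; exact heckeT_eq_sum_cosetMatT ℓ _) γ δ s h

/-- Period equivariance for `U_p`, for `periodMap` alone. -/
theorem periodMap_heckeU {p : ℕ} (hpN : p ∣ N)
    (f : CuspForm (Gamma0 N) 2)
    (γ : Gamma0 N) (δ : Fin p → Gamma0 N) (s : Equiv.Perm (Fin p))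
    (h : ∀ j, cosetMatU p j * Matrix.SpecialLinearGroup.mapGL ℝ (γ : SL(2, ℤ)) =
      Matrix.SpecialLinearGroup.mapGL ℝ (δ j : SL(2, ℤ)) * cosetMatU p (s j)) :
    periodMap N (CuspForm.heckeULin 2 hpN f) (Additive.ofMul γ) =
      ∑ j, periodMap N f (Additive.ofMul (δ j)) :=
  periodMap_eq_sum_of_slash N (cosetMatU p) (det_cosetMatU_pos p) f
    (CuspForm.heckeULin 2 hpN f)
    (by rw [CuspForm.coe_heckeULin_apply]; exact heckeU_eq_sum_cosetMatU p _) γ δ s h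

end Fermat.Agent.S16.helper1
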