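import Fermat.Agent.S16.helper26_HeckeFun
import Fermat.Agent.S16.helper1_PeriodHecke
import Fermat.Prelude.Def_CuspForm_HeckeEvalForms

/-!
# S16: glue between [B1] (Hecke operators on homomorphisms) and [B2] (period equivariance)

`periodHomPair N (T x) = heckeHom N ℓ (periodHomPair N x)` where `T` is the Hecke operator
`heckeFormsGen N 2 ℓ` (`T_ℓ` for `ℓ ∤ N`, `U_ℓ` for `ℓ ∣ N`) acting on both components.
-/

set_option autoImplicit false

open Matrix.SpecialLinearGroup CongruenceSubgroup ModularCurve ModularCurve.Period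
open scoped MatrixGroups ModularForm
open P2MW.S_ModularForm_heckeT_slash_eq_self_of_mem_Gamma0.ModularForm.HeckeSlashInvariance
open ModularForm

namespace Fermat.Agent.S16.helper26

open Fermat.Agent.S16.helper1

theorem matJ_eq_jGL : matJ = jGL := rfl

theorem jGL_mul_mul_eq_conjJ (M : GL (Fin 2) ℝ) : jGL * M * jGL = conjJ M := by
  rw [conjJ_apply, matJ_eq_jGL, jGL_inv]

theorem det_heckeRep_pos (p : ℕ) (x : OnePoint (ZMod p)) : 0 < ((heckeRep p x).det : ℝ) := by
  induction x using OnePoint.rec with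
  | infty => exact ModularForm.det_heckeDiagMatrix_pos p
  | coe j => exact ModularForm.det_heckeMatrix_pos p j.val

variable (N : ℕ) [NeZero N]

/-- The Hecke operator `heckeFormsGen N 2 ℓ` acting on pairs of cusp forms. -/
noncomputable def heckePair (ℓ : Nat.Primes)
    (x : CuspForm (Gamma0 N) 2 × CuspForm (Gamma0 N) 2) :
    CuspForm (Gamma0 N) 2 × CuspForm (Gamma0 N) 2 :=
  ((CuspForm.heckeFormsGen N 2 ℓ : Module.End ℂ (CuspForm (Gamma0 N) 2)) x.1,
    (CuspForm.heckeFormsGen N 2 ℓ : Module.End ℂ (CuspForm (Gamma0 N) 2)) x.2)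

theorem periodHomPair_heckeT_eq {ℓ : Nat.Primes} (h : ¬ (ℓ : ℕ) ∣ N)
    (x : CuspForm (Gamma0 N) 2 × CuspForm (Gamma0 N) 2) :
    periodHomPair N (CuspForm.heckeTLin 2 ℓ.2 h x.1, CuspForm.heckeTLin 2 ℓ.2 h x.2) =
      heckeHom N ℓ (periodHomPair N x) := by
  refine AddMonoidHom.ext fun γ' => ?_
  set γ : Gamma0 N := Additive.toMul γ' with hγ
  change periodHomPair N (CuspForm.heckeTLin 2 ℓ.2 h x.1, CuspForm.heckeTLin 2 ℓ.2 h x.2)
    (Additive.ofMul γ) = heckeHom N ℓ (periodHomPair N x) (Additive.ofMul γ)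
  rw [heckeHom_apply_of_not_dvd N h]
  exact periodHomPair_eq_sum_of_slash N (heckeRep ℓ) (det_heckeRep_pos ℓ) x
    (CuspForm.heckeTLin 2 ℓ.2 h x.1, CuspForm.heckeTLin 2 ℓ.2 h x.2)
    (by rw [CuspForm.coe_heckeTLin_apply]; exact heckeT_eq_sum_onePoint 2 _)
    (by rw [CuspForm.coe_heckeTLin_apply]; exact heckeT_eq_sum_onePoint 2 _)
    γ ((systemT N ℓ h).step γ) ((systemT N ℓ h).permEquiv γ)
    (fun i => (systemT N ℓ h).rel γ i)
    (Equiv.optionCongr (Equiv.neg (ZMod ℓ)))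
    (fun x => x.elim 1 (fun j => ⟨unip (negShift ℓ j), unip_mem_Gamma0 N _⟩))
    (fun x => by
      rw [jGL_mul_mul_eq_conjJ]
      induction x using OnePoint.rec with
      | infty => exact conjJ_heckeDiagMatrix ℓ
      | coe j => exact conjJ_heckeMatrix ℓ j)

theorem periodHomPair_heckeU_eq {ℓ : Nat.Primes} (h : (ℓ : ℕ) ∣ N)
    (x : CuspForm (Gamma0 N) 2 × CuspForm (Gamma0 N) 2) :
    periodHomPair N (CuspForm.heckeULin 2 h x.1, CuspForm.heckeULin 2 h x.2) =
      heckeHom N ℓ (periodHomPair N x) := by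
  refine AddMonoidHom.ext fun γ' => ?_
  set γ : Gamma0 N := Additive.toMul γ' with hγ
  change periodHomPair N (CuspForm.heckeULin 2 h x.1, CuspForm.heckeULin 2 h x.2)
    (Additive.ofMul γ) = heckeHom N ℓ (periodHomPair N x) (Additive.ofMul γ)
  rw [heckeHom_apply_of_dvd N h]
  exact periodHomPair_eq_sum_of_slash N (fun j : ZMod ℓ => heckeMatrix ℓ j.val)
    (fun j => ModularForm.det_heckeMatrix_pos ℓ j.val) x
    (CuspForm.heckeULin 2 h x.1, CuspForm.heckeULin 2 h x.2)
    (by rw [CuspForm.coe_heckeULin_apply]; exact heckeU_eq_sum_zmod 2 _)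
    (by rw [CuspForm.coe_heckeULin_apply]; exact heckeU_eq_sum_zmod 2 _)
    γ ((systemU N ℓ h).step γ) ((systemU N ℓ h).permEquiv γ)
    (fun i => (systemU N ℓ h).rel γ i)
    (Equiv.neg (ZMod ℓ))
    (fun j => ⟨unip (negShift ℓ j), unip_mem_Gamma0 N _⟩)
    (fun j => by
      rw [jGL_mul_mul_eq_conjJ]
      exact conjJ_heckeMatrix ℓ j)

/-- **Glue [B1] + [B2]**: the period pairing intertwines the Hecke operator
`heckeFormsGen N 2 ℓ` on pairs of cusp forms with `heckeHom N ℓ` on homomorphisms. -/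
theorem periodHomPair_heckePair (ℓ : Nat.Primes)
    (x : CuspForm (Gamma0 N) 2 × CuspForm (Gamma0 N) 2) :
    periodHomPair N (heckePair N ℓ x) = heckeHom N ℓ (periodHomPair N x) := by
  unfold heckePair
  by_cases h : (ℓ : ℕ) ∣ N
  · rw [CuspForm.heckeFormsGen_of_dvd h]
    exact periodHomPair_heckeU_eq N h x
  · rw [CuspForm.heckeFormsGen_of_not_dvd h]
    exact periodHomPair_heckeT_eq N h x

end Fermat.Agent.S16.helper26
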