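import Mathlib
import Fermat.Prelude.Def_CuspForm_HeckeLocal
import Fermat.Prelude.Def_CuspForm_HeckeEvalForms
import Fermat.Prelude.Def_HeckeGalois_EichlerShimura
import Fermat.Prelude.Def_ModularCurve_ModularUnit

/-!
# S16: top-level interface

`sigmaP p k` is the sum of the divisors of `k` prime to `p`, written as `σ(k) - p σ(k/p)`.

* `UpperBound p` : form-level upper bound (A') of the blueprint.
* `LowerBound p` : ideal-level lower bound (B).
* `UpperIdeal p` : ideal-level upper bound (A).
-/

set_option autoImplicit false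

open ModularCurve CuspForm

namespace Fermat.Agent.S16.helper16

/-- `σ'(k) = σ(k) - p σ(k/p)` (second term only if `p ∣ k`): the sum of the divisors of `k`
prime to `p` (for `p` prime). -/
def sigmaP (p k : ℕ) : ℤ :=
  (ArithmeticFunction.sigma 1 k : ℤ) -
    if p ∣ k then (p : ℤ) * (ArithmeticFunction.sigma 1 (k / p) : ℤ) else 0

/-- Statement (A') of the S16 blueprint: a cusp form of weight 2 on `Γ₀(p)` whose `q`-coefficients
are congruent to `σ'(k)` modulo `m` for all `k ≥ 1` forces `m ≠ 0` and `m ∣ n`. -/
def UpperBound (p : ℕ) : Prop :=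
  ∀ (m : ℕ) (G : CuspForm (CongruenceSubgroup.Gamma0 p) 2),
    (∀ k : ℕ, 1 ≤ k →
      ∃ c : ℤ, ModularFormClass.qCoeff (⇑G) k = ((sigmaP p k + (m : ℤ) * c : ℤ) : ℂ)) →
      m ≠ 0 ∧ m ∣ eisensteinNumerator p

/-- Statement (B) of the S16 blueprint (ideal level): a Hecke polynomial killing the integral
lattice has Eisenstein value divisible by `n`. -/
def LowerBound (p : ℕ) [NeZero p] : Prop :=
  ∀ P : HeckeAlg, ((latticeRestrictHom p ∅).toRingHom.comp (heckeEvalForms p 2)) P = 0 →
    (eisensteinNumerator p : ℤ) ∣ MvPolynomial.aeval (eisensteinSystem p) P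

/-- Statement (A) of the S16 blueprint (ideal level): some Hecke polynomial killing the integral
lattice has Eisenstein value dividing `n`. -/
def UpperIdeal (p : ℕ) [NeZero p] : Prop :=
  ∃ P : HeckeAlg, ((latticeRestrictHom p ∅).toRingHom.comp (heckeEvalForms p 2)) P = 0 ∧
    MvPolynomial.aeval (eisensteinSystem p) P ∣ (eisensteinNumerator p : ℤ)

end Fermat.Agent.S16.helper16
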