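import Mathlib
import Fermat.Agent.S16.helper16_Interface
import Fermat.Agent.S49.QCoeff

set_option autoImplicit false

open ModularCurve CuspForm CongruenceSubgroup ModularFormClass

namespace Fermat.Agent.S16.helper16

open ArithmeticFunction in
/-- Hecke relation for `σ = σ₁`. -/
theorem sigma_mul_prime (ℓ : ℕ) (hℓ : ℓ.Prime) (m : ℕ) (hm : 1 ≤ m) :
    (sigma 1 (m * ℓ) : ℤ) =
      (1 + ℓ) * (sigma 1 m : ℤ) - ℓ * (if ℓ ∣ m then (sigma 1 (m / ℓ) : ℤ) else 0) := by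
  obtain ⟨a, m', hm', rfl⟩ := Nat.exists_eq_pow_mul_and_not_dvd (by omega : m ≠ 0) ℓ hℓ.ne_one
  have hcop : ∀ b : ℕ, Nat.Coprime (ℓ ^ b) m' := fun b =>
    Nat.Coprime.pow_left b ((Nat.Prime.coprime_iff_not_dvd hℓ).mpr hm')
  have hmul : ∀ b : ℕ, (sigma 1 (ℓ ^ b * m') : ℤ) = (∑ i ∈ Finset.range (b + 1), (ℓ : ℤ) ^ i) * (sigma 1 m' : ℤ) := by
    intro b
    rw [isMultiplicative_sigma.map_mul_of_coprime (hcop b), sigma_apply_prime_pow hℓ]
    push_cast
    simp
  have e1 : ℓ ^ a * m' * ℓ = ℓ ^ (a + 1) * m' := by ring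
  rw [e1, hmul, hmul]
  rcases Nat.eq_zero_or_pos a with ha | ha
  · subst ha
    have : ¬ ℓ ∣ ℓ ^ 0 * m' := by simpa using hm'
    rw [if_neg this]
    simp [Finset.sum_range_succ]
  · have hd : ℓ ∣ ℓ ^ a * m' := Dvd.dvd.mul_right (dvd_pow_self ℓ (by omega)) m'
    rw [if_pos hd]
    obtain ⟨b, rfl⟩ : ∃ b, a = b + 1 := ⟨a - 1, by omega⟩
    have e2 : ℓ ^ (b + 1) * m' / ℓ = ℓ ^ b * m' := by
      rw [pow_succ, mul_assoc, mul_comm ℓ m', ← mul_assoc, Nat.mul_div_cancel _ hℓ.pos]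
    rw [e2, hmul]
    simp only [Finset.sum_range_succ]
    ring

theorem sigmaP_mul_self (p : ℕ) (hp : p.Prime) (m : ℕ) (hm : 1 ≤ m) :
    sigmaP p (m * p) = sigmaP p m := by
  unfold sigmaP
  rw [if_pos (Dvd.intro_left m rfl), Nat.mul_div_cancel _ hp.pos, sigma_mul_prime p hp m hm]
  split_ifs <;> ring

theorem sigmaP_mul_prime (p : ℕ) (hp : p.Prime) (ℓ : ℕ) (hℓ : ℓ.Prime) (hne : ¬ ℓ ∣ p)
    (m : ℕ) (hm : 1 ≤ m) :
    sigmaP p (m * ℓ) = (1 + ℓ) * sigmaP p m - ℓ * (if ℓ ∣ m then sigmaP p (m / ℓ) else 0) := by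
  have hlp : ℓ ≠ p := fun h => hne (h ▸ dvd_rfl)
  have hpl : ¬ p ∣ ℓ := fun h => hlp ((Nat.prime_dvd_prime_iff_eq hp hℓ).mp h).symm
  unfold sigmaP
  by_cases hpm : p ∣ m
  · obtain ⟨m₁, rfl⟩ := hpm
    have hm₁ : 1 ≤ m₁ := by
      rcases Nat.eq_zero_or_pos m₁ with h | h
      · subst h; simp at hm
      · exact h
    have h1 : p ∣ p * m₁ * ℓ := Dvd.dvd.mul_right (Dvd.intro m₁ rfl) ℓ
    have h2 : p * m₁ * ℓ / p = m₁ * ℓ := by
      rw [mul_assoc, Nat.mul_div_cancel_left _ hp.pos]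
    have h3 : p * m₁ / p = m₁ := Nat.mul_div_cancel_left _ hp.pos
    rw [if_pos h1, h2, if_pos (Dvd.intro m₁ rfl), h3, sigma_mul_prime ℓ hℓ (p * m₁) hm,
      sigma_mul_prime ℓ hℓ m₁ hm₁]
    by_cases hlm : ℓ ∣ m₁
    · have hlm' : ℓ ∣ p * m₁ := Dvd.dvd.mul_left hlm p
      obtain ⟨m₂, rfl⟩ := hlm
      have h4 : p * (ℓ * m₂) / ℓ = p * m₂ := by
        rw [mul_left_comm, Nat.mul_div_cancel_left _ hℓ.pos]
      have h5 : ℓ * m₂ / ℓ = m₂ := Nat.mul_div_cancel_left _ hℓ.pos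
      have h6 : p * m₂ / p = m₂ := Nat.mul_div_cancel_left _ hp.pos
      rw [if_pos hlm', if_pos (Dvd.intro m₂ rfl), if_pos hlm', h4, h5,
        if_pos (Dvd.intro m₂ rfl), h6]
      ring
    · have hlm' : ¬ ℓ ∣ p * m₁ := fun h =>
        (hℓ.dvd_mul.mp h).elim hne hlm
      rw [if_neg hlm', if_neg hlm, if_neg hlm']
      ring
  · have h1 : ¬ p ∣ m * ℓ := fun h => (hp.dvd_mul.mp h).elim hpm hpl
    rw [if_neg h1, if_neg hpm, sigma_mul_prime ℓ hℓ m hm]
    by_cases hlm : ℓ ∣ m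
    · have h2 : ¬ p ∣ m / ℓ := fun h => hpm (dvd_trans h (Nat.div_dvd_of_dvd hlm))
      rw [if_pos hlm, if_pos hlm, if_neg h2]
      ring
    · rw [if_neg hlm, if_neg hlm]
      ring


/-! ### Hecke polynomials `P_k` with `a₁(P_k f) = a_k(f)` and Eisenstein value `σ'(k)` -/

section HeckePoly

variable (p : ℕ) [Fact p.Prime]

/-- the action of a Hecke polynomial on cusp forms -/
noncomputable def ev (P : HeckeAlg) : Module.End ℂ (CuspForm (Gamma0 p) 2) :=
  (heckeEvalForms p 2 P : Module.End ℂ (CuspForm (Gamma0 p) 2))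

theorem ev_mul (P Q : HeckeAlg) : ev p (P * Q) = ev p P * ev p Q := by
  simp [ev, map_mul]

theorem ev_sub (P Q : HeckeAlg) : ev p (P - Q) = ev p P - ev p Q := by
  simp [ev, map_sub]

theorem ev_one : ev p 1 = 1 := by
  simp [ev, map_one]

theorem ev_C_mul (a : ℤ) (P : HeckeAlg) (f : CuspForm (Gamma0 p) 2) :
    ev p (MvPolynomial.C a * P) f = a • ev p P f := by
  rw [ev_mul]
  have : ev p (MvPolynomial.C a) = a • (1 : Module.End ℂ (CuspForm (Gamma0 p) 2)) := by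
    simp only [ev, heckeEvalForms_C]
    rw [Algebra.algebraMap_eq_smul_one]
    simp
  rw [this]
  simp

theorem ev_X_of_dvd {ℓ : Nat.Primes} (h : (ℓ : ℕ) ∣ p) :
    ev p (MvPolynomial.X ℓ) = heckeULin 2 h := by
  have := heckeEvalForms_heckeGen_of_dvd (N := p) (k := 2) h
  simp only [ev]
  rw [show (MvPolynomial.X ℓ : HeckeAlg) = heckeGen ℓ from rfl, this]
  rfl

theorem ev_X_of_not_dvd {ℓ : Nat.Primes} (h : ¬ (ℓ : ℕ) ∣ p) :
    ev p (MvPolynomial.X ℓ) = heckeTLin 2 ℓ.2 h := by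
  have := heckeEvalForms_heckeGen_of_not_dvd (N := p) (k := 2) h
  simp only [ev]
  rw [show (MvPolynomial.X ℓ : HeckeAlg) = heckeGen ℓ from rfl, this]
  rfl

open Fermat.Agent.S49 in
theorem exists_heckePoly (k : ℕ) (hk : 1 ≤ k) :
    ∃ P : HeckeAlg,
      (∀ f : CuspForm (Gamma0 p) 2, qCoeff ⇑(ev p P f) 1 = qCoeff ⇑f k) ∧
      MvPolynomial.aeval (eisensteinSystem p) P = sigmaP p k := by
  have hp : p.Prime := Fact.out
  induction k using Nat.strong_induction_on with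
  | _ n ih =>
    rcases Nat.eq_or_lt_of_le hk with hn1 | hn1
    · refine ⟨1, fun f => ?_, ?_⟩
      · rw [ev_one, ← hn1]; rfl
      · rw [← hn1, map_one]
        simp [sigmaP, Nat.Prime.one_lt hp |>.ne', Nat.dvd_one]
    have hn2 : n ≠ 1 := by omega
    set ℓ := n.minFac with hℓdef
    have hℓ : ℓ.Prime := Nat.minFac_prime hn2
    obtain ⟨m, hm⟩ : ℓ ∣ n := Nat.minFac_dvd n
    have hmpos : 1 ≤ m := by
      rcases Nat.eq_zero_or_pos m with h0 | h0
      · rw [h0, mul_zero] at hm; omega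
      · exact h0
    have hmlt : m < n := by
      rw [hm]
      calc m = 1 * m := (one_mul _).symm
        _ < ℓ * m := Nat.mul_lt_mul_of_pos_right hℓ.one_lt hmpos
    obtain ⟨Pm, hPm, hPm'⟩ := ih m hmlt hmpos
    have hnm : n = m * ℓ := by rw [hm, mul_comm]
    set L : Nat.Primes := ⟨ℓ, hℓ⟩ with hL
    by_cases hℓN : ℓ ∣ p
    · -- `U_p`
      have hℓp : ℓ = p := (Nat.prime_dvd_prime_iff_eq hℓ hp).mp hℓN
      refine ⟨Pm * MvPolynomial.X L, fun f => ?_, ?_⟩
      · rw [ev_mul, Module.End.mul_apply, hPm, ev_X_of_dvd p (ℓ := L) hℓN,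
          qc_heckeU hℓ hℓN, ← hnm]
      · rw [map_mul, hPm', MvPolynomial.aeval_X, eisensteinSystem_of_dvd (ℓ := L) hℓN, mul_one,
          hnm, hℓp, sigmaP_mul_self p hp m hmpos]
    · by_cases hd : ℓ ∣ m
      · obtain ⟨m', hm'⟩ := hd
        have hm'pos : 1 ≤ m' := by
          rcases Nat.eq_zero_or_pos m' with h0 | h0
          · rw [h0, mul_zero] at hm'; omega
          · exact h0
        have hm'lt : m' < n := by
          have : m' < m := by
            rw [hm']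
            calc m' = 1 * m' := (one_mul _).symm
              _ < ℓ * m' := Nat.mul_lt_mul_of_pos_right hℓ.one_lt hm'pos
          omega
        obtain ⟨Pm', hPm'1, hPm'2⟩ := ih m' hm'lt hm'pos
        have hdiv : m / ℓ = m' := by rw [hm', Nat.mul_div_cancel_left _ hℓ.pos]
        refine ⟨Pm * MvPolynomial.X L - MvPolynomial.C (ℓ : ℤ) * Pm', fun f => ?_, ?_⟩
        · rw [ev_sub, LinearMap.sub_apply, ev_mul, Module.End.mul_apply, ev_C_mul, qc_sub, hPm,
            qc_zsmul, hPm'1, ev_X_of_not_dvd p (ℓ := L) hℓN, qc_heckeT hℓ hℓN,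
            if_pos ⟨m', hm'⟩, hdiv, ← hnm]
          simp
        · rw [map_sub, map_mul, map_mul, hPm', hPm'2, MvPolynomial.aeval_X, MvPolynomial.aeval_C,
            eisensteinSystem_of_not_dvd (ℓ := L) hℓN, hnm,
            sigmaP_mul_prime p hp ℓ hℓ hℓN m hmpos, if_pos ⟨m', hm'⟩, hdiv]
          simp
          ring
      · refine ⟨Pm * MvPolynomial.X L, fun f => ?_, ?_⟩
        · rw [ev_mul, Module.End.mul_apply, hPm, ev_X_of_not_dvd p (ℓ := L) hℓN,
            qc_heckeT hℓ hℓN, if_neg hd, add_zero, ← hnm]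
        · rw [map_mul, hPm', MvPolynomial.aeval_X, eisensteinSystem_of_not_dvd (ℓ := L) hℓN, hnm,
            sigmaP_mul_prime p hp ℓ hℓ hℓN m hmpos, if_neg hd]
          simp
          ring

end HeckePoly

/-! ### The pairing `T_L × L → ℤ`, `(t, f) ↦ a₁(t f)` -/

section Duality

variable (p : ℕ) [Fact p.Prime]

/-- the ring hom of the frozen statement -/
noncomputable def phi : HeckeAlg →+* ↥(heckeLatticeAlgebra p ∅) :=
  (latticeRestrictHom p ∅).toRingHom.comp (heckeEvalForms p 2)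

theorem phi_apply (P : HeckeAlg) (f : ↥(intLattice p 2)) :
    ((((phi p P : ↥(heckeLatticeAlgebra p ∅)) : Module.End ℤ ↥(intLattice p 2)) f :
      ↥(intLattice p 2)) : CuspForm (Gamma0 p) 2) = ev p P (f : CuspForm (Gamma0 p) 2) := rfl

theorem heckeEvalForms_surjective : Function.Surjective (heckeEvalForms p 2) := by
  intro t
  have hle : heckeAlgebra p 2 ∅ ≤
      ((heckeAlgebra p 2 ∅).val.comp (MvPolynomial.aeval (heckeFormsGen p 2))).range := by
    refine Algebra.adjoin_le ?_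
    rintro T (⟨ℓ, hℓ, hℓN, -, rfl⟩ | ⟨q, hqN, hq, -, rfl⟩)
    · exact ⟨MvPolynomial.X (⟨ℓ, hℓ⟩ : Nat.Primes),
        ev_X_of_not_dvd p (ℓ := (⟨ℓ, hℓ⟩ : Nat.Primes)) hℓN⟩
    · exact ⟨MvPolynomial.X (⟨q, hq⟩ : Nat.Primes),
        ev_X_of_dvd p (ℓ := (⟨q, hq⟩ : Nat.Primes)) hqN⟩
  obtain ⟨P, hP⟩ := hle t.2
  exact ⟨P, Subtype.ext hP⟩

theorem phi_surjective : Function.Surjective (phi p) :=
  (latticeRestrictHom_surjective p ∅).comp (heckeEvalForms_surjective p)

omit [Fact p.Prime] in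
theorem exists_int_coeff (f : ↥(intLattice p 2)) (n : ℕ) :
    ∃ m : ℤ, qCoeff ⇑(f : CuspForm (Gamma0 p) 2) n = (m : ℂ) :=
  (P2MW.S_CuspForm_intLattice_fg.W3WsD.mem_intLattice_iff _).mp f.2 n

/-- the `n`-th coefficient of an element of the integral lattice, as an integer -/
noncomputable def coeffZ (n : ℕ) : ↥(intLattice p 2) →ₗ[ℤ] ℤ where
  toFun f := (exists_int_coeff p f n).choose
  map_add' f g := by
    apply Int.cast_injective (α := ℂ)
    rw [← (exists_int_coeff p (f + g) n).choose_spec]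
    push_cast
    rw [← (exists_int_coeff p f n).choose_spec, ← (exists_int_coeff p g n).choose_spec]
    exact Fermat.Agent.S49.qc_add _ _ n
  map_smul' c f := by
    apply Int.cast_injective (α := ℂ)
    rw [← (exists_int_coeff p (c • f) n).choose_spec]
    simp only [RingHom.id_apply, smul_eq_mul]
    push_cast
    rw [← (exists_int_coeff p f n).choose_spec]
    exact Fermat.Agent.S49.qc_zsmul c _ n

omit [Fact p.Prime] in
theorem coeffZ_spec (n : ℕ) (f : ↥(intLattice p 2)) :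
    ((coeffZ p n f : ℤ) : ℂ) = qCoeff ⇑(f : CuspForm (Gamma0 p) 2) n :=
  ((exists_int_coeff p f n).choose_spec).symm

omit [Fact p.Prime] in
theorem eq_zero_of_coeffZ (f : ↥(intLattice p 2)) (h : ∀ k : ℕ, 1 ≤ k → coeffZ p k f = 0) :
    f = 0 := by
  apply Subtype.ext
  apply Fermat.Agent.S49.eq_zero_of_forall_qc
  intro n
  rcases Nat.eq_zero_or_pos n with h0 | h0
  · rw [h0]; exact Fermat.Agent.S49.qc_cusp_zero _
  · rw [← coeffZ_spec, h n h0]; simp

/-- the pairing `(t, f) ↦ a₁(t f)` -/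
noncomputable def pairing : ↥(heckeLatticeAlgebra p ∅) →ₗ[ℤ] ↥(intLattice p 2) →ₗ[ℤ] ℤ :=
  LinearMap.mk₂ ℤ (fun t f => coeffZ p 1 ((t : Module.End ℤ ↥(intLattice p 2)) f))
    (fun t₁ t₂ f => by simp [map_add])
    (fun c t f => by simp)
    (fun t f₁ f₂ => by simp [map_add])
    (fun c t f => by simp)

theorem pairing_apply (t : ↥(heckeLatticeAlgebra p ∅)) (f : ↥(intLattice p 2)) :
    pairing p t f = coeffZ p 1 ((t : Module.End ℤ ↥(intLattice p 2)) f) := rfl

theorem coeffZ_one_phi (P : HeckeAlg) (k : ℕ)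
    (hP : ∀ f : CuspForm (Gamma0 p) 2, qCoeff ⇑(ev p P f) 1 = qCoeff ⇑f k)
    (f : ↥(intLattice p 2)) :
    coeffZ p 1 (((phi p P : ↥(heckeLatticeAlgebra p ∅)) : Module.End ℤ ↥(intLattice p 2)) f) =
      coeffZ p k f := by
  apply Int.cast_injective (α := ℂ)
  rw [coeffZ_spec, coeffZ_spec, phi_apply, hP]

theorem pairing_injective : Function.Injective (pairing p) := by
  refine (injective_iff_map_eq_zero _).mpr fun t ht => ?_
  apply Subtype.ext
  refine LinearMap.ext fun f => ?_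
  refine eq_zero_of_coeffZ p _ fun k hk => ?_
  obtain ⟨P, hP, -⟩ := exists_heckePoly p k hk
  rw [← coeffZ_one_phi p P k hP]
  have hcomm : (phi p P) * t = t * (phi p P) := mul_comm _ _
  have h1 : ((phi p P : ↥(heckeLatticeAlgebra p ∅)) : Module.End ℤ ↥(intLattice p 2))
      ((t : Module.End ℤ ↥(intLattice p 2)) f) =
      (t : Module.End ℤ ↥(intLattice p 2))
        (((phi p P : ↥(heckeLatticeAlgebra p ∅)) : Module.End ℤ ↥(intLattice p 2)) f) := by
    have := congrArg (fun x : ↥(heckeLatticeAlgebra p ∅) =>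
      (x : Module.End ℤ ↥(intLattice p 2)) f) hcomm
    simpa using this
  rw [h1, ← pairing_apply, ht]
  rfl

theorem pairing_flip_injective : Function.Injective (pairing p).flip := by
  refine (injective_iff_map_eq_zero _).mpr fun f hf => ?_
  refine eq_zero_of_coeffZ p _ fun k hk => ?_
  obtain ⟨P, hP, -⟩ := exists_heckePoly p k hk
  rw [← coeffZ_one_phi p P k hP, ← pairing_apply, ← LinearMap.flip_apply, hf]
  rfl

theorem finrank_heckeLattice_eq :
    Module.finrank ℤ ↥(heckeLatticeAlgebra p ∅) = Module.finrank ℤ ↥(intLattice p 2) := by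
  have hLfin := intLattice.moduleFinite p
  have hLfree := intLattice.moduleFree p
  have h1 : Module.finrank ℤ ↥(heckeLatticeAlgebra p ∅) ≤
      Module.finrank ℤ (↥(intLattice p 2) →ₗ[ℤ] ℤ) :=
    LinearMap.finrank_le_finrank_of_injective (pairing_injective p)
  have h2 : Module.finrank ℤ ↥(intLattice p 2) ≤
      Module.finrank ℤ (↥(heckeLatticeAlgebra p ∅) →ₗ[ℤ] ℤ) :=
    LinearMap.finrank_le_finrank_of_injective (pairing_flip_injective p)
  rw [Module.finrank_linearMap, Module.finrank_self, mul_one] at h1 h2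
  exact le_antisymm h1 h2

/-- every functional on `T_L` is, up to a positive integer multiple, of the form
`t ↦ a₁(t g)` -/
theorem exists_nsmul_eq_pairing (lam : ↥(heckeLatticeAlgebra p ∅) →ₗ[ℤ] ℤ) :
    ∃ (N : ℕ) (g : ↥(intLattice p 2)), 0 < N ∧ (pairing p).flip g = N • lam := by
  have hLfin := intLattice.moduleFinite p
  have hLfree := intLattice.moduleFree p
  have hrank : Module.finrank ℤ ↥(LinearMap.range (pairing p).flip) =
      Module.finrank ℤ (↥(heckeLatticeAlgebra p ∅) →ₗ[ℤ] ℤ) := by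
    rw [LinearMap.finrank_range_of_inj (pairing_flip_injective p), Module.finrank_linearMap,
      Module.finrank_self, mul_one, finrank_heckeLattice_eq]
  have hfin : Finite ((↥(heckeLatticeAlgebra p ∅) →ₗ[ℤ] ℤ) ⧸ LinearMap.range (pairing p).flip) :=
    Submodule.finiteQuotientOfFreeOfRankEq _ hrank
  have hidx : (LinearMap.range (pairing p).flip).toAddSubgroup.index ≠ 0 := by
    have : Finite ((↥(heckeLatticeAlgebra p ∅) →ₗ[ℤ] ℤ) ⧸
        (LinearMap.range (pairing p).flip).toAddSubgroup) := hfin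
    exact AddSubgroup.index_ne_zero_of_finite
  have hmem : (LinearMap.range (pairing p).flip).toAddSubgroup.index • lam ∈
      LinearMap.range (pairing p).flip :=
    AddSubgroup.nsmul_index_mem (LinearMap.range (pairing p).flip).toAddSubgroup lam
  obtain ⟨g, hg⟩ := hmem
  exact ⟨_, g, Nat.pos_of_ne_zero hidx, hg⟩

/-- the Eisenstein character `χ₀` -/
noncomputable def chi0 : HeckeAlg →+* ℤ :=
  (MvPolynomial.aeval (R := ℤ) (eisensteinSystem p)).toRingHom

omit [Fact p.Prime] in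
theorem chi0_apply (P : HeckeAlg) :
    chi0 p P = MvPolynomial.aeval (eisensteinSystem p) P := rfl

omit [Fact p.Prime] in
theorem chi0_surjective : Function.Surjective (chi0 p) := fun a =>
  ⟨MvPolynomial.C a, by rw [chi0_apply, MvPolynomial.aeval_C]; rfl⟩

/-- a generator `d ≥ 0` of the ideal `χ₀(ker φ)` of `ℤ` -/
theorem exists_generator :
    ∃ d : ℕ, (∃ P : HeckeAlg, phi p P = 0 ∧ chi0 p P = (d : ℤ)) ∧
      ∀ P : HeckeAlg, phi p P = 0 → (d : ℤ) ∣ chi0 p P := by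
  obtain ⟨d, hd⟩ : ∃ d : ℕ, Ideal.map (chi0 p) (RingHom.ker (phi p)) = Ideal.span {(d : ℤ)} := by
    refine ⟨(Submodule.IsPrincipal.generator
      (Ideal.map (chi0 p) (RingHom.ker (phi p)))).natAbs, ?_⟩
    rw [Int.span_natAbs, Ideal.span_singleton_generator]
  have hmemJ : ∀ a : ℤ, a ∈ Ideal.map (chi0 p) (RingHom.ker (phi p)) ↔
      ∃ P : HeckeAlg, phi p P = 0 ∧ chi0 p P = a := by
    intro a
    rw [Ideal.mem_map_iff_of_surjective _ (chi0_surjective p)]
    constructor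
    · rintro ⟨P, hP, rfl⟩
      exact ⟨P, RingHom.mem_ker.mp hP, rfl⟩
    · rintro ⟨P, hP, rfl⟩
      exact ⟨P, RingHom.mem_ker.mpr hP, rfl⟩
  refine ⟨d, (hmemJ d).mp (by rw [hd]; exact Ideal.mem_span_singleton_self _), fun P hP => ?_⟩
  have h : chi0 p P ∈ Ideal.map (chi0 p) (RingHom.ker (phi p)) := (hmemJ _).mpr ⟨P, hP, rfl⟩
  rw [hd, Ideal.mem_span_singleton] at h
  exact h

/-- a `ℤ`-linear section of `φ` -/
theorem exists_section :
    ∃ s : ↥(heckeLatticeAlgebra p ∅) →ₗ[ℤ] HeckeAlg, ∀ t, phi p (s t) = t := by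
  obtain ⟨s, hs⟩ := Module.projective_lifting_property
    ((phi p).toAddMonoidHom.toIntLinearMap)
    (LinearMap.id : ↥(heckeLatticeAlgebra p ∅) →ₗ[ℤ] ↥(heckeLatticeAlgebra p ∅))
    (phi_surjective p)
  exact ⟨s, fun t => LinearMap.congr_fun hs t⟩

/-- **Duality**: the form-level upper bound (A') implies the ideal-level upper bound (A). -/
theorem upperIdeal_of_upperBound (hU : UpperBound p) : UpperIdeal p := by
  obtain ⟨d, ⟨P₀, hP₀, hP₀d⟩, hdvd⟩ := exists_generator p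
  obtain ⟨s, hs⟩ := exists_section p
  -- a functional `lam` on `T_L` lifting `χ₀` modulo `d`
  obtain ⟨lam, hlamdef⟩ : ∃ lam : ↥(heckeLatticeAlgebra p ∅) →ₗ[ℤ] ℤ,
      ∀ t, lam t = chi0 p (s t) :=
    ⟨(chi0 p).toAddMonoidHom.toIntLinearMap ∘ₗ s, fun t => rfl⟩
  have hlam : ∀ P : HeckeAlg, (d : ℤ) ∣ chi0 p P - lam (phi p P) := by
    intro P
    have h3 := hdvd (P - s (phi p P)) (by rw [map_sub, hs, sub_self])
    rwa [map_sub, ← hlamdef] at h3
  -- the form `G`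
  obtain ⟨N, g, hN, hg⟩ := exists_nsmul_eq_pairing p lam
  have hG : ∀ k : ℕ, 1 ≤ k → ∃ c : ℤ,
      qCoeff ⇑(((N : ℂ)⁻¹) • (g : CuspForm (Gamma0 p) 2)) k =
        ((sigmaP p k + (d : ℤ) * c : ℤ) : ℂ) := by
    intro k hk
    obtain ⟨P, hP1, hP2⟩ := exists_heckePoly p k hk
    obtain ⟨c, hc⟩ := hlam P
    refine ⟨-c, ?_⟩
    have h3 : (coeffZ p k g : ℤ) = N * lam (phi p P) := by
      rw [← coeffZ_one_phi p P k hP1 g, ← pairing_apply, ← LinearMap.flip_apply, hg]
      simp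
    have h4 : lam (phi p P) = sigmaP p k - d * c := by
      have : chi0 p P = sigmaP p k := hP2
      rw [this] at hc
      linarith
    rw [Fermat.Agent.S49.qc_smul, ← coeffZ_spec, h3, h4]
    have hN' : (N : ℂ) ≠ 0 := Nat.cast_ne_zero.mpr hN.ne'
    push_cast
    field_simp
    ring
  obtain ⟨-, hdn⟩ := hU d _ hG
  refine ⟨P₀, hP₀, ?_⟩
  have : MvPolynomial.aeval (eisensteinSystem p) P₀ = (d : ℤ) := hP₀d
  rw [this]
  exact_mod_cast hdn

end Duality

end Fermat.Agent.S16.helper16
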