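import Mathlib
import Fermat.Agent.S16.helper16_Duality

/-!
# S16 [D1]: the cardinality from the ideal-level bounds

`T_L / φ(I) ≃ ZMod n` as soon as `n ∣ χ₀(P)` for all `P ∈ ker φ` and `χ₀(P₀) ∣ n` for some
`P₀ ∈ ker φ`.
-/

set_option autoImplicit false

open ModularCurve CuspForm CongruenceSubgroup

namespace Fermat.Agent.S16.helper16

variable (p : ℕ) [Fact p.Prime]

omit [Fact p.Prime] in
theorem eisensteinIdeal_eq_ker : eisensteinIdeal p = RingHom.ker (chi0 p) := rfl

theorem eisensteinNumerator_pos : 0 < eisensteinNumerator p := by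
  have hp : p.Prime := Fact.out
  unfold eisensteinNumerator
  have h1 : 0 < p - 1 := by have := hp.two_le; omega
  exact Nat.div_pos (Nat.le_of_dvd h1 (Nat.gcd_dvd_left _ _)) (Nat.gcd_pos_of_pos_left _ h1)

/-- the reduction of the Eisenstein character modulo `n` -/
noncomputable def chiMod : HeckeAlg →+* ZMod (eisensteinNumerator p) :=
  (Int.castRingHom (ZMod (eisensteinNumerator p))).comp (chi0 p)

omit [Fact p.Prime] in
theorem chiMod_apply (P : HeckeAlg) :
    chiMod p P = ((chi0 p P : ℤ) : ZMod (eisensteinNumerator p)) := rfl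

omit [Fact p.Prime] in
theorem chiMod_eq_zero_iff (P : HeckeAlg) :
    chiMod p P = 0 ↔ (eisensteinNumerator p : ℤ) ∣ chi0 p P := by
  rw [chiMod_apply, ZMod.intCast_zmod_eq_zero_iff_dvd]

omit [Fact p.Prime] in
theorem chiMod_surjective : Function.Surjective (chiMod p) :=
  (ZMod.intCast_surjective).comp (chi0_surjective p)

omit [Fact p.Prime] in
theorem chi0_sub_C_mul (P P₀ : HeckeAlg) (c : ℤ) (h : chi0 p P = chi0 p P₀ * c) :
    chi0 p (P - MvPolynomial.C c * P₀) = 0 := by
  have h1 : chi0 p (MvPolynomial.C c) = c := by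
    rw [chi0_apply, MvPolynomial.aeval_C]; rfl
  rw [map_sub, map_mul, h1, h]
  ring

theorem phi_sub_C_mul (P P₀ : HeckeAlg) (c : ℤ) (h : phi p P₀ = 0) :
    phi p (P - MvPolynomial.C c * P₀) = phi p P := by
  rw [map_sub, map_mul, h, mul_zero, sub_zero]

theorem ker_phi_le (hB : LowerBound p) : RingHom.ker (phi p) ≤ RingHom.ker (chiMod p) := by
  intro P hP
  rw [RingHom.mem_ker] at hP ⊢
  rw [chiMod_eq_zero_iff]
  exact hB P hP

/-- the induced ring hom `ψ : T_L → ZMod n` -/
noncomputable def psiMod (hB : LowerBound p) :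
    ↥(heckeLatticeAlgebra p ∅) →+* ZMod (eisensteinNumerator p) :=
  RingHom.liftOfSurjective (phi p) (phi_surjective p) ⟨chiMod p, ker_phi_le p hB⟩

theorem psiMod_phi (hB : LowerBound p) (P : HeckeAlg) :
    psiMod p hB (phi p P) = chiMod p P :=
  RingHom.liftOfRightInverse_comp_apply _ _ _ _ P

theorem psiMod_surjective (hB : LowerBound p) : Function.Surjective (psiMod p hB) := by
  intro a
  obtain ⟨P, rfl⟩ := chiMod_surjective p a
  exact ⟨phi p P, psiMod_phi p hB P⟩

theorem ker_psiMod (hA : UpperIdeal p) (hB : LowerBound p) :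
    RingHom.ker (psiMod p hB) = Ideal.map (phi p) (eisensteinIdeal p) := by
  ext t
  rw [RingHom.mem_ker, Ideal.mem_map_iff_of_surjective _ (phi_surjective p)]
  constructor
  · intro ht
    obtain ⟨P, rfl⟩ := phi_surjective p t
    rw [psiMod_phi, chiMod_eq_zero_iff] at ht
    obtain ⟨P₀, hP₀, hP₀n⟩ := hA
    obtain ⟨c, hc⟩ := dvd_trans hP₀n ht
    refine ⟨P - MvPolynomial.C c * P₀, ?_, phi_sub_C_mul p P P₀ c hP₀⟩
    rw [eisensteinIdeal_eq_ker, RingHom.mem_ker]
    exact chi0_sub_C_mul p P P₀ c hc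
  · rintro ⟨P, hP, rfl⟩
    rw [psiMod_phi, chiMod_eq_zero_iff]
    rw [eisensteinIdeal_eq_ker, RingHom.mem_ker] at hP
    rw [hP]
    exact dvd_zero _

theorem card_eq_of_ideal_bounds (hA : UpperIdeal p) (hB : LowerBound p) :
    Nat.card (↥(heckeLatticeAlgebra p ∅) ⧸
        Ideal.map ((latticeRestrictHom p ∅).toRingHom.comp (heckeEvalForms p 2))
          (eisensteinIdeal p)) =
      eisensteinNumerator p := by
  have hn := eisensteinNumerator_pos p
  have e : (↥(heckeLatticeAlgebra p ∅) ⧸ Ideal.map (phi p) (eisensteinIdeal p)) ≃+*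
      ZMod (eisensteinNumerator p) :=
    (Ideal.quotEquivOfEq (ker_psiMod p hA hB).symm).trans
      (RingHom.quotientKerEquivOfSurjective (psiMod_surjective p hB))
  have hcard := Nat.card_congr e.toEquiv
  rw [Nat.card_zmod] at hcard
  exact hcard

end Fermat.Agent.S16.helper16

namespace Fermat.Agent.S16.helper16

/-- **Conditional S16**: the frozen statement from the form-level upper bound (A') and the
ideal-level lower bound (B). -/
theorem s16_of_bounds (p : ℕ) [Fact p.Prime] (hU : UpperBound p) (hL : LowerBound p) :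
    Nat.card (↥(heckeLatticeAlgebra p ∅) ⧸
        Ideal.map ((latticeRestrictHom p ∅).toRingHom.comp (heckeEvalForms p 2))
          (eisensteinIdeal p)) =
      eisensteinNumerator p :=
  card_eq_of_ideal_bounds p (upperIdeal_of_upperBound p hU) hL

end Fermat.Agent.S16.helper16
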