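import Fermat.Agent.S16.helper41_Cosets
import Mathlib.NumberTheory.ModularForms.LevelOne.DimensionFormula
import Fermat.Prelude.Def_ModularForm_HeckeOperatorForms
import Fermat.Prelude.Def_FLTPrelim_Modularity
import Fermat.Prelude.Thm_ModularFormClass_qCoeff_heckeU
import Fermat.Prelude.Thm_UpperHalfPlane_qCoeff_heckeU
import Fermat.Prelude.Thm_CongruenceSubgroup_one_mem_strictPeriods_Gamma0

/-!
# The Fricke involution `W_p` on `M_k(Γ₀(p))` and trace identities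

* `frickeMatrix p = !![0, -1; p, 0]`, `fricke p F = F ∣[k] W_p` as a modular form on `Γ₀(p)`;
* `(f ∣ W_p) ∣ heckeMatrix p j = p ^ (k - 2) • f ∣ S T^j`;
* weight `2`: `F = U_p F̃`, `F̃ = U_p F` for `F̃ = - F ∣ W_p`;
* the quadratic identity `p F² + U_p (F̃²) = (p + 1) a₀(F)² E₄`.
-/

set_option autoImplicit false

namespace Fermat.Agent.S16.helper41

open UpperHalfPlane ModularForm CongruenceSubgroup Matrix
open scoped MatrixGroups

/-- If `A = c • B` as matrices (`c ≠ 0`, `det B > 0`), the slash actions of `A` and `B` differ by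
the scalar `|c| ^ (2 (k - 1)) * c ^ (-k)`. -/
lemma slash_eq_of_val_eq_smul (k : ℤ) (f : ℍ → ℂ) (A B : GL (Fin 2) ℝ) (c : ℝ) (hc : c ≠ 0)
    (hB : 0 < B.det.val)
    (hAB : (A : Matrix (Fin 2) (Fin 2) ℝ) = c • (B : Matrix (Fin 2) (Fin 2) ℝ)) :
    f ∣[k] A = (((|c| : ℝ) : ℂ) ^ (2 * (k - 1)) * (c : ℂ) ^ (-k)) • f ∣[k] B := by
  have hdet : A.det.val = c ^ 2 * B.det.val := by
    rw [Matrix.GeneralLinearGroup.val_det_apply, Matrix.GeneralLinearGroup.val_det_apply, hAB,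
      Matrix.det_smul]
    simp
  have hA : 0 < A.det.val := by
    rw [hdet]; positivity
  have e00 : (A : Matrix (Fin 2) (Fin 2) ℝ) 0 0 = c * (B : Matrix (Fin 2) (Fin 2) ℝ) 0 0 := by
    rw [hAB]; rfl
  have e01 : (A : Matrix (Fin 2) (Fin 2) ℝ) 0 1 = c * (B : Matrix (Fin 2) (Fin 2) ℝ) 0 1 := by
    rw [hAB]; rfl
  have e10 : (A : Matrix (Fin 2) (Fin 2) ℝ) 1 0 = c * (B : Matrix (Fin 2) (Fin 2) ℝ) 1 0 := by
    rw [hAB]; rfl
  have e11 : (A : Matrix (Fin 2) (Fin 2) ℝ) 1 1 = c * (B : Matrix (Fin 2) (Fin 2) ℝ) 1 1 := by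
    rw [hAB]; rfl
  have hc' : (c : ℂ) ≠ 0 := by exact_mod_cast hc
  have hden : ∀ τ : ℍ, denom A τ = c * denom B τ := by
    intro τ
    simp only [denom, e10, e11]
    push_cast
    ring
  have hnum : ∀ τ : ℍ, num A τ = c * num B τ := by
    intro τ
    simp only [num, e00, e01]
    push_cast
    ring
  have hsmul : ∀ τ : ℍ, A • τ = B • τ := by
    intro τ
    apply UpperHalfPlane.ext
    rw [coe_smul_of_det_pos hA, coe_smul_of_det_pos hB, hnum, hden]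
    rw [mul_div_mul_left _ _ hc']
  ext τ
  rw [Pi.smul_apply, slash_apply, slash_apply, hsmul, hden, hdet]
  have hσA : σ A = .refl ℝ ℂ := by rw [σ, if_pos hA]
  have hσB : σ B = .refl ℝ ℂ := by rw [σ, if_pos hB]
  rw [hσA, hσB]
  simp only [ContinuousAlgEquiv.refl_apply, smul_eq_mul]
  rw [abs_mul, abs_pow]
  push_cast
  rw [mul_zpow, mul_zpow, ← zpow_natCast (((|c| : ℝ) : ℂ)) 2, ← _root_.zpow_mul]
  push_cast
  ring

/-- The Fricke matrix `W_p = [[0,-1],[p,0]]` (`= 1` for `p = 0`). -/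
noncomputable def frickeMatrix (p : ℕ) : GL (Fin 2) ℝ :=
  if hp : p = 0 then 1 else
    Matrix.GeneralLinearGroup.mkOfDetNeZero !![0, -1; (p : ℝ), 0]
      (by rw [Matrix.det_fin_two_of]; simpa using hp)

lemma val_frickeMatrix {p : ℕ} (hp : p ≠ 0) :
    ((frickeMatrix p : GL (Fin 2) ℝ) : Matrix (Fin 2) (Fin 2) ℝ) = !![0, -1; (p : ℝ), 0] := by
  simp [frickeMatrix, hp, Matrix.GeneralLinearGroup.mkOfDetNeZero]

lemma det_frickeMatrix {p : ℕ} (hp : p ≠ 0) : ((frickeMatrix p).det : ℝ) = p := by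
  rw [Matrix.GeneralLinearGroup.val_det_apply, val_frickeMatrix hp, Matrix.det_fin_two_of]
  ring

lemma det_frickeMatrix_pos {p : ℕ} (hp : p ≠ 0) : 0 < ((frickeMatrix p).det : ℝ) := by
  rw [det_frickeMatrix hp]; exact_mod_cast Nat.pos_of_ne_zero hp

lemma val_mapGL (g : SL(2, ℤ)) :
    ((Matrix.SpecialLinearGroup.mapGL ℝ g : GL (Fin 2) ℝ) : Matrix (Fin 2) (Fin 2) ℝ)
      = (g : Matrix (Fin 2) (Fin 2) ℤ).map (Int.cast : ℤ → ℝ) := by
  ext i j
  simp [Matrix.SpecialLinearGroup.mapGL_coe_matrix]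

lemma det_mapGL_pos (g : SL(2, ℤ)) :
    0 < ((Matrix.SpecialLinearGroup.mapGL ℝ g : GL (Fin 2) ℝ).det : ℝ) := by
  simp

lemma val_frickeMatrix_mul_heckeMatrix {p : ℕ} (hp : p ≠ 0) (j : ℕ) :
    ((frickeMatrix p * heckeMatrix p j : GL (Fin 2) ℝ) : Matrix (Fin 2) (Fin 2) ℝ)
      = (p : ℝ) • ((Matrix.SpecialLinearGroup.mapGL ℝ (stRep j) : GL (Fin 2) ℝ) :
          Matrix (Fin 2) (Fin 2) ℝ) := by
  rw [Matrix.GeneralLinearGroup.coe_mul, val_frickeMatrix hp, val_heckeMatrix hp, val_mapGL,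
    coe_stRep]
  ext a b
  fin_cases a <;> fin_cases b <;> simp [Matrix.mul_apply, Fin.sum_univ_two]

/-- `(f ∣ W_p) ∣ heckeMatrix p j = p ^ (k - 2) • f ∣ S T^j`. -/
theorem slash_frickeMatrix_heckeMatrix' {p : ℕ} (hp : p ≠ 0) (k : ℤ) (f : ℍ → ℂ) (j : ℕ) :
    (f ∣[k] frickeMatrix p) ∣[k] heckeMatrix p j
      = (p : ℂ) ^ (k - 2) • (f ∣[k] (ModularGroup.S * ModularGroup.T ^ j : SL(2, ℤ))) := by
  have hp' : (p : ℝ) ≠ 0 := by exact_mod_cast hp
  have hpc : (p : ℂ) ≠ 0 := by exact_mod_cast hp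
  rw [← SlashAction.slash_mul,
    slash_eq_of_val_eq_smul k f _ _ (p : ℝ) hp' (det_mapGL_pos (stRep j))
      (val_frickeMatrix_mul_heckeMatrix hp j), SL_slash]
  congr 1
  rw [abs_of_pos (by exact_mod_cast Nat.pos_of_ne_zero hp : (0 : ℝ) < p)]
  push_cast
  rw [← zpow_add₀ hpc]
  congr 1
  ring

lemma val_frickeMatrix_sq {p : ℕ} (hp : p ≠ 0) :
    ((frickeMatrix p * frickeMatrix p : GL (Fin 2) ℝ) : Matrix (Fin 2) (Fin 2) ℝ)
      = (-(p : ℝ)) • ((1 : GL (Fin 2) ℝ) : Matrix (Fin 2) (Fin 2) ℝ) := by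
  rw [Matrix.GeneralLinearGroup.coe_mul, val_frickeMatrix hp]
  ext a b
  fin_cases a <;> fin_cases b <;> simp [Matrix.mul_apply, Fin.sum_univ_two]

/-- `W_p² = -p` acts on weight `k` through the scalar `(-1)^k p^(k-2)`. -/
theorem slash_frickeMatrix_frickeMatrix {p : ℕ} (hp : p ≠ 0) (k : ℤ) (f : ℍ → ℂ) :
    (f ∣[k] frickeMatrix p) ∣[k] frickeMatrix p
      = ((p : ℂ) ^ (2 * (k - 1)) * (-(p : ℂ)) ^ (-k)) • f := by
  have hp' : (-(p : ℝ)) ≠ 0 := by simpa using hp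
  rw [← SlashAction.slash_mul,
    slash_eq_of_val_eq_smul k f _ 1 (-(p : ℝ)) hp' (by simp) (val_frickeMatrix_sq hp),
    SlashAction.slash_one]
  congr 1
  rw [abs_neg, abs_of_pos (by exact_mod_cast Nat.pos_of_ne_zero hp : (0 : ℝ) < p)]
  push_cast
  rfl

/-- In weight `2` the Fricke operator is an involution. -/
theorem slash_frickeMatrix_frickeMatrix_two {p : ℕ} (hp : p ≠ 0) (f : ℍ → ℂ) :
    (f ∣[(2 : ℤ)] frickeMatrix p) ∣[(2 : ℤ)] frickeMatrix p = f := by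
  have hpc : (p : ℂ) ≠ 0 := by exact_mod_cast hp
  rw [slash_frickeMatrix_frickeMatrix hp]
  have : (p : ℂ) ^ (2 * ((2 : ℤ) - 1)) * (-(p : ℂ)) ^ (-(2 : ℤ)) = 1 := by
    have h1 : (2 : ℤ) * (2 - 1) = 2 := by norm_num
    rw [h1, _root_.zpow_neg, zpow_ofNat, zpow_ofNat, neg_sq]
    exact mul_inv_cancel₀ (pow_ne_zero 2 hpc)
  rw [this, one_smul]

/-- The conjugate `[[d, -c'], [-p b, a]]` of `γ = [[a, b], [p c', d]]` by `W_p`. -/
def frickeConj (p : ℕ) (γ : SL(2, ℤ)) (c' : ℤ) (hc' : γ 1 0 = (p : ℤ) * c') : SL(2, ℤ) :=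
  ⟨!![γ 1 1, -c'; -(p : ℤ) * γ 0 1, γ 0 0], by
    have hdet := γ.det_coe
    rw [Matrix.det_fin_two] at hdet
    rw [Matrix.det_fin_two_of]
    rw [hc'] at hdet
    linear_combination hdet⟩

lemma coe_frickeConj (p : ℕ) (γ : SL(2, ℤ)) (c' : ℤ) (hc' : γ 1 0 = (p : ℤ) * c') :
    (frickeConj p γ c' hc' : Matrix (Fin 2) (Fin 2) ℤ)
      = !![γ 1 1, -c'; -(p : ℤ) * γ 0 1, γ 0 0] := rfl

/-- `W_p` normalises `Γ₀(p)`: `W_p γ = γ' W_p` with `γ' ∈ Γ₀(p)`. -/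
lemma exists_frickeMatrix_mul_eq {p : ℕ} (hp : p ≠ 0) {γ : SL(2, ℤ)} (hγ : γ ∈ Gamma0 p) :
    ∃ γ' ∈ Gamma0 p, frickeMatrix p * Matrix.SpecialLinearGroup.mapGL ℝ γ
      = Matrix.SpecialLinearGroup.mapGL ℝ γ' * frickeMatrix p := by
  have h10 : ((γ 1 0 : ℤ) : ZMod p) = 0 := Gamma0_mem.mp hγ
  obtain ⟨c', hc'⟩ := (ZMod.intCast_zmod_eq_zero_iff_dvd _ p).mp h10
  refine ⟨frickeConj p γ c' hc', ?_, ?_⟩
  · rw [Gamma0_mem]
    have : (frickeConj p γ c' hc') 1 0 = -(p : ℤ) * γ 0 1 := by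
      have := congrFun (congrFun (coe_frickeConj p γ c' hc') 1) 0
      simpa using this
    rw [this]
    simp
  · apply Matrix.GeneralLinearGroup.ext
    intro a b
    rw [Matrix.GeneralLinearGroup.coe_mul, Matrix.GeneralLinearGroup.coe_mul,
      val_frickeMatrix hp, val_mapGL, val_mapGL, coe_frickeConj]
    have hc'' : ((γ 1 0 : ℤ) : ℝ) = (p : ℝ) * (c' : ℝ) := by
      rw [hc']; push_cast; ring
    fin_cases a <;> fin_cases b <;>
      simp [Matrix.mul_apply, Fin.sum_univ_two, hc'', mul_comm]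

lemma slash_frickeMatrix_invariant {p : ℕ} (hp : p ≠ 0) {k : ℤ} {f : ℍ → ℂ}
    (hf : ∀ γ ∈ (Gamma0 p : Subgroup (GL (Fin 2) ℝ)), f ∣[k] γ = f)
    (γ : GL (Fin 2) ℝ) (hγ : γ ∈ (Gamma0 p : Subgroup (GL (Fin 2) ℝ))) :
    (f ∣[k] frickeMatrix p) ∣[k] γ = f ∣[k] frickeMatrix p := by
  obtain ⟨g, hg, rfl⟩ := hγ
  obtain ⟨g', hg', h⟩ := exists_frickeMatrix_mul_eq hp hg
  rw [← SlashAction.slash_mul]
  erw [h]
  rw [SlashAction.slash_mul, hf _ ⟨g', hg', rfl⟩]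

open ConjAct Pointwise in
lemma Gamma0_le_conj_frickeMatrix {p : ℕ} (hp : p ≠ 0) :
    (Gamma0 p : Subgroup (GL (Fin 2) ℝ)) ≤
      toConjAct (frickeMatrix p)⁻¹ • (Gamma0 p : Subgroup (GL (Fin 2) ℝ)) := by
  rintro γ ⟨g, hg, rfl⟩
  obtain ⟨g', hg', h⟩ := exists_frickeMatrix_mul_eq hp hg
  rw [Subgroup.mem_pointwise_smul_iff_inv_smul_mem]
  refine ⟨g', hg', ?_⟩
  rw [ConjAct.smul_def]
  simp only [map_inv, inv_inv, ConjAct.ofConjAct_toConjAct]
  erw [h]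
  rw [mul_inv_cancel_right]

variable (p : ℕ) [Fact p.Prime]

/-- The Fricke involution on modular forms of level `Γ₀(p)`. -/
noncomputable def fricke {k : ℤ} (F : ModularForm (Gamma0 p) k) : ModularForm (Gamma0 p) k where
  toFun := (F : ℍ → ℂ) ∣[k] frickeMatrix p
  slash_action_eq' γ hγ :=
    slash_frickeMatrix_invariant (Fact.out : p.Prime).ne_zero
      (fun γ hγ => SlashInvariantFormClass.slash_action_eq F γ hγ) γ hγ
  holo' := (ModularFormClass.holo F).slash k (frickeMatrix p)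
  bdd_at_cusps' hc γ hγ :=
    (ModularForm.translate F (frickeMatrix p)).bdd_at_cusps'
      (hc.mono (Gamma0_le_conj_frickeMatrix (Fact.out : p.Prime).ne_zero)) γ hγ

theorem coe_fricke {k : ℤ} (F : ModularForm (Gamma0 p) k) :
    (fricke p F : ℍ → ℂ) = (F : ℍ → ℂ) ∣[k] frickeMatrix p := rfl

/-- `F̃ = - F ∣ W_p`. -/
noncomputable def tilde (F : ModularForm (Gamma0 p) 2) : ModularForm (Gamma0 p) 2 := - fricke p F

theorem coe_tilde (F : ModularForm (Gamma0 p) 2) :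
    (tilde p F : ℍ → ℂ) = -((F : ℍ → ℂ) ∣[(2 : ℤ)] frickeMatrix p) := rfl

theorem tilde_tilde (F : ModularForm (Gamma0 p) 2) : tilde p (tilde p F) = F := by
  apply DFunLike.coe_injective
  rw [coe_tilde, coe_tilde, SlashAction.neg_slash, neg_neg,
    slash_frickeMatrix_frickeMatrix_two (Fact.out : p.Prime).ne_zero]

theorem slash_frickeMatrix_heckeMatrix (k : ℤ) (f : ℍ → ℂ) (j : ℕ) :
    (f ∣[k] frickeMatrix p) ∣[k] heckeMatrix p j
      = (p : ℂ) ^ (k - 2) • (f ∣[k] (ModularGroup.S * ModularGroup.T ^ j : SL(2, ℤ))) :=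
  slash_frickeMatrix_heckeMatrix' (Fact.out : p.Prime).ne_zero k f j

/-- The trace to level one of a weight `2` form vanishes. -/
theorem trace_weight_two_eq_zero (F : ModularForm (Gamma0 p) 2) :
    ModularForm.trace 𝒮ℒ F = 0 :=
  (rank_zero_iff_forall_zero.mp ModularForm.levelOne_weight_two_rank_zero) _

theorem sum_slash_stRep_eq_neg (F : ModularForm (Gamma0 p) 2) :
    ∑ j ∈ Finset.range p,
      (F : ℍ → ℂ) ∣[(2 : ℤ)] (ModularGroup.S * ModularGroup.T ^ j : SL(2, ℤ)) = -(F : ℍ → ℂ) := by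
  have h := coe_trace_Gamma0 p F
  rw [trace_weight_two_eq_zero] at h
  rw [eq_neg_iff_add_eq_zero, add_comm]
  exact h.symm

theorem slash_stRep_eq (F : ModularForm (Gamma0 p) 2) (j : ℕ) :
    (F : ℍ → ℂ) ∣[(2 : ℤ)] (ModularGroup.S * ModularGroup.T ^ j : SL(2, ℤ))
      = (-(tilde p F : ℍ → ℂ)) ∣[(2 : ℤ)] heckeMatrix p j := by
  rw [coe_tilde, neg_neg, slash_frickeMatrix_heckeMatrix]
  simp

/-- `F = U_p F̃`. -/
theorem coe_eq_heckeU_tilde (F : ModularForm (Gamma0 p) 2) :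
    (F : ℍ → ℂ) = heckeU 2 p (tilde p F) := by
  rw [heckeU_def]
  have h := sum_slash_stRep_eq_neg p F
  simp only [slash_stRep_eq, SlashAction.neg_slash, Finset.sum_neg_distrib] at h
  exact (neg_injective h).symm

/-- `F̃ = U_p F`. -/
theorem coe_tilde_eq_heckeU (F : ModularForm (Gamma0 p) 2) :
    (tilde p F : ℍ → ℂ) = heckeU 2 p F := by
  have h := coe_eq_heckeU_tilde p (tilde p F)
  rwa [tilde_tilde] at h

/-- The conjugates: `(F ∣ S T^j)(τ) = -(1/p) F̃((τ + j)/p)`. -/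
theorem slash_S_T_pow_apply (F : ModularForm (Gamma0 p) 2) (j : ℕ) (τ : ℍ) :
    ((F : ℍ → ℂ) ∣[(2 : ℤ)] (ModularGroup.S * ModularGroup.T ^ j : SL(2, ℤ))) τ
      = -(p : ℂ)⁻¹ * tilde p F (heckeMatrix p j • τ) := by
  rw [slash_stRep_eq, slash_heckeMatrix_apply 2 (Fact.out : p.Prime).ne_zero]
  simp

theorem qCoeff_tilde (F : ModularForm (Gamma0 p) 2) (n : ℕ) :
    ModularFormClass.qCoeff (tilde p F) n = ModularFormClass.qCoeff F (n * p) := by
  rw [coe_tilde_eq_heckeU,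
    ModularFormClass.qCoeff_heckeU F (CongruenceSubgroup.one_mem_strictPeriods_Gamma0 p)
      (Fact.out : p.Prime).ne_zero n]
  rfl

theorem qCoeff_eq_qCoeff_tilde (F : ModularForm (Gamma0 p) 2) (n : ℕ) :
    ModularFormClass.qCoeff F n = ModularFormClass.qCoeff (tilde p F) (n * p) := by
  have h := qCoeff_tilde p (tilde p F) n
  rwa [tilde_tilde] at h

section Quadratic

/-- `F * F` as a modular form of weight `4`. -/
noncomputable def sqForm (F : ModularForm (Gamma0 p) 2) : ModularForm (Gamma0 p) 4 :=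
  ModularForm.mcast (by norm_num) (F.mul F)

theorem coe_sqForm (F : ModularForm (Gamma0 p) 2) :
    (sqForm p F : ℍ → ℂ) = (F : ℍ → ℂ) * F := rfl

theorem exists_trace_sqForm_eq (F : ModularForm (Gamma0 p) 2) :
    ∃ c : ℂ, c • E₄ = ModularForm.trace 𝒮ℒ (sqForm p F) :=
  (finrank_eq_one_iff_of_nonzero' E₄ (EisensteinSeries.E_ne_zero _ ⟨2, rfl⟩)).mp
    (Module.rank_eq_one_iff_finrank_eq_one.mp ModularForm.levelOne_weight_four_rank_one) _

theorem sum_slash_sq (F : ModularForm (Gamma0 p) 2) :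
    ∑ j ∈ Finset.range p,
      ((F : ℍ → ℂ) * F) ∣[(4 : ℤ)] (ModularGroup.S * ModularGroup.T ^ j : SL(2, ℤ))
      = (p : ℂ)⁻¹ • heckeU 4 p ((tilde p F : ℍ → ℂ) * tilde p F) := by
  have hp0 : p ≠ 0 := (Fact.out : p.Prime).ne_zero
  ext τ
  rw [Finset.sum_apply, Pi.smul_apply, heckeU_apply 4 hp0, smul_eq_mul, Finset.mul_sum,
    Finset.mul_sum]
  refine Finset.sum_congr rfl fun j _ => ?_
  have h1 : ((F : ℍ → ℂ) * F) ∣[(4 : ℤ)] (ModularGroup.S * ModularGroup.T ^ j : SL(2, ℤ))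
      = ((F : ℍ → ℂ) ∣[(2 : ℤ)] (ModularGroup.S * ModularGroup.T ^ j : SL(2, ℤ))) *
        ((F : ℍ → ℂ) ∣[(2 : ℤ)] (ModularGroup.S * ModularGroup.T ^ j : SL(2, ℤ))) :=
    mul_slash_SL2 2 2 _ _ _
  rw [h1, Pi.mul_apply, slash_S_T_pow_apply, Pi.mul_apply]
  ring

theorem coe_trace_sqForm (F : ModularForm (Gamma0 p) 2) :
    (ModularForm.trace 𝒮ℒ (sqForm p F) : ℍ → ℂ)
      = (F : ℍ → ℂ) * F + (p : ℂ)⁻¹ • heckeU 4 p ((tilde p F : ℍ → ℂ) * tilde p F) := by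
  rw [coe_trace_Gamma0, coe_sqForm, sum_slash_sq]

omit [Fact p.Prime] in
lemma analyticAt_cuspFunction_Gamma0 {k : ℤ} (G : ModularForm (Gamma0 p) k) :
    AnalyticAt ℂ (cuspFunction 1 G) 0 :=
  ModularFormClass.analyticAt_cuspFunction_zero G one_pos
    (CongruenceSubgroup.one_mem_strictPeriods_Gamma0 p)

lemma qExpansion_sqForm (F : ModularForm (Gamma0 p) 2) :
    qExpansion 1 (sqForm p F) = qExpansion 1 F ^ 2 := by
  rw [coe_sqForm, pow_two]
  exact qExpansion_mul (analyticAt_cuspFunction_Gamma0 p F) (analyticAt_cuspFunction_Gamma0 p F)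

/-- `U_p (F̃²)` as a modular form of weight `4`. -/
noncomputable def heckeUSqTilde (F : ModularForm (Gamma0 p) 2) : ModularForm (Gamma0 p) 4 :=
  haveI : NeZero p := ⟨(Fact.out : p.Prime).ne_zero⟩
  ModularForm.heckeULin 4 (dvd_refl p) (sqForm p (tilde p F))

theorem coe_heckeUSqTilde (F : ModularForm (Gamma0 p) 2) :
    (heckeUSqTilde p F : ℍ → ℂ) = heckeU 4 p ((tilde p F : ℍ → ℂ) * tilde p F) := rfl

lemma qExpansion_heckeUSqTilde_coeff (F : ModularForm (Gamma0 p) 2) (n : ℕ) :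
    (qExpansion 1 (heckeUSqTilde p F)).coeff n = (qExpansion 1 (tilde p F) ^ 2).coeff (n * p) := by
  have h := ModularFormClass.qCoeff_heckeU (k := 4) (sqForm p (tilde p F))
    (CongruenceSubgroup.one_mem_strictPeriods_Gamma0 p) (Fact.out : p.Prime).ne_zero n
  rw [ModularForm.coeffHeckeU_apply] at h
  simp only [ModularFormClass.qCoeff] at h
  rw [qExpansion_sqForm] at h
  exact h

/-- The trace identity on `q`-expansion coefficients, with the unknown constant. -/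
theorem exists_quad_coeff (F : ModularForm (Gamma0 p) 2) :
    ∃ c : ℂ, c • (E₄ : ℍ → ℂ)
        = (F : ℍ → ℂ) * F + (p : ℂ)⁻¹ • heckeU 4 p ((tilde p F : ℍ → ℂ) * tilde p F) ∧
      ∀ n : ℕ, c * (qExpansion 1 E₄).coeff n
        = (qExpansion 1 F ^ 2).coeff n + (p : ℂ)⁻¹ * (qExpansion 1 (tilde p F) ^ 2).coeff (n * p) := by
  obtain ⟨c, hc⟩ := exists_trace_sqForm_eq p F
  have hfun : c • (E₄ : ℍ → ℂ)
      = (F : ℍ → ℂ) * F + (p : ℂ)⁻¹ • heckeU 4 p ((tilde p F : ℍ → ℂ) * tilde p F) := by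
    rw [← coe_trace_sqForm, ← hc]
    rfl
  refine ⟨c, hfun, fun n => ?_⟩
  have hq : (qExpansion 1 (c • (E₄ : ℍ → ℂ))).coeff n
      = (qExpansion 1 ((F : ℍ → ℂ) * F
          + (p : ℂ)⁻¹ • heckeU 4 p ((tilde p F : ℍ → ℂ) * tilde p F))).coeff n := by
    rw [hfun]
  rw [ModularForm.qExpansion_smul one_pos one_mem_strictPeriods_SL c E₄,
    ← coe_sqForm, ← coe_heckeUSqTilde,
    qExpansion_add (analyticAt_cuspFunction_Gamma0 p (sqForm p F))
      (by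
        rw [cuspFunction_smul (analyticAt_cuspFunction_Gamma0 p (heckeUSqTilde p F)).continuousAt]
        exact (analyticAt_cuspFunction_Gamma0 p (heckeUSqTilde p F)).const_smul),
    qExpansion_smul (analyticAt_cuspFunction_Gamma0 p (heckeUSqTilde p F)),
    qExpansion_sqForm] at hq
  simp only [map_add, PowerSeries.coeff_smul, smul_eq_mul] at hq
  rw [qExpansion_heckeUSqTilde_coeff] at hq
  exact hq

lemma coeff_zero_sq (A : PowerSeries ℂ) : (A ^ 2).coeff 0 = A.coeff 0 ^ 2 := by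
  rw [pow_two, PowerSeries.coeff_zero_eq_constantCoeff, map_mul, pow_two]

/-- The constant in the trace identity. -/
theorem exists_quad_coeff_const (F : ModularForm (Gamma0 p) 2) :
    (((p : ℂ) + 1) * ModularFormClass.qCoeff F 0 ^ 2) • (E₄ : ℍ → ℂ)
        = (p : ℂ) • ((F : ℍ → ℂ) * F) + heckeU 4 p ((tilde p F : ℍ → ℂ) * tilde p F) ∧
      ∀ n : ℕ, ((p : ℂ) + 1) * ModularFormClass.qCoeff F 0 ^ 2 * (qExpansion 1 E₄).coeff n
        = (p : ℂ) * (qExpansion 1 F ^ 2).coeff n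
          + (qExpansion 1 (tilde p F) ^ 2).coeff (n * p) := by
  have hpc : (p : ℂ) ≠ 0 := by exact_mod_cast (Fact.out : p.Prime).ne_zero
  obtain ⟨c, hfun, hcoeff⟩ := exists_quad_coeff p F
  have h0 := hcoeff 0
  rw [EisensteinSeries.E_qExpansion_coeff_zero _ ⟨2, rfl⟩, mul_one, zero_mul, coeff_zero_sq,
    coeff_zero_sq] at h0
  have ht : (qExpansion 1 (tilde p F)).coeff 0 = (qExpansion 1 F).coeff 0 := by
    have := qCoeff_tilde p F 0
    simpa [ModularFormClass.qCoeff] using this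
  rw [ht] at h0
  have hc : (p : ℂ) * c = ((p : ℂ) + 1) * ModularFormClass.qCoeff F 0 ^ 2 := by
    rw [h0, ModularFormClass.qCoeff]
    field_simp
  constructor
  · rw [← hc, mul_smul, hfun, smul_add, smul_smul, mul_inv_cancel₀ hpc, one_smul]
  · intro n
    rw [← hc, mul_assoc, hcoeff n, mul_add, ← mul_assoc, mul_inv_cancel₀ hpc, one_mul]

/-- **Quadratic identity (I4)**: `p F² + U_p (F̃²) = (p + 1) a₀(F)² E₄`. -/
theorem quad_identity (F : ModularForm (Gamma0 p) 2) :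
    (p : ℂ) • ((F : ℍ → ℂ) * F) + heckeU 4 p ((tilde p F : ℍ → ℂ) * tilde p F)
      = (((p : ℂ) + 1) * ModularFormClass.qCoeff F 0 ^ 2) • (E₄ : ℍ → ℂ) :=
  (exists_quad_coeff_const p F).1.symm

/-- **Quadratic identity (I4)** on `q`-expansion coefficients. -/
theorem quad_identity_coeff (F : ModularForm (Gamma0 p) 2) (n : ℕ) :
    (p : ℂ) * ((qExpansion 1 F) ^ 2).coeff n + ((qExpansion 1 (tilde p F)) ^ 2).coeff (n * p)
      = ((p : ℂ) + 1) * ModularFormClass.qCoeff F 0 ^ 2 * (qExpansion 1 E₄).coeff n :=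
  ((exists_quad_coeff_const p F).2 n).symm

end Quadratic

end Fermat.Agent.S16.helper41
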