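import Mathlib.NumberTheory.ModularForms.NormTrace
import Mathlib.NumberTheory.ModularForms.CongruenceSubgroups
import Mathlib.NumberTheory.Modular
import Mathlib.Algebra.Field.ZMod

/-!
# Coset representatives `{1, S T^j}` of `Γ₀(p)` in `SL(2, ℤ)`, explicit trace and norm

For a prime `p` the `p + 1` elements `1, S T^j (0 ≤ j < p)` represent the right cosets
`Γ₀(p) \ SL(2, ℤ)`.  We deduce explicit formulas for Mathlib's `ModularForm.trace 𝒮ℒ` and
`ModularForm.norm 𝒮ℒ` on level `Γ₀(p)`.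
-/

set_option autoImplicit false

namespace Fermat.Agent.S16.helper41

open UpperHalfPlane ModularForm CongruenceSubgroup Matrix
open scoped MatrixGroups

/-- The representative `S T^j`. -/
noncomputable def stRep (j : ℕ) : SL(2, ℤ) := ModularGroup.S * ModularGroup.T ^ j

lemma coe_stRep (j : ℕ) : (stRep j : Matrix (Fin 2) (Fin 2) ℤ) = !![0, -1; 1, (j : ℤ)] := by
  rw [stRep, ← zpow_natCast, Matrix.SpecialLinearGroup.coe_mul, ModularGroup.coe_T_zpow,
    ModularGroup.coe_S]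
  ext a b
  fin_cases a <;> fin_cases b <;> simp [Matrix.mul_apply, Fin.sum_univ_two]

lemma stRep_apply_one_zero (j : ℕ) : (stRep j) 1 0 = 1 := by
  have := congrFun (congrFun (coe_stRep j) 1) 0
  simpa using this

lemma stRep_apply_one_one (j : ℕ) : (stRep j) 1 1 = (j : ℤ) := by
  have := congrFun (congrFun (coe_stRep j) 1) 1
  simpa using this

lemma stRep_apply_zero_zero (j : ℕ) : (stRep j) 0 0 = 0 := by
  have := congrFun (congrFun (coe_stRep j) 0) 0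
  simpa using this

lemma stRep_apply_zero_one (j : ℕ) : (stRep j) 0 1 = -1 := by
  have := congrFun (congrFun (coe_stRep j) 0) 1
  simpa using this

/-- Lower left entry of a product. -/
lemma mul_apply_one_zero (g h : SL(2, ℤ)) : (g * h) 1 0 = g 1 0 * h 0 0 + g 1 1 * h 1 0 := by
  rw [Matrix.SpecialLinearGroup.coe_mul, Matrix.mul_apply, Fin.sum_univ_two]

/-- Lower left entry of the inverse. -/
lemma inv_apply_one_zero (g : SL(2, ℤ)) : (g⁻¹) 1 0 = - g 1 0 := by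
  rw [Matrix.SpecialLinearGroup.SL2_inv_expl]
  simp

lemma inv_apply_zero_zero (g : SL(2, ℤ)) : (g⁻¹) 0 0 = g 1 1 := by
  rw [Matrix.SpecialLinearGroup.SL2_inv_expl]
  simp

lemma inv_apply_one_one (g : SL(2, ℤ)) : (g⁻¹) 1 1 = g 0 0 := by
  rw [Matrix.SpecialLinearGroup.SL2_inv_expl]
  simp

variable (p : ℕ)

/-- `S T^j g ∈ Γ₀(p)` iff `p ∣ a + j c`. -/
lemma stRep_mul_mem_Gamma0_iff (j : ℕ) (g : SL(2, ℤ)) :
    stRep j * g ∈ Gamma0 p ↔ ((g 0 0 : ℤ) : ZMod p) + (j : ZMod p) * ((g 1 0 : ℤ) : ZMod p) = 0 := by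
  rw [Gamma0_mem, mul_apply_one_zero, stRep_apply_one_zero, stRep_apply_one_one]
  push_cast
  rw [one_mul]

/-- `S T^i (S T^j)⁻¹ ∈ Γ₀(p)` iff `i ≡ j mod p`. -/
lemma stRep_mul_inv_mem_Gamma0_iff (i j : ℕ) :
    stRep i * (stRep j)⁻¹ ∈ Gamma0 p ↔ (i : ZMod p) = (j : ZMod p) := by
  rw [stRep_mul_mem_Gamma0_iff, inv_apply_zero_zero, inv_apply_one_zero, stRep_apply_one_one,
    stRep_apply_one_zero]
  push_cast
  constructor
  · intro h
    have : (i : ZMod p) = j := by linear_combination -h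
    exact this
  · intro h
    rw [h]; ring

/-- An element of `SL(2, ℤ)` as an element of `𝒮ℒ`. -/
noncomputable def toSL (g : SL(2, ℤ)) : 𝒮ℒ :=
  ⟨Matrix.SpecialLinearGroup.mapGL ℝ g, ⟨g, rfl⟩⟩

lemma coe_toSL (g : SL(2, ℤ)) :
    ((toSL g : 𝒮ℒ) : GL (Fin 2) ℝ) = Matrix.SpecialLinearGroup.mapGL ℝ g := rfl

lemma exists_toSL (h : 𝒮ℒ) : ∃ g : SL(2, ℤ), toSL g = h := by
  obtain ⟨h, g, rfl⟩ := h
  exact ⟨g, rfl⟩

lemma toSL_mul (g h : SL(2, ℤ)) : toSL (g * h) = toSL g * toSL h := by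
  apply Subtype.ext
  simp [coe_toSL]

lemma toSL_inv (g : SL(2, ℤ)) : toSL g⁻¹ = (toSL g)⁻¹ := by
  apply Subtype.ext
  simp [coe_toSL]

lemma toSL_one : toSL 1 = 1 := by
  apply Subtype.ext
  simp [coe_toSL]

lemma mapGL_mem_Gamma0_iff (g : SL(2, ℤ)) :
    Matrix.SpecialLinearGroup.mapGL ℝ g ∈ (Gamma0 p : Subgroup (GL (Fin 2) ℝ)) ↔
      g ∈ Gamma0 p :=
  Subgroup.mem_map_iff_mem Matrix.SpecialLinearGroup.mapGL_injective

lemma toSL_mem_subgroupOf_iff (g : SL(2, ℤ)) :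
    toSL g ∈ (Gamma0 p : Subgroup (GL (Fin 2) ℝ)).subgroupOf 𝒮ℒ ↔ g ∈ Gamma0 p := by
  rw [Subgroup.mem_subgroupOf, coe_toSL, mapGL_mem_Gamma0_iff]

/-- The quotient `SL(2, ℤ) / Γ₀(p)` in Mathlib's `NormTrace` form. -/
abbrev Quot0 : Type := 𝒮ℒ ⧸ ((Gamma0 p : Subgroup (GL (Fin 2) ℝ)).subgroupOf 𝒮ℒ)

lemma mk_toSL_eq_iff (g h : SL(2, ℤ)) :
    (QuotientGroup.mk (toSL g) : Quot0 p) = QuotientGroup.mk (toSL h) ↔
      g⁻¹ * h ∈ Gamma0 p := by
  rw [QuotientGroup.eq, ← toSL_inv, ← toSL_mul, toSL_mem_subgroupOf_iff]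

/-- The coset of `Quot0 p` attached to an index in `Option (Fin p)`: `none ↦ 1`,
`some j ↦ (S T^j)⁻¹`. -/
noncomputable def cosetOf : Option (Fin p) → Quot0 p
  | none => QuotientGroup.mk (toSL 1)
  | some j => QuotientGroup.mk (toSL (stRep (j : ℕ))⁻¹)

variable [Fact p.Prime]

lemma cosetOf_injective : Function.Injective (cosetOf p) := by
  have hp : p.Prime := Fact.out
  have : Fact (1 < p) := ⟨hp.one_lt⟩
  rintro (_ | i) (_ | j) h
  · rfl
  · exfalso
    simp only [cosetOf] at h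
    rw [mk_toSL_eq_iff] at h
    rw [inv_one, one_mul, Subgroup.inv_mem_iff, Gamma0_mem, stRep_apply_one_zero] at h
    simp at h
  · exfalso
    simp only [cosetOf] at h
    rw [mk_toSL_eq_iff] at h
    rw [inv_inv, mul_one, Gamma0_mem, stRep_apply_one_zero] at h
    simp at h
  · simp only [cosetOf] at h
    rw [mk_toSL_eq_iff, inv_inv, stRep_mul_inv_mem_Gamma0_iff] at h
    have h2 := congrArg ZMod.val h
    rw [ZMod.val_natCast, ZMod.val_natCast, Nat.mod_eq_of_lt i.2, Nat.mod_eq_of_lt j.2] at h2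
    exact congrArg some (Fin.ext h2)

lemma add_neg_mul_inv_mul (a c : ZMod p) (hc : c ≠ 0) : a + (-a * c⁻¹) * c = 0 := by
  rw [mul_assoc, inv_mul_cancel₀ hc, mul_one, add_neg_cancel]

lemma cosetOf_surjective : Function.Surjective (cosetOf p) := by
  have hp : p.Prime := Fact.out
  have : NeZero p := ⟨hp.ne_zero⟩
  intro q
  induction q using QuotientGroup.induction_on with
  | H h =>
    obtain ⟨g, rfl⟩ := exists_toSL h
    by_cases hc : ((g 1 0 : ℤ) : ZMod p) = 0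
    · refine ⟨none, ?_⟩
      simp only [cosetOf]
      rw [mk_toSL_eq_iff, inv_one, one_mul, Gamma0_mem]
      exact hc
    · set j : ZMod p := -((g 0 0 : ℤ) : ZMod p) * (((g 1 0 : ℤ) : ZMod p))⁻¹ with hj
      refine ⟨some ⟨j.val, ZMod.val_lt j⟩, ?_⟩
      simp only [cosetOf]
      rw [mk_toSL_eq_iff, inv_inv, stRep_mul_mem_Gamma0_iff, ZMod.natCast_zmod_val, hj]
      exact add_neg_mul_inv_mul p _ _ hc

/-- The explicit enumeration of the cosets. -/
noncomputable def cosetEquiv : Option (Fin p) ≃ Quot0 p :=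
  Equiv.ofBijective (cosetOf p) ⟨cosetOf_injective p, cosetOf_surjective p⟩

lemma cosetEquiv_apply (i : Option (Fin p)) : cosetEquiv p i = cosetOf p i := rfl

theorem card_quot_Gamma0 :
    Nat.card (𝒮ℒ ⧸ ((Gamma0 p : Subgroup (GL (Fin 2) ℝ)).subgroupOf 𝒮ℒ)) = p + 1 := by
  rw [← Nat.card_congr (cosetEquiv p)]
  simp [Nat.card_eq_fintype_card]

/-- Right coset decomposition `SL(2, ℤ) = Γ₀(p) ∪ ⋃_j Γ₀(p) S T^j`. -/
theorem mem_Gamma0_or_exists_stRep (g : SL(2, ℤ)) :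
    g ∈ Gamma0 p ∨ ∃ j < p, ∃ γ ∈ Gamma0 p, g = γ * (ModularGroup.S * ModularGroup.T ^ j) := by
  obtain ⟨i, hi⟩ := cosetOf_surjective p (QuotientGroup.mk (toSL g⁻¹))
  rcases i with _ | j
  · left
    simp only [cosetOf] at hi
    rw [mk_toSL_eq_iff, inv_one, one_mul] at hi
    exact (Subgroup.inv_mem_iff _).mp hi
  · right
    simp only [cosetOf] at hi
    rw [mk_toSL_eq_iff, inv_inv] at hi
    have hi' := (Subgroup.inv_mem_iff _).mpr hi
    rw [_root_.mul_inv_rev, inv_inv] at hi'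
    refine ⟨j, j.2, g * (stRep j)⁻¹, hi', ?_⟩
    rw [← stRep, inv_mul_cancel_right]

/-- Every `SL(2, ℤ)`-conjugate of a `Γ₀(p)`-invariant function is `f` or some `f ∣ S T^j`. -/
theorem slash_eq_self_or_exists_stRep {k : ℤ} {f : ℍ → ℂ}
    (hf : ∀ γ ∈ Gamma0 p, f ∣[k] γ = f) (g : SL(2, ℤ)) :
    f ∣[k] g = f ∨
      ∃ j < p, f ∣[k] g = f ∣[k] (ModularGroup.S * ModularGroup.T ^ j : SL(2, ℤ)) := by
  rcases mem_Gamma0_or_exists_stRep p g with h | ⟨j, hj, γ, hγ, rfl⟩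
  · exact Or.inl (hf g h)
  · right
    refine ⟨j, hj, ?_⟩
    rw [SlashAction.slash_mul, hf γ hγ]

section TraceNorm

variable {k : ℤ} (F : ModularForm (Gamma0 p) k)

omit [Fact p.Prime] in
lemma quotientFunc_cosetOf_none :
    SlashInvariantForm.quotientFunc (ℋ := 𝒮ℒ) F (cosetOf p none) = ⇑F := by
  simp only [cosetOf]
  erw [SlashInvariantForm.quotientFunc_mk]
  rw [toSL_one]
  simp

omit [Fact p.Prime] in
lemma quotientFunc_cosetOf_some (j : Fin p) :
    SlashInvariantForm.quotientFunc (ℋ := 𝒮ℒ) F (cosetOf p (some j)) =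
      ⇑F ∣[k] (ModularGroup.S * ModularGroup.T ^ (j : ℕ) : SL(2, ℤ)) := by
  simp only [cosetOf]
  erw [SlashInvariantForm.quotientFunc_mk]
  rw [toSL_inv, Subgroup.coe_inv, inv_inv, ModularForm.SL_slash]
  rfl

theorem coe_trace_Gamma0 :
    (ModularForm.trace 𝒮ℒ F : ℍ → ℂ)
      = F + ∑ j ∈ Finset.range p,
          (F : ℍ → ℂ) ∣[k] (ModularGroup.S * ModularGroup.T ^ j : SL(2, ℤ)) := by
  rw [ModularForm.coe_trace]
  let _ : Fintype (Quot0 p) := Fintype.ofFinite _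
  rw [← Equiv.sum_comp (cosetEquiv p), Fintype.sum_option]
  simp only [cosetEquiv_apply]
  rw [quotientFunc_cosetOf_none]
  simp only [quotientFunc_cosetOf_some]
  rw [Fin.sum_univ_eq_sum_range
    (fun j => (F : ℍ → ℂ) ∣[k] (ModularGroup.S * ModularGroup.T ^ j : SL(2, ℤ))) p]

theorem coe_norm_Gamma0 :
    (ModularForm.norm 𝒮ℒ F : ℍ → ℂ)
      = F * ∏ j ∈ Finset.range p,
          (F : ℍ → ℂ) ∣[k] (ModularGroup.S * ModularGroup.T ^ j : SL(2, ℤ)) := by
  rw [ModularForm.coe_norm]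
  let _ : Fintype (Quot0 p) := Fintype.ofFinite _
  rw [← Equiv.prod_comp (cosetEquiv p), Fintype.prod_option]
  simp only [cosetEquiv_apply]
  rw [quotientFunc_cosetOf_none]
  simp only [quotientFunc_cosetOf_some]
  rw [Fin.prod_univ_eq_prod_range
    (fun j => (F : ℍ → ℂ) ∣[k] (ModularGroup.S * ModularGroup.T ^ j : SL(2, ℤ))) p]

end TraceNorm

end Fermat.Agent.S16.helper41
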