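import Mathlib
import Fermat.Prelude.Def_ModularForm_HeckeOperator
import Fermat.Agent.S24.helper37_TExp
import Fermat.Prelude.Thm_CongruenceSubgroup_one_mem_strictPeriods_Gamma0

/-!
# S16 [A3]: the ring `O` of `ℓ`-integral algebraic numbers and the ring `P_O`

* `OInt ℓ : Subring ℂ` : `ℓ`-integral algebraic numbers; `ellO ℓ s = ℓ ^ s * O`.
* `PO p ℓ : Subring (ℍ → ℂ)` : holomorphic functions, periodic of period `p`, bounded at `i∞`,
  whose expansion in `t = q^{1/p}` has coefficients in `O`; `POI p ℓ s = ℓ ^ s * P_O`.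
* level-one type functions and their translates `τ ↦ g ((τ + j) / p)` are in `P_O`.
-/

set_option autoImplicit false

noncomputable section

open UpperHalfPlane Filter Topology Function
open scoped MatrixGroups Manifold ModularForm CongruenceSubgroup

namespace Fermat.Agent.S16.helper58

open Fermat.Agent.S24.helper37

/-! ## The ring `O` of `ℓ`-integral algebraic numbers -/

/-- `ℓ`-integral algebraic numbers: `x ∈ ℂ` such that `d * x` is an algebraic integer for some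
`d` prime to `ℓ`. -/
theorem isIntegral_natCast_complex (d : ℕ) : IsIntegral ℤ (d : ℂ) := by
  have := isIntegral_algebraMap (R := ℤ) (A := ℂ) (x := (d : ℤ))
  simpa using this

def OInt (ℓ : ℕ) : Subring ℂ where
  carrier := {x | ∃ d : ℕ, Nat.Coprime d ℓ ∧ IsIntegral ℤ ((d : ℂ) * x)}
  mul_mem' := by
    rintro x y ⟨d, hd, hx⟩ ⟨e, he, hy⟩
    refine ⟨d * e, Nat.Coprime.mul_left hd he, ?_⟩
    have h : ((d * e : ℕ) : ℂ) * (x * y) = ((d : ℂ) * x) * ((e : ℂ) * y) := by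
      push_cast
      ring
    rw [h]
    exact hx.mul hy
  one_mem' := ⟨1, Nat.coprime_one_left _, by simpa using isIntegral_one⟩
  add_mem' := by
    rintro x y ⟨d, hd, hx⟩ ⟨e, he, hy⟩
    refine ⟨d * e, Nat.Coprime.mul_left hd he, ?_⟩
    have h : ((d * e : ℕ) : ℂ) * (x + y) = (e : ℂ) * ((d : ℂ) * x) + (d : ℂ) * ((e : ℂ) * y) := by
      push_cast
      ring
    rw [h]
    exact ((isIntegral_natCast_complex e).mul hx).add ((isIntegral_natCast_complex d).mul hy)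
  zero_mem' := ⟨1, Nat.coprime_one_left _, by simpa using isIntegral_zero⟩
  neg_mem' := by
    rintro x ⟨d, hd, hx⟩
    refine ⟨d, hd, ?_⟩
    have h : (d : ℂ) * (-x) = -((d : ℂ) * x) := by ring
    rw [h]
    exact hx.neg

theorem mem_OInt {ℓ : ℕ} {x : ℂ} :
    x ∈ OInt ℓ ↔ ∃ d : ℕ, Nat.Coprime d ℓ ∧ IsIntegral ℤ ((d : ℂ) * x) := Iff.rfl

theorem OInt.of_isIntegral {ℓ : ℕ} {x : ℂ} (h : IsIntegral ℤ x) : x ∈ OInt ℓ :=
  ⟨1, Nat.coprime_one_left _, by simpa using h⟩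

theorem OInt.inv_natCast_mem {ℓ d : ℕ} (hd : Nat.Coprime d ℓ) : ((d : ℂ))⁻¹ ∈ OInt ℓ := by
  rcases Nat.eq_zero_or_pos d with rfl | hpos
  · simp
  · refine ⟨d, hd, ?_⟩
    have : (d : ℂ) * (d : ℂ)⁻¹ = 1 := mul_inv_cancel₀ (by exact_mod_cast hpos.ne')
    rw [this]
    exact isIntegral_one

/-- a rational number which is integral over `ℤ` is an integer. -/
theorem exists_int_of_isIntegral_ratCast {q : ℚ} (h : IsIntegral ℤ (q : ℂ)) : ∃ n : ℤ, q = n := by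
  have h1 : IsIntegral ℤ q := by
    have hinj : Function.Injective (algebraMap ℚ ℂ) := (algebraMap ℚ ℂ).injective
    exact (isIntegral_algebraMap_iff (A := ℚ) (B := ℂ) hinj).mp (by simpa using h)
  obtain ⟨n, hn⟩ := IsIntegrallyClosed.isIntegral_iff.mp h1
  exact ⟨n, by simpa using hn.symm⟩

/-- a rational number is in `O` iff its denominator is prime to `ℓ`. -/
theorem OInt.ratCast_mem_iff {ℓ : ℕ} (hℓ : ℓ.Prime) (q : ℚ) :
    (q : ℂ) ∈ OInt ℓ ↔ ¬ ℓ ∣ q.den := by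
  constructor
  · rintro ⟨d, hd, hint⟩ hdvd
    have h2 : IsIntegral ℤ (((d : ℚ) * q : ℚ) : ℂ) := by
      push_cast
      exact hint
    obtain ⟨n, hn⟩ := exists_int_of_isIntegral_ratCast h2
    -- d * q = n, so q.den ∣ d
    have h3 : (q.den : ℤ) ∣ (d : ℤ) := by
      have hq : q = (n : ℚ) / (d : ℚ) := by
        have hd0 : (d : ℚ) ≠ 0 := by
          intro h0
          have : d = 0 := by exact_mod_cast h0
          subst this
          rw [Nat.coprime_zero_left] at hd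
          exact hℓ.one_lt.ne' hd
        field_simp
        linarith [hn, mul_comm (d : ℚ) q]
      have := Rat.den_dvd n d
      rw [hq]
      have h4 : ((n : ℚ) / (d : ℚ)) = Rat.divInt n d := by
        rw [Rat.divInt_eq_div]
        push_cast
        rfl
      rw [h4]
      exact this
    have h5 : ℓ ∣ d := by
      have : (ℓ : ℤ) ∣ (d : ℤ) := dvd_trans (by exact_mod_cast hdvd) h3
      exact_mod_cast this
    have := Nat.Coprime.eq_one_of_dvd hd.symm h5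
    exact hℓ.one_lt.ne' this
  · intro h
    refine ⟨q.den, ?_, ?_⟩
    · exact ((Nat.Prime.coprime_iff_not_dvd hℓ).mpr h).symm
    · have : ((q.den : ℂ)) * (q : ℂ) = ((q.num : ℤ) : ℂ) := by
        have := Rat.den_mul_eq_num q
        exact_mod_cast this
      rw [this]
      have := isIntegral_algebraMap (R := ℤ) (A := ℂ) (x := q.num)
      simpa using this

/-- `ℓ` is not a unit of `O`. -/
theorem OInt.inv_prime_not_mem {ℓ : ℕ} (hℓ : ℓ.Prime) : ((ℓ : ℂ))⁻¹ ∉ OInt ℓ := by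
  have h := (OInt.ratCast_mem_iff hℓ ((ℓ : ℚ))⁻¹).not
  have hden : ((ℓ : ℚ))⁻¹.den = ℓ := by
    rw [Rat.inv_natCast_den]
    simp [hℓ.ne_zero]
  rw [hden] at h
  have := h.mpr (by simp)
  simpa using this

/-- the additive subgroup `ℓ ^ s * O` of `ℂ`. -/
def ellO (ℓ s : ℕ) : AddSubgroup ℂ where
  carrier := {x | ∃ y ∈ OInt ℓ, x = (ℓ : ℂ) ^ s * y}
  add_mem' := by
    rintro x y ⟨a, ha, rfl⟩ ⟨b, hb, rfl⟩
    exact ⟨a + b, add_mem ha hb, by ring⟩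
  zero_mem' := ⟨0, zero_mem _, by simp⟩
  neg_mem' := by
    rintro x ⟨a, ha, rfl⟩
    exact ⟨-a, neg_mem ha, by ring⟩

theorem mem_ellO {ℓ s : ℕ} {x : ℂ} : x ∈ ellO ℓ s ↔ ∃ y ∈ OInt ℓ, x = (ℓ : ℂ) ^ s * y := Iff.rfl

theorem OInt.natCast_mem (ℓ d : ℕ) : (d : ℂ) ∈ OInt ℓ := _root_.natCast_mem _ d

theorem ellO_le_OInt {ℓ s : ℕ} {x : ℂ} (h : x ∈ ellO ℓ s) : x ∈ OInt ℓ := by
  obtain ⟨y, hy, rfl⟩ := h
  exact mul_mem (pow_mem (OInt.natCast_mem ℓ ℓ) s) hy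

theorem ellO.mul_mem {ℓ s : ℕ} {a x : ℂ} (ha : a ∈ OInt ℓ) (hx : x ∈ ellO ℓ s) :
    a * x ∈ ellO ℓ s := by
  obtain ⟨y, hy, rfl⟩ := hx
  exact ⟨a * y, Subring.mul_mem _ ha hy, by ring⟩

theorem ellO.mul_mem_right {ℓ s : ℕ} {a x : ℂ} (hx : x ∈ ellO ℓ s) (ha : a ∈ OInt ℓ) :
    x * a ∈ ellO ℓ s := by
  rw [mul_comm]
  exact ellO.mul_mem ha hx

theorem ellO_zero (ℓ : ℕ) {x : ℂ} : x ∈ ellO ℓ 0 ↔ x ∈ OInt ℓ := by
  constructor
  · exact ellO_le_OInt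
  · intro h
    exact ⟨x, h, by simp⟩

theorem ellO_mono {ℓ s t : ℕ} (hst : s ≤ t) {x : ℂ} (h : x ∈ ellO ℓ t) : x ∈ ellO ℓ s := by
  obtain ⟨y, hy, rfl⟩ := h
  refine ⟨(ℓ : ℂ) ^ (t - s) * y, mul_mem (pow_mem (OInt.natCast_mem ℓ ℓ) _) hy, ?_⟩
  rw [← mul_assoc, ← pow_add, Nat.add_sub_cancel' hst]

theorem one_not_mem_ellO {ℓ s : ℕ} (hℓ : ℓ.Prime) (hs : 0 < s) : (1 : ℂ) ∉ ellO ℓ s := by
  rintro ⟨y, hy, h⟩
  apply OInt.inv_prime_not_mem hℓ
  have hℓ0 : (ℓ : ℂ) ≠ 0 := by exact_mod_cast hℓ.ne_zero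
  have : ((ℓ : ℂ))⁻¹ = (ℓ : ℂ) ^ (s - 1) * y := by
    have h2 : (ℓ : ℂ) ^ s = (ℓ : ℂ) * (ℓ : ℂ) ^ (s - 1) := by
      rw [← pow_succ', Nat.sub_add_cancel hs]
    rw [h2, mul_assoc] at h
    field_simp
    rw [h]
    ring
  rw [this]
  exact mul_mem (pow_mem (OInt.natCast_mem ℓ ℓ) _) hy

/-- a unit modulo `ℓ`. -/
def IsUnitMod (ℓ : ℕ) (u : ℂ) : Prop := u ∈ OInt ℓ ∧ ∃ v ∈ OInt ℓ, u * v - 1 ∈ ellO ℓ 1

theorem IsUnitMod.one (ℓ : ℕ) : IsUnitMod ℓ 1 :=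
  ⟨one_mem _, 1, one_mem _, by simp⟩

theorem IsUnitMod.of_inv_mem {ℓ : ℕ} {u : ℂ} (hu : u ∈ OInt ℓ) (hu' : u⁻¹ ∈ OInt ℓ)
    (h0 : u ≠ 0) : IsUnitMod ℓ u :=
  ⟨hu, u⁻¹, hu', by rw [mul_inv_cancel₀ h0, sub_self]; exact zero_mem _⟩

theorem IsUnitMod.mul {ℓ : ℕ} {u u' : ℂ} (h : IsUnitMod ℓ u) (h' : IsUnitMod ℓ u') :
    IsUnitMod ℓ (u * u') := by
  obtain ⟨hu, v, hv, hc⟩ := h
  obtain ⟨hu', v', hv', hc'⟩ := h'
  refine ⟨mul_mem hu hu', v * v', mul_mem hv hv', ?_⟩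
  have : u * u' * (v * v') - 1 = (u * v) * (u' * v' - 1) + (u * v - 1) := by ring
  rw [this]
  exact add_mem (ellO.mul_mem (mul_mem hu hv) hc') hc

theorem IsUnitMod.pow {ℓ : ℕ} {u : ℂ} (h : IsUnitMod ℓ u) (n : ℕ) : IsUnitMod ℓ (u ^ n) := by
  induction n with
  | zero => simpa using IsUnitMod.one ℓ
  | succ n ih => rw [pow_succ]; exact ih.mul h

theorem IsUnitMod.prod {ℓ : ℕ} {ι : Type*} (s : Finset ι) (u : ι → ℂ)
    (h : ∀ i ∈ s, IsUnitMod ℓ (u i)) : IsUnitMod ℓ (∏ i ∈ s, u i) := by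
  classical
  induction s using Finset.induction_on with
  | empty => simpa using IsUnitMod.one ℓ
  | insert a s ha ih =>
    rw [Finset.prod_insert ha]
    exact (h a (Finset.mem_insert_self a s)).mul
      (ih fun i hi => h i (Finset.mem_insert_of_mem hi))

theorem IsUnitMod.natCast {ℓ d : ℕ} (hd : Nat.Coprime d ℓ) (hℓ : ℓ.Prime) :
    IsUnitMod ℓ (d : ℂ) := by
  refine IsUnitMod.of_inv_mem (OInt.natCast_mem ℓ d) (OInt.inv_natCast_mem hd) ?_
  intro h0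
  have : d = 0 := by exact_mod_cast h0
  subst this
  rw [Nat.coprime_zero_left] at hd
  exact hℓ.one_lt.ne' hd

theorem IsUnitMod.inv_natCast {ℓ d : ℕ} (hd : Nat.Coprime d ℓ) (hℓ : ℓ.Prime) :
    IsUnitMod ℓ ((d : ℂ))⁻¹ := by
  have h0 : (d : ℂ) ≠ 0 := by
    intro h0
    have : d = 0 := by exact_mod_cast h0
    subst this
    rw [Nat.coprime_zero_left] at hd
    exact hℓ.one_lt.ne' hd
  refine IsUnitMod.of_inv_mem (OInt.inv_natCast_mem hd) ?_ (inv_ne_zero h0)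
  rw [inv_inv]
  exact OInt.natCast_mem ℓ d

theorem IsUnitMod.neg {ℓ : ℕ} {u : ℂ} (h : IsUnitMod ℓ u) : IsUnitMod ℓ (-u) := by
  obtain ⟨hu, v, hv, hc⟩ := h
  refine ⟨neg_mem hu, -v, neg_mem hv, ?_⟩
  have : -u * -v - 1 = u * v - 1 := by ring
  rwa [this]

/-- congruent to a unit mod `ℓ` is a unit mod `ℓ`. -/
theorem IsUnitMod.congr {ℓ : ℕ} {u u' : ℂ} (h : IsUnitMod ℓ u) (h' : u' - u ∈ ellO ℓ 1) :
    IsUnitMod ℓ u' := by
  obtain ⟨hu, v, hv, hc⟩ := h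
  have hu' : u' ∈ OInt ℓ := by
    have := add_mem (ellO_le_OInt h') hu
    simpa using this
  refine ⟨hu', v, hv, ?_⟩
  have : u' * v - 1 = (u' - u) * v + (u * v - 1) := by ring
  rw [this]
  exact add_mem (ellO.mul_mem_right h' hv) hc

theorem IsUnitMod.not_mem_ellO {ℓ : ℕ} (hℓ : ℓ.Prime) {u : ℂ} (h : IsUnitMod ℓ u) :
    u ∉ ellO ℓ 1 := by
  intro hu
  obtain ⟨_, v, hv, hc⟩ := h
  apply one_not_mem_ellO hℓ Nat.one_pos
  have : (1 : ℂ) = u * v - (u * v - 1) := by ring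
  rw [this]
  exact sub_mem (ellO.mul_mem_right hu hv) hc

/-! ## The ring `P_O` -/

local notation "𝕢" => Function.Periodic.qParam

theorem isNice_one_fun (N : ℕ) [NeZero N] : IsNice N (1 : ℍ → ℂ) := IsNice.const (N := N) 1

theorem isNice_zero_fun (N : ℕ) [NeZero N] : IsNice N (0 : ℍ → ℂ) := IsNice.const (N := N) 0

theorem isNice_smul {N : ℕ} [NeZero N] {g : ℍ → ℂ} (hg : IsNice N g) (c : ℂ) :
    IsNice N (c • g) := by
  have := (IsNice.const (N := N) c).mul hg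
  exact this

theorem qExpansion_smul_of_isNice {N : ℕ} [NeZero N] {g : ℍ → ℂ} (hg : IsNice N g) (c : ℂ) :
    qExpansion (N : ℝ) (c • g) = c • qExpansion (N : ℝ) g :=
  UpperHalfPlane.qExpansion_smul hg.analyticAt c

theorem isNice_sub {N : ℕ} [NeZero N] {g h : ℍ → ℂ} (hg : IsNice N g) (hh : IsNice N h) :
    IsNice N (g - h) := by
  rw [sub_eq_add_neg]
  exact hg.add hh.neg

theorem qExpansion_sub_of_isNice {N : ℕ} [NeZero N] {g h : ℍ → ℂ} (hg : IsNice N g)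
    (hh : IsNice N h) :
    qExpansion (N : ℝ) (g - h) = qExpansion (N : ℝ) g - qExpansion (N : ℝ) h :=
  UpperHalfPlane.qExpansion_sub hg.analyticAt hh.analyticAt

/-- `P_O`: holomorphic functions on `ℍ`, periodic of period `p`, bounded at `i∞`, whose expansion
in `t = q^{1/p}` has coefficients in `O`. -/
def PO (p ℓ : ℕ) [NeZero p] : Subring (ℍ → ℂ) where
  carrier := {g | IsNice p g ∧ ∀ n, (qExpansion (p : ℝ) g).coeff n ∈ OInt ℓ}
  mul_mem' := by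
    rintro g h ⟨hg, hgO⟩ ⟨hh, hhO⟩
    refine ⟨hg.mul hh, fun n => ?_⟩
    rw [hg.qExpansion_mul hh, PowerSeries.coeff_mul]
    exact sum_mem fun x _ => Subring.mul_mem _ (hgO _) (hhO _)
  one_mem' := by
    refine ⟨isNice_one_fun p, fun n => ?_⟩
    rw [UpperHalfPlane.qExpansion_one, PowerSeries.coeff_one]
    split_ifs
    · exact one_mem _
    · exact zero_mem _
  add_mem' := by
    rintro g h ⟨hg, hgO⟩ ⟨hh, hhO⟩
    refine ⟨hg.add hh, fun n => ?_⟩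
    rw [hg.qExpansion_add hh, map_add]
    exact add_mem (hgO _) (hhO _)
  zero_mem' := by
    refine ⟨isNice_zero_fun p, fun n => ?_⟩
    rw [UpperHalfPlane.qExpansion_zero, map_zero]
    exact zero_mem _
  neg_mem' := by
    rintro g ⟨hg, hgO⟩
    refine ⟨hg.neg, fun n => ?_⟩
    rw [hg.qExpansion_neg, map_neg]
    exact neg_mem (hgO _)

/-- the "ideal" `ℓ ^ s * P_O`. -/
def POI (p ℓ s : ℕ) [NeZero p] : AddSubgroup (ℍ → ℂ) where
  carrier := {g | IsNice p g ∧ ∀ n, (qExpansion (p : ℝ) g).coeff n ∈ ellO ℓ s}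
  add_mem' := by
    rintro g h ⟨hg, hgO⟩ ⟨hh, hhO⟩
    refine ⟨hg.add hh, fun n => ?_⟩
    rw [hg.qExpansion_add hh, map_add]
    exact add_mem (hgO _) (hhO _)
  zero_mem' := by
    refine ⟨isNice_zero_fun p, fun n => ?_⟩
    rw [UpperHalfPlane.qExpansion_zero, map_zero]
    exact zero_mem _
  neg_mem' := by
    rintro g ⟨hg, hgO⟩
    refine ⟨hg.neg, fun n => ?_⟩
    rw [hg.qExpansion_neg, map_neg]
    exact neg_mem (hgO _)

section PO

variable {p ℓ : ℕ} [NeZero p]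

theorem mem_PO {g : ℍ → ℂ} :
    g ∈ PO p ℓ ↔ IsNice p g ∧ ∀ n, (qExpansion (p : ℝ) g).coeff n ∈ OInt ℓ := Iff.rfl

theorem mem_POI {s : ℕ} {g : ℍ → ℂ} :
    g ∈ POI p ℓ s ↔ IsNice p g ∧ ∀ n, (qExpansion (p : ℝ) g).coeff n ∈ ellO ℓ s := Iff.rfl

theorem POI_le_PO {s : ℕ} {g : ℍ → ℂ} (h : g ∈ POI p ℓ s) : g ∈ PO p ℓ :=
  ⟨h.1, fun n => ellO_le_OInt (h.2 n)⟩

theorem POI_mono {s t : ℕ} (hst : s ≤ t) {g : ℍ → ℂ} (h : g ∈ POI p ℓ t) : g ∈ POI p ℓ s :=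
  ⟨h.1, fun n => ellO_mono hst (h.2 n)⟩

theorem POI_zero {g : ℍ → ℂ} : g ∈ POI p ℓ 0 ↔ g ∈ PO p ℓ := by
  rw [mem_POI, mem_PO]
  exact and_congr_right fun _ => forall_congr' fun n => ellO_zero ℓ

theorem PO.smul_mem {c : ℂ} (hc : c ∈ OInt ℓ) {g : ℍ → ℂ} (hg : g ∈ PO p ℓ) :
    c • g ∈ PO p ℓ := by
  refine ⟨isNice_smul hg.1 c, fun n => ?_⟩
  rw [qExpansion_smul_of_isNice hg.1, PowerSeries.coeff_smul]
  exact Subring.mul_mem _ hc (hg.2 n)

theorem POI.smul_mem {s : ℕ} {c : ℂ} (hc : c ∈ OInt ℓ) {g : ℍ → ℂ} (hg : g ∈ POI p ℓ s) :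
    c • g ∈ POI p ℓ s := by
  refine ⟨isNice_smul hg.1 c, fun n => ?_⟩
  rw [qExpansion_smul_of_isNice hg.1, PowerSeries.coeff_smul]
  exact ellO.mul_mem hc (hg.2 n)

theorem POI.smul_mem_of_mem_ellO {s : ℕ} {c : ℂ} (hc : c ∈ ellO ℓ s) {g : ℍ → ℂ}
    (hg : g ∈ PO p ℓ) : c • g ∈ POI p ℓ s := by
  refine ⟨isNice_smul hg.1 c, fun n => ?_⟩
  rw [qExpansion_smul_of_isNice hg.1, PowerSeries.coeff_smul]
  exact ellO.mul_mem_right hc (hg.2 n)

theorem PO.const_mem {c : ℂ} (hc : c ∈ OInt ℓ) : (fun _ : ℍ => c) ∈ PO p ℓ := by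
  have h := PO.smul_mem (p := p) hc (one_mem (PO p ℓ))
  have e : c • (1 : ℍ → ℂ) = fun _ : ℍ => c := by
    ext τ
    simp
  rwa [e] at h

theorem POI.const_mem {s : ℕ} {c : ℂ} (hc : c ∈ ellO ℓ s) : (fun _ : ℍ => c) ∈ POI p ℓ s := by
  have h := POI.smul_mem_of_mem_ellO (p := p) hc (one_mem (PO p ℓ))
  have e : c • (1 : ℍ → ℂ) = fun _ : ℍ => c := by
    ext τ
    simp
  rwa [e] at h

theorem mem_POI_iff_exists (hℓ : ℓ ≠ 0) {s : ℕ} {g : ℍ → ℂ} :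
    g ∈ POI p ℓ s ↔ ∃ h ∈ PO p ℓ, g = ((ℓ : ℂ) ^ s) • h := by
  have hℓ0 : ((ℓ : ℂ) ^ s) ≠ 0 := pow_ne_zero _ (by exact_mod_cast hℓ)
  constructor
  · rintro ⟨hg, hgO⟩
    refine ⟨((ℓ : ℂ) ^ s)⁻¹ • g, ⟨isNice_smul hg _, fun n => ?_⟩, ?_⟩
    · rw [qExpansion_smul_of_isNice hg, PowerSeries.coeff_smul]
      obtain ⟨y, hy, hxy⟩ := hgO n
      rw [hxy, smul_eq_mul, ← mul_assoc, inv_mul_cancel₀ hℓ0, one_mul]
      exact hy
    · rw [smul_smul, mul_inv_cancel₀ hℓ0, one_smul]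
  · rintro ⟨h, hh, rfl⟩
    exact POI.smul_mem_of_mem_ellO ⟨1, one_mem _, by simp⟩ hh

theorem POI.mul_mem {s : ℕ} {g h : ℍ → ℂ} (hg : g ∈ PO p ℓ) (hh : h ∈ POI p ℓ s) :
    g * h ∈ POI p ℓ s := by
  refine ⟨hg.1.mul hh.1, fun n => ?_⟩
  rw [hg.1.qExpansion_mul hh.1, PowerSeries.coeff_mul]
  exact sum_mem fun x _ => ellO.mul_mem (hg.2 _) (hh.2 _)

theorem POI.mul_mem_right {s : ℕ} {g h : ℍ → ℂ} (hh : h ∈ POI p ℓ s) (hg : g ∈ PO p ℓ) :
    h * g ∈ POI p ℓ s := by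
  rw [mul_comm]
  exact POI.mul_mem hg hh

/-- congruences modulo `ℓ ^ s P_O` can be multiplied. -/
theorem POI.mul_congr {s : ℕ} {g g' h h' : ℍ → ℂ} (hg : g ∈ PO p ℓ) (hh' : h' ∈ PO p ℓ)
    (h1 : g - g' ∈ POI p ℓ s) (h2 : h - h' ∈ POI p ℓ s) : g * h - g' * h' ∈ POI p ℓ s := by
  have e : g * h - g' * h' = g * (h - h') + (g - g') * h' := by ring
  rw [e]
  exact add_mem (POI.mul_mem hg h2) (POI.mul_mem_right h1 hh')

/-- congruences modulo `ℓ ^ s P_O` for finite products. -/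
theorem POI.prod_congr {s : ℕ} {ι : Type*} (t : Finset ι) (g g' : ι → ℍ → ℂ)
    (hg' : ∀ i ∈ t, g' i ∈ PO p ℓ) (h : ∀ i ∈ t, g i - g' i ∈ POI p ℓ s) :
    (∏ i ∈ t, g i) - ∏ i ∈ t, g' i ∈ POI p ℓ s := by
  classical
  induction t using Finset.induction_on with
  | empty => simp
  | insert a t ha ih =>
    rw [Finset.prod_insert ha, Finset.prod_insert ha]
    have hga : g a ∈ PO p ℓ := by
      have := add_mem (POI_le_PO (h a (Finset.mem_insert_self a t)))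
        (hg' a (Finset.mem_insert_self a t))
      simpa using this
    exact POI.mul_congr hga
      (prod_mem fun i hi => hg' i (Finset.mem_insert_of_mem hi))
      (h a (Finset.mem_insert_self a t))
      (ih (fun i hi => hg' i (Finset.mem_insert_of_mem hi))
        (fun i hi => h i (Finset.mem_insert_of_mem hi)))

/-! ### level-one type functions -/

theorem vadd_natCast_iterate {g : ℍ → ℂ} (hg : ∀ τ : ℍ, g ((1 : ℝ) +ᵥ τ) = g τ) (n : ℕ)
    (τ : ℍ) : g ((n : ℝ) +ᵥ τ) = g τ := by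
  induction n with
  | zero =>
    congr 1
    ext
    simp
  | succ n ih =>
    have : (((n + 1 : ℕ) : ℝ)) +ᵥ τ = (1 : ℝ) +ᵥ ((n : ℝ) +ᵥ τ) := by
      ext
      simp only [coe_vadd]
      push_cast
      ring
    rw [this, hg, ih]

theorem isNice_per_one {g : ℍ → ℂ} (hg : IsNice 1 g) (τ : ℍ) : g ((1 : ℝ) +ᵥ τ) = g τ := by
  have := hg.per τ
  simpa using this

omit [NeZero p] in
theorem isNice_of_isNice_one {g : ℍ → ℂ} (hg : IsNice 1 g) : IsNice p g where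
  per τ := vadd_natCast_iterate (isNice_per_one hg) p τ
  mdiff := hg.mdiff
  bdd := hg.bdd

theorem hasSum_one {g : ℍ → ℂ} (hg : IsNice 1 g) (τ : ℍ) :
    HasSum (fun m : ℕ => (qExpansion (1 : ℝ) g).coeff m * 𝕢 (1 : ℝ) τ ^ m) (g τ) := by
  have := hg.hasSum τ
  simpa using this

theorem qParam_one_eq_pow (τ : ℂ) : 𝕢 (1 : ℝ) τ = 𝕢 (p : ℝ) τ ^ p := by
  have hp : (p : ℂ) ≠ 0 := by exact_mod_cast NeZero.ne p
  rw [Function.Periodic.qParam, Function.Periodic.qParam, ← Complex.exp_nat_mul]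
  congr 1
  push_cast
  field_simp

theorem qExpansion_of_isNice_one {g : ℍ → ℂ} (hg : IsNice 1 g) (n : ℕ) :
    (qExpansion (p : ℝ) g).coeff n =
      if p ∣ n then (qExpansion (1 : ℝ) g).coeff (n / p) else 0 := by
  have hp : 0 < p := Nat.pos_of_ne_zero (NeZero.ne p)
  symm
  refine (isNice_of_isNice_one (p := p) hg).coeff_unique
    (c := fun n => if p ∣ n then (qExpansion (1 : ℝ) g).coeff (n / p) else 0) (fun τ => ?_) n
  have h1 := hasSum_one hg τ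
  have hinj : Function.Injective (fun m : ℕ => p * m) := fun a b h =>
    Nat.eq_of_mul_eq_mul_left hp h
  refine (Function.Injective.hasSum_iff hinj ?_).mp ?_
  · intro x hx
    have : ¬ p ∣ x := by
      rintro ⟨m, rfl⟩
      exact hx ⟨m, rfl⟩
    simp [this]
  · refine h1.congr_fun fun m => ?_
    simp only [Function.comp_apply, dvd_mul_right, if_true, Nat.mul_div_cancel_left m hp]
    rw [qParam_one_eq_pow (p := p), pow_mul]

theorem mem_PO_of_isNice_one {g : ℍ → ℂ} (hg : IsNice 1 g)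
    (hO : ∀ n, (qExpansion (1 : ℝ) g).coeff n ∈ OInt ℓ) : g ∈ PO p ℓ := by
  refine ⟨isNice_of_isNice_one hg, fun n => ?_⟩
  rw [qExpansion_of_isNice_one hg]
  split_ifs
  · exact hO _
  · exact zero_mem _

theorem mem_POI_of_isNice_one {s : ℕ} {g : ℍ → ℂ} (hg : IsNice 1 g)
    (hO : ∀ n, (qExpansion (1 : ℝ) g).coeff n ∈ ellO ℓ s) : g ∈ POI p ℓ s := by
  refine ⟨isNice_of_isNice_one hg, fun n => ?_⟩
  rw [qExpansion_of_isNice_one hg]
  split_ifs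
  · exact hO _
  · exact zero_mem _

/-- converse: a `1`-periodic element of `P_O` has `O`-integral `q`-expansion. -/
theorem coeff_mem_of_mem_PO {g : ℍ → ℂ} (hg : IsNice 1 g) (h : g ∈ PO p ℓ) (n : ℕ) :
    (qExpansion (1 : ℝ) g).coeff n ∈ OInt ℓ := by
  have hp : 0 < p := Nat.pos_of_ne_zero (NeZero.ne p)
  have := h.2 (p * n)
  rwa [qExpansion_of_isNice_one hg, if_pos (dvd_mul_right p n), Nat.mul_div_cancel_left n hp]
    at this

theorem coeff_mem_of_mem_POI {s : ℕ} {g : ℍ → ℂ} (hg : IsNice 1 g) (h : g ∈ POI p ℓ s)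
    (n : ℕ) : (qExpansion (1 : ℝ) g).coeff n ∈ ellO ℓ s := by
  have hp : 0 < p := Nat.pos_of_ne_zero (NeZero.ne p)
  have := h.2 (p * n)
  rwa [qExpansion_of_isNice_one hg, if_pos (dvd_mul_right p n), Nat.mul_div_cancel_left n hp]
    at this

/-! ### translates -/

/-- the primitive `p`-th root of unity `exp (2 π i / p)`. -/
def zetaP (p : ℕ) : ℂ := Complex.exp (2 * Real.pi * Complex.I / p)

theorem zetaP_pow_self (p : ℕ) [NeZero p] : zetaP p ^ p = 1 := by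
  have hp : (p : ℂ) ≠ 0 := by exact_mod_cast NeZero.ne p
  rw [zetaP, ← Complex.exp_nat_mul, mul_div_cancel₀ _ hp, Complex.exp_two_pi_mul_I]

theorem isIntegral_zetaP (p : ℕ) [NeZero p] : IsIntegral ℤ (zetaP p) :=
  IsIntegral.of_pow (Nat.pos_of_ne_zero (NeZero.ne p)) (by
    rw [zetaP_pow_self]
    exact isIntegral_one)

theorem zetaP_mem_OInt (p ℓ : ℕ) [NeZero p] (n : ℕ) : zetaP p ^ n ∈ OInt ℓ :=
  OInt.of_isIntegral ((isIntegral_zetaP p).pow n)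

theorem isNice_comp_heckeMatrix {g : ℍ → ℂ} (hg : IsNice 1 g) (j : ℕ) :
    IsNice p (fun τ : ℍ => g (ModularForm.heckeMatrix p j • τ)) where
  per τ := by
    have hp : (p : ℂ) ≠ 0 := by exact_mod_cast NeZero.ne p
    have : ModularForm.heckeMatrix p j • ((p : ℝ) +ᵥ τ) =
        (1 : ℝ) +ᵥ (ModularForm.heckeMatrix p j • τ) := by
      ext
      rw [coe_vadd, ModularForm.coe_heckeMatrix_smul (NeZero.ne p),
        ModularForm.coe_heckeMatrix_smul (NeZero.ne p), coe_vadd]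
      push_cast
      field_simp
      ring
    show g _ = g _
    rw [this, isNice_per_one hg]
  mdiff := hg.mdiff.comp (mdifferentiable_smul (ModularForm.det_heckeMatrix_pos p j))
  bdd := by
    have ht : Tendsto (fun τ : ℍ => ModularForm.heckeMatrix p j • τ) atImInfty atImInfty := by
      apply tendsto_smul_atImInfty
      simp [ModularForm.val_heckeMatrix (NeZero.ne p)]
    exact hg.bdd.comp_tendsto ht

theorem qParam_heckeMatrix_smul (j : ℕ) (τ : ℍ) :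
    𝕢 (1 : ℝ) ((ModularForm.heckeMatrix p j • τ : ℍ) : ℂ) = zetaP p ^ j * 𝕢 (p : ℝ) (τ : ℂ) := by
  have hp : (p : ℂ) ≠ 0 := by exact_mod_cast NeZero.ne p
  rw [ModularForm.coe_heckeMatrix_smul (NeZero.ne p), Function.Periodic.qParam,
    Function.Periodic.qParam, zetaP, ← Complex.exp_nat_mul, ← Complex.exp_add]
  congr 1
  push_cast
  field_simp
  ring

theorem qExpansion_comp_heckeMatrix {g : ℍ → ℂ} (hg : IsNice 1 g) (j n : ℕ) :
    (qExpansion (p : ℝ) (fun τ : ℍ => g (ModularForm.heckeMatrix p j • τ))).coeff n =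
      zetaP p ^ (j * n) * (qExpansion (1 : ℝ) g).coeff n := by
  symm
  refine (isNice_comp_heckeMatrix (p := p) hg j).coeff_unique
    (c := fun n => zetaP p ^ (j * n) * (qExpansion (1 : ℝ) g).coeff n) (fun τ => ?_) n
  have h1 := hasSum_one hg (ModularForm.heckeMatrix p j • τ)
  refine h1.congr_fun fun m => ?_
  rw [qParam_heckeMatrix_smul, mul_pow, ← pow_mul]
  ring

theorem comp_heckeMatrix_mem_PO {g : ℍ → ℂ} (hg : IsNice 1 g)
    (hO : ∀ n, (qExpansion (1 : ℝ) g).coeff n ∈ OInt ℓ) (j : ℕ) :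
    (fun τ : ℍ => g (ModularForm.heckeMatrix p j • τ)) ∈ PO p ℓ := by
  refine ⟨isNice_comp_heckeMatrix hg j, fun n => ?_⟩
  rw [qExpansion_comp_heckeMatrix hg]
  exact Subring.mul_mem _ (zetaP_mem_OInt p ℓ _) (hO n)

theorem comp_heckeMatrix_mem_POI {s : ℕ} {g : ℍ → ℂ} (hg : IsNice 1 g)
    (hO : ∀ n, (qExpansion (1 : ℝ) g).coeff n ∈ ellO ℓ s) (j : ℕ) :
    (fun τ : ℍ => g (ModularForm.heckeMatrix p j • τ)) ∈ POI p ℓ s := by
  refine ⟨isNice_comp_heckeMatrix hg j, fun n => ?_⟩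
  rw [qExpansion_comp_heckeMatrix hg]
  exact ellO.mul_mem (zetaP_mem_OInt p ℓ _) (hO n)

end PO

/-! ### modular forms are nice -/

theorem isNice_one_of_modularFormClass {F : Type*} [FunLike F ℍ ℂ]
    {Γ : Subgroup (GL (Fin 2) ℝ)} {k : ℤ} [ModularFormClass F Γ k] (f : F)
    (h1 : (1 : ℝ) ∈ Γ.strictPeriods) : IsNice 1 (f : ℍ → ℂ) where
  per τ := by
    have := SlashInvariantForm.vAdd_apply_of_mem_strictPeriods f τ h1
    simpa using this
  mdiff := ModularFormClass.holo f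
  bdd :=
    haveI : Fact (IsCusp OnePoint.infty Γ) := ⟨Γ.isCusp_of_mem_strictPeriods one_pos h1⟩
    ModularFormClass.bdd_at_infty f

/-- a modular form on `Γ₀(N)` is `1`-periodic nice. -/
theorem isNice_one_of_modularForm {N : ℕ} {k : ℤ}
    (f : ModularForm (CongruenceSubgroup.Gamma0 N) k) : IsNice 1 (f : ℍ → ℂ) :=
  isNice_one_of_modularFormClass f (CongruenceSubgroup.one_mem_strictPeriods_Gamma0 N)

/-- a modular form of level one is `1`-periodic nice. -/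
theorem isNice_one_of_levelOne {k : ℤ} (f : ModularForm 𝒮ℒ k) : IsNice 1 (f : ℍ → ℂ) :=
  isNice_one_of_modularFormClass f one_mem_strictPeriods_SL

end Fermat.Agent.S16.helper58
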