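import Mathlib
import Fermat.Agent.S23.LevelOne

/-!
# S16 / [A2]: level-one valence ("Sturm") bound over an additive subgroup of `ℂ`

For an additive subgroup `J ≤ ℂ` and a level-one modular form `f` of weight `k`:
if the q-expansion coefficients `a_n(f)` lie in `J` for all `n ≤ k / 12`, then all
coefficients of `f` lie in `J` (Victor Miller: every coefficient is a `ℤ`-linear combination
of the first `⌊k/12⌋ + 1` ones).

Taking `J = ℓ • O` for a subring `O ⊆ ℂ` gives the "valence mod `ℓ`" tool of the S16 blueprint.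
-/

set_option autoImplicit false

open UpperHalfPlane ModularForm ModularFormClass EisensteinSeries
open scoped MatrixGroups

namespace Fermat.Agent.S16.helper77

/-- Integer multiples of elements of an additive subgroup of `ℂ` stay in it. -/
theorem intCast_mul_mem (J : AddSubgroup ℂ) (a : ℤ) {x : ℂ} (hx : x ∈ J) : (a : ℂ) * x ∈ J := by
  rw [← zsmul_eq_mul]
  exact J.zsmul_mem hx a

/-- If `p` has integer coefficients and all coefficients of `s` up to `n` are in `J`,
the `n`-th coefficient of `p * s` is in `J`. -/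
theorem coeff_int_mul_mem (J : AddSubgroup ℂ) (a : PowerSeries ℤ) (s : PowerSeries ℂ) (n : ℕ)
    (hs : ∀ i ≤ n, s.coeff i ∈ J) :
    ((a.map (Int.castRingHom ℂ)) * s).coeff n ∈ J := by
  rw [PowerSeries.coeff_mul]
  refine J.sum_mem fun x hx => ?_
  rw [PowerSeries.coeff_map]
  have h2 : x.2 ≤ n := by
    have := Finset.HasAntidiagonal.mem_antidiagonal.mp hx
    omega
  simpa using intCast_mul_mem J (a.coeff x.1) (hs x.2 h2)

/-- Triangular inversion: if `d` has integer coefficients, `d₀ = 0`, `d₁ = 1`, and the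
coefficients `(d * h)_{i}` lie in `J` for `i ≤ m + 1`, then `h_i ∈ J` for `i ≤ m`. -/
theorem coeff_mem_of_mul_mem (J : AddSubgroup ℂ) (d : PowerSeries ℤ) (h : PowerSeries ℂ)
    (hd0 : d.coeff 0 = 0) (hd1 : d.coeff 1 = 1) (m : ℕ)
    (hg : ∀ i ≤ m + 1, ((d.map (Int.castRingHom ℂ)) * h).coeff i ∈ J) :
    ∀ i ≤ m, h.coeff i ∈ J := by
  intro i
  induction i using Nat.strong_induction_on with
  | _ i ih =>
    intro hi
    have hg' := hg (i + 1) (by omega)
    rw [PowerSeries.coeff_mul, Finset.Nat.sum_antidiagonal_eq_sum_range_succ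
      (fun a b => (d.map (Int.castRingHom ℂ)).coeff a * h.coeff b) (i + 1)] at hg'
    -- terms: a = 0 (zero), a = 1 (h_i), a ≥ 2 (in J by ih)
    rw [Finset.sum_range_succ', Finset.sum_range_succ'] at hg'
    simp only [PowerSeries.coeff_map, hd0, hd1, eq_intCast, Int.cast_zero, zero_mul, add_zero,
      Int.cast_one, one_mul, zero_add, Nat.add_sub_cancel] at hg'
    have hrest : ∑ k ∈ Finset.range i,
        ((d.coeff (k + 1 + 1) : ℤ) : ℂ) * h.coeff (i + 1 - (k + 1 + 1)) ∈ J := by
      refine J.sum_mem fun k hk => ?_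
      have hk' := Finset.mem_range.mp hk
      exact intCast_mul_mem J _ (ih _ (by omega) (by omega))
    have := J.sub_mem hg' hrest
    simpa using this

/-- There is a level-one form of every even weight `k ≥ 4` with integral q-expansion and
constant term `1`. -/
theorem exists_int_form_const_one : ∀ (n : ℕ) (k : ℕ), k < n → 4 ≤ k → Even k →
    ∃ G : ModularForm 𝒮ℒ (k : ℤ), Fermat.Agent.S23.IsIntSeries (qExpansion 1 G) ∧
      (qExpansion 1 G).coeff 0 = 1 := by
  intro n
  induction n with
  | zero => intro k hk; omega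
  | succ n ih =>
    intro k hk h4 he
    by_cases h8 : 8 ≤ k
    · obtain ⟨G, hG, hG0⟩ := ih (k - 4) (by omega) (by omega)
        (by
          obtain ⟨r, hr⟩ := he
          exact ⟨r - 2, by omega⟩)
      refine ⟨ModularForm.mcast (by push_cast [Nat.cast_sub (show 4 ≤ k by omega)]; ring)
        (G.mul E₄), ?_, ?_⟩
      · have : ((ModularForm.mcast (by push_cast [Nat.cast_sub (show 4 ≤ k by omega)]; ring)
            (G.mul E₄) : ModularForm 𝒮ℒ (k : ℤ)) : ℍ → ℂ) = (G : ℍ → ℂ) * (E₄ : ℍ → ℂ) := rfl
        rw [this, ModularForm.qExpansion_mul_coe one_pos one_mem_strictPeriods_SL]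
        exact hG.mul ⟨_, Fermat.Agent.S23.qExpansion_E₄⟩
      · have : ((ModularForm.mcast (by push_cast [Nat.cast_sub (show 4 ≤ k by omega)]; ring)
            (G.mul E₄) : ModularForm 𝒮ℒ (k : ℤ)) : ℍ → ℂ) = (G : ℍ → ℂ) * (E₄ : ℍ → ℂ) := rfl
        rw [this, ModularForm.qExpansion_mul_coe one_pos one_mem_strictPeriods_SL,
          PowerSeries.coeff_mul]
        simp [hG0, E_qExpansion_coeff_zero _ ⟨2, rfl⟩]
    · have hk46 : k = 4 ∨ k = 6 := by
        obtain ⟨r, hr⟩ := he
        omega
      rcases hk46 with rfl | rfl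
      · exact ⟨E₄, ⟨_, Fermat.Agent.S23.qExpansion_E₄⟩, E_qExpansion_coeff_zero _ ⟨2, rfl⟩⟩
      · exact ⟨E₆, ⟨_, Fermat.Agent.S23.qExpansion_E₆⟩, E_qExpansion_coeff_zero _ ⟨3, rfl⟩⟩

/-- A level-one form of every even weight `k ≠ 2` with integral q-expansion and
constant term `1`. -/
theorem exists_int_form_const_one' (k : ℕ) (hk2 : k ≠ 2) (he : Even k) :
    ∃ G : ModularForm 𝒮ℒ (k : ℤ), Fermat.Agent.S23.IsIntSeries (qExpansion 1 G) ∧
      (qExpansion 1 G).coeff 0 = 1 := by
  by_cases h4 : 4 ≤ k
  · exact exists_int_form_const_one (k + 1) k (by omega) h4 he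
  · have hk0 : k = 0 := by
      obtain ⟨r, hr⟩ := he
      omega
    subst hk0
    refine ⟨(1 : ModularForm 𝒮ℒ 0), ?_, ?_⟩
    · rw [ModularForm.qExpansion_one]
      exact Fermat.Agent.S23.IsIntSeries.one
    · rw [ModularForm.qExpansion_one]
      simp

theorem deltaInt_coeff_zero : Fermat.Agent.S23.deltaInt.coeff 0 = 0 := by
  have h : (qExpansion 1 ModularForm.discriminant).coeff 0 = 0 :=
    PowerSeries.coeff_of_lt_order 0 (by rw [discriminant_qExpansion_order]; exact zero_lt_one)
  rw [Fermat.Agent.S23.qExpansion_discriminant_eq_map, PowerSeries.coeff_map, eq_intCast] at h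
  exact_mod_cast h

theorem deltaInt_coeff_one : Fermat.Agent.S23.deltaInt.coeff 1 = 1 := by
  have h : (qExpansion 1 ModularForm.discriminant).coeff 1 = 1 :=
    discriminant_qExpansion_coeff_one
  rw [Fermat.Agent.S23.qExpansion_discriminant_eq_map, PowerSeries.coeff_map, eq_intCast] at h
  exact_mod_cast h

/-- **Level-one valence bound over an additive subgroup** (natural weight).
If the q-expansion coefficients `a_n(f)`, `n ≤ k / 12`, of a level-one modular form of weight `k`
lie in the additive subgroup `J ≤ ℂ`, then all coefficients do. -/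
theorem levelOne_coeff_mem_nat (J : AddSubgroup ℂ) :
    ∀ (k : ℕ) (f : ModularForm 𝒮ℒ (k : ℤ)),
      (∀ n ≤ k / 12, (qExpansion 1 f).coeff n ∈ J) → ∀ n, (qExpansion 1 f).coeff n ∈ J := by
  intro k
  induction k using Nat.strong_induction_on with
  | _ k ih =>
    intro f hf
    have hzero : f = 0 → ∀ n, (qExpansion 1 f).coeff n ∈ J := by
      rintro rfl n
      rw [show ((0 : ModularForm 𝒮ℒ (k : ℤ)) : ℍ → ℂ) = 0 from rfl, qExpansion_zero]
      simp
    rcases Nat.even_or_odd k with he | ho
    · by_cases hk2 : k = 2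
      · subst hk2
        exact hzero (rank_zero_iff_forall_zero.mp ModularForm.levelOne_weight_two_rank_zero f)
      · obtain ⟨G, ⟨a, hGa⟩, hG0⟩ := exists_int_form_const_one' k hk2 he
        set c : ℂ := (qExpansion 1 f).coeff 0 with hc
        have hcJ : c ∈ J := hf 0 (Nat.zero_le _)
        -- g = f - c • G
        set g : ModularForm 𝒮ℒ (k : ℤ) := f - c • G with hg
        have hgq : qExpansion 1 g = qExpansion 1 f - c • qExpansion 1 G := by
          rw [hg, FunLike.coe_sub, ModularForm.qExpansion_sub one_pos one_mem_strictPeriods_SL,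
            FunLike.coe_smul, ModularForm.qExpansion_smul one_pos one_mem_strictPeriods_SL]
        have hcG : ∀ n, (c • qExpansion 1 G).coeff n ∈ J := by
          intro n
          rw [PowerSeries.coeff_smul, hGa, PowerSeries.coeff_map, smul_eq_mul, mul_comm]
          exact intCast_mul_mem J _ hcJ
        have hg0 : (qExpansion 1 g).coeff 0 = 0 := by
          rw [hgq, map_sub, PowerSeries.coeff_smul, hG0, smul_eq_mul, mul_one, sub_self]
        have hglow : ∀ n ≤ k / 12, (qExpansion 1 g).coeff n ∈ J := by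
          intro n hn
          rw [hgq, map_sub]
          exact J.sub_mem (hf n hn) (hcG n)
        suffices hgall : ∀ n, (qExpansion 1 g).coeff n ∈ J by
          intro n
          have h1 := J.add_mem (hgall n) (hcG n)
          rw [hgq, map_sub, sub_add_cancel] at h1
          exact h1
        have hfac := qExpansion_eq_qExpansion_discriminant_mul g hg0
        set h : ModularForm 𝒮ℒ ((k : ℤ) - 12) :=
          CuspForm.discriminantEquiv (toCuspForm g hg0) with hh
        rw [Fermat.Agent.S23.qExpansion_discriminant_eq_map] at hfac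
        rcases lt_or_ge k 12 with hk12 | hk12
        · have h0 : h = 0 :=
            rank_zero_iff_forall_zero.mp (levelOne_neg_weight_rank_zero (by omega)) h
          intro n
          rw [hfac, h0, show ((0 : ModularForm 𝒮ℒ ((k : ℤ) - 12)) : ℍ → ℂ) = 0 from rfl,
            qExpansion_zero]
          simp
        · -- cast to natural weight and use the induction hypothesis
          have hw : ((k : ℤ) - 12) = ((k - 12 : ℕ) : ℤ) := by omega
          set h' : ModularForm 𝒮ℒ ((k - 12 : ℕ) : ℤ) := ModularForm.mcast hw h with hh'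
          have hh'coe : (h' : ℍ → ℂ) = (h : ℍ → ℂ) := rfl
          have hdiv : k / 12 = (k - 12) / 12 + 1 := by omega
          have hlow' : ∀ n ≤ (k - 12) / 12, (qExpansion 1 h').coeff n ∈ J := by
            rw [hh'coe]
            refine coeff_mem_of_mul_mem J Fermat.Agent.S23.deltaInt _ deltaInt_coeff_zero
              deltaInt_coeff_one ((k - 12) / 12) ?_
            intro i hi
            rw [← hfac]
            exact hglow i (by omega)
          have hall' := ih (k - 12) (by omega) h' hlow'
          rw [hh'coe] at hall'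
          intro n
          rw [hfac]
          exact coeff_int_mul_mem J _ _ n (fun i _ => hall' i)
    · exact hzero (ModularForm.levelOne_odd_weight_eq_zero (by exact_mod_cast ho) f)

/-- **Level-one valence bound over an additive subgroup** (integer weight). -/
theorem levelOne_coeff_mem (J : AddSubgroup ℂ) (k : ℤ) (f : ModularForm 𝒮ℒ k)
    (hf : ∀ n : ℕ, (n : ℤ) ≤ k / 12 → (qExpansion 1 f).coeff n ∈ J) :
    ∀ n, (qExpansion 1 f).coeff n ∈ J := by
  rcases lt_or_ge k 0 with hk | hk
  · have h0 : f = 0 := rank_zero_iff_forall_zero.mp (levelOne_neg_weight_rank_zero hk) f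
    intro n
    rw [h0, show ((0 : ModularForm 𝒮ℒ k) : ℍ → ℂ) = 0 from rfl, qExpansion_zero]
    simp
  · lift k to ℕ using hk
    refine levelOne_coeff_mem_nat J k f fun n hn => hf n ?_
    have : ((k / 12 : ℕ) : ℤ) = (k : ℤ) / 12 := by norm_cast
    omega

/-- Contrapositive form used in the norm argument: if `a_n(f) ∈ J` for all `n < m` but
`a_m(f) ∉ J`, then `m ≤ k / 12`. -/
theorem le_weight_div_of_coeff_not_mem (J : AddSubgroup ℂ) (k : ℕ) (f : ModularForm 𝒮ℒ (k : ℤ))
    (m : ℕ) (hlow : ∀ n < m, (qExpansion 1 f).coeff n ∈ J)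
    (hm : (qExpansion 1 f).coeff m ∉ J) : m ≤ k / 12 := by
  by_contra hcon
  exact hm (levelOne_coeff_mem_nat J k f (fun n hn => hlow n (by omega)) m)

/-- The additive subgroup `l • O` of `ℂ`, for a subring `O` and `l : ℂ`. -/
def mulSub (O : Subring ℂ) (l : ℂ) : AddSubgroup ℂ :=
  O.toAddSubgroup.map (AddMonoidHom.mulLeft l)

theorem mem_mulSub {O : Subring ℂ} {l y : ℂ} : y ∈ mulSub O l ↔ ∃ x ∈ O, l * x = y := by
  simp [mulSub, AddSubgroup.mem_map]

/-- **Valence mod `l`** (tool (c) of the S16 blueprint): if the coefficients `a_n(f)`,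
`n ≤ k / 12`, of a level-one form of weight `k` are in `l • O`, then all coefficients are. -/
theorem levelOne_valence_mod (O : Subring ℂ) (l : ℂ) (k : ℕ) (f : ModularForm 𝒮ℒ (k : ℤ))
    (hf : ∀ n ≤ k / 12, ∃ x ∈ O, l * x = (qExpansion 1 f).coeff n) :
    ∀ n, ∃ x ∈ O, l * x = (qExpansion 1 f).coeff n := fun n =>
  mem_mulSub.mp (levelOne_coeff_mem_nat (mulSub O l) k f (fun m hm => mem_mulSub.mpr (hf m hm)) n)

end Fermat.Agent.S16.helper77
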