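import Mathlib
import Fermat.Agent.S16.helper58_PO
import Fermat.Agent.S16.helper41_Cosets
import Fermat.Agent.S16.helper77_LevelOneSturm

/-!
# S16 [A3], tool (d): the norm congruence

Let `X` be a modular form of weight `w < 12` on `Γ₀(p)`, `p` prime, and `ψ` a `1`-periodic
function with `O`-integral `q`-expansion `ψ = c₁ q + c₂ q² + ⋯`, `c₁` a unit mod `ℓ`.  If `X` and
all its conjugates `X ∣ S T^j` are congruent to unit multiples of `ψ` modulo `ℓ P_O`, we get a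
contradiction: the norm of `X` is a level-one form of weight `w (p + 1)` which is congruent to
`U ψ^(p+1)` mod `ℓ`, contradicting the level-one valence bound mod `ℓ`.
-/

set_option autoImplicit false

noncomputable section

open UpperHalfPlane Filter Topology Function
open scoped MatrixGroups Manifold ModularForm CongruenceSubgroup

namespace Fermat.Agent.S16.helper58

open Fermat.Agent.S24.helper37

/-! ### `1`-periodic nice functions: expansions at `h = 1` -/

theorem isNice_one_mul {g h : ℍ → ℂ} (hg : IsNice 1 g) (hh : IsNice 1 h) : IsNice 1 (g * h) :=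
  hg.mul hh

theorem isNice_one_pow {g : ℍ → ℂ} (hg : IsNice 1 g) (n : ℕ) : IsNice 1 (g ^ n) := by
  induction n with
  | zero => simpa using isNice_one_fun 1
  | succ n ih => rw [pow_succ]; exact ih.mul hg

theorem qExpansion_one_mul {g h : ℍ → ℂ} (hg : IsNice 1 g) (hh : IsNice 1 h) :
    qExpansion (1 : ℝ) (g * h) = qExpansion (1 : ℝ) g * qExpansion (1 : ℝ) h := by
  have := hg.qExpansion_mul hh
  simpa using this

theorem qExpansion_one_pow {g : ℍ → ℂ} (hg : IsNice 1 g) (n : ℕ) :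
    qExpansion (1 : ℝ) (g ^ n) = qExpansion (1 : ℝ) g ^ n := by
  induction n with
  | zero =>
    rw [pow_zero, pow_zero]
    exact UpperHalfPlane.qExpansion_one 1
  | succ n ih => rw [pow_succ, pow_succ, qExpansion_one_mul (isNice_one_pow hg n) hg, ih]

theorem qExpansion_one_sub {g h : ℍ → ℂ} (hg : IsNice 1 g) (hh : IsNice 1 h) :
    qExpansion (1 : ℝ) (g - h) = qExpansion (1 : ℝ) g - qExpansion (1 : ℝ) h := by
  have := qExpansion_sub_of_isNice hg hh
  simpa using this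

theorem qExpansion_one_smul {g : ℍ → ℂ} (hg : IsNice 1 g) (c : ℂ) :
    qExpansion (1 : ℝ) (c • g) = c • qExpansion (1 : ℝ) g := by
  have := qExpansion_smul_of_isNice hg c
  simpa using this

/-! ### power series with vanishing constant term -/

theorem coeff_pow_of_coeff_zero_eq_zero {R : Type*} [CommRing R] (f : PowerSeries R)
    (h0 : f.coeff 0 = 0) (m n : ℕ) (hn : n < m) : (f ^ m).coeff n = 0 := by
  have hX : PowerSeries.X ∣ f := by
    rw [PowerSeries.X_dvd_iff]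
    simpa using h0
  obtain ⟨g, rfl⟩ := hX
  rw [mul_pow, PowerSeries.coeff_X_pow_mul', if_neg (by omega)]

theorem coeff_pow_self_of_coeff_zero_eq_zero {R : Type*} [CommRing R] (f : PowerSeries R)
    (h0 : f.coeff 0 = 0) (m : ℕ) : (f ^ m).coeff m = f.coeff 1 ^ m := by
  have hX : PowerSeries.X ∣ f := by
    rw [PowerSeries.X_dvd_iff]
    simpa using h0
  obtain ⟨g, rfl⟩ := hX
  rw [mul_pow, PowerSeries.coeff_X_pow_mul', if_pos le_rfl, Nat.sub_self]
  have h1 : (PowerSeries.X * g).coeff 1 = g.coeff 0 := by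
    rw [show (1 : ℕ) = 0 + 1 from rfl, PowerSeries.coeff_succ_X_mul]
  rw [h1, PowerSeries.coeff_zero_eq_constantCoeff, map_pow]

/-! ### the norm congruence -/

/-- **Tool (d)**, coset form.  `X` a modular form of weight `w < 12` on `Γ₀(p)`; `ψ` a
`1`-periodic nice function with `O`-integral `q`-expansion, zero constant term and linear
coefficient a unit mod `ℓ`.  If `X = u₀ ψ` and `X ∣ S T^j = u₁ j ψ` modulo `ℓ P_O`
(`0 ≤ j < p`) with units `u₀`, `u₁ j` mod `ℓ`, we have a contradiction. -/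
theorem norm_congruence' (p ℓ : ℕ) [Fact p.Prime] (hℓ : ℓ.Prime)
    {w : ℤ} (hw : w < 12) (X : ModularForm (CongruenceSubgroup.Gamma0 p) w)
    (ψ : ℍ → ℂ) (hψ : IsNice 1 ψ) (hψO : ∀ n, (qExpansion (1 : ℝ) ψ).coeff n ∈ OInt ℓ)
    (hψ0 : (qExpansion (1 : ℝ) ψ).coeff 0 = 0)
    (hψ1 : IsUnitMod ℓ ((qExpansion (1 : ℝ) ψ).coeff 1))
    (u₀ : ℂ) (u₁ : ℕ → ℂ) (hu₀ : IsUnitMod ℓ u₀) (hu₁ : ∀ j < p, IsUnitMod ℓ (u₁ j))
    (hX₀ : ⇑X - u₀ • ψ ∈ POI p ℓ 1)
    (hX₁ : ∀ j : ℕ, j < p →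
      (⇑X ∣[w] (ModularGroup.S * ModularGroup.T ^ j : SL(2, ℤ))) - u₁ j • ψ ∈ POI p ℓ 1) :
    False := by
  haveI : NeZero p := ⟨(Fact.out : p.Prime).ne_zero⟩
  -- the norm
  set N := ModularForm.norm 𝒮ℒ X with hN
  have hNcoe : (N : ℍ → ℂ) = X * ∏ j ∈ Finset.range p,
      (X : ℍ → ℂ) ∣[w] (ModularGroup.S * ModularGroup.T ^ j : SL(2, ℤ)) :=
    Fermat.Agent.S16.helper41.coe_norm_Gamma0 p X
  set U : ℂ := u₀ * ∏ j ∈ Finset.range p, u₁ j with hU
  have hUunit : IsUnitMod ℓ U :=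
    hu₀.mul (IsUnitMod.prod _ _ fun j hj => hu₁ j (Finset.mem_range.mp hj))
  have hψPO : ψ ∈ PO p ℓ := mem_PO_of_isNice_one hψ hψO
  -- the congruence for the norm
  have hcong : (N : ℍ → ℂ) - U • ψ ^ (p + 1) ∈ POI p ℓ 1 := by
    have h1 : (∏ j ∈ Finset.range p,
        (X : ℍ → ℂ) ∣[w] (ModularGroup.S * ModularGroup.T ^ j : SL(2, ℤ))) -
        ∏ j ∈ Finset.range p, u₁ j • ψ ∈ POI p ℓ 1 :=
      POI.prod_congr _ _ _
        (fun j hj => PO.smul_mem (hu₁ j (Finset.mem_range.mp hj)).1 hψPO)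
        (fun j hj => hX₁ j (Finset.mem_range.mp hj))
    have hX0PO : (X : ℍ → ℂ) ∈ PO p ℓ := by
      have := add_mem (POI_le_PO hX₀) (PO.smul_mem hu₀.1 hψPO)
      simpa using this
    have h2 := POI.mul_congr hX0PO
      (prod_mem fun j hj => PO.smul_mem (hu₁ j (Finset.mem_range.mp hj)).1 hψPO) hX₀ h1
    have e : (u₀ • ψ) * ∏ j ∈ Finset.range p, u₁ j • ψ = U • ψ ^ (p + 1) := by
      rw [Finset.prod_smul, Finset.prod_const, Finset.card_range, hU, pow_succ']
      ext τ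
      simp only [Pi.mul_apply, Pi.smul_apply, smul_eq_mul, Pi.pow_apply]
      ring
    rw [hNcoe, ← e]
    exact h2
  -- pass to `q`-expansions
  have hNnice : IsNice 1 (N : ℍ → ℂ) := isNice_one_of_levelOne N
  have hψpow : IsNice 1 (ψ ^ (p + 1)) := isNice_one_pow hψ _
  have hdiff : IsNice 1 ((N : ℍ → ℂ) - U • ψ ^ (p + 1)) :=
    isNice_sub hNnice (isNice_smul hψpow U)
  have hcoeff : ∀ n, (qExpansion (1 : ℝ) N).coeff n -
      U * ((qExpansion (1 : ℝ) ψ) ^ (p + 1)).coeff n ∈ ellO ℓ 1 := by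
    intro n
    have := coeff_mem_of_mem_POI (p := p) hdiff hcong n
    rwa [qExpansion_one_sub hNnice (isNice_smul hψpow U), qExpansion_one_smul hψpow,
      qExpansion_one_pow hψ, map_sub, PowerSeries.coeff_smul, smul_eq_mul] at this
  -- low coefficients of the norm are in `ℓ O`
  have hlow : ∀ n : ℕ, n < p + 1 → (qExpansion (1 : ℝ) N).coeff n ∈ ellO ℓ 1 := by
    intro n hn
    have := hcoeff n
    rwa [coeff_pow_of_coeff_zero_eq_zero _ hψ0 _ _ hn, mul_zero, sub_zero] at this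
  -- the valence bound
  have hall := Fermat.Agent.S16.helper77.levelOne_coeff_mem (ellO ℓ 1) _ N (fun n hn => by
    apply hlow
    rw [Fermat.Agent.S16.helper41.card_quot_Gamma0 p] at hn
    have h12 : (12 : ℤ) * n ≤ w * ((p + 1 : ℕ) : ℤ) := by
      have := (Int.le_ediv_iff_mul_le (by norm_num : (0 : ℤ) < 12)).mp hn
      linarith
    have hp1 : (0 : ℤ) < ((p + 1 : ℕ) : ℤ) := by positivity
    have h11 : w * ((p + 1 : ℕ) : ℤ) ≤ 11 * ((p + 1 : ℕ) : ℤ) :=
      mul_le_mul_of_nonneg_right (by omega) hp1.le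
    have : (12 : ℤ) * n < 12 * ((p + 1 : ℕ) : ℤ) := by linarith
    have : (n : ℤ) < ((p + 1 : ℕ) : ℤ) := by linarith
    exact_mod_cast this)
  -- contradiction at the coefficient `p + 1`
  have htop := hcoeff (p + 1)
  rw [coeff_pow_self_of_coeff_zero_eq_zero _ hψ0] at htop
  have hmem : U * (qExpansion (1 : ℝ) ψ).coeff 1 ^ (p + 1) ∈ ellO ℓ 1 := by
    have := sub_mem (hall (p + 1)) htop
    simpa using this
  exact (hUunit.mul (hψ1.pow _)).not_mem_ellO hℓ hmem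

/-- **Tool (d)**, general form: the hypothesis is stated for all `γ ∈ SL(2, ℤ)`. -/
theorem norm_congruence (p ℓ : ℕ) [Fact p.Prime] (hℓ : ℓ.Prime)
    {w : ℤ} (hw : w < 12) (X : ModularForm (CongruenceSubgroup.Gamma0 p) w)
    (ψ : ℍ → ℂ) (hψ : IsNice 1 ψ) (hψO : ∀ n, (qExpansion (1 : ℝ) ψ).coeff n ∈ OInt ℓ)
    (hψ0 : (qExpansion (1 : ℝ) ψ).coeff 0 = 0)
    (hψ1 : IsUnitMod ℓ ((qExpansion (1 : ℝ) ψ).coeff 1))
    (u : SL(2, ℤ) → ℂ) (hu : ∀ γ, IsUnitMod ℓ (u γ))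
    (hX : ∀ γ : SL(2, ℤ), (⇑X ∣[w] γ) - u γ • ψ ∈ POI p ℓ 1) : False := by
  refine norm_congruence' p ℓ hℓ hw X ψ hψ hψO hψ0 hψ1 (u 1)
    (fun j => u (ModularGroup.S * ModularGroup.T ^ j)) (hu 1) (fun j _ => hu _) ?_
    (fun j _ => hX _)
  have := hX 1
  simpa using this

end Fermat.Agent.S16.helper58
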