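import Mathlib
import Fermat.Prelude.Def_CuspForm_IntegralStructure
import Fermat.Prelude.Def_ModularCurve_ModularUnit
import Fermat.Prelude.Thm_CongruenceSubgroup_one_mem_strictPeriods_Gamma0

/-!
# S16, package [A8]: assembly of the upper bound (A')

Blueprint: findings #433 (helper76), step (b).  Everything here is arithmetic bookkeeping:
from the non-existence of weight-2 forms on `Γ₀(p)` with `q`-expansion `a + ℓ^s h`
(`a` an integer prime to `ℓ`, `h ∈ q ℤ[[q]]`) in the five cases (U5), (U3a), (U3b), (U2a), (U2b),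
and from step (a) (`m ∣ 5 (p+1) (p-1)^2`), we deduce the upper bound (A').
-/

set_option autoImplicit false

namespace Fermat.Agent.S16.helper66

open UpperHalfPlane CongruenceSubgroup ModularFormClass

/-- There is a weight-2 form on `Γ₀(p)` whose `q`-expansion is `a + ℓ^s h` with `a` an integer
prime to `ℓ` and `h ∈ q ℤ[[q]]`. -/
def UnitConst (p ℓ s : ℕ) : Prop :=
  ∃ (F : ModularForm (Gamma0 p) 2) (a : ℤ) (h : ℕ → ℤ), ¬ (ℓ : ℤ) ∣ a ∧
    (qExpansion 1 F).coeff 0 = (a : ℂ) ∧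
    ∀ k, 1 ≤ k → (qExpansion 1 F).coeff k = (ℓ : ℂ) ^ s * (h k : ℂ)

/-- The Eisenstein series of weight 2 and level `p` exists (package [A0]), with higher
coefficients given by `sig`. -/
def EisExists (p : ℕ) (sig : ℕ → ℤ) : Prop :=
  ∃ E : ModularForm (Gamma0 p) 2, (qExpansion 1 E).coeff 0 = ((p : ℂ) - 1) / 24 ∧
    ∀ k, 1 ≤ k → (qExpansion 1 E).coeff k = (sig k : ℂ)

/-- Step (a) of the blueprint: a weight-2 form on `Γ₀(p)` with `q`-expansion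
`(p-1)/24 + m h`, `h ∈ q ℤ[[q]]`, has `m ∣ 5 (p+1) (p-1)^2`. -/
def StepA (p : ℕ) : Prop :=
  ∀ (F : ModularForm (Gamma0 p) 2) (m : ℤ) (h : ℕ → ℤ),
    (qExpansion 1 F).coeff 0 = ((p : ℂ) - 1) / 24 →
    (∀ k, 1 ≤ k → (qExpansion 1 F).coeff k = (m : ℂ) * (h k : ℂ)) →
    m ∣ 5 * ((p : ℤ) + 1) * ((p : ℤ) - 1) ^ 2

/-- The upper bound (A'), for a given coefficient function `sig` (`= sigmaP p`). -/
def UpperBoundFor (p : ℕ) (sig : ℕ → ℤ) : Prop :=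
  ∀ (m : ℕ) (G : CuspForm (Gamma0 p) 2),
    (∀ k : ℕ, 1 ≤ k → ∃ c : ℤ, qCoeff (⇑G) k = ((sig k + (m : ℤ) * c : ℤ) : ℂ)) →
    m ≠ 0 ∧ m ∣ ModularCurve.eisensteinNumerator p

theorem coeff_smul_form (p : ℕ) (c : ℂ) (F F' : ModularForm (Gamma0 p) 2) (hF' : F' = c • F)
    (k : ℕ) : (qExpansion 1 F').coeff k = c * (qExpansion 1 F).coeff k := by
  have h := ModularForm.qExpansion_smul (k := 2) one_pos (one_mem_strictPeriods_Gamma0 p) c F
  have h' : qExpansion 1 (⇑F') = c • qExpansion 1 F := by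
    rw [← h, hF']; rfl
  rw [h']
  simp

theorem coeff_sub_form (p : ℕ) (E F' : ModularForm (Gamma0 p) 2) (G : CuspForm (Gamma0 p) 2)
    (hF' : F' = E - CuspForm.toModularFormₗ G) (k : ℕ) :
    (qExpansion 1 F').coeff k = (qExpansion 1 E).coeff k - qCoeff G k := by
  have h := ModularForm.qExpansion_sub (a := 2) (b := 2) one_pos
    (one_mem_strictPeriods_Gamma0 p) E G
  have h' : qExpansion 1 (⇑F') = qExpansion 1 E - qExpansion 1 G := by
    rw [← h, hF']; rfl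
  rw [h']
  simp [qCoeff]

theorem qCoeff_zero_cusp (p : ℕ) (G : CuspForm (Gamma0 p) 2) : qCoeff G 0 = 0 :=
  CuspFormClass.qExpansion_coeff_zero (k := 2) G one_pos (one_mem_strictPeriods_Gamma0 p)

/-- The rescaling step: from `F₀ = (p-1)/24 + m h`, `ℓ^(v_ℓ(n)+1) ∣ m`, produce
`F = a + ℓ^(u+1) h'` with `a` prime to `ℓ`, where `u = v_ℓ(24/ν)`. -/
theorem unitConst_of_scaled {p : ℕ} (hp1 : 1 ≤ p) (ℓ : ℕ) (hℓ : ℓ.Prime)
    (F₀ : ModularForm (Gamma0 p) 2)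
    (n r ν m u r' : ℕ) (b : ℕ → ℤ) (hν : ν ≠ 0)
    (hpn : p - 1 = n * ν) (h24 : 24 = r * ν) (hr : r = ℓ ^ u * r') (hr' : ¬ ℓ ∣ r')
    (hn : n ≠ 0) (hm : ℓ ^ (n.factorization ℓ + 1) ∣ m)
    (hF0 : (qExpansion 1 F₀).coeff 0 = ((p : ℂ) - 1) / 24)
    (hFk : ∀ k, 1 ≤ k → (qExpansion 1 F₀).coeff k = (m : ℂ) * (b k : ℂ)) :
    UnitConst p ℓ (u + 1) := by
  set t := n.factorization ℓ with ht
  obtain ⟨m', hm'⟩ := hm
  have hn' : ℓ ^ t * (n / ℓ ^ t) = n := Nat.ordProj_mul_ordCompl_eq_self n ℓ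
  have hn'' : ¬ ℓ ∣ n / ℓ ^ t := Nat.not_dvd_ordCompl hℓ hn
  set n' := n / ℓ ^ t with hn'def
  have hℓ0 : (ℓ : ℂ) ≠ 0 := by exact_mod_cast hℓ.ne_zero
  have hr'0 : (r' : ℂ) ≠ 0 := by
    have : r' ≠ 0 := fun h => hr' (h ▸ dvd_zero ℓ)
    exact_mod_cast this
  have hν0 : (ν : ℂ) ≠ 0 := by exact_mod_cast hν
  have hpC : (p : ℂ) - 1 = (n : ℂ) * ν := by
    have : ((p - 1 : ℕ) : ℂ) = (n : ℂ) * ν := by rw [hpn]; push_cast; ring
    rw [← this, Nat.cast_sub hp1]; simp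
  have h24C : (24 : ℂ) = (ℓ : ℂ) ^ u * r' * ν := by
    have : ((24 : ℕ) : ℂ) = ((r * ν : ℕ) : ℂ) := by rw [← h24]
    rw [hr] at this; push_cast at this; exact this
  have hnC : (n : ℂ) = (ℓ : ℂ) ^ t * n' := by
    have : ((ℓ ^ t * n' : ℕ) : ℂ) = (n : ℂ) := by rw [hn']
    push_cast at this; exact this.symm
  have hmC : (m : ℂ) = (ℓ : ℂ) ^ (t + 1) * m' := by
    rw [hm']; push_cast; ring
  refine ⟨(((r' : ℂ) * (ℓ : ℂ) ^ u / (ℓ : ℂ) ^ t)) • F₀, (n' : ℤ),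
    fun k => (r' : ℤ) * (m' : ℤ) * b k, ?_, ?_, ?_⟩
  · exact_mod_cast hn''
  · rw [coeff_smul_form p _ F₀ _ rfl, hF0, hpC, h24C, hnC]
    push_cast
    field_simp
  · intro k hk
    rw [coeff_smul_form p _ F₀ _ rfl, hFk k hk, hmC]
    push_cast
    field_simp
    ring

/-- The value of `gcd (p-1) 12` for a prime `p ≥ 5`. -/
theorem gcd_sub_one_twelve (p : ℕ) (hp : p.Prime) (hp5 : 5 ≤ p) :
    (p % 12 = 1 ∧ Nat.gcd (p - 1) 12 = 12) ∨ (p % 12 = 5 ∧ Nat.gcd (p - 1) 12 = 4) ∨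
    (p % 12 = 7 ∧ Nat.gcd (p - 1) 12 = 6) ∨ (p % 12 = 11 ∧ Nat.gcd (p - 1) 12 = 2) := by
  have h2 : ¬ 2 ∣ p := fun h => by
    have := (Nat.prime_dvd_prime_iff_eq Nat.prime_two hp).mp h
    omega
  have h3 : ¬ 3 ∣ p := fun h => by
    have := (Nat.prime_dvd_prime_iff_eq Nat.prime_three hp).mp h
    omega
  have hg : Nat.gcd (p - 1) 12 = Nat.gcd ((p - 1) % 12) 12 := by
    rw [Nat.gcd_comm, Nat.gcd_rec 12 (p - 1)]
  have hcases : p % 12 = 1 ∨ p % 12 = 5 ∨ p % 12 = 7 ∨ p % 12 = 11 := by omega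
  rcases hcases with h | h | h | h
  · left
    refine ⟨h, ?_⟩
    have : (p - 1) % 12 = 0 := by omega
    rw [hg, this]; rfl
  · right; left
    refine ⟨h, ?_⟩
    have : (p - 1) % 12 = 4 := by omega
    rw [hg, this]; rfl
  · right; right; left
    refine ⟨h, ?_⟩
    have : (p - 1) % 12 = 6 := by omega
    rw [hg, this]; rfl
  · right; right; right
    refine ⟨h, ?_⟩
    have : (p - 1) % 12 = 10 := by omega
    rw [hg, this]; rfl

theorem not_dvd_of_dvd_24 (ℓ r : ℕ) (hℓ : ℓ.Prime) (h5 : 5 ≤ ℓ) (hr : r ∣ 24) : ¬ ℓ ∣ r := by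
  intro h
  have h24 : ℓ ∣ 24 := dvd_trans h hr
  have hle : ℓ ≤ 24 := Nat.le_of_dvd (by norm_num) h24
  interval_cases ℓ <;> revert hℓ h24 <;> decide

/-- **Package [A8]**: the upper bound (A') from step (a) and the unit-constant cases. -/
theorem upperBound_of_cases (p : ℕ) [hpf : Fact p.Prime] (hp : 7 ≤ p) (sig : ℕ → ℤ)
    (hE : EisExists p sig) (hA : StepA p)
    (h5 : ∀ ℓ : ℕ, ℓ.Prime → 5 ≤ ℓ → ℓ ≠ p → ¬ UnitConst p ℓ 1)
    (h3a : p % 3 = 1 → ¬ UnitConst p 3 1) (h3b : p % 3 = 2 → ¬ UnitConst p 3 2)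
    (h2a : p % 4 = 1 → ¬ UnitConst p 2 2)
    (h2b3 : p % 8 = 3 → ¬ UnitConst p 2 3) (h2b7 : p % 8 = 7 → ¬ UnitConst p 2 3) :
    UpperBoundFor p sig := by
  have h2b : p % 4 = 3 → ¬ UnitConst p 2 3 := fun h => by
    rcases (by omega : p % 8 = 3 ∨ p % 8 = 7) with h8 | h8
    · exact h2b3 h8
    · exact h2b7 h8
  intro m G hcong
  obtain ⟨E, hE0, hEk⟩ := hE
  choose! b hb using hcong
  have hp1 : 1 ≤ p := by omega
  set F₀ : ModularForm (Gamma0 p) 2 := E - CuspForm.toModularFormₗ G with hF₀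
  have hF0 : (qExpansion 1 F₀).coeff 0 = ((p : ℂ) - 1) / 24 := by
    rw [coeff_sub_form p E F₀ G hF₀, hE0, qCoeff_zero_cusp, sub_zero]
  have hFk : ∀ k, 1 ≤ k → (qExpansion 1 F₀).coeff k = (m : ℂ) * ((-b k : ℤ) : ℂ) := by
    intro k hk
    rw [coeff_sub_form p E F₀ G hF₀, hEk k hk, hb k hk]; push_cast; ring
  have hdvdZ := hA F₀ (m : ℤ) (fun k => - b k) hF0
    (by intro k hk; rw [hFk k hk]; push_cast; ring)
  have hdvd : m ∣ 5 * (p + 1) * (p - 1) ^ 2 := by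
    have : ((5 * (p + 1) * (p - 1) ^ 2 : ℕ) : ℤ) = 5 * ((p : ℤ) + 1) * ((p : ℤ) - 1) ^ 2 := by
      push_cast [Nat.cast_sub hp1]; ring
    rw [← this] at hdvdZ
    exact_mod_cast hdvdZ
  have hpos : 5 * (p + 1) * (p - 1) ^ 2 ≠ 0 := by
    have h1 : p - 1 ≠ 0 := by omega
    positivity
  have hm0 : m ≠ 0 := by
    rintro rfl
    exact hpos (Nat.eq_zero_of_zero_dvd hdvd)
  have hpm : ¬ p ∣ m := by
    intro h
    have h1 : p ∣ 5 * (p + 1) * (p - 1) ^ 2 := dvd_trans h hdvd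
    rcases (Nat.Prime.dvd_mul hpf.out).mp h1 with h2 | h2
    · rcases (Nat.Prime.dvd_mul hpf.out).mp h2 with h3 | h3
      · have := Nat.le_of_dvd (by norm_num) h3
        omega
      · have h4 : p ∣ 1 := (Nat.dvd_add_right (dvd_refl p)).mp h3
        have := Nat.le_of_dvd (by norm_num) h4
        omega
    · have h3 := hpf.out.dvd_of_dvd_pow h2
      have := Nat.le_of_dvd (by omega) h3
      omega
  refine ⟨hm0, ?_⟩
  have hνdvd : Nat.gcd (p - 1) 12 ∣ p - 1 := Nat.gcd_dvd_left _ _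
  have hν0 : Nat.gcd (p - 1) 12 ≠ 0 := by
    intro h
    have := Nat.eq_zero_of_gcd_eq_zero_right h
    omega
  have hn : ModularCurve.eisensteinNumerator p * Nat.gcd (p - 1) 12 = p - 1 :=
    Nat.div_mul_cancel hνdvd
  set n := ModularCurve.eisensteinNumerator p with hndef
  have hn0 : n ≠ 0 := by
    intro h
    rw [h] at hn
    omega
  by_contra hndvd
  have hnle : ¬ m.factorization ≤ n.factorization := fun h =>
    hndvd ((Nat.factorization_le_iff_dvd hm0 hn0).mp h)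
  rw [Finsupp.le_def] at hnle
  push Not at hnle
  obtain ⟨ℓ, hℓlt⟩ := hnle
  have hℓ : ℓ.Prime := by
    by_contra h
    rw [Nat.factorization_eq_zero_of_not_prime m h] at hℓlt
    omega
  have hℓm : ℓ ^ (n.factorization ℓ + 1) ∣ m :=
    (hℓ.pow_dvd_iff_le_factorization hm0).mpr hℓlt
  have hℓp : ℓ ≠ p := by
    rintro rfl
    exact hpm (dvd_trans (dvd_pow_self _ (Nat.succ_ne_zero _)) hℓm)
  have key : ∀ r u r' : ℕ, 24 = r * Nat.gcd (p - 1) 12 → r = ℓ ^ u * r' → ¬ ℓ ∣ r' →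
      UnitConst p ℓ (u + 1) := fun r u r' h24 hr hr' =>
    unitConst_of_scaled hp1 ℓ hℓ F₀ n r _ m u r' (fun k => - b k) hν0 hn.symm h24 hr hr' hn0
      hℓm hF0 hFk
  have hℓcases : ℓ = 2 ∨ ℓ = 3 ∨ 5 ≤ ℓ := by
    have h2 := hℓ.two_le
    have h4 : ℓ ≠ 4 := by
      rintro rfl
      exact absurd hℓ (by decide)
    omega
  rcases hℓcases with rfl | rfl | hℓ5
  · -- ℓ = 2
    rcases gcd_sub_one_twelve p hpf.out (by omega) with ⟨h12, hg⟩ | ⟨h12, hg⟩ | ⟨h12, hg⟩ |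
      ⟨h12, hg⟩
    · exact h2a (by omega) (key 2 1 1 (by rw [hg]) (by norm_num) (by decide))
    · exact h2a (by omega) (key 6 1 3 (by rw [hg]) (by norm_num) (by decide))
    · exact h2b (by omega) (key 4 2 1 (by rw [hg]) (by norm_num) (by decide))
    · exact h2b (by omega) (key 12 2 3 (by rw [hg]) (by norm_num) (by decide))
  · -- ℓ = 3
    rcases gcd_sub_one_twelve p hpf.out (by omega) with ⟨h12, hg⟩ | ⟨h12, hg⟩ | ⟨h12, hg⟩ |
      ⟨h12, hg⟩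
    · exact h3a (by omega) (key 2 0 2 (by rw [hg]) (by norm_num) (by decide))
    · exact h3b (by omega) (key 6 1 2 (by rw [hg]) (by norm_num) (by decide))
    · exact h3a (by omega) (key 4 0 4 (by rw [hg]) (by norm_num) (by decide))
    · exact h3b (by omega) (key 12 1 4 (by rw [hg]) (by norm_num) (by decide))
  · -- ℓ ≥ 5
    have hν24 : Nat.gcd (p - 1) 12 ∣ 24 := dvd_trans (Nat.gcd_dvd_right _ _) (by norm_num)
    obtain ⟨r, hr⟩ := hν24
    have hr24 : r ∣ 24 := ⟨_, by rw [hr]; ring⟩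
    exact h5 ℓ hℓ hℓ5 hℓp (key r 0 r (by rw [hr]; ring) (by simp)
      (not_dvd_of_dvd_24 ℓ r hℓ hℓ5 hr24))

/-- Small primes: if `S₂(Γ₀(p)) = 0` the upper bound is trivial. -/
theorem upperBound_of_cuspForm_eq_zero (p : ℕ) (sig : ℕ → ℤ) (hsig : sig 1 = 1)
    (hzero : ∀ G : CuspForm (Gamma0 p) 2, G = 0) : UpperBoundFor p sig := by
  intro m G hcong
  obtain ⟨c, hc⟩ := hcong 1 le_rfl
  have hG : qCoeff (⇑G) 1 = 0 := by
    rw [hzero G]
    simp [qCoeff, qExpansion_zero]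
  rw [hG, hsig] at hc
  have hc' : (1 : ℤ) + (m : ℤ) * c = 0 := by exact_mod_cast hc.symm
  have hm1 : (m : ℤ) ∣ 1 := ⟨-c, by linarith⟩
  have hm : m = 1 := by
    have := Int.natCast_dvd_natCast.mp (by simpa using hm1 : ((m : ℕ) : ℤ) ∣ ((1 : ℕ) : ℤ))
    exact Nat.dvd_one.mp this
  subst hm
  exact ⟨one_ne_zero, one_dvd _⟩

end Fermat.Agent.S16.helper66
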