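import Mathlib.NumberTheory.ModularForms.Derivative
import Mathlib.NumberTheory.ModularForms.QExpansion
import Mathlib.Analysis.Complex.TaylorSeries

/-!
# S16 [A6] (helper85), part 1: the normalized derivative on `q`-expansions

For `f : ℍ → ℂ` holomorphic, `h`-periodic and bounded at `i∞`, the normalized derivative
`D f = (2πi)⁻¹ f'` is again holomorphic, `h`-periodic and bounded (even zero) at `i∞`, and its
`q`-expansion (w.r.t. the period `h`) is obtained termwise:
`(qExpansion h (D f)).coeff n = (n / h) * (qExpansion h f).coeff n`.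
-/

open UpperHalfPlane hiding I
open Complex Filter Function Real
open scoped Topology Manifold ModularForm Derivative

namespace Fermat.Agent.S16.helper85

noncomputable section

local notation "𝕢" => Periodic.qParam

/-- `f ∘ ofComplex` agrees with `cuspFunction h f ∘ 𝕢 h` on the upper half plane. -/
theorem comp_ofComplex_eq_cuspFunction {f : ℍ → ℂ} {h : ℝ} (hh : 0 < h)
    (hfper : Periodic (f ∘ ofComplex) h) {z : ℂ} (hz : 0 < z.im) :
    (f ∘ ofComplex) z = cuspFunction h f (𝕢 h z) := by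
  have := eq_cuspFunction (f := f) (⟨z, hz⟩ : ℍ) hh.ne' hfper
  simpa [Function.comp_apply, ofComplex_apply_of_im_pos hz] using this.symm

theorem qParam_add_period {h : ℝ} (hh : h ≠ 0) (z : ℂ) : 𝕢 h (z + h) = 𝕢 h z := by
  have hh' : (h : ℂ) ≠ 0 := by exact_mod_cast hh
  simp only [Periodic.qParam]
  have : 2 * π * I * (z + h) / h = 2 * π * I * z / h + 2 * π * I := by
    field_simp
  rw [this, Complex.exp_add, Complex.exp_two_pi_mul_I, mul_one]

theorem hasDerivAt_qParam (h : ℝ) (z : ℂ) :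
    HasDerivAt (𝕢 h) (2 * π * I / h * 𝕢 h z) z := by
  have h1 : HasDerivAt (fun w : ℂ => 2 * π * I * w / h) (2 * π * I / h) z := by
    have := ((hasDerivAt_id z).const_mul (2 * π * I)).div_const (h : ℂ)
    simpa using this
  have h2 : HasDerivAt (𝕢 h) (𝕢 h z * (2 * π * I / h)) z := h1.cexp
  rwa [mul_comm] at h2

/-- The value of `D f` in terms of the derivative of the cusp function. -/
theorem normalizedDeriv_eq_cuspFunction_deriv {f : ℍ → ℂ} {h : ℝ} (hh : 0 < h)
    (hfper : Periodic (f ∘ ofComplex) h) (hfhol : MDiff f) (hfbdd : IsBoundedAtImInfty f)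
    (τ : ℍ) :
    D f τ = (h : ℂ)⁻¹ * (𝕢 h τ * deriv (cuspFunction h f) (𝕢 h τ)) := by
  have hq : ‖𝕢 h (τ : ℂ)‖ < 1 := Periodic.norm_qParam_lt_one hh τ.im_pos
  have hF : DifferentiableAt ℂ (cuspFunction h f) (𝕢 h τ) :=
    differentiableAt_cuspFunction hh hfper hfhol hfbdd hq
  have hcomp : HasDerivAt (fun z : ℂ => cuspFunction h f (𝕢 h z))
      (deriv (cuspFunction h f) (𝕢 h τ) * (2 * π * I / h * 𝕢 h τ)) (τ : ℂ) :=
    hF.hasDerivAt.comp (τ : ℂ) (hasDerivAt_qParam h τ)
  have heq : (f ∘ ofComplex) =ᶠ[𝓝 (τ : ℂ)] fun z : ℂ => cuspFunction h f (𝕢 h z) := by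
    filter_upwards [isOpen_upperHalfPlaneSet.mem_nhds τ.im_pos] with z hz
    exact comp_ofComplex_eq_cuspFunction hh hfper hz
  have hd : deriv (f ∘ ofComplex) (τ : ℂ) =
      deriv (cuspFunction h f) (𝕢 h τ) * (2 * π * I / h * 𝕢 h τ) :=
    (hcomp.congr_of_eventuallyEq heq).deriv
  have hpi : (2 * π * I : ℂ) ≠ 0 := by
    simp [Real.pi_ne_zero, I_ne_zero]
  have hh' : (h : ℂ) ≠ 0 := by exact_mod_cast hh.ne'
  rw [Derivative.normalizedDerivOfComplex, hd]
  field_simp

/-- Termwise differentiation of the `q`-expansion. -/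
theorem hasSum_normalizedDeriv {f : ℍ → ℂ} {h : ℝ} (hh : 0 < h)
    (hfper : Periodic (f ∘ ofComplex) h) (hfhol : MDiff f) (hfbdd : IsBoundedAtImInfty f)
    (τ : ℍ) :
    HasSum (fun m : ℕ => ((m : ℂ) / h * (qExpansion h f).coeff m) • 𝕢 h τ ^ m) (D f τ) := by
  have hq : ‖𝕢 h (τ : ℂ)‖ < 1 := Periodic.norm_qParam_lt_one hh τ.im_pos
  have hFd : DifferentiableOn ℂ (cuspFunction h f) (Metric.ball 0 1) :=
    differentiableOn_cuspFunction_ball hh hfper hfhol hfbdd
  have hF'd : DifferentiableOn ℂ (deriv (cuspFunction h f)) (Metric.ball 0 1) :=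
    hFd.deriv Metric.isOpen_ball
  have hqball : 𝕢 h (τ : ℂ) ∈ Metric.ball (0 : ℂ) 1 := by simpa using hq
  have hsum := hasSum_taylorSeries_on_ball hF'd hqball
  -- rewrite the Taylor coefficients of `deriv F`
  have hcoef : ∀ n : ℕ, ((n.factorial : ℂ))⁻¹ • (𝕢 h (τ : ℂ) - 0) ^ n •
      iteratedDeriv n (deriv (cuspFunction h f)) 0 =
      (((n + 1 : ℕ) : ℂ) * (qExpansion h f).coeff (n + 1)) * 𝕢 h (τ : ℂ) ^ n := by
    intro n
    rw [qExpansion_coeff, ← iteratedDeriv_succ', sub_zero, Nat.factorial_succ]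
    have hn : ((n.factorial : ℕ) : ℂ) ≠ 0 := by exact_mod_cast n.factorial_ne_zero
    have hn1 : (((n + 1 : ℕ)) : ℂ) ≠ 0 := by exact_mod_cast n.succ_ne_zero
    simp only [smul_eq_mul, Nat.cast_mul]
    field_simp
  simp only [hcoef] at hsum
  -- multiply by `q / h`
  have hsum3 : HasSum (fun n : ℕ => ((((n + 1 : ℕ) : ℂ)) / h * (qExpansion h f).coeff (n + 1)) •
      𝕢 h (τ : ℂ) ^ (n + 1)) ((h : ℂ)⁻¹ * (𝕢 h (τ : ℂ) * deriv (cuspFunction h f) (𝕢 h τ))) := by
    have := (hsum.mul_left (𝕢 h (τ : ℂ))).mul_left ((h : ℂ)⁻¹)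
    refine this.congr_fun ?_ |> id
    intro n
    simp only [smul_eq_mul]
    ring
  rw [normalizedDeriv_eq_cuspFunction_deriv hh hfper hfhol hfbdd τ]
  have h0 : ((((0 : ℕ) : ℂ)) / h * (qExpansion h f).coeff 0) • 𝕢 h (τ : ℂ) ^ 0 = 0 := by simp
  have := (hasSum_nat_add_iff' (f := fun m : ℕ => ((m : ℂ) / h * (qExpansion h f).coeff m) •
    𝕢 h (τ : ℂ) ^ m) 1).mp (by simpa using hsum3)
  simpa using this

/-- `D f` is periodic if `f` is. -/
theorem periodic_normalizedDeriv {f : ℍ → ℂ} {h : ℝ} (hh : 0 < h)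
    (hfper : Periodic (f ∘ ofComplex) h) (hfhol : MDiff f) (hfbdd : IsBoundedAtImInfty f) :
    Periodic ((D f) ∘ ofComplex) h := by
  intro z
  by_cases hz : 0 < z.im
  · have hz' : 0 < (z + h).im := by simpa using hz
    simp only [Function.comp_apply, ofComplex_apply_of_im_pos hz, ofComplex_apply_of_im_pos hz']
    rw [normalizedDeriv_eq_cuspFunction_deriv hh hfper hfhol hfbdd,
      normalizedDeriv_eq_cuspFunction_deriv hh hfper hfhol hfbdd]
    have : 𝕢 h ((⟨z + h, hz'⟩ : ℍ) : ℂ) = 𝕢 h ((⟨z, hz⟩ : ℍ) : ℂ) := by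
      change 𝕢 h (z + h) = 𝕢 h z
      exact qParam_add_period hh.ne' z
    rw [this]
  · have hz1 : z.im ≤ 0 := not_lt.mp hz
    have hz' : (z + h).im ≤ 0 := by simpa using hz1
    simp only [Function.comp_apply]
    rw [ofComplex_apply_eq_of_im_nonpos hz' hz1]

/-- `D f` is bounded at `i∞`. -/
theorem isBoundedAtImInfty_normalizedDeriv {f : ℍ → ℂ} {h : ℝ} (hh : 0 < h)
    (hfper : Periodic (f ∘ ofComplex) h) (hfhol : MDiff f) (hfbdd : IsBoundedAtImInfty f) :
    IsBoundedAtImInfty (D f) :=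
  isBoundedAtImInfty_of_hasSum_qExpansion hh (hasSum_normalizedDeriv hh hfper hfhol hfbdd)

/-- The cusp function of `D f` is analytic at `0`. -/
theorem analyticAt_cuspFunction_normalizedDeriv {f : ℍ → ℂ} {h : ℝ} (hh : 0 < h)
    (hfper : Periodic (f ∘ ofComplex) h) (hfhol : MDiff f) (hfbdd : IsBoundedAtImInfty f) :
    AnalyticAt ℂ (cuspFunction h (D f)) 0 :=
  analyticAt_cuspFunction_zero hh (periodic_normalizedDeriv hh hfper hfhol hfbdd)
    (Derivative.normalizedDerivOfComplex_mdifferentiable hfhol)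
    (isBoundedAtImInfty_normalizedDeriv hh hfper hfhol hfbdd)

/-- Uniqueness of `q`-expansion coefficients for plain functions on `ℍ`. -/
theorem qExpansion_coeff_eq_of_hasSum {g : ℍ → ℂ} {h : ℝ} {c : ℕ → ℂ} (hh : 0 < h)
    (hana : AnalyticAt ℂ (cuspFunction h g) 0)
    (hf : ∀ τ : ℍ, HasSum (fun m ↦ c m • 𝕢 h τ ^ m) (g τ)) (m : ℕ) :
    PowerSeries.coeff m (UpperHalfPlane.qExpansion h g) = c m := by
  have h1 := (hasFPowerSeriesOnBall_cuspFunction hh hana hf).hasFPowerSeriesAt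
  have h2 := hana.hasFPowerSeriesAt
  have h3 := congr_arg (FormalMultilinearSeries.coeff · m) (h1.eq_formalMultilinearSeries h2)
  simp only [FormalMultilinearSeries.coeff_ofScalars] at h3
  rw [qExpansion_coeff, h3]
  ring

/-- **Termwise differentiation**: the `q`-expansion of `D f`. -/
theorem qExpansion_normalizedDeriv_coeff {f : ℍ → ℂ} {h : ℝ} (hh : 0 < h)
    (hfper : Periodic (f ∘ ofComplex) h) (hfhol : MDiff f) (hfbdd : IsBoundedAtImInfty f)
    (m : ℕ) :
    PowerSeries.coeff m (UpperHalfPlane.qExpansion h (D f)) =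
      (m : ℂ) / h * PowerSeries.coeff m (UpperHalfPlane.qExpansion h f) := by
  have hana := analyticAt_cuspFunction_normalizedDeriv hh hfper hfhol hfbdd
  have hsum := hasSum_normalizedDeriv hh hfper hfhol hfbdd
  exact qExpansion_coeff_eq_of_hasSum
    (c := fun m : ℕ => (m : ℂ) / h * (qExpansion h f).coeff m) hh hana hsum m

/-- `D f` vanishes at `i∞`. -/
theorem isZeroAtImInfty_normalizedDeriv {f : ℍ → ℂ} {h : ℝ} (hh : 0 < h)
    (hfper : Periodic (f ∘ ofComplex) h) (hfhol : MDiff f) (hfbdd : IsBoundedAtImInfty f) :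
    IsZeroAtImInfty (D f) := by
  have hana := analyticAt_cuspFunction_normalizedDeriv hh hfper hfhol hfbdd
  have hper := periodic_normalizedDeriv hh hfper hfhol hfbdd
  have h0 : cuspFunction h (D f) 0 = 0 := by
    have := qExpansion_normalizedDeriv_coeff hh hfper hfhol hfbdd 0
    simpa [qExpansion_coeff] using this
  have hcomp : (cuspFunction h (D f) ∘ fun τ : ℍ ↦ 𝕢 h τ : ℍ → ℂ) = D f := by
    funext τ
    simpa using eq_cuspFunction τ hh.ne' hper
  have := hana.continuousAt.tendsto.comp (qParam_tendsto_atImInfty hh)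
  rw [hcomp, h0] at this
  exact this

end

end Fermat.Agent.S16.helper85
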