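import Mathlib
import Fermat.Agent.S16.helper58_NormCong
import Fermat.Agent.S16.helper41_Fricke
import Fermat.Agent.S16.helper85_DerivQExp
import Fermat.Agent.S16.helper66_Upper
import Fermat.Agent.S16.helper24_Eis

/-!
# S16 [A6]: the refutation (U5)

For a prime `p` and a prime `ℓ ≥ 5`, `ℓ ≠ p`, there is no modular form `F` of weight `2` on
`Γ₀(p)` with `q`-expansion `a + ℓ h`, `a` an integer prime to `ℓ`, `h ∈ q ℤ[[q]]`
(`not_unitConst_ge_five`).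

Proof (blueprint (e)): `V(F) = (E₂ F - 6 D F)² - E₄ F²` is a modular form of weight `8` on
`Γ₀(p)` (`VForm`), all of whose conjugates are congruent to unit multiples of
`ψ₀ = E₂² - E₄ = -288 q + ⋯` modulo `ℓ P_O`; now apply the norm congruence (tool (d)).
-/

set_option autoImplicit false

noncomputable section

open UpperHalfPlane Filter Topology Function
open scoped MatrixGroups Manifold ModularForm CongruenceSubgroup Derivative

namespace Fermat.Agent.S16.helper58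

open Fermat.Agent.S24.helper37 Fermat.Agent.S23 EisensteinSeries ModularForm

local notation "𝕢" => Function.Periodic.qParam

/-! ### `D` on nice functions -/

theorem ofComplex_add_real (τ : ℍ) (x : ℝ) : ofComplex ((τ : ℂ) + x) = x +ᵥ τ := by
  have h : 0 < ((τ : ℂ) + x).im := by simpa using τ.im_pos
  rw [ofComplex_apply_of_im_pos h]
  ext
  simp [add_comm]

theorem isNice_D {N : ℕ} [NeZero N] {g : ℍ → ℂ} (hg : IsNice N g) : IsNice N (D g) where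
  per τ := by
    have h := Fermat.Agent.S16.helper85.periodic_normalizedDeriv (natCast_pos_real N)
      hg.periodic hg.mdiff hg.bdd (τ : ℂ)
    simp only [Function.comp_apply, ofComplex_apply] at h
    rw [ofComplex_add_real] at h
    exact h
  mdiff := Derivative.normalizedDerivOfComplex_mdifferentiable hg.mdiff
  bdd := Fermat.Agent.S16.helper85.isBoundedAtImInfty_normalizedDeriv (natCast_pos_real N)
    hg.periodic hg.mdiff hg.bdd

theorem qExpansion_D_coeff {N : ℕ} [NeZero N] {g : ℍ → ℂ} (hg : IsNice N g) (n : ℕ) :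
    (qExpansion (N : ℝ) (D g)).coeff n = (n : ℂ) / (N : ℂ) * (qExpansion (N : ℝ) g).coeff n := by
  have := Fermat.Agent.S16.helper85.qExpansion_normalizedDeriv_coeff (natCast_pos_real N)
    hg.periodic hg.mdiff hg.bdd n
  simpa using this

variable {p ℓ : ℕ} [NeZero p]

omit [NeZero p] in
theorem div_natCast_mem_OInt (hpℓ : Nat.Coprime p ℓ) (n : ℕ) : (n : ℂ) / (p : ℂ) ∈ OInt ℓ := by
  rw [div_eq_mul_inv]
  exact Subring.mul_mem _ (OInt.natCast_mem ℓ n) (OInt.inv_natCast_mem hpℓ)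

theorem D_mem_PO (hpℓ : Nat.Coprime p ℓ) {g : ℍ → ℂ} (hg : g ∈ PO p ℓ) : D g ∈ PO p ℓ := by
  refine ⟨isNice_D hg.1, fun n => ?_⟩
  rw [qExpansion_D_coeff hg.1]
  exact Subring.mul_mem _ (div_natCast_mem_OInt hpℓ n) (hg.2 n)

theorem D_mem_POI (hpℓ : Nat.Coprime p ℓ) {s : ℕ} {g : ℍ → ℂ} (hg : g ∈ POI p ℓ s) :
    D g ∈ POI p ℓ s := by
  refine ⟨isNice_D hg.1, fun n => ?_⟩
  rw [qExpansion_D_coeff hg.1]
  exact ellO.mul_mem (div_natCast_mem_OInt hpℓ n) (hg.2 n)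

/-! ### `E₂` -/

/-- the integral `q`-expansion of `E₂`. -/
def e2Int : PowerSeries ℤ := 1 - PowerSeries.C (24 : ℤ) * sigmaSeries 1

theorem coeff_e2Int (n : ℕ) :
    ((e2Int.coeff n : ℤ) : ℂ) = Fermat.Agent.S16.helper24.cE2 n := by
  unfold e2Int Fermat.Agent.S16.helper24.cE2
  rw [map_sub, PowerSeries.coeff_C_mul, coeff_sigmaSeries, PowerSeries.coeff_one]
  split_ifs with h
  · subst h
    simp
  · push_cast
    ring

theorem hasSum_E2' (τ : ℍ) :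
    HasSum (fun n : ℕ => ((e2Int.coeff n : ℤ) : ℂ) * 𝕢 (1 : ℝ) τ ^ n) (E2 τ) := by
  have h := Fermat.Agent.S16.helper24.hasSum_E2_qParam τ
  refine h.congr_fun fun n => ?_
  rw [coeff_e2Int, smul_eq_mul]

theorem isNice_E2 : IsNice 1 E2 where
  per τ := by
    have h1 := hasSum_E2' (((1 : ℕ) : ℝ) +ᵥ τ)
    have h2 := hasSum_E2' τ
    have hq : 𝕢 (1 : ℝ) ((((1 : ℕ) : ℝ) +ᵥ τ : ℍ) : ℂ) = 𝕢 (1 : ℝ) (τ : ℂ) := by
      have := qParam_vadd (N := 1) τ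
      simpa using this
    rw [hq] at h1
    exact h1.unique h2
  mdiff := E2_mdifferentiable
  bdd := isBoundedAtImInfty_E2

theorem qExpansion_E2 : qExpansion (1 : ℝ) E2 = e2Int.map (Int.castRingHom ℂ) := by
  ext n
  rw [PowerSeries.coeff_map]
  symm
  have := isNice_E2.coeff_unique (c := fun n => ((e2Int.coeff n : ℤ) : ℂ)) (fun τ => by
    have := hasSum_E2' τ
    simpa using this) n
  simpa using this

/-! ### the function `ψ₀ = E₂² - E₄` -/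

/-- the integral `q`-expansion of `E₂² - E₄`. -/
def psi0Int : PowerSeries ℤ := e2Int ^ 2 - e4Int

/-- `ψ₀ = E₂² - E₄`. -/
def psi0 : ℍ → ℂ := E2 ^ 2 - ⇑E₄

theorem isNice_E4 : IsNice 1 (⇑E₄ : ℍ → ℂ) := isNice_one_of_levelOne E₄

theorem isNice_psi0 : IsNice 1 psi0 := isNice_sub (isNice_one_pow isNice_E2 2) isNice_E4

theorem qExpansion_psi0 : qExpansion (1 : ℝ) psi0 = psi0Int.map (Int.castRingHom ℂ) := by
  unfold psi0 psi0Int
  rw [qExpansion_one_sub (isNice_one_pow isNice_E2 2) isNice_E4, qExpansion_one_pow isNice_E2,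
    qExpansion_E2, Fermat.Agent.S23.qExpansion_E₄, map_sub, map_pow]

theorem coeff_zero_e2Int : e2Int.coeff 0 = 1 := by
  unfold e2Int
  rw [map_sub, PowerSeries.coeff_C_mul, coeff_sigmaSeries_zero, PowerSeries.coeff_one]
  simp

theorem coeff_one_e2Int : e2Int.coeff 1 = -24 := by
  unfold e2Int
  rw [map_sub, PowerSeries.coeff_C_mul, coeff_sigmaSeries, PowerSeries.coeff_one]
  simp

theorem coeff_zero_e4Int : e4Int.coeff 0 = 1 := by
  unfold e4Int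
  rw [map_add, PowerSeries.coeff_C_mul, coeff_sigmaSeries_zero, PowerSeries.coeff_one]
  simp

theorem coeff_one_e4Int : e4Int.coeff 1 = 240 := by
  unfold e4Int
  rw [map_add, PowerSeries.coeff_C_mul, coeff_sigmaSeries, PowerSeries.coeff_one]
  simp

theorem coeff_zero_sq' {R : Type*} [CommRing R] (f : PowerSeries R) :
    (f ^ 2).coeff 0 = f.coeff 0 ^ 2 := by
  rw [pow_two, PowerSeries.coeff_mul, Finset.Nat.antidiagonal_zero, Finset.sum_singleton, pow_two]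

theorem coeff_one_sq' {R : Type*} [CommRing R] (f : PowerSeries R) :
    (f ^ 2).coeff 1 = 2 * f.coeff 0 * f.coeff 1 := by
  rw [pow_two, PowerSeries.coeff_mul]
  simp [Finset.Nat.antidiagonal_succ]
  ring

theorem coeff_zero_psi0Int : psi0Int.coeff 0 = 0 := by
  unfold psi0Int
  rw [map_sub, coeff_zero_sq', coeff_zero_e2Int, coeff_zero_e4Int]
  norm_num

theorem coeff_one_psi0Int : psi0Int.coeff 1 = -288 := by
  unfold psi0Int
  rw [map_sub, coeff_one_sq', coeff_zero_e2Int, coeff_one_e2Int, coeff_one_e4Int]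
  norm_num

/-! ### products in `ℓ ^ s O` and `ℓ ^ s P_O` -/

theorem ellO.mul_mem_add {ℓ s t : ℕ} {x y : ℂ} (hx : x ∈ ellO ℓ s) (hy : y ∈ ellO ℓ t) :
    x * y ∈ ellO ℓ (s + t) := by
  obtain ⟨a, ha, rfl⟩ := hx
  obtain ⟨b, hb, rfl⟩ := hy
  exact ⟨a * b, Subring.mul_mem _ ha hb, by ring⟩

theorem POI.mul_mem_add {s t : ℕ} {g h : ℍ → ℂ} (hg : g ∈ POI p ℓ s) (hh : h ∈ POI p ℓ t) :
    g * h ∈ POI p ℓ (s + t) := by
  refine ⟨hg.1.mul hh.1, fun n => ?_⟩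
  rw [hg.1.qExpansion_mul hh.1, PowerSeries.coeff_mul]
  exact sum_mem fun x _ => ellO.mul_mem_add (hg.2 _) (hh.2 _)

theorem POI.smul_mem_add {s t : ℕ} {c : ℂ} (hc : c ∈ ellO ℓ t) {g : ℍ → ℂ}
    (hg : g ∈ POI p ℓ s) : c • g ∈ POI p ℓ (s + t) := by
  refine ⟨isNice_smul hg.1 c, fun n => ?_⟩
  rw [qExpansion_smul_of_isNice hg.1, PowerSeries.coeff_smul, add_comm]
  exact ellO.mul_mem_add hc (hg.2 n)

/-! ### the functions `W(G) = E₂ G - 6 D G` and `V(G) = W(G)² - E₄ G²` -/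

/-- `W(G) = E₂ G - 6 D G = -6 ∂₂ G`. -/
def Wf (G : ℍ → ℂ) : ℍ → ℂ := E2 * G - (6 : ℂ) • D G

/-- `V(G) = W(G)² - E₄ G²`. -/
def Vf (G : ℍ → ℂ) : ℍ → ℂ := Wf G ^ 2 - ⇑E₄ * G ^ 2

theorem Wf_eq_serre (G : ℍ → ℂ) : Wf G = (-6 : ℂ) • Derivative.serreDerivative 2 G := by
  ext z
  simp only [Wf, Pi.sub_apply, Pi.mul_apply, Pi.smul_apply, smul_eq_mul,
    Derivative.serreDerivative_apply]
  ring

theorem Wf_add_const {G : ℍ → ℂ} (hG : MDiff G) (c : ℂ) :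
    Wf ((fun _ => c) + G) = c • E2 + Wf G := by
  unfold Wf
  rw [Derivative.normalizedDerivOfComplex_add _ _ mdifferentiable_const hG,
    Derivative.normalizedDerivOfComplex_const]
  ext z
  simp only [Pi.sub_apply, Pi.mul_apply, Pi.add_apply, Pi.smul_apply, smul_eq_mul,
    Pi.zero_apply]
  ring

theorem E2_mem_PO : E2 ∈ PO p ℓ :=
  mem_PO_of_isNice_one isNice_E2 fun n => by
    rw [qExpansion_E2, PowerSeries.coeff_map]
    exact intCast_mem _ _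

theorem E4_mem_PO : (⇑E₄ : ℍ → ℂ) ∈ PO p ℓ :=
  mem_PO_of_isNice_one isNice_E4 fun n => by
    rw [Fermat.Agent.S23.qExpansion_E₄, PowerSeries.coeff_map]
    exact intCast_mem _ _

theorem psi0_mem_PO : psi0 ∈ PO p ℓ :=
  mem_PO_of_isNice_one isNice_psi0 fun n => by
    rw [qExpansion_psi0, PowerSeries.coeff_map]
    exact intCast_mem _ _

theorem ofNat_mem_OInt (ℓ n : ℕ) [n.AtLeastTwo] : (OfNat.ofNat n : ℂ) ∈ OInt ℓ := by
  have := OInt.natCast_mem ℓ n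
  rwa [← Nat.cast_ofNat] 

theorem Wf_mem_POI (hpℓ : Nat.Coprime p ℓ) {s : ℕ} {g : ℍ → ℂ} (hg : g ∈ POI p ℓ s) :
    Wf g ∈ POI p ℓ s :=
  sub_mem (POI.mul_mem E2_mem_PO hg) (POI.smul_mem (ofNat_mem_OInt ℓ 6) (D_mem_POI hpℓ hg))

theorem Vf_sub_eq {g : ℍ → ℂ} (c : ℂ) (hg : MDiff g) :
    Vf ((fun _ => c) + g) - (c ^ 2) • psi0 =
      (2 * c) • (psi0 * g) - (12 * c) • (E2 * D g) + (Wf g ^ 2 - ⇑E₄ * g ^ 2) := by
  have hW := Wf_add_const hg c
  unfold Vf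
  rw [hW]
  ext z
  simp only [Wf, psi0, Pi.sub_apply, Pi.mul_apply, Pi.add_apply, Pi.smul_apply, smul_eq_mul,
    Pi.pow_apply]
  ring

/-- the basic congruence: if `G = c mod ℓ ^ s P_O` then `V(G) = c² ψ₀ mod ℓ ^ r P_O`. -/
theorem Vf_congr (hpℓ : Nat.Coprime p ℓ) {s t v r : ℕ} (hψ : psi0 ∈ POI p ℓ t)
    (h12 : (12 : ℂ) ∈ ellO ℓ v) (hr1 : r ≤ s + t) (hr2 : r ≤ s + v) (hr3 : r ≤ s + s)
    {G : ℍ → ℂ} {c : ℂ} (hc : c ∈ OInt ℓ) (hG : G - (fun _ => c) ∈ POI p ℓ s) :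
    Vf G - (c ^ 2) • psi0 ∈ POI p ℓ r := by
  set g := G - (fun _ => c) with hgdef
  have hGeq : G = (fun _ => c) + g := by rw [hgdef]; ring
  rw [hGeq, Vf_sub_eq c hG.1.mdiff]
  have hDg : D g ∈ POI p ℓ s := D_mem_POI hpℓ hG
  have hWg : Wf g ∈ POI p ℓ s := Wf_mem_POI hpℓ hG
  have h2c : 2 * c ∈ OInt ℓ := Subring.mul_mem _ (ofNat_mem_OInt ℓ 2) hc
  have h12c : 12 * c ∈ ellO ℓ v := ellO.mul_mem_right h12 hc
  refine add_mem (sub_mem ?_ ?_) (sub_mem ?_ ?_)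
  · exact POI.smul_mem h2c (POI_mono hr1 (by
      have := POI.mul_mem_add hψ hG
      rwa [add_comm] at this))
  · exact POI_mono hr2 (POI.smul_mem_add h12c (POI.mul_mem E2_mem_PO hDg))
  · rw [pow_two]
    exact POI_mono hr3 (POI.mul_mem_add hWg hWg)
  · rw [pow_two]
    exact POI.mul_mem E4_mem_PO (POI_mono hr3 (POI.mul_mem_add hG hG))

/-! ### niceness and slash equivariance of `W`, `V` -/

theorem isNice_pow' {N : ℕ} [NeZero N] {g : ℍ → ℂ} (hg : IsNice N g) (n : ℕ) :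
    IsNice N (g ^ n) := by
  induction n with
  | zero => simpa using isNice_one_fun N
  | succ n ih => rw [pow_succ]; exact ih.mul hg

theorem isNice_Wf {g : ℍ → ℂ} (hg : IsNice p g) : IsNice p (Wf g) :=
  isNice_sub ((isNice_of_isNice_one isNice_E2).mul hg) (isNice_smul (isNice_D hg) 6)

theorem isNice_Vf {g : ℍ → ℂ} (hg : IsNice p g) : IsNice p (Vf g) :=
  isNice_sub (isNice_pow' (isNice_Wf hg) 2)
    ((isNice_of_isNice_one isNice_E4).mul (isNice_pow' hg 2))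

theorem levelOne_slash_SL' {k : ℤ} (f : ModularForm 𝒮ℒ k) (γ : SL(2, ℤ)) :
    (⇑f) ∣[k] γ = ⇑f := by
  rw [ModularForm.SL_slash]
  exact SlashInvariantForm.slash_action_eqn f _ ⟨γ, rfl⟩

theorem sq_slash' (x : ℍ → ℂ) (γ : SL(2, ℤ)) (k : ℤ) :
    (x ^ 2) ∣[2 * k] γ = (x ∣[k] γ) ^ 2 := by
  have := ModularForm.mul_slash_SL2 k k γ x x
  rw [pow_two, pow_two, ← this, two_mul]

theorem Wf_slash {G : ℍ → ℂ} (hG : MDiff G) (γ : SL(2, ℤ)) :
    (Wf G) ∣[(4 : ℤ)] γ = Wf (G ∣[(2 : ℤ)] γ) := by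
  rw [Wf_eq_serre, Wf_eq_serre, ModularForm.SL_smul_slash]
  have h := Derivative.serreDerivative_slash_equivariant (k := 2) hG (γ := γ)
  have e : (((2 : ℤ) : ℂ)) = 2 := by norm_num
  rw [e] at h
  have h' : Derivative.serreDerivative 2 G ∣[(4 : ℤ)] γ =
      Derivative.serreDerivative 2 (G ∣[(2 : ℤ)] γ) := h
  rw [h']

theorem Vf_slash {G : ℍ → ℂ} (hG : MDiff G) (γ : SL(2, ℤ)) :
    (Vf G) ∣[(8 : ℤ)] γ = Vf (G ∣[(2 : ℤ)] γ) := by
  have h1 : (Wf G ^ 2) ∣[(8 : ℤ)] γ = (Wf (G ∣[(2 : ℤ)] γ)) ^ 2 := by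
    have := sq_slash' (Wf G) γ 4
    norm_num at this
    rw [this, Wf_slash hG]
  have h2 : (G ^ 2) ∣[(4 : ℤ)] γ = (G ∣[(2 : ℤ)] γ) ^ 2 := by
    have := sq_slash' G γ 2
    norm_num at this
    exact this
  have h3 : (⇑E₄ * G ^ 2) ∣[(8 : ℤ)] γ = ⇑E₄ * (G ∣[(2 : ℤ)] γ) ^ 2 := by
    have := ModularForm.mul_slash_SL2 4 4 γ (⇑E₄) (G ^ 2)
    norm_num at this
    rw [this, h2, levelOne_slash_SL' E₄ γ]
  unfold Vf
  rw [sub_eq_add_neg, SlashAction.add_slash, SlashAction.neg_slash, h1, h3, ← sub_eq_add_neg]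

/-! ### the conjugates of a form of weight `2` on `Γ₀(p)` -/

section Forms

variable (p) [hpf : Fact p.Prime]

omit [NeZero p] hpf in
theorem slash_Gamma0 {k : ℤ} (F : ModularForm (CongruenceSubgroup.Gamma0 p) k) {γ : SL(2, ℤ)}
    (hγ : γ ∈ CongruenceSubgroup.Gamma0 p) : (⇑F) ∣[k] γ = ⇑F := by
  rw [ModularForm.SL_slash]
  exact SlashInvariantForm.slash_action_eqn F _ ⟨γ, hγ, rfl⟩

omit [NeZero p] in
theorem slash_stRep_eq_smul (F : ModularForm (CongruenceSubgroup.Gamma0 p) 2) (j : ℕ) :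
    (⇑F ∣[(2 : ℤ)] (ModularGroup.S * ModularGroup.T ^ j : SL(2, ℤ))) =
      (-(p : ℂ)⁻¹) • (fun τ : ℍ =>
        Fermat.Agent.S16.helper41.tilde p F (ModularForm.heckeMatrix p j • τ)) := by
  ext τ
  rw [Fermat.Agent.S16.helper41.slash_S_T_pow_apply]
  simp

theorem isNice_slash (F : ModularForm (CongruenceSubgroup.Gamma0 p) 2) (γ : SL(2, ℤ)) :
    IsNice p (⇑F ∣[(2 : ℤ)] γ) := by
  rcases Fermat.Agent.S16.helper41.slash_eq_self_or_exists_stRep p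
    (fun γ hγ => slash_Gamma0 p F hγ) γ with h | ⟨j, -, h⟩
  · rw [h]
    exact isNice_of_isNice_one (isNice_one_of_modularForm F)
  · rw [h, slash_stRep_eq_smul]
    exact isNice_smul (isNice_comp_heckeMatrix (isNice_one_of_modularForm _) j) _

/-- `V(F) = (E₂ F - 6 D F)² - E₄ F²` as a modular form of weight `8` on `Γ₀(p)`. -/
def VForm (F : ModularForm (CongruenceSubgroup.Gamma0 p) 2) :
    ModularForm (CongruenceSubgroup.Gamma0 p) 8 where
  toFun := Vf F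
  slash_action_eq' A hA := by
    obtain ⟨γ, hγ, rfl⟩ := hA
    have h := Vf_slash (ModularFormClass.holo F) γ
    rw [slash_Gamma0 p F hγ, ModularForm.SL_slash] at h
    exact h
  holo' := (isNice_Vf (p := p) (isNice_of_isNice_one (isNice_one_of_modularForm F))).mdiff
  bdd_at_cusps' {c} hc := by
    rw [Subgroup.IsArithmetic.isCusp_iff_isCusp_SL2Z] at hc
    rw [OnePoint.isBoundedAt_iff_forall_SL2Z hc]
    intro γ _
    rw [Vf_slash (ModularFormClass.holo F) γ]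
    exact (isNice_Vf (isNice_slash p F γ)).bdd

@[simp] theorem coe_VForm (F : ModularForm (CongruenceSubgroup.Gamma0 p) 2) :
    ⇑(VForm p F) = Vf F := rfl

/-! ### `q`-expansions of constants and unit constants -/

omit [NeZero p] hpf in
theorem qExpansion_one_const (c : ℂ) (n : ℕ) :
    (qExpansion (1 : ℝ) (fun _ : ℍ => c)).coeff n = if n = 0 then c else 0 := by
  have e : (fun _ : ℍ => c) = c • (1 : ℍ → ℂ) := by
    ext τ
    simp
  rw [e, qExpansion_one_smul (isNice_one_fun 1), UpperHalfPlane.qExpansion_one,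
    PowerSeries.coeff_smul, PowerSeries.coeff_one]
  split_ifs <;> simp

omit [NeZero p] hpf in
theorem isNice_const_one (c : ℂ) : IsNice 1 (fun _ : ℍ => c) := IsNice.const (N := 1) c

omit [NeZero p] hpf in
theorem IsUnitMod.intCast {ℓ : ℕ} (hℓ : ℓ.Prime) {a : ℤ} (ha : ¬ (ℓ : ℤ) ∣ a) :
    IsUnitMod ℓ (a : ℂ) := by
  obtain ⟨n, rfl | rfl⟩ := Int.eq_nat_or_neg a
  · have hcop : Nat.Coprime n ℓ := by
      rw [Nat.coprime_comm, Nat.Prime.coprime_iff_not_dvd hℓ]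
      intro h
      exact ha (Int.natCast_dvd_natCast.mpr h)
    simpa using IsUnitMod.natCast hcop hℓ
  · have hcop : Nat.Coprime n ℓ := by
      rw [Nat.coprime_comm, Nat.Prime.coprime_iff_not_dvd hℓ]
      intro h
      exact ha ((Int.dvd_neg).mpr (Int.natCast_dvd_natCast.mpr h))
    simpa using (IsUnitMod.natCast hcop hℓ).neg

omit hpf in
/-- a form `F` of weight `2` on `Γ₀(p)` with `q`-expansion `a + ℓ ^ s h`: `F = a mod ℓ ^ s P_O`. -/
theorem sub_const_mem_POI {ℓ s : ℕ} (F : ModularForm (CongruenceSubgroup.Gamma0 p) 2) (a : ℂ)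
    (h : ℕ → ℤ) (hF0 : (qExpansion 1 F).coeff 0 = a)
    (hFk : ∀ k, 1 ≤ k → (qExpansion 1 F).coeff k = (ℓ : ℂ) ^ s * (h k : ℂ)) :
    (⇑F : ℍ → ℂ) - (fun _ => a) ∈ POI p ℓ s := by
  refine mem_POI_of_isNice_one (isNice_sub (isNice_one_of_modularForm F) (isNice_const_one a))
    fun n => ?_
  rw [qExpansion_one_sub (isNice_one_of_modularForm F) (isNice_const_one a), map_sub,
    qExpansion_one_const]
  rcases Nat.eq_zero_or_pos n with rfl | hn
  · rw [hF0, if_pos rfl, sub_self]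
    exact zero_mem _
  · rw [hFk n hn, if_neg hn.ne', sub_zero]
    exact ⟨(h n : ℂ), intCast_mem _ _, rfl⟩

/-- the conjugates `F ∣ S T^j` of such a form: `F ∣ S T^j = -a / p mod ℓ ^ s P_O`. -/
theorem slash_sub_const_mem_POI {ℓ s : ℕ} (hpℓ : Nat.Coprime p ℓ)
    (F : ModularForm (CongruenceSubgroup.Gamma0 p) 2) (a : ℂ)
    (h : ℕ → ℤ) (hF0 : (qExpansion 1 F).coeff 0 = a)
    (hFk : ∀ k, 1 ≤ k → (qExpansion 1 F).coeff k = (ℓ : ℂ) ^ s * (h k : ℂ)) (j : ℕ) :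
    (⇑F ∣[(2 : ℤ)] (ModularGroup.S * ModularGroup.T ^ j : SL(2, ℤ))) -
      (fun _ => -(p : ℂ)⁻¹ * a) ∈ POI p ℓ s := by
  have hp0 : p ≠ 0 := hpf.out.ne_zero
  have hpos : 0 < p := hpf.out.pos
  set Ft := Fermat.Agent.S16.helper41.tilde p F with hFt
  have hq : ∀ n, (qExpansion 1 Ft).coeff n = (qExpansion 1 F).coeff (n * p) :=
    fun n => Fermat.Agent.S16.helper41.qCoeff_tilde p F n
  have h1 : (⇑Ft : ℍ → ℂ) - (fun _ => a) ∈ POI p ℓ s := by
    refine sub_const_mem_POI p Ft a (fun n => h (n * p)) ?_ ?_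
    · rw [hq, zero_mul, hF0]
    · intro k hk
      rw [hq, hFk _ (Nat.mul_pos hk hpos)]
  set gt : ℍ → ℂ := (⇑Ft : ℍ → ℂ) - (fun _ => a) with hgt
  have hgtn : IsNice 1 gt := isNice_sub (isNice_one_of_modularForm Ft) (isNice_const_one a)
  have h2 := comp_heckeMatrix_mem_POI (p := p) hgtn
    (fun n => coeff_mem_of_mem_POI (p := p) hgtn h1 n) j
  have hρ : -(p : ℂ)⁻¹ ∈ OInt ℓ := neg_mem (OInt.inv_natCast_mem hpℓ)
  have h3 := POI.smul_mem hρ h2
  have e : (⇑F ∣[(2 : ℤ)] (ModularGroup.S * ModularGroup.T ^ j : SL(2, ℤ))) -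
      (fun _ => -(p : ℂ)⁻¹ * a) = (-(p : ℂ)⁻¹) •
        (fun τ : ℍ => gt (ModularForm.heckeMatrix p j • τ)) := by
    rw [slash_stRep_eq_smul]
    ext τ
    simp only [hgt, Pi.sub_apply, Pi.smul_apply, smul_eq_mul]
    ring
  rw [e]
  exact h3

end Forms

/-! ### the refutation (U5) -/

theorem coprime_288 {ℓ : ℕ} (hℓ : ℓ.Prime) (h5 : 5 ≤ ℓ) : Nat.Coprime 288 ℓ := by
  rw [Nat.coprime_comm, Nat.Prime.coprime_iff_not_dvd hℓ]
  intro h
  have h288 : (288 : ℕ) = 2 ^ 5 * 3 ^ 2 := by norm_num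
  rw [h288] at h
  rcases (Nat.Prime.dvd_mul hℓ).mp h with h2 | h3
  · have := Nat.le_of_dvd (by norm_num) (hℓ.dvd_of_dvd_pow h2)
    omega
  · have := Nat.le_of_dvd (by norm_num) (hℓ.dvd_of_dvd_pow h3)
    omega

theorem coeff_psi0_mem (ℓ n : ℕ) : (qExpansion (1 : ℝ) psi0).coeff n ∈ OInt ℓ := by
  rw [qExpansion_psi0, PowerSeries.coeff_map]
  exact intCast_mem _ _

theorem coeff_zero_psi0 : (qExpansion (1 : ℝ) psi0).coeff 0 = 0 := by
  rw [qExpansion_psi0, PowerSeries.coeff_map, coeff_zero_psi0Int]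
  simp

theorem coeff_one_psi0 : (qExpansion (1 : ℝ) psi0).coeff 1 = -288 := by
  rw [qExpansion_psi0, PowerSeries.coeff_map, coeff_one_psi0Int]
  simp

/-- **(U5)**: for primes `ℓ ≥ 5`, `ℓ ≠ p`, there is no form of weight `2` on `Γ₀(p)` with
`q`-expansion `a + ℓ h`, `a` an integer prime to `ℓ`, `h ∈ q ℤ[[q]]`. -/
theorem not_unitConst_ge_five (p ℓ : ℕ) [hpf : Fact p.Prime] (hℓ : ℓ.Prime) (h5 : 5 ≤ ℓ)
    (hℓp : ℓ ≠ p) : ¬ Fermat.Agent.S16.helper66.UnitConst p ℓ 1 := by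
  haveI : NeZero p := ⟨hpf.out.ne_zero⟩
  rintro ⟨F, a, h, ha, hF0, hFk⟩
  have hpℓ : Nat.Coprime p ℓ := (Nat.coprime_primes hpf.out hℓ).mpr (Ne.symm hℓp)
  have haU : IsUnitMod ℓ (a : ℂ) := IsUnitMod.intCast hℓ ha
  have hρU : IsUnitMod ℓ (-(p : ℂ)⁻¹ * a) := (IsUnitMod.inv_natCast hpℓ hℓ).neg.mul haU
  have hψ0 : psi0 ∈ POI p ℓ 0 := POI_zero.mpr psi0_mem_PO
  have h12 : (12 : ℂ) ∈ ellO ℓ 0 := (ellO_zero ℓ).mpr (ofNat_mem_OInt ℓ 12)
  refine norm_congruence' p ℓ hℓ (w := 8) (by norm_num) (VForm p F) psi0 isNice_psi0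
    (coeff_psi0_mem ℓ) coeff_zero_psi0 ?_ ((a : ℂ) ^ 2) (fun _ => (-(p : ℂ)⁻¹ * a) ^ 2)
    (haU.pow 2) (fun _ _ => hρU.pow 2) ?_ ?_
  · rw [coeff_one_psi0]
    have := (IsUnitMod.natCast (coprime_288 hℓ h5) hℓ).neg
    simpa using this
  · rw [coe_VForm]
    exact Vf_congr hpℓ hψ0 h12 le_rfl le_rfl (by omega) haU.1
      (sub_const_mem_POI p F a h hF0 hFk)
  · intro j _
    rw [coe_VForm, Vf_slash (ModularFormClass.holo F)]
    exact Vf_congr hpℓ hψ0 h12 le_rfl le_rfl (by omega) hρU.1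
      (slash_sub_const_mem_POI p hpℓ F a h hF0 hFk j)

end Fermat.Agent.S16.helper58
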