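import Mathlib
import Fermat.Agent.S16.helper58_U5

/-!
# S16 [A6]: the refutation (U3b)

For a prime `p ≡ 2 mod 3` there is no modular form `F` of weight `2` on `Γ₀(p)` with
`q`-expansion `a + 9 h`, `a` an integer prime to `3`, `h ∈ q ℤ[[q]]` (`not_unitConst_three`).

Proof (blueprint (e), `ℓ = 3`): `ψ₀ = E₂² - E₄` is divisible by `9`, `ψ₀ / 9 = -32 q + ⋯`, and
`V(F) / 9` and all its conjugates are congruent to unit multiples of `ψ₀ / 9` modulo `3 P_O`.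
-/

set_option autoImplicit false

noncomputable section

open UpperHalfPlane Filter Topology Function
open scoped MatrixGroups Manifold ModularForm CongruenceSubgroup Derivative

namespace Fermat.Agent.S16.helper58

open Fermat.Agent.S24.helper37 Fermat.Agent.S23 EisensteinSeries ModularForm

/-! ### divisor sums modulo `3` -/

theorem three_dvd_poly (d : ℤ) : (3 : ℤ) ∣ d + 5 * d ^ 3 := by
  have h : ∀ x : ZMod 3, x + 5 * x ^ 3 = 0 := by decide
  have h1 := h (d : ZMod 3)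
  refine (ZMod.intCast_zmod_eq_zero_iff_dvd _ 3).mp ?_
  push_cast
  exact h1

theorem sigma_int' (k n : ℕ) :
    (ArithmeticFunction.sigma k n : ℤ) = ∑ d ∈ n.divisors, (d : ℤ) ^ k := by
  rw [ArithmeticFunction.sigma_apply]
  push_cast
  rfl

theorem three_dvd_sigma (n : ℕ) :
    (3 : ℤ) ∣ (ArithmeticFunction.sigma 1 n : ℤ) + 5 * (ArithmeticFunction.sigma 3 n : ℤ) := by
  rw [sigma_int', sigma_int', Finset.mul_sum, ← Finset.sum_add_distrib]
  refine Finset.dvd_sum fun d _ => ?_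
  simpa using three_dvd_poly (d : ℤ)

/-- `(S₁ + 5 S₃) / 3`. -/
def tInt : PowerSeries ℤ :=
  PowerSeries.mk fun n =>
    ((ArithmeticFunction.sigma 1 n : ℤ) + 5 * (ArithmeticFunction.sigma 3 n : ℤ)) / 3

theorem sigmaSeries_one_add_five : sigmaSeries 1 + 5 * sigmaSeries 3 = 3 * tInt := by
  ext n
  have h3 : (3 : PowerSeries ℤ) = PowerSeries.C (3 : ℤ) := by rw [map_ofNat]
  have h5 : (5 : PowerSeries ℤ) = PowerSeries.C (5 : ℤ) := by rw [map_ofNat]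
  rw [h3, h5, map_add, PowerSeries.coeff_C_mul, PowerSeries.coeff_C_mul, coeff_sigmaSeries,
    coeff_sigmaSeries, tInt, PowerSeries.coeff_mk, Int.mul_ediv_cancel' (three_dvd_sigma n)]

/-- the integral `q`-expansion of `(E₂² - E₄) / 9`. -/
def psi9Int : PowerSeries ℤ := 64 * sigmaSeries 1 ^ 2 - 16 * tInt

theorem psi0Int_eq : psi0Int = 9 * psi9Int := by
  have h24 : (PowerSeries.C (24 : ℤ) : PowerSeries ℤ) = 24 := by rw [map_ofNat]
  have h240 : (PowerSeries.C (240 : ℤ) : PowerSeries ℤ) = 240 := by rw [map_ofNat]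
  have key : (240 : PowerSeries ℤ) * sigmaSeries 3 = 48 * (3 * tInt) - 48 * sigmaSeries 1 := by
    rw [← sigmaSeries_one_add_five]
    ring
  unfold psi0Int psi9Int e2Int e4Int
  rw [h24, h240]
  have : (1 - 24 * sigmaSeries 1) ^ 2 - (1 + 240 * sigmaSeries 3) =
      576 * sigmaSeries 1 ^ 2 - 48 * sigmaSeries 1 - 240 * sigmaSeries 3 := by ring
  rw [this, key]
  ring

theorem coeff_psi0Int (n : ℕ) : psi0Int.coeff n = 9 * psi9Int.coeff n := by
  have h9 : (9 : PowerSeries ℤ) = PowerSeries.C (9 : ℤ) := by rw [map_ofNat]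
  rw [psi0Int_eq, h9, PowerSeries.coeff_C_mul]

theorem coeff_zero_psi9Int : psi9Int.coeff 0 = 0 := by
  have := coeff_psi0Int 0
  rw [coeff_zero_psi0Int] at this
  omega

theorem coeff_one_psi9Int : psi9Int.coeff 1 = -32 := by
  have := coeff_psi0Int 1
  rw [coeff_one_psi0Int] at this
  omega

/-! ### the function `ψ₉ = (E₂² - E₄) / 9` -/

/-- `ψ₉ = (E₂² - E₄) / 9`. -/
def psi9 : ℍ → ℂ := (9 : ℂ)⁻¹ • psi0

theorem isNice_psi9 : IsNice 1 psi9 := isNice_smul isNice_psi0 _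

theorem coeff_psi9 (n : ℕ) :
    (qExpansion (1 : ℝ) psi9).coeff n = ((psi9Int.coeff n : ℤ) : ℂ) := by
  unfold psi9
  rw [qExpansion_one_smul isNice_psi0, PowerSeries.coeff_smul, qExpansion_psi0,
    PowerSeries.coeff_map, coeff_psi0Int]
  push_cast
  simp

variable {p : ℕ} [NeZero p]

theorem psi0_mem_POI_three : psi0 ∈ POI p 3 1 :=
  mem_POI_of_isNice_one isNice_psi0 fun n => by
    rw [qExpansion_psi0, PowerSeries.coeff_map, coeff_psi0Int, eq_intCast]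
    refine ⟨((3 * psi9Int.coeff n : ℤ) : ℂ), intCast_mem _ _, ?_⟩
    push_cast
    ring

theorem POI.inv_pow_smul_mem {ℓ s t : ℕ} (hℓ : ℓ ≠ 0) {g : ℍ → ℂ}
    (hg : g ∈ POI p ℓ (s + t)) : ((ℓ : ℂ) ^ t)⁻¹ • g ∈ POI p ℓ s := by
  have hℓ0 : ((ℓ : ℂ) ^ t) ≠ 0 := pow_ne_zero _ (by exact_mod_cast hℓ)
  refine ⟨isNice_smul hg.1 _, fun n => ?_⟩
  rw [qExpansion_smul_of_isNice hg.1, PowerSeries.coeff_smul]
  obtain ⟨y, hy, hxy⟩ := hg.2 n
  refine ⟨y, hy, ?_⟩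
  rw [hxy, smul_eq_mul, pow_add]
  field_simp

theorem ninth_smul_mem {g : ℍ → ℂ} (hg : g ∈ POI p 3 3) : (9 : ℂ)⁻¹ • g ∈ POI p 3 1 := by
  have := POI.inv_pow_smul_mem (p := p) (ℓ := 3) (s := 1) (t := 2) (by norm_num) hg
  have e : (((3 : ℕ) : ℂ) ^ 2)⁻¹ = (9 : ℂ)⁻¹ := by norm_num
  rwa [e] at this

/-- the congruence for `V(G) / 9` modulo `3 P_O`. -/
theorem ninth_Vf_congr (hp3 : Nat.Coprime p 3) {G : ℍ → ℂ} {c : ℂ} (hc : c ∈ OInt 3)
    (hG : G - (fun _ => c) ∈ POI p 3 2) :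
    (9 : ℂ)⁻¹ • Vf G - (c ^ 2) • psi9 ∈ POI p 3 1 := by
  have h12 : (12 : ℂ) ∈ ellO 3 1 := ⟨4, ofNat_mem_OInt 3 4, by norm_num⟩
  have h := Vf_congr (r := 3) hp3 psi0_mem_POI_three h12 (by norm_num) (by norm_num)
    (by norm_num) hc hG
  have e : (9 : ℂ)⁻¹ • Vf G - (c ^ 2) • psi9 = (9 : ℂ)⁻¹ • (Vf G - (c ^ 2) • psi0) := by
    unfold psi9
    rw [smul_sub, smul_comm]
  rw [e]
  exact ninth_smul_mem h

/-- **(U3b)**: for a prime `p ≡ 2 mod 3` there is no form of weight `2` on `Γ₀(p)` with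
`q`-expansion `a + 9 h`, `a` an integer prime to `3`, `h ∈ q ℤ[[q]]`. -/
theorem not_unitConst_three (p : ℕ) [hpf : Fact p.Prime] (hp3 : p % 3 = 2) :
    ¬ Fermat.Agent.S16.helper66.UnitConst p 3 2 := by
  haveI : NeZero p := ⟨hpf.out.ne_zero⟩
  rintro ⟨F, a, h, ha, hF0, hFk⟩
  have h3 : Nat.Prime 3 := Nat.prime_three
  have hpne : (3 : ℕ) ≠ p := by
    rintro rfl
    omega
  have hpℓ : Nat.Coprime p 3 := (Nat.coprime_primes hpf.out h3).mpr (Ne.symm hpne)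
  have haU : IsUnitMod 3 (a : ℂ) := IsUnitMod.intCast h3 ha
  have hρU : IsUnitMod 3 (-(p : ℂ)⁻¹ * a) := (IsUnitMod.inv_natCast hpℓ h3).neg.mul haU
  refine norm_congruence' p 3 h3 (w := 8) (by norm_num) ((9 : ℂ)⁻¹ • VForm p F) psi9 isNice_psi9
    (fun n => by rw [coeff_psi9]; exact intCast_mem _ _)
    (by rw [coeff_psi9, coeff_zero_psi9Int]; simp) ?_ ((a : ℂ) ^ 2)
    (fun _ => (-(p : ℂ)⁻¹ * a) ^ 2) (haU.pow 2) (fun _ _ => hρU.pow 2) ?_ ?_
  · rw [coeff_psi9, coeff_one_psi9Int]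
    have h32 : Nat.Coprime 32 3 := by norm_num
    have := (IsUnitMod.natCast h32 h3).neg
    simpa using this
  · have e : (⇑((9 : ℂ)⁻¹ • VForm p F) : ℍ → ℂ) = (9 : ℂ)⁻¹ • Vf F := rfl
    rw [e]
    exact ninth_Vf_congr hpℓ haU.1 (sub_const_mem_POI p F a h hF0 hFk)
  · intro j _
    have e : (⇑((9 : ℂ)⁻¹ • VForm p F) : ℍ → ℂ) = (9 : ℂ)⁻¹ • Vf F := rfl
    rw [e, ModularForm.SL_smul_slash, Vf_slash (ModularFormClass.holo F)]
    exact ninth_Vf_congr hpℓ hρU.1 (slash_sub_const_mem_POI p hpℓ F a h hF0 hFk j)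

end Fermat.Agent.S16.helper58
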