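import Fermat.Agent.S16.helper5_Mismatch
import Fermat.Agent.S16.helper41_Fricke
import Fermat.Agent.S16.helper58_PO
import Fermat.Agent.S16.helper66_Upper

/-!
# S16 (helper5): glue `[A1]` + `[A4]`/`[A5]` → the target shapes of `[A8]`

For a prime `p`:
* `stepA p : helper66.StepA p`;
* `not_unitConst_U3a` : `p % 3 = 1 → ¬ helper66.UnitConst p 3 1`;
* `not_unitConst_U2a` : `p % 4 = 1 → ¬ helper66.UnitConst p 2 2`;
* `not_unitConst_U2b` : `p % 8 = 3 → ¬ helper66.UnitConst p 2 3`.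
-/

set_option autoImplicit false

namespace Fermat.Agent.S16.helper5

open UpperHalfPlane CongruenceSubgroup ModularFormClass ModularForm PowerSeries

/-- an integer prime to `ℓ` is a unit of `OInt ℓ` -/
lemma intCast_inv_mem_OInt {ℓ : ℕ} (hℓ : ℓ.Prime) (a : ℤ) (ha : ¬ (ℓ : ℤ) ∣ a) :
    ((a : ℂ))⁻¹ ∈ helper58.OInt ℓ := by
  have hcop : Nat.Coprime a.natAbs ℓ := by
    rw [Nat.coprime_comm, Nat.Prime.coprime_iff_not_dvd hℓ]
    intro h
    exact ha (Int.natCast_dvd.2 h)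
  have h1 := helper58.OInt.inv_natCast_mem (ℓ := ℓ) hcop
  rcases Int.natAbs_eq a with h | h
  · have : (a : ℂ) = ((a.natAbs : ℕ) : ℂ) := by
      have := congrArg (fun z : ℤ => (z : ℂ)) h
      simpa only [Int.cast_natCast] using this
    rw [this]
    exact h1
  · have : (a : ℂ) = -((a.natAbs : ℕ) : ℂ) := by
      have := congrArg (fun z : ℤ => (z : ℂ)) h
      simpa only [Int.cast_neg, Int.cast_natCast] using this
    rw [this, inv_neg]
    exact neg_mem h1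

lemma intCast_mem_OInt (ℓ : ℕ) (a : ℤ) : (a : ℂ) ∈ helper58.OInt ℓ :=
  _root_.intCast_mem _ a

variable (p : ℕ) [Fact p.Prime]

/-- the data produced by `[A1]` for a form `F`, in the shape consumed by the mismatch lemmas -/
lemma A1_data (F : ModularForm (Gamma0 p) 2) :
    (∀ n, coeff n (qExpansion 1 F) = coeff (n * p) (qExpansion 1 (helper41.tilde p F))) ∧
    (∀ n, coeff n (qExpansion 1 (helper41.tilde p F)) = coeff (n * p) (qExpansion 1 F)) ∧
    (∀ n, (p : ℂ) * coeff n ((qExpansion 1 F) ^ 2) +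
        coeff (n * p) ((qExpansion 1 (helper41.tilde p F)) ^ 2) =
      ((p : ℂ) + 1) * (coeff 0 (qExpansion 1 F)) ^ 2 * (qExpansion 1 E₄).coeff n) ∧
    (∀ n, (p : ℂ) * coeff n ((qExpansion 1 (helper41.tilde p F)) ^ 2) +
        coeff (n * p) ((qExpansion 1 F) ^ 2) =
      ((p : ℂ) + 1) * (coeff 0 (qExpansion 1 F)) ^ 2 * (qExpansion 1 E₄).coeff n) := by
  have hU := helper41.qCoeff_eq_qCoeff_tilde p F
  have hU' := helper41.qCoeff_tilde p F
  refine ⟨hU, hU', fun n => helper41.quad_identity_coeff p F n, fun n => ?_⟩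
  have h := helper41.quad_identity_coeff p (helper41.tilde p F) n
  rw [helper41.tilde_tilde] at h
  have h0 : ModularFormClass.qCoeff (helper41.tilde p F) 0 = coeff 0 (qExpansion 1 F) := by
    rw [hU' 0, zero_mul]
    rfl
  rw [h0] at h
  exact h

/-- **Step (a)** in the shape of `[A8]`. -/
theorem stepA : helper66.StepA p := by
  intro F m h hF0 hFk
  obtain ⟨hU, hU', I4, -⟩ := A1_data p F
  have hp2 : 2 ≤ p := (Fact.out : p.Prime).two_le
  refine dvd_of_I4_E4 p (qExpansion 1 F) (qExpansion 1 (helper41.tilde p F)) hp2 m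
    (((p : ℂ) - 1) / 24) (by ring) hF0 (fun n hn => ⟨h n, hFk n hn⟩) hU hU' ?_
  intro n
  rw [I4 n, hF0]

/-- common part of the three mismatch cases -/
lemma not_unitConst_aux {ℓ s : ℕ} (hℓ : ℓ.Prime)
    (H : ∀ (a : ℂ) (F Ft : PowerSeries ℂ), a ≠ 0 → a ∈ helper58.OInt ℓ →
      a⁻¹ ∈ helper58.OInt ℓ → coeff 0 F = a →
      (∀ n, 1 ≤ n → ∃ x ∈ helper58.OInt ℓ, coeff n F = (ℓ : ℂ) ^ s * x) →
      (∀ n, coeff n F = coeff (n * p) Ft) → (∀ n, coeff n Ft = coeff (n * p) F) →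
      (∀ n, (p : ℂ) * coeff n (F ^ 2) + coeff (n * p) (Ft ^ 2) =
        ((p : ℂ) + 1) * a ^ 2 * (qExpansion 1 E₄).coeff n) →
      (∀ n, (p : ℂ) * coeff n (Ft ^ 2) + coeff (n * p) (F ^ 2) =
        ((p : ℂ) + 1) * a ^ 2 * (qExpansion 1 E₄).coeff n) → False) :
    ¬ helper66.UnitConst p ℓ s := by
  rintro ⟨F, a, h, ha, hF0, hFk⟩
  obtain ⟨hU, hU', I4, I4'⟩ := A1_data p F
  have ha0 : (a : ℂ) ≠ 0 := by
    intro h0
    have : a = 0 := by exact_mod_cast h0
    exact ha (this ▸ dvd_zero _)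
  refine H (a : ℂ) (qExpansion 1 F) (qExpansion 1 (helper41.tilde p F)) ha0
    (intCast_mem_OInt ℓ a) (intCast_inv_mem_OInt hℓ a ha) hF0
    (fun n hn => ⟨(h n : ℂ), intCast_mem_OInt ℓ (h n), hFk n hn⟩) hU hU' ?_ ?_
  · intro n; rw [I4 n, hF0]
  · intro n; rw [I4' n, hF0]

/-- **(U3a)** in the shape of `[A8]`. -/
theorem not_unitConst_U3a (hp3 : p % 3 = 1) : ¬ helper66.UnitConst p 3 1 := by
  refine not_unitConst_aux p Nat.prime_three ?_
  intro a F Ft ha0 haO haO' hF0 hF hU hU' I4 I4'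
  have h3 : (3 : ℂ)⁻¹ ∉ helper58.OInt 3 := by
    simpa using helper58.OInt.inv_prime_not_mem Nat.prime_three
  exact no_cong_U3a_E4 (helper58.OInt 3) p a F Ft h3 (Fact.out : p.Prime) hp3 ha0 haO haO' hF0
    (fun n hn => by simpa using hF n hn) hU hU' I4 I4'

/-- **(U2a)** in the shape of `[A8]`. -/
theorem not_unitConst_U2a (hp4 : p % 4 = 1) : ¬ helper66.UnitConst p 2 2 := by
  refine not_unitConst_aux p Nat.prime_two ?_
  intro a F Ft ha0 haO haO' hF0 hF hU hU' I4 I4'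
  have h2 : (2 : ℂ)⁻¹ ∉ helper58.OInt 2 := by
    simpa using helper58.OInt.inv_prime_not_mem Nat.prime_two
  refine no_cong_U2a_E4 (helper58.OInt 2) p a F Ft h2 (Fact.out : p.Prime) hp4 ha0 haO haO' hF0
    (fun n hn => ?_) hU hU' I4 I4'
  obtain ⟨x, hx, hx'⟩ := hF n hn
  refine ⟨x, hx, ?_⟩
  rw [hx']
  norm_num

/-- **(U2b) for `p ≡ 3 mod 8`** in the shape of `[A8]`. -/
theorem not_unitConst_U2b (hp8 : p % 8 = 3) : ¬ helper66.UnitConst p 2 3 := by
  refine not_unitConst_aux p Nat.prime_two ?_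
  intro a F Ft ha0 haO haO' hF0 hF hU hU' I4 I4'
  have h2 : (2 : ℂ)⁻¹ ∉ helper58.OInt 2 := by
    simpa using helper58.OInt.inv_prime_not_mem Nat.prime_two
  refine no_cong_U2b_E4 (helper58.OInt 2) p a F Ft h2 (Fact.out : p.Prime) hp8 ha0 haO haO' hF0
    (fun n hn => ?_) hU hU' I4 I4'
  obtain ⟨x, hx, hx'⟩ := hF n hn
  refine ⟨x, hx, ?_⟩
  rw [hx']
  norm_num

end Fermat.Agent.S16.helper5
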