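import Fermat.Agent.S20
import Fermat.Agent.S20.UpperBound

/-!
# S16: the primes `p ∈ {2, 3, 5, 7, 13}` — `S₂(Γ₀(p)) = 0`

From the landed dimension formula S20.
-/

set_option autoImplicit false

namespace Fermat.Agent.S16.helper66

open CongruenceSubgroup

theorem dedekindPsi_prime (p : ℕ) (hp : p.Prime) : ModularCurve.dedekindPsi p = p + 1 := by
  rw [ModularCurve.dedekindPsi, hp.divisors]
  rw [Finset.filter_true_of_mem]
  · rw [Finset.sum_pair hp.one_lt.ne]
    simp [Nat.div_self hp.pos]
  · intro d hd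
    simp only [Finset.mem_insert, Finset.mem_singleton] at hd
    rcases hd with rfl | rfl
    · exact squarefree_one
    · exact hp.squarefree

theorem cuspCount_prime (p : ℕ) (hp : p.Prime) : ModularCurve.cuspCount p = 2 := by
  rw [ModularCurve.cuspCount, hp.divisors, Finset.sum_pair hp.one_lt.ne]
  simp [Nat.div_self hp.pos]

theorem nuTwo_eq (N : ℕ) [NeZero N] :
    ModularCurve.nuTwo N = (Finset.univ.filter (fun x : ZMod N => x ^ 2 + 1 = 0)).card := by
  rw [ModularCurve.nuTwo, Nat.card_eq_fintype_card, Fintype.card_subtype]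

theorem nuThree_eq (N : ℕ) [NeZero N] :
    ModularCurve.nuThree N =
      (Finset.univ.filter (fun x : ZMod N => x ^ 2 + x + 1 = 0)).card := by
  rw [ModularCurve.nuThree, Nat.card_eq_fintype_card, Fintype.card_subtype]

theorem genusFormula_small (p : ℕ) (hp : p = 2 ∨ p = 3 ∨ p = 5 ∨ p = 7 ∨ p = 13) :
    ModularCurve.genusFormula p = 0 := by
  rcases hp with rfl | rfl | rfl | rfl | rfl
  · have h2 : ModularCurve.nuTwo 2 = 1 := by rw [nuTwo_eq]; decide
    have h3 : ModularCurve.nuThree 2 = 0 := by rw [nuThree_eq]; decide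
    rw [ModularCurve.genusFormula, dedekindPsi_prime 2 (by norm_num),
      cuspCount_prime 2 (by norm_num), h2, h3]
    norm_num
  · have h2 : ModularCurve.nuTwo 3 = 0 := by rw [nuTwo_eq]; decide
    have h3 : ModularCurve.nuThree 3 = 1 := by rw [nuThree_eq]; decide
    rw [ModularCurve.genusFormula, dedekindPsi_prime 3 (by norm_num),
      cuspCount_prime 3 (by norm_num), h2, h3]
    norm_num
  · have h2 : ModularCurve.nuTwo 5 = 2 := by rw [nuTwo_eq]; decide
    have h3 : ModularCurve.nuThree 5 = 0 := by rw [nuThree_eq]; decide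
    rw [ModularCurve.genusFormula, dedekindPsi_prime 5 (by norm_num),
      cuspCount_prime 5 (by norm_num), h2, h3]
    norm_num
  · have h2 : ModularCurve.nuTwo 7 = 0 := by rw [nuTwo_eq]; decide
    have h3 : ModularCurve.nuThree 7 = 2 := by rw [nuThree_eq]; decide
    rw [ModularCurve.genusFormula, dedekindPsi_prime 7 (by norm_num),
      cuspCount_prime 7 (by norm_num), h2, h3]
    norm_num
  · have h2 : ModularCurve.nuTwo 13 = 2 := by rw [nuTwo_eq]; decide
    have h3 : ModularCurve.nuThree 13 = 2 := by rw [nuThree_eq]; decide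
    rw [ModularCurve.genusFormula, dedekindPsi_prime 13 (by norm_num),
      cuspCount_prime 13 (by norm_num), h2, h3]
    norm_num

/-- `S₂(Γ₀(p)) = 0` for `p ∈ {2, 3, 5, 7, 13}`. -/
theorem cuspForm_eq_zero_of_small (p : ℕ) (hp : p = 2 ∨ p = 3 ∨ p = 5 ∨ p = 7 ∨ p = 13)
    (G : CuspForm (Gamma0 p) 2) : G = 0 := by
  have : NeZero p := ⟨by rcases hp with rfl | rfl | rfl | rfl | rfl <;> norm_num⟩
  have h := Fermat.Agent.S20.result p
  rw [genusFormula_small p hp] at h
  have h0 : Module.finrank ℂ (CuspForm (Gamma0 p) 2) = 0 := by exact_mod_cast h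
  have := Fermat.Agent.S20.finite_cuspForm_two p
  exact (finrank_zero_iff_forall_zero.mp h0) G

end Fermat.Agent.S16.helper66
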