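import Fermat.Agent.S16.helper66_Upper
import Fermat.Agent.S16.helper66_Small
import Fermat.Agent.S16.helper16_Interface
import Fermat.Agent.S16.helper24_Eis

/-!
# S16, package [A8]: the upper bound `helper16.UpperBound p` from the case inputs

Wiring of `upperBound_of_cases` with the landed Eisenstein series ([A0], helper24) and the
small primes (`S₂(Γ₀(p)) = 0` for `p ∈ {2,3,5,7,13}`, from S20).
-/

set_option autoImplicit false

namespace Fermat.Agent.S16.helper66

open UpperHalfPlane CongruenceSubgroup ModularFormClass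

theorem sigmaP_cast_eq (p : ℕ) (hp : p.Prime) (k : ℕ) :
    ((helper24.sigmaP p k : ℕ) : ℤ) = helper16.sigmaP p k := by
  unfold helper16.sigmaP
  by_cases h : p ∣ k
  · obtain ⟨m, rfl⟩ := h
    rw [if_pos (dvd_mul_right p m), Nat.mul_div_cancel_left m hp.pos,
      helper24.sigma_eq_sigmaP_add hp m]
    push_cast
    ring
  · rw [if_neg h, helper24.sigmaP_of_not_dvd h]
    simp

theorem sigmaP_one_eq (p : ℕ) (hp : p.Prime) : helper16.sigmaP p 1 = 1 := by
  rw [← sigmaP_cast_eq p hp 1, helper24.sigmaP_one hp]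
  rfl

theorem eisExists (p : ℕ) [Fact p.Prime] : EisExists p (helper16.sigmaP p) := by
  refine ⟨helper24.eisForm p, helper24.qExpansion_eisForm_coeff_zero p, fun k hk => ?_⟩
  rw [helper24.qExpansion_eisForm_coeff_of_pos p hk, ← sigmaP_cast_eq p Fact.out k]
  push_cast
  rfl

theorem eleven_le_of_prime (p : ℕ) (hp : p.Prime)
    (h : ¬ (p = 2 ∨ p = 3 ∨ p = 5 ∨ p = 7 ∨ p = 13)) : 11 ≤ p := by
  by_contra hlt
  have h2 := hp.two_le
  have hp' : p < 11 := by omega
  interval_cases p <;> first | omega | (exact absurd hp (by decide))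

/-- **Package [A8], final form**: the form-level upper bound (A') for every prime `p`,
from step (a) and the unit-constant cases for `p ≥ 11`. -/
theorem upperBound_of_inputs (p : ℕ) [hpf : Fact p.Prime]
    (hA : 11 ≤ p → StepA p)
    (h5 : 11 ≤ p → ∀ ℓ : ℕ, ℓ.Prime → 5 ≤ ℓ → ℓ ≠ p → ¬ UnitConst p ℓ 1)
    (h3a : 11 ≤ p → p % 3 = 1 → ¬ UnitConst p 3 1)
    (h3b : 11 ≤ p → p % 3 = 2 → ¬ UnitConst p 3 2)
    (h2a : 11 ≤ p → p % 4 = 1 → ¬ UnitConst p 2 2)
    (h2b3 : 11 ≤ p → p % 8 = 3 → ¬ UnitConst p 2 3)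
    (h2b7 : 11 ≤ p → p % 8 = 7 → ¬ UnitConst p 2 3) :
    helper16.UpperBound p := by
  by_cases hsmall : p = 2 ∨ p = 3 ∨ p = 5 ∨ p = 7 ∨ p = 13
  · exact upperBound_of_cuspForm_eq_zero p _ (sigmaP_one_eq p hpf.out)
      (cuspForm_eq_zero_of_small p hsmall)
  · have h11 : 11 ≤ p := eleven_le_of_prime p hpf.out hsmall
    exact upperBound_of_cases p (by omega) _ (eisExists p) (hA h11) (h5 h11) (h3a h11)
      (h3b h11) (h2a h11) (h2b3 h11) (h2b7 h11)

end Fermat.Agent.S16.helper66
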