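import Mathlib.Algebra.Ring.Subring.Basic
import Mathlib.Tactic.Ring
import Mathlib.Tactic.LinearCombination

/-!
# S16, package [A7] (helper76): the algebraic core of the `2`-adic argument (HOLE 1)

Let `K` be a commutative ring without `2`-torsion and `𝔒` a subring.  Let
`x = 1 + 8 g` (`g ∈ 𝔒`; think: the `q^{1/p}`-expansion of a conjugate of a weight-2 form
`F ≡ 1 mod 8`), `e4 = 1 + 240 s3`, `e6 = 1 - 504 s5` with `s3 = s1 + 2 r3` and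
`63 s5 + 45 s3 = 4 (s1 + 2 r')`.  Put

  `Z4 = (x² - e4)/16`, `Z6 = (e6 - x³)/8`, `Y = (Z6 + 3 x Z4)/4`, `H = Y x + Z4²`.

Then `Z4, Z6, Y, H ∈ 𝔒` and `H ≡ s1 + s1² mod 2𝔒`.
-/

set_option autoImplicit false

namespace Fermat.Agent.S16.helper76

variable {K : Type*} [CommRing K]

/-- Cancellation of `2 ^ n` in a ring without `2`-torsion. -/
theorem eq_of_two_pow_mul_eq (h2 : ∀ x : K, 2 * x = 0 → x = 0) :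
    ∀ (n : ℕ) {a b : K}, 2 ^ n * a = 2 ^ n * b → a = b := by
  intro n
  induction n with
  | zero => intro a b h; simpa using h
  | succ n ih =>
    intro a b h
    apply ih
    have h' : 2 * (2 ^ n * a - 2 ^ n * b) = 0 := by
      have : 2 * (2 ^ n * a - 2 ^ n * b) = 2 ^ (n + 1) * a - 2 ^ (n + 1) * b := by ring
      rw [this, h, sub_self]
    exact sub_eq_zero.mp (h2 _ h')

/-- Explicit formula for `Z4`. -/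
theorem h8_Z4 (h2 : ∀ x : K, 2 * x = 0 → x = 0) {g s1 r3 x e4 Z4 : K}
    (hx : x = 1 + 8 * g) (he4 : e4 = 1 + 240 * (s1 + 2 * r3))
    (hZ4 : 16 * Z4 = x ^ 2 - e4) :
    Z4 = 4 * g ^ 2 + g - 15 * s1 - 30 * r3 := by
  apply eq_of_two_pow_mul_eq h2 4
  have e : (2 : K) ^ 4 = 16 := by norm_num
  rw [e, hZ4, hx, he4]
  ring

/-- Explicit formula for `Z6`. -/
theorem h8_Z6 (h2 : ∀ x : K, 2 * x = 0 → x = 0) {g s1 r3 rp x e6 Z6 : K}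
    (hx : x = 1 + 8 * g)
    (he6 : e6 = 1 - 32 * (s1 + 2 * rp) + 360 * (s1 + 2 * r3))
    (hZ6 : 8 * Z6 = e6 - x ^ 3) :
    Z6 = -64 * g ^ 3 - 24 * g ^ 2 - 3 * g + 41 * s1 + 90 * r3 - 8 * rp := by
  apply eq_of_two_pow_mul_eq h2 3
  have e : (2 : K) ^ 3 = 8 := by norm_num
  rw [e, hZ6, hx, he6]
  ring

/-- Explicit formula for `Y`. -/
theorem h8_Y (h2 : ∀ x : K, 2 * x = 0 → x = 0) {g s1 r3 rp x e4 e6 Z4 Z6 Y : K}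
    (hx : x = 1 + 8 * g) (he4 : e4 = 1 + 240 * (s1 + 2 * r3))
    (he6 : e6 = 1 - 32 * (s1 + 2 * rp) + 360 * (s1 + 2 * r3))
    (hZ4 : 16 * Z4 = x ^ 2 - e4) (hZ6 : 8 * Z6 = e6 - x ^ 3)
    (hY : 4 * Y = Z6 + 3 * x * Z4) :
    Y = 8 * g ^ 3 + 3 * g ^ 2 - 90 * g * s1 - 180 * g * r3 - s1 - 2 * rp := by
  apply eq_of_two_pow_mul_eq h2 2
  have e : (2 : K) ^ 2 = 4 := by norm_num
  rw [e, hY, h8_Z4 h2 hx he4 hZ4, h8_Z6 h2 hx he6 hZ6, hx]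
  ring

/-- The witness of the congruence `H ≡ s1 + s1² mod 2`. -/
def h8Wit (g s1 r3 rp : K) : K :=
  40 * g ^ 4 + 20 * g ^ 3 - 420 * g ^ 2 * s1 - 840 * g ^ 2 * r3 + 2 * g ^ 2 - 64 * g * s1
    - 120 * g * r3 - 8 * g * rp + 112 * s1 ^ 2 + 450 * s1 * r3 - s1 + 450 * r3 ^ 2 - rp

theorem h8Wit_mem (𝔒 : Subring K) {g s1 r3 rp : K} (hg : g ∈ 𝔒) (hs1 : s1 ∈ 𝔒)
    (hr3 : r3 ∈ 𝔒) (hrp : rp ∈ 𝔒) : h8Wit g s1 r3 rp ∈ 𝔒 := by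
  have hnat : ∀ n : ℕ, (n : K) ∈ 𝔒 := fun n => natCast_mem 𝔒 n
  unfold h8Wit
  have h40 : (40 : K) ∈ 𝔒 := by exact_mod_cast hnat 40
  have h20 : (20 : K) ∈ 𝔒 := by exact_mod_cast hnat 20
  have h420 : (420 : K) ∈ 𝔒 := by exact_mod_cast hnat 420
  have h840 : (840 : K) ∈ 𝔒 := by exact_mod_cast hnat 840
  have h2' : (2 : K) ∈ 𝔒 := by exact_mod_cast hnat 2
  have h64 : (64 : K) ∈ 𝔒 := by exact_mod_cast hnat 64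
  have h120 : (120 : K) ∈ 𝔒 := by exact_mod_cast hnat 120
  have h8 : (8 : K) ∈ 𝔒 := by exact_mod_cast hnat 8
  have h112 : (112 : K) ∈ 𝔒 := by exact_mod_cast hnat 112
  have h450 : (450 : K) ∈ 𝔒 := by exact_mod_cast hnat 450
  refine 𝔒.sub_mem (𝔒.add_mem (𝔒.sub_mem (𝔒.add_mem (𝔒.add_mem (𝔒.sub_mem (𝔒.sub_mem
    (𝔒.sub_mem (𝔒.add_mem (𝔒.sub_mem (𝔒.sub_mem (𝔒.add_mem ?_ ?_) ?_) ?_) ?_) ?_) ?_) ?_) ?_) ?_)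
    ?_) ?_) hrp
  · exact 𝔒.mul_mem h40 (𝔒.pow_mem hg 4)
  · exact 𝔒.mul_mem h20 (𝔒.pow_mem hg 3)
  · exact 𝔒.mul_mem (𝔒.mul_mem h420 (𝔒.pow_mem hg 2)) hs1
  · exact 𝔒.mul_mem (𝔒.mul_mem h840 (𝔒.pow_mem hg 2)) hr3
  · exact 𝔒.mul_mem h2' (𝔒.pow_mem hg 2)
  · exact 𝔒.mul_mem (𝔒.mul_mem h64 hg) hs1
  · exact 𝔒.mul_mem (𝔒.mul_mem h120 hg) hr3
  · exact 𝔒.mul_mem (𝔒.mul_mem h8 hg) hrp
  · exact 𝔒.mul_mem h112 (𝔒.pow_mem hs1 2)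
  · exact 𝔒.mul_mem (𝔒.mul_mem h450 hs1) hr3
  · exact hs1
  · exact 𝔒.mul_mem h450 (𝔒.pow_mem hr3 2)

/-- **Core of the `2`-adic argument.**  With `x = 1 + 8g`, the element
`H = Y x + Z4²` is congruent to `s1 + s1²` modulo `2𝔒`. -/
theorem h8_core (h2 : ∀ x : K, 2 * x = 0 → x = 0) (𝔒 : Subring K)
    {g s1 r3 rp : K} (hg : g ∈ 𝔒) (hs1 : s1 ∈ 𝔒) (hr3 : r3 ∈ 𝔒) (hrp : rp ∈ 𝔒)
    {x e4 e6 Z4 Z6 Y : K}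
    (hx : x = 1 + 8 * g) (he4 : e4 = 1 + 240 * (s1 + 2 * r3))
    (he6 : e6 = 1 - 32 * (s1 + 2 * rp) + 360 * (s1 + 2 * r3))
    (hZ4 : 16 * Z4 = x ^ 2 - e4) (hZ6 : 8 * Z6 = e6 - x ^ 3)
    (hY : 4 * Y = Z6 + 3 * x * Z4) :
    ∃ r ∈ 𝔒, Y * x + Z4 ^ 2 = s1 + s1 ^ 2 + 2 * r := by
  refine ⟨h8Wit g s1 r3 rp, h8Wit_mem 𝔒 hg hs1 hr3 hrp, ?_⟩
  rw [h8_Y h2 hx he4 he6 hZ4 hZ6 hY, h8_Z4 h2 hx he4 hZ4, hx]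
  unfold h8Wit
  ring

/-- Variant with `e6 = 1 - 504 s5` and the divisor-sum relation `63 s5 + 45 s3 = 4 (s1 + 2 r')`. -/
theorem h8_core' (h2 : ∀ x : K, 2 * x = 0 → x = 0) (𝔒 : Subring K)
    {g s1 s3 s5 r3 rp : K} (hg : g ∈ 𝔒) (hs1 : s1 ∈ 𝔒) (hr3 : r3 ∈ 𝔒) (hrp : rp ∈ 𝔒)
    {x e4 e6 Z4 Z6 Y : K}
    (hs3 : s3 = s1 + 2 * r3) (hs5 : 63 * s5 + 45 * s3 = 4 * (s1 + 2 * rp))
    (hx : x = 1 + 8 * g) (he4 : e4 = 1 + 240 * s3) (he6 : e6 = 1 - 504 * s5)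
    (hZ4 : 16 * Z4 = x ^ 2 - e4) (hZ6 : 8 * Z6 = e6 - x ^ 3)
    (hY : 4 * Y = Z6 + 3 * x * Z4) :
    ∃ r ∈ 𝔒, Y * x + Z4 ^ 2 = s1 + s1 ^ 2 + 2 * r := by
  refine h8_core h2 𝔒 hg hs1 hr3 hrp hx (by rw [he4, hs3]) ?_ hZ4 hZ6 hY
  rw [he6]
  linear_combination (-8 : K) * hs5 + 360 * hs3

end Fermat.Agent.S16.helper76
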