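import Mathlib
import Fermat.Agent.S23.helper74_Nice

/-!
# S16, package [A7] (helper76): the algebra of nice functions and its `q`-expansion map

* `niceAlg h` : the `ℂ`-subalgebra of `ℍ → ℂ` of `h`-periodic holomorphic functions bounded at
  `i∞` (`Fermat.Agent.S23.helper74.Nice`).
* `qExpHom h hh : niceAlg h →ₐ[ℂ] PowerSeries ℂ` : the `q`-expansion with respect to `e^{2πiz/h}`.
* `coeffRing O` : the subring of `PowerSeries ℂ` of series with coefficients in `O`.
* period change: a `1`-periodic nice function is `p`-periodic nice with expansion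
  `PowerSeries.expand p`.
-/

set_option autoImplicit false

open UpperHalfPlane ModularForm Complex Filter Function
open scoped MatrixGroups ModularForm Manifold Topology

noncomputable section

namespace Fermat.Agent.S16.helper76

open Fermat.Agent.S23.helper74

variable {h : ℝ} {f g : ℍ → ℂ}

theorem nice_add (hf : Nice h f) (hg : Nice h g) : Nice h (f + g) where
  per := by
    intro w
    have h1 := hf.per w
    have h2 := hg.per w
    simp only [comp_apply, Pi.add_apply] at h1 h2 ⊢
    rw [h1, h2]
  hol := hf.hol.add hg.hol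
  bdd := hf.bdd.add hg.bdd

theorem nice_zero (h : ℝ) : Nice h (0 : ℍ → ℂ) := Nice.const h 0

theorem nice_neg (hf : Nice h f) : Nice h (-f) := by
  have : -f = (-1 : ℂ) • f := by ext; simp
  rw [this]
  exact hf.smul _

theorem nice_sub (hf : Nice h f) (hg : Nice h g) : Nice h (f - g) := by
  rw [sub_eq_add_neg]
  exact nice_add hf (nice_neg hg)

theorem nice_qExpansion_add (hf : Nice h f) (hg : Nice h g) (hh : 0 < h) :
    qExpansion h (f + g) = qExpansion h f + qExpansion h g :=
  UpperHalfPlane.qExpansion_add (hf.analyticAt hh) (hg.analyticAt hh)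

theorem nice_qExpansion_const (hh : 0 < h) (c : ℂ) :
    qExpansion h (fun _ : ℍ => c) = PowerSeries.C c := by
  have h1 : (fun _ : ℍ => c) = c • (1 : ℍ → ℂ) := by ext; simp
  rw [h1, (Nice.one h).qExpansion_smul hh, qExpansion_one]
  ext n
  simp [PowerSeries.coeff_C, PowerSeries.coeff_one]

/-- The subalgebra of nice functions of period `h`. -/
def niceAlg (h : ℝ) : Subalgebra ℂ (ℍ → ℂ) where
  carrier := {f | Nice h f}
  mul_mem' := fun hf hg => hf.mul hg
  add_mem' := fun hf hg => nice_add hf hg
  algebraMap_mem' := fun c => Nice.const h c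

theorem mem_niceAlg {f : ℍ → ℂ} : f ∈ niceAlg h ↔ Nice h f := Iff.rfl

/-- The `q`-expansion as an algebra homomorphism on nice functions. -/
def qExpHom (h : ℝ) (hh : 0 < h) : niceAlg h →ₐ[ℂ] PowerSeries ℂ where
  toFun f := qExpansion h (f : ℍ → ℂ)
  map_one' := qExpansion_one h
  map_mul' f g := Nice.qExpansion_mul f.2 g.2 hh
  map_zero' := qExpansion_zero h
  map_add' f g := nice_qExpansion_add f.2 g.2 hh
  commutes' c := by
    show qExpansion h (fun _ : ℍ => c) = _
    rw [nice_qExpansion_const hh]
    rfl

@[simp] theorem qExpHom_apply (hh : 0 < h) (f : niceAlg h) :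
    qExpHom h hh f = qExpansion h (f : ℍ → ℂ) := rfl

/-- Power series with coefficients in a subring `O` of `ℂ`. -/
def coeffRing (O : Subring ℂ) : Subring (PowerSeries ℂ) where
  carrier := {P | ∀ n, P.coeff n ∈ O}
  mul_mem' := by
    intro a b ha hb n
    rw [PowerSeries.coeff_mul]
    exact O.sum_mem fun i _ => O.mul_mem (ha _) (hb _)
  one_mem' := by
    intro n
    rw [PowerSeries.coeff_one]
    split_ifs
    · exact O.one_mem
    · exact O.zero_mem
  add_mem' := by
    intro a b ha hb n
    rw [map_add]
    exact O.add_mem (ha n) (hb n)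
  zero_mem' := by
    intro n
    rw [map_zero]
    exact O.zero_mem
  neg_mem' := by
    intro a ha n
    rw [map_neg]
    exact O.neg_mem (ha n)

theorem mem_coeffRing {O : Subring ℂ} {P : PowerSeries ℂ} :
    P ∈ coeffRing O ↔ ∀ n, P.coeff n ∈ O := Iff.rfl

theorem map_int_mem_coeffRing (O : Subring ℂ) (P : PowerSeries ℤ) :
    P.map (Int.castRingHom ℂ) ∈ coeffRing O := by
  intro n
  rw [PowerSeries.coeff_map]
  exact intCast_mem O _

theorem expand_mem_coeffRing {O : Subring ℂ} {P : PowerSeries ℂ} (hP : P ∈ coeffRing O)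
    (p : ℕ) (hp : p ≠ 0) : PowerSeries.expand p hp P ∈ coeffRing O := by
  intro n
  rw [PowerSeries.coeff_expand]
  split_ifs
  · exact hP _
  · exact O.zero_mem

/-- Period change for nice functions. -/
theorem nice_one_to_nat (hf : Nice 1 f) (p : ℕ) : Nice (p : ℝ) f := by
  simpa using hf.nat_mul p

theorem qExpansion_nat_eq_expand (hf : Nice 1 f) (p : ℕ) (hp : p ≠ 0) :
    qExpansion (p : ℝ) f = PowerSeries.expand p hp (qExpansion 1 f) := by
  ext n
  have h1 := hf.qExpansion_coeff_nat_mul one_pos (Nat.pos_of_ne_zero hp) n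
  rw [mul_one] at h1
  rw [h1, PowerSeries.coeff_expand]

end Fermat.Agent.S16.helper76
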