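import Mathlib
import Fermat.Agent.S16.helper76_H8Core
import Fermat.Agent.S16.helper76_NiceAlg
import Fermat.Agent.S23.LevelOne

/-!
# S16, package [A7] (helper76): the weight-8 expression `H8` and its expansions

For a nice function `x` of period `p` with expansion `1 + 8 g` (`g` with coefficients in a
subring `O ⊆ ℂ`) the function

  `h8fun x = (5 x⁴ - 14 x² E₄ + 8 x E₆ + E₄²) / 256`

is nice of period `p` and its expansion is `ψ(t^p) + 2 r`, `r` with coefficients in `O`,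
where `ψ = S₁ + S₁²`, `S₁ = ∑ σ₁(n) qⁿ`.
-/

set_option autoImplicit false

open UpperHalfPlane ModularForm Complex Filter Function
open scoped MatrixGroups ModularForm Manifold Topology

noncomputable section

namespace Fermat.Agent.S16.helper76

open Fermat.Agent.S23.helper74 Fermat.Agent.S23

/-! ### Divisor sums modulo `2` and `8` -/

theorem two_dvd_cube_sub (d : ℤ) : (2 : ℤ) ∣ d ^ 3 - d := by
  have h : ∀ x : ZMod 2, x ^ 3 - x = 0 := by decide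
  have h1 := h (d : ZMod 2)
  refine (ZMod.intCast_zmod_eq_zero_iff_dvd _ 2).mp ?_
  push_cast
  exact h1

theorem eight_dvd_poly (d : ℤ) : (8 : ℤ) ∣ 63 * d ^ 5 + 45 * d ^ 3 - 4 * d := by
  have h : ∀ x : ZMod 8, 63 * x ^ 5 + 45 * x ^ 3 - 4 * x = 0 := by decide
  have h1 := h (d : ZMod 8)
  refine (ZMod.intCast_zmod_eq_zero_iff_dvd _ 8).mp ?_
  push_cast
  exact h1

theorem sigma_int (k n : ℕ) :
    (ArithmeticFunction.sigma k n : ℤ) = ∑ d ∈ n.divisors, (d : ℤ) ^ k := by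
  rw [ArithmeticFunction.sigma_apply]
  push_cast
  rfl

theorem two_dvd_sigma (n : ℕ) :
    (2 : ℤ) ∣ (ArithmeticFunction.sigma 3 n : ℤ) - (ArithmeticFunction.sigma 1 n : ℤ) := by
  rw [sigma_int, sigma_int, ← Finset.sum_sub_distrib]
  refine Finset.dvd_sum fun d _ => ?_
  simpa using two_dvd_cube_sub (d : ℤ)

theorem eight_dvd_sigma (n : ℕ) :
    (8 : ℤ) ∣ 63 * (ArithmeticFunction.sigma 5 n : ℤ) + 45 * (ArithmeticFunction.sigma 3 n : ℤ)
      - 4 * (ArithmeticFunction.sigma 1 n : ℤ) := by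
  rw [sigma_int, sigma_int, sigma_int, Finset.mul_sum, Finset.mul_sum, Finset.mul_sum,
    ← Finset.sum_add_distrib, ← Finset.sum_sub_distrib]
  refine Finset.dvd_sum fun d _ => ?_
  simpa using eight_dvd_poly (d : ℤ)

/-- `(S₃ - S₁)/2`. -/
def r3Int : PowerSeries ℤ :=
  PowerSeries.mk fun n => ((ArithmeticFunction.sigma 3 n : ℤ) - (ArithmeticFunction.sigma 1 n : ℤ)) / 2

/-- `((63 S₅ + 45 S₃)/4 - S₁)/2`. -/
def rpInt : PowerSeries ℤ :=
  PowerSeries.mk fun n => (63 * (ArithmeticFunction.sigma 5 n : ℤ)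
    + 45 * (ArithmeticFunction.sigma 3 n : ℤ) - 4 * (ArithmeticFunction.sigma 1 n : ℤ)) / 8

theorem sigmaSeries_three_eq : sigmaSeries 3 = sigmaSeries 1 + 2 * r3Int := by
  ext n
  have h2 : (2 : PowerSeries ℤ) = PowerSeries.C (2 : ℤ) := by
    rw [map_ofNat]
  rw [map_add, h2, PowerSeries.coeff_C_mul, coeff_sigmaSeries, coeff_sigmaSeries, r3Int,
    PowerSeries.coeff_mk, Int.mul_ediv_cancel' (two_dvd_sigma n)]
  ring

theorem sigmaSeries_five_rel :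
    63 * sigmaSeries 5 + 45 * sigmaSeries 3 = 4 * (sigmaSeries 1 + 2 * rpInt) := by
  ext n
  have h2 : (2 : PowerSeries ℤ) = PowerSeries.C (2 : ℤ) := by rw [map_ofNat]
  have h4 : (4 : PowerSeries ℤ) = PowerSeries.C (4 : ℤ) := by rw [map_ofNat]
  have h63 : (63 : PowerSeries ℤ) = PowerSeries.C (63 : ℤ) := by rw [map_ofNat]
  have h45 : (45 : PowerSeries ℤ) = PowerSeries.C (45 : ℤ) := by rw [map_ofNat]
  rw [h2, h4, h63, h45, map_add, PowerSeries.coeff_C_mul, PowerSeries.coeff_C_mul,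
    PowerSeries.coeff_C_mul, map_add, PowerSeries.coeff_C_mul, coeff_sigmaSeries,
    coeff_sigmaSeries, coeff_sigmaSeries, rpInt, PowerSeries.coeff_mk]
  have := Int.mul_ediv_cancel' (eight_dvd_sigma n)
  linarith

/-- `ψ = S₁ + S₁²`: its reduction mod `2` is `Δ mod 2`. -/
def psiInt : PowerSeries ℤ := sigmaSeries 1 + sigmaSeries 1 ^ 2

theorem psiInt_coeff_zero : psiInt.coeff 0 = 0 := by
  have h0 : (sigmaSeries 1).coeff 0 = 0 := coeff_sigmaSeries_zero 1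
  rw [psiInt, map_add, h0, pow_two, PowerSeries.coeff_mul]
  simp [h0]

theorem psiInt_coeff_one : psiInt.coeff 1 = 1 := by
  have h0 : (sigmaSeries 1).coeff 0 = 0 := coeff_sigmaSeries_zero 1
  have h1 : (sigmaSeries 1).coeff 1 = 1 := by
    rw [coeff_sigmaSeries]; simp
  rw [psiInt, map_add, h1, pow_two, PowerSeries.coeff_mul]
  have : Finset.HasAntidiagonal.antidiagonal (1 : ℕ) = ({(0, 1), (1, 0)} : Finset (ℕ × ℕ)) := by
    decide
  rw [this]
  simp [h0]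

/-! ### The core congruence in polynomial form -/

/-- Polynomial form of `h8_core`: if `256 H = 5 x⁴ - 14 x² e4 + 8 x e6 + e4²` with
`x = 1 + 8 g`, then `H ≡ s1 + s1² mod 2𝔒`. -/
theorem h8_core_poly {K : Type*} [CommRing K] (h2 : ∀ x : K, 2 * x = 0 → x = 0)
    (𝔒 : Subring K) {g s1 s3 s5 r3 rp : K} (hg : g ∈ 𝔒) (hs1 : s1 ∈ 𝔒) (hr3 : r3 ∈ 𝔒)
    (hrp : rp ∈ 𝔒) {x e4 e6 H : K}
    (hs3 : s3 = s1 + 2 * r3) (hs5 : 63 * s5 + 45 * s3 = 4 * (s1 + 2 * rp))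
    (hx : x = 1 + 8 * g) (he4 : e4 = 1 + 240 * s3) (he6 : e6 = 1 - 504 * s5)
    (hH : 256 * H = 5 * x ^ 4 - 14 * (x ^ 2 * e4) + 8 * (x * e6) + e4 ^ 2) :
    ∃ r ∈ 𝔒, H = s1 + s1 ^ 2 + 2 * r := by
  have e4' : e4 = 1 + 240 * (s1 + 2 * r3) := by rw [he4, hs3]
  have e6' : e6 = 1 - 32 * (s1 + 2 * rp) + 360 * (s1 + 2 * r3) := by
    rw [he6]
    linear_combination (-8 : K) * hs5 + 360 * hs3
  have h16 : 16 * (4 * g ^ 2 + g - 15 * s1 - 30 * r3) = x ^ 2 - e4 := by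
    rw [hx, e4']; ring
  have h8 : 8 * (-64 * g ^ 3 - 24 * g ^ 2 - 3 * g + 41 * s1 + 90 * r3 - 8 * rp)
      = e6 - x ^ 3 := by
    rw [e6', hx]; ring
  have h4 : 4 * (8 * g ^ 3 + 3 * g ^ 2 - 90 * g * s1 - 180 * g * r3 - s1 - 2 * rp)
      = (-64 * g ^ 3 - 24 * g ^ 2 - 3 * g + 41 * s1 + 90 * r3 - 8 * rp)
        + 3 * x * (4 * g ^ 2 + g - 15 * s1 - 30 * r3) := by
    rw [hx]; ring
  obtain ⟨r, hr, hrr⟩ := h8_core h2 𝔒 hg hs1 hr3 hrp hx e4' e6' h16 h8 h4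
  refine ⟨r, hr, ?_⟩
  rw [← hrr]
  apply eq_of_two_pow_mul_eq h2 8
  have e : (2 : K) ^ 8 = 256 := by norm_num
  rw [e, hH, e4', e6', hx]
  ring

/-! ### Level-one forms are nice -/

theorem nice_levelOne {k : ℤ} (f : ModularForm 𝒮ℒ k) : Nice 1 (⇑f) where
  per := SlashInvariantFormClass.periodic_comp_ofComplex f one_mem_strictPeriods_SL
  hol := ModularFormClass.holo f
  bdd :=
    have : Fact (IsCusp OnePoint.infty 𝒮ℒ) :=
      ⟨Subgroup.isCusp_of_mem_strictPeriods one_pos one_mem_strictPeriods_SL⟩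
    ModularFormClass.bdd_at_infty f

theorem qExpansion_E₄_eq :
    qExpansion 1 (⇑E₄) = 1 + 240 * (sigmaSeries 3).map (Int.castRingHom ℂ) := by
  have h : (PowerSeries.C (240 : ℤ) : PowerSeries ℤ) = 240 := by rw [map_ofNat]
  rw [qExpansion_E₄, e4Int, h, map_add, map_one, map_mul, map_ofNat]

theorem qExpansion_E₆_eq :
    qExpansion 1 (⇑E₆) = 1 - 504 * (sigmaSeries 5).map (Int.castRingHom ℂ) := by
  have h : (PowerSeries.C (504 : ℤ) : PowerSeries ℤ) = 504 := by rw [map_ofNat]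
  rw [qExpansion_E₆, e6Int, h, map_sub, map_one, map_mul, map_ofNat]

/-! ### The weight-8 expression -/

/-- `h8fun x = (5 x⁴ - 14 x² E₄ + 8 x E₆ + E₄²) / 256`. -/
def h8fun (x : ℍ → ℂ) : ℍ → ℂ :=
  (1 / 256 : ℂ) • ((5 : ℂ) • x ^ 4 - (14 : ℂ) • (x ^ 2 * ⇑E₄) + (8 : ℂ) • (x * ⇑E₆) + ⇑E₄ ^ 2)

theorem nice_h8fun {p : ℕ} {x : ℍ → ℂ} (hx : Nice (p : ℝ) x) : Nice (p : ℝ) (h8fun x) := by
  have h4 : Nice (p : ℝ) (⇑E₄) := nice_one_to_nat (nice_levelOne E₄) p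
  have h6 : Nice (p : ℝ) (⇑E₆) := nice_one_to_nat (nice_levelOne E₆) p
  unfold h8fun
  exact (nice_add (nice_add (nice_sub ((hx.pow 4).smul _) (((hx.pow 2).mul h4).smul _))
    ((hx.mul h6).smul _)) (h4.pow 2)).smul _

theorem two_mul_eq_zero_powerSeries (x : PowerSeries ℂ) (h : 2 * x = 0) : x = 0 := by
  have h2 : (2 : PowerSeries ℂ) ≠ 0 := by
    intro h0
    have := congrArg (PowerSeries.coeff 0) h0
    rw [show (2 : PowerSeries ℂ) = PowerSeries.C (2 : ℂ) by rw [map_ofNat]] at this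
    simp at this
  exact (mul_eq_zero.mp h).resolve_left h2

/-- **Expansion of `h8fun x`.**  If `x` is nice of period `p` with expansion `1 + 8 g`,
`g` with coefficients in `O`, then the expansion of `h8fun x` is `ψ(t^p) + 2 r`. -/
theorem qExpansion_h8fun (O : Subring ℂ) {p : ℕ} (hp : p ≠ 0) {x : ℍ → ℂ}
    (hx : Nice (p : ℝ) x) {g : PowerSeries ℂ} (hg : g ∈ coeffRing O)
    (hxe : qExpansion (p : ℝ) x = 1 + 8 * g) :
    ∃ r ∈ coeffRing O, qExpansion (p : ℝ) (h8fun x)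
      = PowerSeries.expand p hp (psiInt.map (Int.castRingHom ℂ)) + 2 * r := by
  have hpp : (0 : ℝ) < p := by exact_mod_cast Nat.pos_of_ne_zero hp
  have h4 : Nice (p : ℝ) (⇑E₄) := nice_one_to_nat (nice_levelOne E₄) p
  have h6 : Nice (p : ℝ) (⇑E₆) := nice_one_to_nat (nice_levelOne E₆) p
  -- work in the algebra of nice functions
  let X : niceAlg (p : ℝ) := ⟨x, hx⟩
  let A4 : niceAlg (p : ℝ) := ⟨⇑E₄, h4⟩
  let A6 : niceAlg (p : ℝ) := ⟨⇑E₆, h6⟩
  let HH : niceAlg (p : ℝ) :=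
    (1 / 256 : ℂ) • ((5 : ℂ) • X ^ 4 - (14 : ℂ) • (X ^ 2 * A4) + (8 : ℂ) • (X * A6) + A4 ^ 2)
  have hHH : ((HH : niceAlg (p : ℝ)) : ℍ → ℂ) = h8fun x := rfl
  have hq : qExpansion (p : ℝ) (h8fun x) = qExpHom (p : ℝ) hpp HH := by
    rw [qExpHom_apply, hHH]
  have hX : qExpHom (p : ℝ) hpp X = qExpansion (p : ℝ) x := rfl
  have hA4 : qExpHom (p : ℝ) hpp A4 = qExpansion (p : ℝ) (⇑E₄) := rfl
  have hA6 : qExpHom (p : ℝ) hpp A6 = qExpansion (p : ℝ) (⇑E₆) := rfl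
  let φ : PowerSeries ℤ →+* PowerSeries ℂ :=
    (PowerSeries.expand (R := ℂ) p hp : PowerSeries ℂ →+* PowerSeries ℂ).comp
      (PowerSeries.map (Int.castRingHom ℂ))
  have hφ : ∀ P : PowerSeries ℤ,
      φ P = PowerSeries.expand p hp (P.map (Int.castRingHom ℂ)) := fun _ => rfl
  have he4 : qExpansion (p : ℝ) (⇑E₄) = 1 + 240 * φ (sigmaSeries 3) := by
    rw [qExpansion_nat_eq_expand (nice_levelOne E₄) p hp, qExpansion_E₄_eq, map_add, map_one,
      map_mul, map_ofNat, hφ]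
  have he6 : qExpansion (p : ℝ) (⇑E₆) = 1 - 504 * φ (sigmaSeries 5) := by
    rw [qExpansion_nat_eq_expand (nice_levelOne E₆) p hp, qExpansion_E₆_eq, map_sub, map_one,
      map_mul, map_ofNat, hφ]
  have key : 256 * qExpHom (p : ℝ) hpp HH
      = 5 * (qExpansion (p : ℝ) x) ^ 4
        - 14 * ((qExpansion (p : ℝ) x) ^ 2 * qExpansion (p : ℝ) (⇑E₄))
        + 8 * (qExpansion (p : ℝ) x * qExpansion (p : ℝ) (⇑E₆))
        + (qExpansion (p : ℝ) (⇑E₄)) ^ 2 := by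
    have e256 : (256 : PowerSeries ℂ) = algebraMap ℂ (PowerSeries ℂ) 256 := by
      rw [map_ofNat]
    have e5 : (5 : PowerSeries ℂ) = algebraMap ℂ (PowerSeries ℂ) 5 := by rw [map_ofNat]
    have e14 : (14 : PowerSeries ℂ) = algebraMap ℂ (PowerSeries ℂ) 14 := by rw [map_ofNat]
    have e8 : (8 : PowerSeries ℂ) = algebraMap ℂ (PowerSeries ℂ) 8 := by rw [map_ofNat]
    show 256 * qExpHom (p : ℝ) hpp
      ((1 / 256 : ℂ) • ((5 : ℂ) • X ^ 4 - (14 : ℂ) • (X ^ 2 * A4) + (8 : ℂ) • (X * A6) + A4 ^ 2)) = _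
    rw [map_smul, map_add, map_add, map_sub, map_smul, map_smul, map_smul, map_pow, map_mul,
      map_pow, map_mul, map_pow, hX, hA4, hA6, e256, ← Algebra.smul_def, smul_smul, e5, e14, e8,
      ← Algebra.smul_def, ← Algebra.smul_def, ← Algebra.smul_def]
    norm_num
  have hmap : ∀ P : PowerSeries ℤ, φ P ∈ coeffRing O := fun P =>
    expand_mem_coeffRing (map_int_mem_coeffRing O P) p hp
  have hs3 : φ (sigmaSeries 3) = φ (sigmaSeries 1) + 2 * φ r3Int := by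
    rw [sigmaSeries_three_eq, map_add, map_mul, map_ofNat]
  have hs5 : 63 * φ (sigmaSeries 5) + 45 * φ (sigmaSeries 3)
      = 4 * (φ (sigmaSeries 1) + 2 * φ rpInt) := by
    have := congrArg φ sigmaSeries_five_rel
    rw [map_add, map_mul, map_mul, map_mul, map_add, map_mul, map_ofNat, map_ofNat, map_ofNat,
      map_ofNat] at this
    exact this
  obtain ⟨r, hr, hrr⟩ := h8_core_poly two_mul_eq_zero_powerSeries (coeffRing O) hg
    (hmap (sigmaSeries 1)) (hmap r3Int) (hmap rpInt) hs3 hs5 hxe he4 he6 key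
  refine ⟨r, hr, ?_⟩
  rw [hq, hrr, ← hφ, psiInt, map_add, map_pow]

end Fermat.Agent.S16.helper76
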