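import Mathlib
import Fermat.Agent.S16.helper76_H8Exp
import Fermat.Agent.S23.IsMF

/-!
# S16, package [A7] (helper76): `H8` as a modular form on `Γ₀(p)` and its conjugates

* `isMF_h8fun` : for `F ∈ M₂(Γ₀(p))` the function `h8fun F` is a modular form of weight `8`
  on `Γ₀(p)`.
* `h8fun_slash` : `(h8fun x) ∣[8] γ = h8fun (x ∣[2] γ)` for `γ ∈ SL(2, ℤ)`.
-/

set_option autoImplicit false

open UpperHalfPlane ModularForm Complex Filter Function CongruenceSubgroup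
open scoped MatrixGroups ModularForm Manifold Topology

noncomputable section

namespace Fermat.Agent.S16.helper76

open Fermat.Agent.S23.helper74 Fermat.Agent.S23

theorem isMF_smul {Γ : Subgroup (GL (Fin 2) ℝ)} [Γ.HasDetOne] {W : ℤ} {F : ℍ → ℂ} (c : ℂ)
    (hF : IsMF Γ W F) : IsMF Γ W (c • F) := by
  obtain ⟨s, rfl⟩ := hF
  exact ⟨c • s, rfl⟩

theorem isMF_sub {Γ : Subgroup (GL (Fin 2) ℝ)} {W : ℤ} {F G : ℍ → ℂ}
    (hF : IsMF Γ W F) (hG : IsMF Γ W G) : IsMF Γ W (F - G) := by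
  obtain ⟨s, rfl⟩ := hF
  obtain ⟨t, rfl⟩ := hG
  exact ⟨s - t, rfl⟩

theorem Gamma0_le_SL (N : ℕ) :
    ((Gamma0 N : Subgroup SL(2, ℤ)) : Subgroup (GL (Fin 2) ℝ)) ≤ 𝒮ℒ := by
  rintro _ ⟨γ, -, rfl⟩
  exact ⟨γ, rfl⟩

theorem isMF_levelOne (N : ℕ) {k : ℤ} (f : ModularForm 𝒮ℒ k) :
    IsMF ((Gamma0 N : Subgroup SL(2, ℤ)) : Subgroup (GL (Fin 2) ℝ)) k (⇑f) :=
  (IsMF.coe f).mono (Gamma0_le_SL N)

/-- `h8fun F` is a modular form of weight `8` on `Γ₀(N)`. -/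
theorem isMF_h8fun (N : ℕ) (F : ModularForm (Gamma0 N) 2) :
    IsMF ((Gamma0 N : Subgroup SL(2, ℤ)) : Subgroup (GL (Fin 2) ℝ)) 8 (h8fun (⇑F)) := by
  have hF : IsMF ((Gamma0 N : Subgroup SL(2, ℤ)) : Subgroup (GL (Fin 2) ℝ)) 2 (⇑F) := IsMF.coe F
  have h4 := isMF_levelOne N E₄
  have h6 := isMF_levelOne N E₆
  have hF2 : IsMF ((Gamma0 N : Subgroup SL(2, ℤ)) : Subgroup (GL (Fin 2) ℝ)) 4 ((⇑F) ^ 2) := by
    have := hF.pow 2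
    simpa using this
  have hF4 : IsMF ((Gamma0 N : Subgroup SL(2, ℤ)) : Subgroup (GL (Fin 2) ℝ)) 8 ((⇑F) ^ 4) := by
    have := hF.pow 4
    simpa using this
  have h44 : IsMF ((Gamma0 N : Subgroup SL(2, ℤ)) : Subgroup (GL (Fin 2) ℝ)) 8 ((⇑E₄) ^ 2) := by
    have := h4.pow 2
    simpa using this
  unfold h8fun
  exact isMF_smul _ ((isMF_sub (isMF_smul _ hF4)
    (isMF_smul _ (hF2.mul' h4 (by norm_num)))).add (isMF_smul _ (hF.mul' h6 (by norm_num)))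
    |>.add h44)

theorem levelOne_slash_SL {k : ℤ} (f : ModularForm 𝒮ℒ k) (γ : SL(2, ℤ)) :
    (⇑f) ∣[k] γ = ⇑f := by
  rw [SL_slash]
  exact SlashInvariantForm.slash_action_eqn f _ ⟨γ, rfl⟩

theorem sq_slash (x : ℍ → ℂ) (γ : SL(2, ℤ)) (k : ℤ) :
    (x ^ 2) ∣[2 * k] γ = (x ∣[k] γ) ^ 2 := by
  have := mul_slash_SL2 k k γ x x
  rw [pow_two, pow_two, ← this, two_mul]

/-- The conjugates of `h8fun x` are `h8fun` of the conjugates of `x`. -/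
theorem h8fun_slash (x : ℍ → ℂ) (γ : SL(2, ℤ)) :
    (h8fun x) ∣[(8 : ℤ)] γ = h8fun (x ∣[(2 : ℤ)] γ) := by
  have e4 : (⇑E₄) ∣[(4 : ℤ)] γ = ⇑E₄ := levelOne_slash_SL E₄ γ
  have e6 : (⇑E₆) ∣[(6 : ℤ)] γ = ⇑E₆ := levelOne_slash_SL E₆ γ
  have hx2 : (x ^ 2) ∣[(4 : ℤ)] γ = (x ∣[(2 : ℤ)] γ) ^ 2 := by
    have := sq_slash x γ 2
    norm_num at this
    exact this
  have hx4 : (x ^ 4) ∣[(8 : ℤ)] γ = (x ∣[(2 : ℤ)] γ) ^ 4 := by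
    have h := sq_slash (x ^ 2) γ 4
    norm_num at h
    rw [show x ^ 4 = (x ^ 2) ^ 2 by ring, h, hx2]
    ring
  have hx2e : (x ^ 2 * ⇑E₄) ∣[(8 : ℤ)] γ = (x ∣[(2 : ℤ)] γ) ^ 2 * ⇑E₄ := by
    have h := mul_slash_SL2 4 4 γ (x ^ 2) (⇑E₄)
    norm_num at h
    rw [h, hx2, e4]
  have hxe : (x * ⇑E₆) ∣[(8 : ℤ)] γ = (x ∣[(2 : ℤ)] γ) * ⇑E₆ := by
    have h := mul_slash_SL2 2 6 γ x (⇑E₆)
    norm_num at h
    rw [h, e6]
  have hee : ((⇑E₄) ^ 2) ∣[(8 : ℤ)] γ = (⇑E₄) ^ 2 := by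
    have h := sq_slash (⇑E₄) γ 4
    norm_num at h
    rw [h, e4]
  unfold h8fun
  rw [SL_smul_slash, SlashAction.add_slash, SlashAction.add_slash, sub_eq_add_neg,
    SlashAction.add_slash, SlashAction.neg_slash, SL_smul_slash, SL_smul_slash, SL_smul_slash,
    hx4, hx2e, hxe, hee, ← sub_eq_add_neg]

end Fermat.Agent.S16.helper76
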