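import Mathlib
import Fermat.Agent.S16.helper76_H8Form
import Fermat.Agent.S16.helper77_LevelOneSturm

/-!
# S16, package [A7] (helper76): the norm argument for `H8`

`h8_contradiction`: if `F ∈ M₂(Γ₀(p))` and all its conjugates `F ∣ S T^j` have expansions of the
form `1 + 8 g` with `g` integral (coefficients in a subring `O ⊆ ℂ` with `1 ∉ 2 O`), then the
level-one form `N = ∏ (conjugates of H8)` of weight `k` with `k / 12 < p + 1` cannot exist.
-/

set_option autoImplicit false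

open UpperHalfPlane ModularForm Complex Filter Function CongruenceSubgroup ModularGroup
open scoped MatrixGroups ModularForm Manifold Topology

noncomputable section

namespace Fermat.Agent.S16.helper76

open Fermat.Agent.S23.helper74 Fermat.Agent.S23

/-- A product of elements `Ψ + 2 r_i` is `Ψ ^ n + 2 R`. -/
theorem prod_add_two_mul {K : Type*} [CommRing K] (𝔒 : Subring K) {Ψ : K} (hΨ : Ψ ∈ 𝔒)
    {ι : Type*} (s : Finset ι) (y : ι → K) (hy : ∀ i ∈ s, ∃ r ∈ 𝔒, y i = Ψ + 2 * r) :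
    ∃ R ∈ 𝔒, ∏ i ∈ s, y i = Ψ ^ s.card + 2 * R := by
  classical
  induction s using Finset.induction_on with
  | empty => exact ⟨0, 𝔒.zero_mem, by simp⟩
  | insert i t hi IH =>
    obtain ⟨R, hR, hRe⟩ := IH fun j hj => hy j (Finset.mem_insert_of_mem hj)
    obtain ⟨r, hr, hre⟩ := hy i (Finset.mem_insert_self i t)
    refine ⟨Ψ * R + r * Ψ ^ t.card + 2 * (r * R),
      𝔒.add_mem (𝔒.add_mem (𝔒.mul_mem hΨ hR) (𝔒.mul_mem hr (𝔒.pow_mem hΨ _)))
        (𝔒.mul_mem (by exact_mod_cast natCast_mem 𝔒 2) (𝔒.mul_mem hr hR)), ?_⟩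
    rw [Finset.prod_insert hi, Finset.card_insert_of_notMem hi, hRe, hre]
    ring

/-- Coefficients of `ψ ^ (m)` for `ψ = q + ...`. -/
theorem coeff_pow_of_coeff_zero {R : Type*} [CommRing R] (ψ : PowerSeries R)
    (h0 : ψ.coeff 0 = 0) (h1 : ψ.coeff 1 = 1) (m : ℕ) :
    (∀ n < m, (ψ ^ m).coeff n = 0) ∧ (ψ ^ m).coeff m = 1 := by
  have hX : (PowerSeries.X : PowerSeries R) ∣ ψ := by
    rw [PowerSeries.X_dvd_iff]
    simpa using h0
  obtain ⟨φ, hφ⟩ := hX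
  have hφ0 : φ.coeff 0 = 1 := by
    have := h1
    rw [hφ, show (1 : ℕ) = 0 + 1 from rfl, PowerSeries.coeff_succ_X_mul] at this
    exact this
  have hpow : ψ ^ m = PowerSeries.X ^ m * φ ^ m := by rw [hφ, mul_pow]
  constructor
  · intro n hn
    rw [hpow, PowerSeries.coeff_X_pow_mul', if_neg (by omega)]
  · rw [hpow, PowerSeries.coeff_X_pow_mul', if_pos le_rfl, Nat.sub_self]
    have : (φ ^ m).coeff 0 = (φ.coeff 0) ^ m := by
      simp [PowerSeries.coeff_zero_eq_constantCoeff]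
    rw [this, hφ0, one_pow]

/-- **The norm argument.** -/
theorem h8_contradiction (p : ℕ) (hp : p ≠ 0) (O : Subring ℂ)
    (hO : ¬ ∃ x ∈ O, 2 * x = (1 : ℂ))
    (F : ModularForm (Gamma0 p) 2)
    (k : ℤ) (hk : k / 12 < p + 1) (N : ModularForm 𝒮ℒ k)
    (hN : ⇑N = h8fun (⇑F) * ∏ j ∈ Finset.range p, (h8fun (⇑F)) ∣[(8 : ℤ)] (S * T ^ j : SL(2, ℤ)))
    (hF1 : Nice 1 (⇑F))
    (hid : ∃ g ∈ coeffRing O, qExpansion 1 (⇑F) = 1 + 8 * g)
    (hconj : ∀ j < p, Nice (p : ℝ) (⇑F ∣[(2 : ℤ)] (S * T ^ j : SL(2, ℤ))) ∧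
      ∃ g ∈ coeffRing O, qExpansion (p : ℝ) (⇑F ∣[(2 : ℤ)] (S * T ^ j : SL(2, ℤ))) = 1 + 8 * g) :
    False := by
  have hpp : (0 : ℝ) < p := by exact_mod_cast Nat.pos_of_ne_zero hp
  set Ψ : PowerSeries ℂ := PowerSeries.expand p hp (psiInt.map (Int.castRingHom ℂ)) with hΨdef
  have hΨ : Ψ ∈ coeffRing O := expand_mem_coeffRing (map_int_mem_coeffRing O _) p hp
  -- the identity coset
  have h0 : Nice (p : ℝ) (h8fun (⇑F)) ∧
      ∃ r ∈ coeffRing O, qExpansion (p : ℝ) (h8fun (⇑F)) = Ψ + 2 * r := by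
    obtain ⟨g, hg, hge⟩ := hid
    have hx : Nice (p : ℝ) (⇑F) := nice_one_to_nat hF1 p
    have hxe : qExpansion (p : ℝ) (⇑F) = 1 + 8 * PowerSeries.expand p hp g := by
      rw [qExpansion_nat_eq_expand hF1 p hp, hge, map_add, map_one, map_mul, map_ofNat]
    exact ⟨nice_h8fun hx, qExpansion_h8fun O hp hx (expand_mem_coeffRing hg p hp) hxe⟩
  -- the other cosets
  have hj : ∀ j ∈ Finset.range p,
      Nice (p : ℝ) ((h8fun (⇑F)) ∣[(8 : ℤ)] (S * T ^ j : SL(2, ℤ))) ∧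
      ∃ r ∈ coeffRing O,
        qExpansion (p : ℝ) ((h8fun (⇑F)) ∣[(8 : ℤ)] (S * T ^ j : SL(2, ℤ))) = Ψ + 2 * r := by
    intro j hjp
    obtain ⟨hx, g, hg, hge⟩ := hconj j (Finset.mem_range.mp hjp)
    rw [h8fun_slash]
    exact ⟨nice_h8fun hx, qExpansion_h8fun O hp hx hg hge⟩
  -- the product in the algebra of nice functions
  let Y0 : niceAlg (p : ℝ) := ⟨h8fun (⇑F), h0.1⟩
  let Yj : ℕ → niceAlg (p : ℝ) := fun j =>
    if h : j ∈ Finset.range p then ⟨(h8fun (⇑F)) ∣[(8 : ℤ)] (S * T ^ j : SL(2, ℤ)), (hj j h).1⟩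
    else 1
  have hYj : ∀ j ∈ Finset.range p,
      ((Yj j : niceAlg (p : ℝ)) : ℍ → ℂ) = (h8fun (⇑F)) ∣[(8 : ℤ)] (S * T ^ j : SL(2, ℤ)) := by
    intro j hjp
    simp only [Yj, dif_pos hjp]
  have hNcoe : (⇑N : ℍ → ℂ) = ((Y0 * ∏ j ∈ Finset.range p, Yj j : niceAlg (p : ℝ)) : ℍ → ℂ) := by
    rw [hN]
    push_cast
    congr 1
    exact Finset.prod_congr rfl fun j hjp => (hYj j hjp).symm
  have hNexp : qExpansion (p : ℝ) (⇑N)
      = qExpHom (p : ℝ) hpp Y0 * ∏ j ∈ Finset.range p, qExpHom (p : ℝ) hpp (Yj j) := by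
    rw [hNcoe, ← qExpHom_apply hpp, map_mul, map_prod]
  obtain ⟨r0, hr0, hr0e⟩ := h0.2
  have hprod := prod_add_two_mul (coeffRing O) hΨ (Finset.range p)
    (fun j => qExpHom (p : ℝ) hpp (Yj j)) (by
      intro j hjp
      obtain ⟨r, hr, hre⟩ := (hj j hjp).2
      exact ⟨r, hr, by rw [qExpHom_apply, hYj j hjp, hre]⟩)
  obtain ⟨R, hR, hRe⟩ := hprod
  have hY0 : qExpHom (p : ℝ) hpp Y0 = Ψ + 2 * r0 := hr0e
  have hNexp' : qExpansion (p : ℝ) (⇑N) = Ψ ^ (p + 1) + 2 * (Ψ * R + r0 * Ψ ^ p + 2 * (r0 * R)) := by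
    rw [hNexp, hY0, hRe, Finset.card_range]
    ring
  have hR' : Ψ * R + r0 * Ψ ^ p + 2 * (r0 * R) ∈ coeffRing O :=
    (coeffRing O).add_mem ((coeffRing O).add_mem ((coeffRing O).mul_mem hΨ hR)
      ((coeffRing O).mul_mem hr0 ((coeffRing O).pow_mem hΨ _)))
      ((coeffRing O).mul_mem (by exact_mod_cast natCast_mem (coeffRing O) 2)
        ((coeffRing O).mul_mem hr0 hR))
  set R' := Ψ * R + r0 * Ψ ^ p + 2 * (r0 * R) with hR'def
  -- coefficients of `N`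
  have hN1 : Nice 1 (⇑N) := nice_levelOne N
  have hψ := coeff_pow_of_coeff_zero (psiInt.map (Int.castRingHom ℂ))
    (by rw [PowerSeries.coeff_map, psiInt_coeff_zero]; simp)
    (by rw [PowerSeries.coeff_map, psiInt_coeff_one]; simp) (p + 1)
  have hcoeff : ∀ n : ℕ, (qExpansion 1 (⇑N)).coeff n
      = ((psiInt.map (Int.castRingHom ℂ)) ^ (p + 1)).coeff n + 2 * R'.coeff (p * n) := by
    intro n
    have h1 : (qExpansion (p : ℝ) (⇑N)).coeff (p * n) = (qExpansion 1 (⇑N)).coeff n := by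
      rw [qExpansion_nat_eq_expand hN1 p hp, PowerSeries.coeff_expand_mul]
    rw [← h1, hNexp', map_add, hΨdef, ← map_pow, PowerSeries.coeff_expand_mul]
    congr 1
    rw [show (2 : PowerSeries ℂ) = PowerSeries.C (2 : ℂ) by rw [map_ofNat],
      PowerSeries.coeff_C_mul]
  -- valence
  have hJ : ∀ n : ℕ, (n : ℤ) ≤ k / 12 → (qExpansion 1 (⇑N)).coeff n ∈ helper77.mulSub O 2 := by
    intro n hn
    have hn' : n < p + 1 := by
      have : (n : ℤ) < p + 1 := lt_of_le_of_lt hn hk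
      exact_mod_cast this
    rw [hcoeff n, hψ.1 n hn', zero_add]
    exact helper77.mem_mulSub.mpr ⟨_, hR' _, rfl⟩
  have hall := helper77.levelOne_coeff_mem (helper77.mulSub O 2) k N hJ (p + 1)
  rw [hcoeff (p + 1), hψ.2] at hall
  obtain ⟨y, hy, hye⟩ := helper77.mem_mulSub.mp hall
  exact hO ⟨y - R'.coeff (p * (p + 1)), O.sub_mem hy (hR' _), by rw [mul_sub, hye]; ring⟩

end Fermat.Agent.S16.helper76
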