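import Mathlib
import Fermat.Agent.S16.helper76_H8Norm
import Fermat.Agent.S16.helper41_Fricke
import Fermat.Agent.S16.helper58_PO
import Fermat.Agent.S16.helper66_Upper

/-!
# S16, package [A7] (helper76): case (U2b') of the upper bound, `p ≡ 7 mod 8`  (HOLE 1)

`not_unitConst_two_three`: for a prime `p ≡ 7 mod 8` there is no `F ∈ M₂(Γ₀(p))` with
`q`-expansion `a + 8 h`, `a` an odd integer, `h ∈ q ℤ[[q]]`.
-/

set_option autoImplicit false

open UpperHalfPlane ModularForm Complex Filter Function CongruenceSubgroup ModularGroup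
open scoped MatrixGroups ModularForm Manifold Topology

noncomputable section

namespace Fermat.Agent.S16.helper76

open Fermat.Agent.S23.helper74 Fermat.Agent.S23

/-- Adapter between the two notions of nice functions. -/
theorem nice_of_isNice {N : ℕ} {g : ℍ → ℂ} (hg : Fermat.Agent.S24.helper37.IsNice N g) :
    Nice (N : ℝ) g where
  per := Fermat.Agent.S24.helper37.periodic_comp_ofComplex hg.per
  hol := hg.mdiff
  bdd := hg.bdd

theorem inv_intCast_mem_OInt {a : ℤ} (ha : ¬ (2 : ℤ) ∣ a) :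
    ((a : ℂ))⁻¹ ∈ helper58.OInt 2 := by
  have ha0 : a ≠ 0 := by
    rintro rfl
    exact ha (dvd_zero _)
  have hodd : Nat.Coprime a.natAbs 2 := by
    rw [Nat.coprime_comm, Nat.Prime.coprime_iff_not_dvd Nat.prime_two]
    intro h
    exact ha (Int.natCast_dvd.mpr h)
  have h1 := helper58.OInt.inv_natCast_mem (ℓ := 2) hodd
  rcases Int.natAbs_eq a with h | h
  · have : (a : ℂ) = (a.natAbs : ℂ) := by
      have := congrArg (fun z : ℤ => (z : ℂ)) h
      simpa using this
    rw [this]
    exact h1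
  · have : (a : ℂ) = -(a.natAbs : ℂ) := by
      have := congrArg (fun z : ℤ => (z : ℂ)) h
      simpa using this
    rw [this, inv_neg]
    exact (helper58.OInt 2).neg_mem h1

theorem not_exists_two_mul_eq_one : ¬ ∃ x ∈ helper58.OInt 2, 2 * x = (1 : ℂ) := by
  rintro ⟨x, hx, h2⟩
  apply helper58.OInt.inv_prime_not_mem Nat.prime_two
  have : ((2 : ℕ) : ℂ)⁻¹ = x := by
    push_cast
    have h2' : (2 : ℂ) ≠ 0 := two_ne_zero
    field_simp
    linear_combination -h2
  rw [this]
  exact hx

/-- the expansion of a scalar multiple -/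
theorem qExpansion_smul_form (p : ℕ) (c : ℂ) (F : ModularForm (Gamma0 p) 2) :
    qExpansion 1 (⇑(c • F)) = c • qExpansion 1 (⇑F) := by
  have hF : Nice 1 (⇑F) := by
    have := nice_of_isNice (helper58.isNice_one_of_modularForm F)
    simpa using this
  rw [FunLike.coe_smul]
  exact hF.qExpansion_smul one_pos c

/-- **Case (U2b') of the upper bound (HOLE 1).**  For a prime `p ≡ 7 mod 8` no weight-2 form on
`Γ₀(p)` has `q`-expansion `a + 8 h` with `a` odd and `h ∈ q ℤ[[q]]`. -/
theorem not_unitConst_two_three (p : ℕ) [hpf : Fact p.Prime] (hp8 : p % 8 = 7) :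
    ¬ helper66.UnitConst p 2 3 := by
  rintro ⟨F₀, a, h, ha, h0, hk⟩
  have hp : p ≠ 0 := hpf.out.ne_zero
  haveI : NeZero p := ⟨hp⟩
  have ha0 : (a : ℂ) ≠ 0 := by
    intro h'
    have : a = 0 := by exact_mod_cast h'
    exact ha (this ▸ dvd_zero _)
  set O := helper58.OInt 2 with hOdef
  have hainv : ((a : ℂ))⁻¹ ∈ O := inv_intCast_mem_OInt ha
  have hpinv : ((p : ℂ))⁻¹ ∈ O := by
    apply helper58.OInt.inv_natCast_mem
    rw [Nat.coprime_comm, Nat.Prime.coprime_iff_not_dvd Nat.prime_two]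
    omega
  -- normalise the constant term
  set F : ModularForm (Gamma0 p) 2 := ((a : ℂ))⁻¹ • F₀ with hFdef
  have hFexp : qExpansion 1 (⇑F) = ((a : ℂ))⁻¹ • qExpansion 1 (⇑F₀) :=
    qExpansion_smul_form p _ F₀
  set hs : PowerSeries ℂ := PowerSeries.mk fun n => if n = 0 then 0 else ((a : ℂ))⁻¹ * (h n : ℂ)
    with hsdef
  have hsO : hs ∈ coeffRing O := by
    intro n
    rw [hsdef, PowerSeries.coeff_mk]
    split_ifs
    · exact O.zero_mem
    · exact O.mul_mem hainv (intCast_mem O _)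
  have hC8 : (8 : PowerSeries ℂ) = PowerSeries.C (8 : ℂ) := by rw [map_ofNat]
  have hFid : qExpansion 1 (⇑F) = 1 + 8 * hs := by
    ext n
    rw [hFexp, PowerSeries.coeff_smul, map_add, hC8, PowerSeries.coeff_C_mul, hsdef,
      PowerSeries.coeff_mk, PowerSeries.coeff_one]
    by_cases hn : n = 0
    · subst hn
      rw [h0, if_pos rfl, if_pos rfl, smul_eq_mul, inv_mul_cancel₀ ha0]
      ring
    · rw [if_neg hn, if_neg hn, hk n (Nat.one_le_iff_ne_zero.mpr hn)]
      push_cast
      ring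
  have hF1 : Nice 1 (⇑F) := by
    have := nice_of_isNice (helper58.isNice_one_of_modularForm F)
    simpa using this
  -- the conjugates
  have hconj : ∀ j < p, Nice (p : ℝ) (⇑F ∣[(2 : ℤ)] (S * T ^ j : SL(2, ℤ))) ∧
      ∃ g ∈ coeffRing O,
        qExpansion (p : ℝ) (⇑F ∣[(2 : ℤ)] (S * T ^ j : SL(2, ℤ))) = 1 + 8 * g := by
    intro j _
    have hfun : (⇑F ∣[(2 : ℤ)] (S * T ^ j : SL(2, ℤ)))
        = (-(p : ℂ)⁻¹) • (fun τ : ℍ => helper41.tilde p F (ModularForm.heckeMatrix p j • τ)) := by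
      funext τ
      rw [helper41.slash_S_T_pow_apply p F j τ]
      rfl
    have hT1 := helper58.isNice_one_of_modularForm (helper41.tilde p F)
    have hTn := nice_of_isNice (helper58.isNice_comp_heckeMatrix (p := p) hT1 j)
    have hpp : (0 : ℝ) < p := by exact_mod_cast Nat.pos_of_ne_zero hp
    refine ⟨hfun ▸ hTn.smul _, ?_⟩
    set g : PowerSeries ℂ := PowerSeries.mk fun n =>
      if n = 0 then -(((p + 1) / 8 : ℕ) : ℂ) * (p : ℂ)⁻¹
      else -(p : ℂ)⁻¹ * (helper58.zetaP p ^ (j * n) * (((a : ℂ))⁻¹ * (h (n * p) : ℂ))) with hgdef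
    refine ⟨g, ?_, ?_⟩
    · intro n
      rw [hgdef, PowerSeries.coeff_mk]
      split_ifs
      · exact O.mul_mem (O.neg_mem (natCast_mem O _)) hpinv
      · exact O.mul_mem (O.neg_mem hpinv) (O.mul_mem (helper58.zetaP_mem_OInt p 2 _)
          (O.mul_mem hainv (intCast_mem O _)))
    · ext n
      rw [hfun, hTn.qExpansion_smul hpp, PowerSeries.coeff_smul,
        helper58.qExpansion_comp_heckeMatrix hT1 j n]
      have hq : (qExpansion (1 : ℝ) (⇑(helper41.tilde p F))).coeff n
          = (qExpansion 1 (⇑F)).coeff (n * p) := helper41.qCoeff_tilde p F n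
      rw [hq, hFid, map_add, map_add, hC8, PowerSeries.coeff_C_mul, PowerSeries.coeff_C_mul,
        hsdef, hgdef, PowerSeries.coeff_mk, PowerSeries.coeff_mk, PowerSeries.coeff_one,
        PowerSeries.coeff_one]
      by_cases hn : n = 0
      · subst hn
        have h8 : ((((p + 1) / 8 : ℕ) : ℕ) : ℂ) * 8 = (p : ℂ) + 1 := by
          have : (p + 1) / 8 * 8 = p + 1 := Nat.div_mul_cancel (by omega)
          exact_mod_cast this
        have hp0 : (p : ℂ) ≠ 0 := by exact_mod_cast hp
        simp only [Nat.zero_mul, Nat.mul_zero, pow_zero, if_true, smul_eq_mul, mul_zero, add_zero,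
          mul_one, one_mul]
        field_simp
        linear_combination h8
      · have hnp : n * p ≠ 0 := Nat.mul_ne_zero hn hp
        rw [if_neg hnp, if_neg hnp, if_neg hn, if_neg hn]
        ring
  -- the norm
  obtain ⟨H8, hH8⟩ := isMF_h8fun p F
  have hN := helper41.coe_norm_Gamma0 p H8
  rw [hH8] at hN
  refine h8_contradiction p hp O not_exists_two_mul_eq_one F _ ?_ (ModularForm.norm 𝒮ℒ H8) hN hF1
    ⟨hs, hsO, hFid⟩ hconj
  rw [helper41.card_quot_Gamma0 p]
  have : (8 * ((p + 1 : ℕ) : ℤ)) / 12 < (p : ℤ) + 1 := by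
    apply Int.ediv_lt_of_lt_mul (by norm_num)
    push_cast
    linarith [Int.natCast_nonneg p]
  exact_mod_cast this

end Fermat.Agent.S16.helper76
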