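import Fermat.Agent.S16.helper21_B3
import Fermat.Agent.S16.helper26_HeckeFun
import Fermat.Prelude.Def_ModularCurve_ModularUnit

/-!
# S16 [B3b] (helper21): the Eisenstein character `ψ_n = χ ∘ ulUnit : Γ₀(p) → ℤ/n`

`n = eisensteinNumerator p = (p - 1) / gcd (p - 1, 12)`.  We construct a character
`χ : (ℤ/p)ˣ → ℤ/n` which is surjective and kills the `12`-torsion, show that
`ψ_n = χ ∘ ulUnit` kills every element of `Γ₀(p)` of trace `t` with `t ^ 2 ≤ 4`, that it takes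
the value `1`, and that it lifts to a parabolic character `Γ₀(p) → ℤ` ([B3]).
-/

set_option autoImplicit false

open scoped MatrixGroups
open CongruenceSubgroup ModularCurve.Period ModularCurve

namespace Fermat.Agent.S16.helper21

open Fermat.Agent.S16.helper26 (ulUnit coe_ulUnit)

variable (p : ℕ) [hp : Fact p.Prime]

/-- elements of `Γ₀(p)` with `trace ^ 2 ≤ 4` have upper-left entry of order dividing `12`. -/
theorem ulUnit_pow_twelve (γ : Gamma0 p)
    (htr : ((γ : SL(2, ℤ)) : Matrix (Fin 2) (Fin 2) ℤ).trace ^ 2 ≤ 4) :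
    (ulUnit p γ) ^ 12 = 1 := by
  apply Units.ext
  rw [Units.val_pow_eq_pow_val, coe_ulUnit, Units.val_one]
  have hc : ((((γ : SL(2, ℤ)) 1 0 : ℤ)) : ZMod p) = 0 := Gamma0_mem.mp γ.2
  have hdet : (γ : SL(2, ℤ)) 0 0 * (γ : SL(2, ℤ)) 1 1 - (γ : SL(2, ℤ)) 0 1 * (γ : SL(2, ℤ)) 1 0 = 1 := by
    have := (γ : SL(2, ℤ)).det_coe
    rwa [Matrix.det_fin_two] at this
  have hdet' : ((((γ : SL(2, ℤ)) 0 0 : ℤ)) : ZMod p) * ((((γ : SL(2, ℤ)) 1 1 : ℤ)) : ZMod p) = 1 := by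
    have := congrArg (Int.cast : ℤ → ZMod p) hdet
    push_cast at this
    rw [hc, mul_zero, sub_zero] at this
    exact this
  rw [Matrix.trace_fin_two] at htr
  set a : ZMod p := ((((γ : SL(2, ℤ)) 0 0 : ℤ)) : ZMod p) with ha
  set d : ZMod p := ((((γ : SL(2, ℤ)) 1 1 : ℤ)) : ZMod p) with hd
  set t : ℤ := (γ : SL(2, ℤ)) 0 0 + (γ : SL(2, ℤ)) 1 1 with ht
  have htad : (t : ZMod p) = a + d := by rw [ht]; push_cast; rfl
  have hq : a ^ 2 - (t : ZMod p) * a + 1 = 0 := by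
    rw [htad]
    linear_combination -hdet'
  have hlo : -2 ≤ t := by nlinarith
  have hhi : t ≤ 2 := by nlinarith
  interval_cases t
  · -- t = -2
    have h1 : (a + 1) ^ 2 = 0 := by
      push_cast at hq
      linear_combination hq
    have h2 : a + 1 = 0 := by
      rwa [sq_eq_zero_iff] at h1
    have h3 : a = -1 := eq_neg_of_add_eq_zero_left h2
    rw [h3]
    norm_num
  · -- t = -1
    push_cast at hq
    linear_combination ((a ^ 6 + 1) * (a ^ 3 + 1) * (a - 1)) * hq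
  · -- t = 0
    push_cast at hq
    linear_combination (a ^ 10 - a ^ 8 + a ^ 6 - a ^ 4 + a ^ 2 - 1) * hq
  · -- t = 1
    push_cast at hq
    linear_combination ((a ^ 6 + 1) * (a ^ 3 - 1) * (a + 1)) * hq
  · -- t = 2
    have h1 : (a - 1) ^ 2 = 0 := by
      push_cast at hq
      linear_combination hq
    have h2 : a - 1 = 0 := by
      rwa [sq_eq_zero_iff] at h1
    have h3 : a = 1 := sub_eq_zero.mp h2
    rw [h3]
    norm_num

omit hp in
/-- `ulUnit` is surjective. -/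
theorem ulUnit_surjective [NeZero p] : Function.Surjective (ulUnit p) := by
  intro u
  have hcop : IsCoprime (((u : ZMod p).val : ℤ)) (p : ℤ) := by
    have := ZMod.val_coe_unit_coprime u
    exact (Nat.isCoprime_iff_coprime).mpr this
  obtain ⟨g, hg0, hg1⟩ := hcop.exists_SL2_col 0
  have hmem : g ∈ Gamma0 p := by
    rw [Gamma0_mem, hg1]
    simp
  refine ⟨⟨g, hmem⟩, ?_⟩
  apply Units.ext
  rw [coe_ulUnit]
  show ((g 0 0 : ℤ) : ZMod p) = _
  rw [hg0]
  simp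

omit hp in
/-- if `m ∣ 12 k` then `m / gcd (m, 12) ∣ k`. -/
lemma dvd_of_dvd_mul_twelve (m : ℕ) (k : ℤ) (h12 : (m : ℤ) ∣ k * 12) :
    ((m / Nat.gcd m 12 : ℕ) : ℤ) ∣ k := by
  have hν : 0 < Nat.gcd m 12 := Nat.gcd_pos_of_pos_right _ (by norm_num)
  have hnν : (m : ℤ) = ((m / Nat.gcd m 12 : ℕ) : ℤ) * (Nat.gcd m 12 : ℤ) := by
    exact_mod_cast (Nat.div_mul_cancel (Nat.gcd_dvd_left m 12)).symm
  have hb : (Nat.gcd m 12 : ℤ) = (m : ℤ) * Nat.gcdA m 12 + 12 * Nat.gcdB m 12 := by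
    exact_mod_cast Nat.gcd_eq_gcd_ab m 12
  have hgcd : (m : ℤ) ∣ k * (Nat.gcd m 12 : ℤ) := by
    obtain ⟨c, hc⟩ := h12
    refine ⟨k * Nat.gcdA m 12 + c * Nat.gcdB m 12, ?_⟩
    rw [hb]
    linear_combination (Nat.gcdB m 12) * hc
  have hν' : ((Nat.gcd m 12 : ℕ) : ℤ) ≠ 0 := by exact_mod_cast hν.ne'
  obtain ⟨c, hc⟩ := hgcd
  refine ⟨c, ?_⟩
  apply mul_right_cancel₀ hν'
  rw [hc]
  conv_lhs => rw [hnν]
  ring

/-- The character `χ : (ℤ/p)ˣ → ℤ/n`, `n = eisensteinNumerator p`. -/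
theorem exists_chi :
    ∃ χ : Additive (ZMod p)ˣ →+ ZMod (eisensteinNumerator p),
      (∃ u : (ZMod p)ˣ, χ (Additive.ofMul u) = 1) ∧
      ∀ u : (ZMod p)ˣ, u ^ 12 = 1 → χ (Additive.ofMul u) = 0 := by
  classical
  obtain ⟨g, hg⟩ := IsCyclic.exists_generator (α := (ZMod p)ˣ)
  have hord : orderOf g = p - 1 := by
    rw [orderOf_eq_card_of_forall_mem_zpowers hg, Nat.card_eq_fintype_card, ZMod.card_units]
  set n := eisensteinNumerator p with hn
  have hnd : n ∣ p - 1 := eisensteinNumerator_dvd p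
  have hg' : orderOf (Multiplicative.ofAdd (1 : ZMod n)) ∣ orderOf g := by
    rw [orderOf_ofAdd_eq_addOrderOf, ZMod.addOrderOf_one, hord]
    exact hnd
  let φ : (ZMod p)ˣ →* Multiplicative (ZMod n) := monoidHomOfForallMemZpowers hg hg'
  have hφg : φ g = Multiplicative.ofAdd (1 : ZMod n) := monoidHomOfForallMemZpowers_apply_gen hg hg'
  let χ : Additive (ZMod p)ˣ →+ ZMod n := MonoidHom.toAdditiveLeft φ
  have hχ : ∀ u, χ (Additive.ofMul u) = Multiplicative.toAdd (φ u) := fun u => rfl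
  refine ⟨χ, ⟨g, ?_⟩, ?_⟩
  · rw [hχ, hφg]; rfl
  · intro u hu
    obtain ⟨k, rfl⟩ := Subgroup.mem_zpowers_iff.mp (hg u)
    rw [hχ, map_zpow, hφg]
    show (k • (1 : ZMod n)) = 0
    rw [zsmul_one, ZMod.intCast_zmod_eq_zero_iff_dvd]
    -- `g ^ (12 k) = 1` and `g ^ ((p-1) k) = 1`, so `(p - 1) ∣ gcd (p-1, 12) * k`
    have h12 : ((p - 1 : ℕ) : ℤ) ∣ k * 12 := by
      rw [← hord, orderOf_dvd_iff_zpow_eq_one, zpow_mul]
      exact_mod_cast hu
    exact dvd_of_dvd_mul_twelve (p - 1) k h12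

/-- **S16 [B3b].** The Eisenstein character `ψ_n = χ ∘ ulUnit` of `Γ₀(p)`: it takes the value
`1` and is the reduction mod `n` of a parabolic character `Γ₀(p) → ℤ`. -/
theorem exists_eisenstein_character :
    ∃ (χ : Additive (ZMod p)ˣ →+ ZMod (eisensteinNumerator p))
      (ψ' : Additive (Gamma0 p) →+ ℤ),
      (∃ γ : Gamma0 p, χ (Additive.ofMul (ulUnit p γ)) = 1) ∧
      IsParabolicHom (Gamma0 p) ψ' ∧
      ∀ γ : Gamma0 p, ((ψ' (Additive.ofMul γ) : ℤ) : ZMod (eisensteinNumerator p)) =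
        χ (Additive.ofMul (ulUnit p γ)) := by
  have : NeZero p := ⟨hp.out.ne_zero⟩
  obtain ⟨χ, ⟨u, hu⟩, hχ⟩ := exists_chi p
  obtain ⟨ψ', hpar, hcong⟩ := exists_parabolic_lift p (eisensteinNumerator p)
    (χ.comp (MonoidHom.toAdditive (ulUnit p)))
    (fun γ htr => hχ _ (ulUnit_pow_twelve p γ htr))
  obtain ⟨γ, rfl⟩ := ulUnit_surjective p u
  exact ⟨χ, ψ', ⟨γ, hu⟩, hpar, fun γ => hcong (Additive.ofMul γ)⟩

/-- the same statement with `ψ'` expressed through composition (shape of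
`helper26.heckeHom_comp` / `heckeHom_ulUnit_eisenstein`). -/
theorem exists_eisenstein_character' :
    ∃ (χ : Additive (ZMod p)ˣ →+ ZMod (eisensteinNumerator p))
      (ψ' : Additive (Gamma0 p) →+ ℤ),
      (∃ γ : Gamma0 p, χ (Additive.ofMul (ulUnit p γ)) = 1) ∧
      ψ' ∈ parabolicHoms ℤ (Gamma0 p) ℤ ∧
      (Int.castAddHom (ZMod (eisensteinNumerator p))).comp ψ' =
        χ.comp (MonoidHom.toAdditive (ulUnit p)) := by
  obtain ⟨χ, ψ', h1, h2, h3⟩ := exists_eisenstein_character p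
  refine ⟨χ, ψ', h1, h2, ?_⟩
  ext γ
  exact h3 γ

end Fermat.Agent.S16.helper21
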