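import Fermat.Agent.S16.helper16_Interface
import Fermat.Agent.S16.helper26_HeckeInd
import Fermat.Agent.S16.helper21_PsiN
import Fermat.Agent.S21
import Fermat.Agent.S23

/-!
# S16 [B4] (helper80): the lower bound (B)

For every Hecke polynomial `P` which acts as zero on the integral lattice of `S₂(Γ₀(p))`, the
Eisenstein value `aeval (eisensteinSystem p) P` is divisible by
`n = eisensteinNumerator p = (p - 1) / gcd (p - 1, 12)`.

Assembly of
* the integral structure (landed `S23`): `P = 0` on the lattice implies `P = 0` on `S₂(Γ₀(p))`;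
* Eichler-Shimura (landed `S21`): the complexification of an integral parabolic character is a
  period pairing;
* the Eisenstein character `ψ_n = χ ∘ ulUnit` and its integral parabolic lift (`helper21`);
* the induction over Hecke polynomials (`helper26`), built on period equivariance (`helper1`).
-/

set_option autoImplicit false

open CongruenceSubgroup ModularCurve ModularCurve.Period CuspForm
open scoped MatrixGroups

namespace Fermat.Agent.S16.helper80

open Fermat.Agent.S16.helper26 (ulUnit evalPair exists_hom_evalPair)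

/-- A Hecke polynomial which is zero on the integral lattice is zero on `S₂(Γ₀(N))`
(uses the integral structure, landed `S23`). -/
theorem heckeEvalForms_eq_zero_of_latticeRestrict (N : ℕ) [NeZero N] (P : HeckeAlg)
    (hP : ((latticeRestrictHom N ∅).toRingHom.comp (heckeEvalForms N 2)) P = 0) :
    heckeEvalForms N 2 P = 0 := by
  have hint : HasIntegralStructure N 2 := Fermat.Agent.S23.result N
  apply (latticeRestrictHom_bijective N ∅ hint).1
  rw [map_zero]
  exact hP

/-- A Hecke polynomial which is zero on the integral lattice kills every pair of cusp forms. -/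
theorem evalPair_eq_zero_of_latticeRestrict (N : ℕ) [NeZero N] (P : HeckeAlg)
    (hP : ((latticeRestrictHom N ∅).toRingHom.comp (heckeEvalForms N 2)) P = 0)
    (x : CuspForm (Gamma0 N) 2 × CuspForm (Gamma0 N) 2) :
    evalPair N P x = 0 := by
  unfold evalPair
  rw [heckeEvalForms_eq_zero_of_latticeRestrict N P hP]
  rfl

/-- `p = 1` in `ℤ/n`, `n = eisensteinNumerator p`. -/
theorem natCast_prime_eq_one (p : ℕ) [Fact p.Prime] :
    ((p : ℕ) : ZMod (eisensteinNumerator p)) = 1 := by
  have hp1 : 1 ≤ p := (Fact.out : p.Prime).one_le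
  have h : ((p - 1 : ℕ) : ZMod (eisensteinNumerator p)) = 0 :=
    (ZMod.natCast_eq_zero_iff _ _).mpr (eisensteinNumerator_dvd p)
  rw [Nat.cast_sub hp1, Nat.cast_one, sub_eq_zero] at h
  exact h

/-- **S16, lower bound (B).** -/
theorem lowerBound (p : ℕ) [Fact p.Prime] : Fermat.Agent.S16.helper16.LowerBound p := by
  have : NeZero p := ⟨(Fact.out : p.Prime).ne_zero⟩
  intro P hP
  obtain ⟨χ, ψ', ⟨γ0, hγ0⟩, hpar, hcong⟩ := Fermat.Agent.S16.helper21.exists_eisenstein_character' p
  -- the complexification of `ψ'` is a period pairing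
  have hparC : (Int.castAddHom ℂ).comp ψ' ∈ parabolicHoms ℂ (Gamma0 p) ℂ := by
    intro γ hγ
    have h0 : ψ' (Additive.ofMul γ) = 0 := hpar γ hγ
    show ((ψ' (Additive.ofMul γ) : ℤ) : ℂ) = 0
    rw [h0, Int.cast_zero]
  rw [← (Fermat.Agent.S21.result p).2] at hparC
  obtain ⟨x, hx⟩ := hparC
  have hA : ∀ ℓ : Nat.Primes, (ℓ : ℕ) ∣ p →
      ∀ a : ZMod (eisensteinNumerator p), (ℓ : ℕ) • a = a := by
    intro ℓ hℓ a
    have hℓp : (ℓ : ℕ) = p := (Nat.prime_dvd_prime_iff_eq ℓ.2 Fact.out).mp hℓ
    rw [hℓp, nsmul_eq_mul, natCast_prime_eq_one, one_mul]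
  obtain ⟨φ', h1, h2⟩ := exists_hom_evalPair p hA χ
    (Int.castAddHom (ZMod (eisensteinNumerator p))) P x ψ' 1 hx
    (by rw [one_smul]; exact hcong)
  rw [evalPair_eq_zero_of_latticeRestrict p P hP x, map_zero] at h1
  have hφ' : φ' = 0 := by
    refine AddMonoidHom.ext fun γ => ?_
    have h3 : ((φ' γ : ℤ) : ℂ) = 0 := (DFunLike.congr_fun h1 γ).symm
    exact_mod_cast h3
  rw [hφ', AddMonoidHom.comp_zero, mul_one] at h2
  have h4 := DFunLike.congr_fun h2 (Additive.ofMul γ0)
  rw [AddMonoidHom.zero_apply, AddMonoidHom.smul_apply, AddMonoidHom.comp_apply] at h4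
  have h5 : χ (Additive.ofMul (ulUnit p γ0)) = 1 := hγ0
  have h6 : (MonoidHom.toAdditive (ulUnit p)) (Additive.ofMul γ0) =
      Additive.ofMul (ulUnit p γ0) := rfl
  rw [h6, h5, zsmul_eq_mul, mul_one] at h4
  exact (ZMod.intCast_zmod_eq_zero_iff_dvd _ _).mp h4.symm

end Fermat.Agent.S16.helper80
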