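import Fermat.Agent.S16.helper1_PeriodSlash

/-!
# S16, package [B2] (helper1): compatibility with the character involution

`periodHomPair` of a finite sum of slashes, for a system of matrices `α i` that is stable under
conjugation by `J = diag(1, -1)` up to left multiplication by elements of `Γ₀(N)`.
-/

set_option autoImplicit false

namespace Fermat.Agent.S16.helper1

open Filter Topology Complex Function CongruenceSubgroup ModularCurve ModularCurve.Period
open UpperHalfPlane hiding I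
open scoped Manifold MatrixGroups ModularForm

/-- The matrix `diag(1, -1)`. -/
noncomputable def jGL : GL (Fin 2) ℝ :=
  Matrix.GeneralLinearGroup.mkOfDetNeZero !![1, 0; 0, -1]
    (by rw [Matrix.det_fin_two_of]; norm_num)

@[simp] theorem val_jGL :
    ((jGL : GL (Fin 2) ℝ) : Matrix (Fin 2) (Fin 2) ℝ) = !![1, 0; 0, -1] := rfl

theorem jGL_mul_jGL : jGL * jGL = 1 := by
  apply Units.ext
  rw [Units.val_mul, val_jGL]
  ext i j
  fin_cases i <;> fin_cases j <;> simp [Matrix.mul_apply, Fin.sum_univ_two]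

theorem jGL_inv : jGL⁻¹ = jGL := inv_eq_of_mul_eq_one_right jGL_mul_jGL

/-- `jConjSL` is conjugation by `jGL`. -/
theorem mapGL_jConjSL (γ : SL(2, ℤ)) :
    Matrix.SpecialLinearGroup.mapGL ℝ (jConjSL γ) =
      jGL * Matrix.SpecialLinearGroup.mapGL ℝ γ * jGL := by
  apply Units.ext
  rw [Units.val_mul, Units.val_mul, val_jGL]
  ext i j
  fin_cases i <;> fin_cases j <;>
    simp [Matrix.mul_apply, Fin.sum_univ_two, jConjMat, Matrix.vecMul, dotProduct]

variable (N : ℕ) [NeZero N]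

/-- Periods of a finite sum of slashes at `jConj γ`. -/
theorem periodMap_jConj_eq_sum_of_slash {ι : Type*} [Fintype ι] (α : ι → GL (Fin 2) ℝ)
    (hα : ∀ i, 0 < ((α i).det : ℝ)) (f g : CuspForm (Gamma0 N) 2)
    (hg : (⇑g : ℍ → ℂ) = ∑ i, (⇑f : ℍ → ℂ) ∣[(2 : ℤ)] α i)
    (γ : Gamma0 N) (δ : ι → Gamma0 N) (s : Equiv.Perm ι)
    (h : ∀ i, α i * Matrix.SpecialLinearGroup.mapGL ℝ (γ : SL(2, ℤ)) =
      Matrix.SpecialLinearGroup.mapGL ℝ (δ i : SL(2, ℤ)) * α (s i))
    (star : Equiv.Perm ι) (t : ι → Gamma0 N)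
    (hJ : ∀ i, jGL * α i * jGL =
      Matrix.SpecialLinearGroup.mapGL ℝ (t i : SL(2, ℤ)) * α (star i)) :
    periodMap N g (Additive.ofMul (jConjGamma0 N γ)) =
      ∑ i, periodMap N f (Additive.ofMul (jConjGamma0 N (δ i))) := by
  have key := periodMap_eq_sum_of_slash N α hα f g hg (jConjGamma0 N γ)
    (fun k => (t (star.symm k))⁻¹ * jConjGamma0 N (δ (star.symm k)) * t (s (star.symm k)))
    ((star.symm.trans s).trans star) ?_
  · rw [key, ← Equiv.sum_comp star]
    simp only [Equiv.symm_apply_apply]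
    have h1 : ∀ i, periodMap N f (Additive.ofMul ((t i)⁻¹ * jConjGamma0 N (δ i) * t (s i))) =
        periodMap N f (Additive.ofMul (jConjGamma0 N (δ i))) +
          (periodMap N f (Additive.ofMul (t (s i))) - periodMap N f (Additive.ofMul (t i))) := by
      intro i
      rw [ofMul_mul, ofMul_mul, map_add, map_add, ofMul_inv, map_neg]
      ring
    simp only [h1, Finset.sum_add_distrib, Finset.sum_sub_distrib]
    rw [Equiv.sum_comp s (fun i => periodMap N f (Additive.ofMul (t i)))]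
    ring
  · intro k
    obtain ⟨i, rfl⟩ := star.surjective k
    simp only [Equiv.symm_apply_apply, Equiv.trans_apply]
    have e1 : α (star i) = (Matrix.SpecialLinearGroup.mapGL ℝ (t i : SL(2, ℤ)))⁻¹ *
        (jGL * α i * jGL) := by
      rw [hJ i, inv_mul_cancel_left]
    have e2 : jGL * α (s i) * jGL =
        Matrix.SpecialLinearGroup.mapGL ℝ (t (s i) : SL(2, ℤ)) * α (star (s i)) := hJ (s i)
    have e3 : Matrix.SpecialLinearGroup.mapGL ℝ
        (((t i)⁻¹ * jConjGamma0 N (δ i) * t (s i) : Gamma0 N) : SL(2, ℤ)) =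
        (Matrix.SpecialLinearGroup.mapGL ℝ (t i : SL(2, ℤ)))⁻¹ *
          (jGL * Matrix.SpecialLinearGroup.mapGL ℝ (δ i : SL(2, ℤ)) * jGL) *
          Matrix.SpecialLinearGroup.mapGL ℝ (t (s i) : SL(2, ℤ)) := by
      rw [Subgroup.coe_mul, Subgroup.coe_mul, Subgroup.coe_inv, map_mul, map_mul, map_inv,
        jConjGamma0_coe, mapGL_jConjSL]
    rw [jConjGamma0_coe, mapGL_jConjSL, e3, e1]
    have e4 : jGL * α i * jGL * (jGL * Matrix.SpecialLinearGroup.mapGL ℝ (γ : SL(2, ℤ)) * jGL) =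
        jGL * (α i * Matrix.SpecialLinearGroup.mapGL ℝ (γ : SL(2, ℤ))) * jGL := by
      have := jGL_mul_jGL
      calc jGL * α i * jGL * (jGL * Matrix.SpecialLinearGroup.mapGL ℝ (γ : SL(2, ℤ)) * jGL)
          = jGL * α i * (jGL * jGL) * Matrix.SpecialLinearGroup.mapGL ℝ (γ : SL(2, ℤ)) * jGL := by
            group
        _ = jGL * (α i * Matrix.SpecialLinearGroup.mapGL ℝ (γ : SL(2, ℤ))) * jGL := by
            rw [this]; group
    have e5 : jGL * (Matrix.SpecialLinearGroup.mapGL ℝ (δ i : SL(2, ℤ)) * α (s i)) * jGL =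
        jGL * Matrix.SpecialLinearGroup.mapGL ℝ (δ i : SL(2, ℤ)) * jGL *
          (jGL * α (s i) * jGL) := by
      have := jGL_mul_jGL
      calc jGL * (Matrix.SpecialLinearGroup.mapGL ℝ (δ i : SL(2, ℤ)) * α (s i)) * jGL
          = jGL * Matrix.SpecialLinearGroup.mapGL ℝ (δ i : SL(2, ℤ)) * 1 * α (s i) * jGL := by
            group
        _ = jGL * Matrix.SpecialLinearGroup.mapGL ℝ (δ i : SL(2, ℤ)) * jGL *
              (jGL * α (s i) * jGL) := by
            rw [← this]; group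
    rw [mul_assoc _ (jGL * α i * jGL), e4, h i, e5, e2]
    group


/-- Explicit formula for `periodHomPair`. -/
theorem periodHomPair_apply (x : CuspForm (Gamma0 N) 2 × CuspForm (Gamma0 N) 2)
    (γ : Gamma0 N) :
    periodHomPair N x (Additive.ofMul γ) =
      periodMap N x.1 (Additive.ofMul γ) + periodMap N x.1 (Additive.ofMul (jConjGamma0 N γ)) +
        (periodMap N x.2 (Additive.ofMul γ) -
          periodMap N x.2 (Additive.ofMul (jConjGamma0 N γ))) := by
  rw [Fermat.Agent.S21.periodHomPair_eq]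
  obtain ⟨f, g⟩ := x
  simp only [LinearMap.coprod_apply, LinearMap.comp_apply, LinearMap.add_apply,
    LinearMap.sub_apply, LinearMap.id_apply, Fermat.Agent.S21.periodMapLin_apply,
    AddMonoidHom.add_apply, AddMonoidHom.sub_apply, charInvolution_apply, toMul_ofMul]

/-- **Period equivariance, abstract form.**  If both components of `y` are the sum of the
slashes of the components of `x` by matrices `α i` (positive determinant) which are permuted by
right multiplication by `γ` (`α i * γ = δ i * α (s i)`) and by conjugation by `J = diag(1,-1)`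
(`J * α i * J = t i * α (star i)`), then `periodHomPair y γ = ∑ i, periodHomPair x (δ i)`. -/
theorem periodHomPair_eq_sum_of_slash {ι : Type*} [Fintype ι] (α : ι → GL (Fin 2) ℝ)
    (hα : ∀ i, 0 < ((α i).det : ℝ))
    (x y : CuspForm (Gamma0 N) 2 × CuspForm (Gamma0 N) 2)
    (hy₁ : (⇑y.1 : ℍ → ℂ) = ∑ i, (⇑x.1 : ℍ → ℂ) ∣[(2 : ℤ)] α i)
    (hy₂ : (⇑y.2 : ℍ → ℂ) = ∑ i, (⇑x.2 : ℍ → ℂ) ∣[(2 : ℤ)] α i)
    (γ : Gamma0 N) (δ : ι → Gamma0 N) (s : Equiv.Perm ι)
    (h : ∀ i, α i * Matrix.SpecialLinearGroup.mapGL ℝ (γ : SL(2, ℤ)) =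
      Matrix.SpecialLinearGroup.mapGL ℝ (δ i : SL(2, ℤ)) * α (s i))
    (star : Equiv.Perm ι) (t : ι → Gamma0 N)
    (hJ : ∀ i, jGL * α i * jGL =
      Matrix.SpecialLinearGroup.mapGL ℝ (t i : SL(2, ℤ)) * α (star i)) :
    periodHomPair N y (Additive.ofMul γ) = ∑ i, periodHomPair N x (Additive.ofMul (δ i)) := by
  simp only [periodHomPair_apply, Finset.sum_add_distrib, Finset.sum_sub_distrib]
  rw [periodMap_eq_sum_of_slash N α hα x.1 y.1 hy₁ γ δ s h,
    periodMap_eq_sum_of_slash N α hα x.2 y.2 hy₂ γ δ s h,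
    periodMap_jConj_eq_sum_of_slash N α hα x.1 y.1 hy₁ γ δ s h star t hJ,
    periodMap_jConj_eq_sum_of_slash N α hα x.2 y.2 hy₂ γ δ s h star t hJ]

end Fermat.Agent.S16.helper1
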