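import Fermat.Agent.S21.Period
import Fermat.Prelude.Def_CuspForm_HeckeAlgebra

/-!
# S16, package [B2] (helper1): periods of a finite sum of slashes

If `g = ∑ i, f ∣[2] α i` for finitely many `α i : GL (Fin 2) ℝ` of positive determinant and
`α i * γ = δ i * α (s i)` for a permutation `s` of the index set and `δ i ∈ Γ₀(N)`, then
`periodMap g γ = ∑ i, periodMap f (δ i)`.
-/

set_option autoImplicit false

namespace Fermat.Agent.S16.helper1

open Filter Topology Complex Function CongruenceSubgroup ModularCurve ModularCurve.Period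
open UpperHalfPlane hiding I
open scoped Manifold MatrixGroups ModularForm

/-- Chain rule for the Möbius action of `GL (Fin 2) ℝ` (positive determinant): if `F` is a
primitive of `f` then `F ∘ g` is a primitive of `f ∣[2] g`. -/
theorem hasDerivAt_comp_GL_smul {F f : ℍ → ℂ}
    (hF : ∀ τ : ℍ, HasDerivAt (F ∘ ofComplex) (f τ) ↑τ) (g : GL (Fin 2) ℝ)
    (hpos : 0 < (g.det : ℝ)) (τ : ℍ) :
    HasDerivAt ((fun w : ℍ => F (g • w)) ∘ ofComplex) ((f ∣[(2 : ℤ)] g) τ) ↑τ := by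
  have hpos' : 0 < g.val.det := by
    rwa [← Matrix.GeneralLinearGroup.val_det_apply]
  have h1 : HasDerivAt (fun z ↦ ↑(g • ofComplex z) : ℂ → ℂ)
      ((g.val.det : ℂ) / denom g τ ^ 2) ↑τ := (hasStrictDerivAt_smul hpos' τ).hasDerivAt
  have h2 : HasDerivAt (F ∘ ofComplex) (f (g • τ)) ↑(g • ofComplex (τ : ℂ)) := by
    have := hF (g • τ)
    rwa [ofComplex_apply]
  have h3 := h2.comp (τ : ℂ) h1
  have h4 : (f ∣[(2 : ℤ)] g) τ = f (g • τ) * ((g.val.det : ℂ) / denom g τ ^ 2) := by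
    rw [ModularForm.slash_apply, UpperHalfPlane.σ, if_pos hpos]
    have hd : denom g τ ≠ 0 := denom_ne_zero g τ
    rw [Matrix.GeneralLinearGroup.val_det_apply, abs_of_pos hpos']
    simp only [ContinuousAlgEquiv.refl_apply, zpow_neg]
    rw [show (2 : ℤ) - 1 = 1 by norm_num, zpow_one]
    field_simp
  rw [h4]
  refine h3.congr_of_eventuallyEq ?_
  filter_upwards [isOpen_upperHalfPlaneSet.mem_nhds τ.im_pos] with z hz
  simp only [Function.comp, ofComplex_apply]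


variable (N : ℕ) [NeZero N]

/-- **Periods of a finite sum of slashes.** -/
theorem periodMap_eq_sum_of_slash {ι : Type*} [Fintype ι] (α : ι → GL (Fin 2) ℝ)
    (hα : ∀ i, 0 < ((α i).det : ℝ)) (f g : CuspForm (Gamma0 N) 2)
    (hg : (⇑g : ℍ → ℂ) = ∑ i, (⇑f : ℍ → ℂ) ∣[(2 : ℤ)] α i)
    (γ : Gamma0 N) (δ : ι → Gamma0 N) (s : Equiv.Perm ι)
    (h : ∀ i, α i * Matrix.SpecialLinearGroup.mapGL ℝ (γ : SL(2, ℤ)) =
      Matrix.SpecialLinearGroup.mapGL ℝ (δ i : SL(2, ℤ)) * α (s i)) :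
    periodMap N g (Additive.ofMul γ) = ∑ i, periodMap N f (Additive.ofMul (δ i)) := by
  obtain ⟨F, hF⟩ := Fermat.Agent.S21.exists_hasEquivariantPrimitive N f
  obtain ⟨G₀, hG₀⟩ := Fermat.Agent.S21.exists_hasEquivariantPrimitive N g
  have hG : ∀ τ : ℍ, HasDerivAt ((fun z : ℍ => ∑ i, F (α i • z)) ∘ ofComplex) (g τ) ↑τ := by
    intro τ
    have h1 : ∀ i ∈ (Finset.univ : Finset ι),
        HasDerivAt ((fun w : ℍ => F (α i • w)) ∘ ofComplex) (((⇑f : ℍ → ℂ) ∣[(2 : ℤ)] α i) τ) ↑τ :=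
      fun i _ => hasDerivAt_comp_GL_smul hF.1 (α i) (hα i) τ
    have h2 := HasDerivAt.fun_sum h1
    have h3 : g τ = ∑ i, ((⇑f : ℍ → ℂ) ∣[(2 : ℤ)] α i) τ := by
      rw [hg, Finset.sum_apply]
    rw [h3]
    exact h2
  obtain ⟨c, hc⟩ := Fermat.Agent.S21.exists_eq_add_const_of_hasDerivAt hG₀.1 hG
  rw [Fermat.Agent.S21.periodMap_apply N g hG₀ γ UpperHalfPlane.I, hc, hc]
  have h4 : ∀ i, F (α i • ((γ : SL(2, ℤ)) • UpperHalfPlane.I)) =
      periodMap N f (Additive.ofMul (δ i)) + F (α (s i) • UpperHalfPlane.I) := by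
    intro i
    rw [Fermat.Agent.S21.periodMap_apply N f hF (δ i) (α (s i) • UpperHalfPlane.I)]
    have h5 : α i • ((γ : SL(2, ℤ)) • UpperHalfPlane.I) =
        ((δ i : Gamma0 N) : SL(2, ℤ)) • (α (s i) • UpperHalfPlane.I) := by
      show α i • (Matrix.SpecialLinearGroup.mapGL ℝ (γ : SL(2, ℤ)) • UpperHalfPlane.I) =
        Matrix.SpecialLinearGroup.mapGL ℝ (δ i : SL(2, ℤ)) • (α (s i) • UpperHalfPlane.I)
      rw [← mul_smul, ← mul_smul, h i]
    rw [h5]
    ring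
  simp only [h4, Finset.sum_add_distrib]
  rw [Equiv.sum_comp s (fun i => F (α i • UpperHalfPlane.I))]
  ring

end Fermat.Agent.S16.helper1
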