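import Fermat.Agent.S16.helper21_Lift
import Fermat.Agent.S16.helper64_PSL2Z

/-!
# S16 [B3] (helper21): every character `ψ : Γ₀(p) → ℤ/n` killing the elements of `|trace| ≤ 2`
lifts to an integral parabolic character

`exists_parabolic_lift` is the unconditional form of `exists_parabolic_lift_of_UP`, using the
universal property of `PSL(2, ℤ) = C₂ * C₃` proved by helper64 (package [B0]).
-/

set_option autoImplicit false

open scoped MatrixGroups
open CongruenceSubgroup ModularCurve.Period

namespace Fermat.Agent.S16.helper21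

/-- The universal property of `PSL(2, ℤ) = C₂ * C₃` holds (helper64, package [B0]). -/
theorem hasUP : HasUP := fun H _ s r hs hr => by
  obtain ⟨φ, h1, h2, _⟩ := Fermat.Agent.S16.helper64.exists_hom_of_sq_cube s r hs hr
  exact ⟨φ, h1, h2⟩

/-- **S16 [B3].** For `p` prime, every additive character `ψ : Γ₀(p) → ℤ/n` which kills all
elements of trace `t` with `t ^ 2 ≤ 4` (i.e. `± 1`, elliptic and parabolic elements) is the
reduction mod `n` of a parabolic character `Γ₀(p) → ℤ`. -/
theorem exists_parabolic_lift (p : ℕ) [Fact p.Prime] (n : ℕ)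
    (ψ : Additive (Gamma0 p) →+ ZMod n)
    (hψ : ∀ γ : Gamma0 p,
      ((γ : SL(2, ℤ)) : Matrix (Fin 2) (Fin 2) ℤ).trace ^ 2 ≤ 4 → ψ (Additive.ofMul γ) = 0) :
    ∃ ψ' : Additive (Gamma0 p) →+ ℤ,
      IsParabolicHom (Gamma0 p) ψ' ∧ ∀ γ, ((ψ' γ : ℤ) : ZMod n) = ψ γ :=
  exists_parabolic_lift_of_UP p hasUP n ψ hψ

end Fermat.Agent.S16.helper21
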