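import Fermat.Agent.S16.helper24_Eis
import Fermat.Agent.S16.helper16_Interface
import Fermat.Agent.S16.helper66_Upper

/-!
# S16 package [A0], part 2 (helper24): arithmetic of `σ'` and bridges

* `sigmaP_cast_eq` : my divisor-sum `sigmaP p k` equals `helper16.sigmaP p k`.
* `eisExists` : `helper66.EisExists p (helper16.sigmaP p)`.
* multiplicativity and prime-power recursions of `σ'` (eigenvalues `eisensteinSystem p`).
-/

set_option autoImplicit false

namespace Fermat.Agent.S16.helper24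

open UpperHalfPlane ModularForm CongruenceSubgroup
open scoped MatrixGroups ArithmeticFunction.sigma ArithmeticFunction.zeta

/-! ## Bridge to `helper16.sigmaP` -/

theorem sigmaP_cast_eq {p : ℕ} (hp : p.Prime) (k : ℕ) :
    ((sigmaP p k : ℕ) : ℤ) = helper16.sigmaP p k := by
  unfold helper16.sigmaP
  by_cases hpk : p ∣ k
  · obtain ⟨m, rfl⟩ := hpk
    rw [if_pos (dvd_mul_right p m), Nat.mul_div_cancel_left m hp.pos, sigma_eq_sigmaP_add hp m]
    push_cast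
    ring
  · rw [if_neg hpk, sigmaP_of_not_dvd hpk, sub_zero]

theorem helper16_sigmaP_nonneg {p : ℕ} (hp : p.Prime) (k : ℕ) : 0 ≤ helper16.sigmaP p k := by
  rw [← sigmaP_cast_eq hp]
  exact Int.natCast_nonneg _

/-- The Eisenstein series exists, in the shape consumed by `helper66` ([A8]). -/
theorem eisExists (p : ℕ) [Fact p.Prime] : helper66.EisExists p (helper16.sigmaP p) := by
  refine ⟨eisForm p, qExpansion_eisForm_coeff_zero p, fun k hk => ?_⟩
  rw [qExpansion_eisForm_coeff_of_pos p hk, ← sigmaP_cast_eq Fact.out]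
  push_cast
  rfl

theorem qCoeff_eisForm_of_pos' (p : ℕ) [Fact p.Prime] {k : ℕ} (hk : 1 ≤ k) :
    ModularFormClass.qCoeff (eisForm p) k = ((helper16.sigmaP p k : ℤ) : ℂ) := by
  rw [qCoeff_eisForm_of_pos p hk, ← sigmaP_cast_eq Fact.out]
  push_cast
  rfl

/-! ## Multiplicativity -/

/-- The completely multiplicative function `d ↦ d` if `p ∤ d`, `0` otherwise. -/
def idP (p : ℕ) : ArithmeticFunction ℕ :=
  ⟨fun d => if p ∣ d then 0 else d, by simp⟩

lemma idP_apply (p d : ℕ) : idP p d = if p ∣ d then 0 else d := rfl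

lemma isMultiplicative_idP {p : ℕ} (hp : p.Prime) : (idP p).IsMultiplicative := by
  refine ⟨?_, fun {m n} _ => ?_⟩
  · simp [idP_apply, hp.one_lt.ne']
  · simp only [idP_apply, hp.dvd_mul]
    by_cases hm : p ∣ m <;> by_cases hn : p ∣ n <;> simp [hm, hn]

lemma sigmaP_eq_idP_mul_zeta (p n : ℕ) : sigmaP p n = (idP p * ζ) n := by
  rw [ArithmeticFunction.mul_zeta_apply, sigmaP, Finset.sum_filter]
  refine Finset.sum_congr rfl fun d _ => ?_
  rw [idP_apply]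
  by_cases h : p ∣ d <;> simp [h]

theorem sigmaP_mul_of_coprime {p : ℕ} (hp : p.Prime) {m n : ℕ} (h : m.Coprime n) :
    sigmaP p (m * n) = sigmaP p m * sigmaP p n := by
  simp only [sigmaP_eq_idP_mul_zeta]
  exact ((isMultiplicative_idP hp).mul ArithmeticFunction.isMultiplicative_zeta).map_mul_of_coprime h

/-! ## The prime `p` -/

theorem sigmaP_mul_self {p : ℕ} (hp : p.Prime) (n : ℕ) : sigmaP p (p * n) = sigmaP p n := by
  rcases Nat.eq_zero_or_pos n with rfl | hn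
  · simp
  unfold sigmaP
  refine Finset.sum_congr ?_ fun _ _ => rfl
  ext d
  simp only [Finset.mem_filter, Nat.mem_divisors]
  constructor
  · rintro ⟨⟨hd, _⟩, hpd⟩
    refine ⟨⟨?_, hn.ne'⟩, hpd⟩
    have hcop : Nat.Coprime d p := ((Nat.Prime.coprime_iff_not_dvd hp).mpr hpd).symm
    exact hcop.dvd_of_dvd_mul_left hd
  · rintro ⟨⟨hd, _⟩, hpd⟩
    exact ⟨⟨hd.mul_left p, Nat.mul_ne_zero hp.ne_zero hn.ne'⟩, hpd⟩

theorem sigmaP_self_pow {p : ℕ} (hp : p.Prime) (r : ℕ) : sigmaP p (p ^ r) = 1 := by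
  induction r with
  | zero => simpa using sigmaP_one hp
  | succ r ih => rw [pow_succ', sigmaP_mul_self hp, ih]

theorem sigmaP_self {p : ℕ} (hp : p.Prime) : sigmaP p p = 1 := by
  simpa using sigmaP_self_pow hp 1

/-! ## Primes `ℓ ≠ p` -/

theorem sigmaP_prime_pow {p ℓ : ℕ} (hp : p.Prime) (hℓ : ℓ.Prime) (hne : ℓ ≠ p) (r : ℕ) :
    sigmaP p (ℓ ^ r) = ∑ k ∈ Finset.range (r + 1), ℓ ^ k := by
  have h : ¬ p ∣ ℓ ^ r := fun hd =>
    hne ((Nat.prime_dvd_prime_iff_eq hp hℓ).mp (hp.dvd_of_dvd_pow hd)).symm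
  rw [sigmaP_of_not_dvd h, ArithmeticFunction.sigma_one_apply_prime_pow hℓ]

theorem sigmaP_prime {p ℓ : ℕ} (hp : p.Prime) (hℓ : ℓ.Prime) (hne : ℓ ≠ p) :
    sigmaP p ℓ = 1 + ℓ := by
  have := sigmaP_prime_pow hp hℓ hne 1
  simpa [Finset.sum_range_succ] using this

theorem sigmaP_prime_pow_succ_succ {p ℓ : ℕ} (hp : p.Prime) (hℓ : ℓ.Prime) (hne : ℓ ≠ p)
    (r : ℕ) :
    sigmaP p (ℓ ^ (r + 2)) + ℓ * sigmaP p (ℓ ^ r) = sigmaP p ℓ * sigmaP p (ℓ ^ (r + 1)) := by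
  rw [sigmaP_prime hp hℓ hne, sigmaP_prime_pow hp hℓ hne, sigmaP_prime_pow hp hℓ hne,
    sigmaP_prime_pow hp hℓ hne, Finset.sum_range_succ _ (r + 2), Finset.sum_range_succ _ (r + 1)]
  ring

/-! ## The same statements for `helper16.sigmaP` (values in `ℤ`) -/

theorem h16_sigmaP_one {p : ℕ} (hp : p.Prime) : helper16.sigmaP p 1 = 1 := by
  rw [← sigmaP_cast_eq hp, sigmaP_one hp]; rfl

theorem h16_sigmaP_mul_of_coprime {p : ℕ} (hp : p.Prime) {m n : ℕ} (h : m.Coprime n) :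
    helper16.sigmaP p (m * n) = helper16.sigmaP p m * helper16.sigmaP p n := by
  rw [← sigmaP_cast_eq hp, ← sigmaP_cast_eq hp, ← sigmaP_cast_eq hp, sigmaP_mul_of_coprime hp h]
  push_cast; rfl

theorem h16_sigmaP_mul_self {p : ℕ} (hp : p.Prime) (n : ℕ) :
    helper16.sigmaP p (p * n) = helper16.sigmaP p n := by
  rw [← sigmaP_cast_eq hp, ← sigmaP_cast_eq hp, sigmaP_mul_self hp]

theorem h16_sigmaP_self_pow {p : ℕ} (hp : p.Prime) (r : ℕ) : helper16.sigmaP p (p ^ r) = 1 := by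
  rw [← sigmaP_cast_eq hp, sigmaP_self_pow hp]; rfl

theorem h16_sigmaP_self {p : ℕ} (hp : p.Prime) : helper16.sigmaP p p = 1 := by
  rw [← sigmaP_cast_eq hp, sigmaP_self hp]; rfl

theorem h16_sigmaP_prime {p ℓ : ℕ} (hp : p.Prime) (hℓ : ℓ.Prime) (hne : ℓ ≠ p) :
    helper16.sigmaP p ℓ = 1 + ℓ := by
  rw [← sigmaP_cast_eq hp, sigmaP_prime hp hℓ hne]; push_cast; rfl

theorem h16_sigmaP_prime_pow_succ_succ {p ℓ : ℕ} (hp : p.Prime) (hℓ : ℓ.Prime) (hne : ℓ ≠ p)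
    (r : ℕ) :
    helper16.sigmaP p (ℓ ^ (r + 2)) =
      helper16.sigmaP p ℓ * helper16.sigmaP p (ℓ ^ (r + 1)) - ℓ * helper16.sigmaP p (ℓ ^ r) := by
  have h := sigmaP_prime_pow_succ_succ hp hℓ hne r
  have h' := congrArg (Nat.cast : ℕ → ℤ) h
  push_cast at h'
  rw [sigmaP_cast_eq hp, sigmaP_cast_eq hp, sigmaP_cast_eq hp, sigmaP_cast_eq hp] at h'
  linarith

/-- The eigenvalue of `σ'` at a prime is the Eisenstein system of the Prelude. -/
theorem h16_sigmaP_eq_eisensteinSystem {p : ℕ} (hp : p.Prime) (ℓ : Nat.Primes) :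
    helper16.sigmaP p ℓ = ModularCurve.eisensteinSystem p ℓ := by
  by_cases h : (ℓ : ℕ) ∣ p
  · have hℓp : (ℓ : ℕ) = p := (Nat.prime_dvd_prime_iff_eq ℓ.2 hp).mp h
    rw [ModularCurve.eisensteinSystem_of_dvd h, hℓp, h16_sigmaP_self hp]
  · have hne : (ℓ : ℕ) ≠ p := fun e => h (e ▸ dvd_rfl)
    rw [ModularCurve.eisensteinSystem_of_not_dvd h, h16_sigmaP_prime hp ℓ.2 hne]

end Fermat.Agent.S16.helper24
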