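import Mathlib
import Fermat.Agent.S23.LevelOne

/-!
# S16-[A2] (helper25): the level-one valence / Sturm bound "modulo an additive subgroup"

For a level-one modular form `f` of weight `k` and ANY additive subgroup `I` of `ℂ`
(e.g. `I = ℓ • O` for a subring `O` of `ℂ`): if the `q`-expansion coefficients `a_n(f)` lie in
`I` for all `n ≤ k / 12`, then all coefficients lie in `I`.

(Equivalently: every coefficient of `f` is an integral linear combination of the first
`⌊k/12⌋ + 1` coefficients - the Victor Miller basis has integral `q`-expansions.)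

Main statements: `sturm_mod_levelOne_nat`, `sturm_mod_levelOne`, and the corollaries
`sturm_mod_subring` (`I = ℓ • O`) and `coeff_mem_of_le` (`I` = a subring).
-/

set_option autoImplicit false

open UpperHalfPlane ModularForm ModularFormClass EisensteinSeries
open scoped MatrixGroups

namespace Fermat.Agent.S16.helper25

open Fermat.Agent.S23 (IsIntSeries isIntSeries_iff e4Int e6Int deltaInt qExpansion_E₄
  qExpansion_E₆ qExpansion_discriminant_eq_map coeff_sigmaSeries_zero)

/-! ### integer series times a series with coefficients in `I` -/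

theorem intCast_mul_mem (I : AddSubgroup ℂ) (a : ℤ) {x : ℂ} (hx : x ∈ I) : (a : ℂ) * x ∈ I := by
  have h := I.zsmul_mem hx a
  rwa [zsmul_eq_mul] at h

theorem mul_intCast_mem (I : AddSubgroup ℂ) (a : ℤ) {x : ℂ} (hx : x ∈ I) : x * (a : ℂ) ∈ I := by
  rw [mul_comm]
  exact intCast_mul_mem I a hx

/-- the `n`-th coefficient of `a * s` (`a` an integer series) lies in `I` as soon as the
coefficients `s_i`, `i ≤ n`, do -/
theorem coeff_int_mul_mem (I : AddSubgroup ℂ) (a : PowerSeries ℤ) (s : PowerSeries ℂ) (n : ℕ)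
    (hs : ∀ i ≤ n, s.coeff i ∈ I) : ((a.map (Int.castRingHom ℂ)) * s).coeff n ∈ I := by
  rw [PowerSeries.coeff_mul]
  refine I.sum_mem (fun ij hij => ?_)
  rw [PowerSeries.coeff_map]
  have h2 : ij.2 ≤ n := by
    have := Finset.HasAntidiagonal.mem_antidiagonal.mp hij
    omega
  exact intCast_mul_mem I _ (hs _ h2)

/-! ### the integral series `Δ / q` and its inverse -/

theorem coeff_zero_deltaInt : deltaInt.coeff 0 = 0 := by
  have h : (qExpansion 1 ModularForm.discriminant).coeff 0 = 0 := by
    have := discriminant_qExpansion_order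
    exact PowerSeries.coeff_of_lt_order 0 (by rw [this]; exact zero_lt_one)
  rw [qExpansion_discriminant_eq_map, PowerSeries.coeff_map, eq_intCast] at h
  exact_mod_cast h

theorem coeff_one_deltaInt : deltaInt.coeff 1 = 1 := by
  have h : (qExpansion 1 ModularForm.discriminant).coeff 1 = 1 :=
    discriminant_qExpansion_coeff_one
  rw [qExpansion_discriminant_eq_map, PowerSeries.coeff_map, eq_intCast] at h
  exact_mod_cast h

/-- there is an integral power series `w` with `Δ * w = q` -/
theorem exists_deltaInt_mul_eq_X : ∃ w : PowerSeries ℤ, deltaInt * w = PowerSeries.X := by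
  set v : PowerSeries ℤ := PowerSeries.mk fun n => deltaInt.coeff (n + 1) with hv
  have hXv : deltaInt = PowerSeries.X * v := by
    ext n
    cases n with
    | zero => simp [coeff_zero_deltaInt]
    | succ n =>
      rw [PowerSeries.coeff_succ_X_mul, hv, PowerSeries.coeff_mk]
  have hv0 : PowerSeries.constantCoeff v = ((1 : ℤˣ) : ℤ) := by
    rw [← PowerSeries.coeff_zero_eq_constantCoeff_apply, hv, PowerSeries.coeff_mk]
    simpa using coeff_one_deltaInt
  refine ⟨PowerSeries.invOfUnit v 1, ?_⟩
  rw [hXv, mul_assoc, PowerSeries.mul_invOfUnit v 1 hv0, mul_one]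

/-! ### integral forms with constant term `1` in every admissible weight -/

theorem isIntSeries_E₄ : IsIntSeries (qExpansion 1 E₄) := ⟨e4Int, qExpansion_E₄⟩

theorem isIntSeries_E₆ : IsIntSeries (qExpansion 1 E₆) := ⟨e6Int, qExpansion_E₆⟩

theorem constantCoeff_sigmaSeries (k : ℕ) :
    PowerSeries.constantCoeff (Fermat.Agent.S23.sigmaSeries k) = 0 := by
  rw [← PowerSeries.coeff_zero_eq_constantCoeff_apply]
  exact coeff_sigmaSeries_zero k

theorem coeff_zero_E₄ : (qExpansion 1 E₄).coeff 0 = 1 := by
  rw [qExpansion_E₄, PowerSeries.coeff_map, e4Int]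
  simp [constantCoeff_sigmaSeries]

theorem coeff_zero_E₆ : (qExpansion 1 E₆).coeff 0 = 1 := by
  rw [qExpansion_E₆, PowerSeries.coeff_map, e6Int]
  simp [constantCoeff_sigmaSeries]

theorem qExpansion_mcast {a b : ℤ} (h : a = b) (f : ModularForm 𝒮ℒ a) :
    qExpansion 1 (ModularForm.mcast h f : ModularForm 𝒮ℒ b) = qExpansion 1 f := rfl

/-- for every even weight `k ≠ 2` there is a level-one form with integral `q`-expansion and
constant term `1` (a monomial `E₄^a E₆^b`) -/
theorem exists_int_form : ∀ (k : ℕ), Even k → k ≠ 2 →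
    ∃ F : ModularForm 𝒮ℒ (k : ℤ), IsIntSeries (qExpansion 1 F) ∧ (qExpansion 1 F).coeff 0 = 1 := by
  intro k
  induction k using Nat.strong_induction_on with
  | _ k ih =>
    intro hk hk2
    rcases Nat.lt_or_ge k 8 with h8 | h8
    · have hcases : k = 0 ∨ k = 4 ∨ k = 6 := by
        rcases hk with ⟨r, hr⟩
        omega
      rcases hcases with rfl | rfl | rfl
      · refine ⟨ModularForm.mcast (by norm_num) (1 : ModularForm 𝒮ℒ 0), ?_, ?_⟩
        · rw [qExpansion_mcast, ModularForm.qExpansion_one]
          exact IsIntSeries.one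
        · rw [qExpansion_mcast, ModularForm.qExpansion_one]
          simp
      · exact ⟨ModularForm.mcast (by norm_num) E₄, by rw [qExpansion_mcast]; exact isIntSeries_E₄,
          by rw [qExpansion_mcast]; exact coeff_zero_E₄⟩
      · exact ⟨ModularForm.mcast (by norm_num) E₆, by rw [qExpansion_mcast]; exact isIntSeries_E₆,
          by rw [qExpansion_mcast]; exact coeff_zero_E₆⟩
    · have hk4 : Even (k - 4) := by
        rcases hk with ⟨r, hr⟩
        exact ⟨r - 2, by omega⟩
      obtain ⟨F', hF'int, hF'0⟩ := ih (k - 4) (by omega) hk4 (by omega)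
      have hw : ((k - 4 : ℕ) : ℤ) + 4 = (k : ℤ) := by
        have : 4 ≤ k := by omega
        push_cast [Nat.cast_sub this]
        ring
      refine ⟨ModularForm.mcast hw (F'.mul E₄), ?_, ?_⟩
      · rw [qExpansion_mcast, ModularForm.qExpansion_mul one_pos one_mem_strictPeriods_SL]
        exact hF'int.mul isIntSeries_E₄
      · rw [qExpansion_mcast, ModularForm.qExpansion_mul one_pos one_mem_strictPeriods_SL,
          PowerSeries.coeff_mul]
        simp [hF'0, coeff_zero_E₄]

/-! ### the main theorem -/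

theorem qExpansion_eq_zero_of_eq_zero {k : ℤ} {f : ModularForm 𝒮ℒ k} (hf : f = 0) :
    qExpansion 1 f = 0 := by
  rw [hf]
  exact qExpansion_zero 1

/-- **Valence / Sturm bound modulo an additive subgroup, natural weight.** -/
theorem sturm_mod_levelOne_nat (I : AddSubgroup ℂ) : ∀ (k : ℕ) (f : ModularForm 𝒮ℒ (k : ℤ)),
    (∀ n ≤ k / 12, (qExpansion 1 f).coeff n ∈ I) → ∀ n, (qExpansion 1 f).coeff n ∈ I := by
  intro k
  induction k using Nat.strong_induction_on with
  | _ k ih =>
    intro f hlow
    -- trivial cases: `f = 0`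
    have hzero : f = 0 → ∀ n, (qExpansion 1 f).coeff n ∈ I := by
      intro hf n
      rw [qExpansion_eq_zero_of_eq_zero hf, map_zero]
      exact I.zero_mem
    rcases Nat.even_or_odd k with hk | hk
    swap
    · exact hzero (ModularForm.levelOne_odd_weight_eq_zero (by exact_mod_cast hk) f)
    by_cases hk2 : k = 2
    · subst hk2
      exact hzero (rank_zero_iff_forall_zero.mp ModularForm.levelOne_weight_two_rank_zero f)
    obtain ⟨F, ⟨Fi, hFi⟩, hF0⟩ := exists_int_form k hk hk2
    set a₀ : ℂ := (qExpansion 1 f).coeff 0 with ha₀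
    have ha₀I : a₀ ∈ I := hlow 0 (Nat.zero_le _)
    -- `g = f - a₀ F` is a cusp form
    set g : ModularForm 𝒮ℒ (k : ℤ) := f - a₀ • F with hg
    have hqg : qExpansion 1 g = qExpansion 1 f - a₀ • qExpansion 1 F := by
      rw [hg, FunLike.coe_sub, ModularForm.qExpansion_sub one_pos one_mem_strictPeriods_SL,
        FunLike.coe_smul, ModularForm.qExpansion_smul one_pos one_mem_strictPeriods_SL]
    have hFn : ∀ n, (a₀ • qExpansion 1 F).coeff n ∈ I := by
      intro n
      rw [PowerSeries.coeff_smul, hFi, PowerSeries.coeff_map, smul_eq_mul]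
      exact mul_intCast_mem I _ ha₀I
    have hgf : ∀ n, (qExpansion 1 g).coeff n ∈ I ↔ (qExpansion 1 f).coeff n ∈ I := by
      intro n
      rw [hqg, map_sub]
      constructor
      · intro h
        have := I.add_mem h (hFn n)
        simpa using this
      · intro h
        exact I.sub_mem h (hFn n)
    have hg0 : (qExpansion 1 g).coeff 0 = 0 := by
      rw [hqg, map_sub, PowerSeries.coeff_smul, hF0, smul_eq_mul, mul_one, ← ha₀, sub_self]
    -- divide by `Δ`
    set h : ModularForm 𝒮ℒ ((k : ℤ) - 12) := CuspForm.discriminantEquiv (toCuspForm g hg0)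
      with hh
    have hqgh : qExpansion 1 g = qExpansion 1 ModularForm.discriminant * qExpansion 1 h :=
      qExpansion_eq_qExpansion_discriminant_mul g hg0
    rw [qExpansion_discriminant_eq_map] at hqgh
    obtain ⟨w, hw⟩ := exists_deltaInt_mul_eq_X
    have hXh : PowerSeries.X * qExpansion 1 h = (w.map (Int.castRingHom ℂ)) * qExpansion 1 g := by
      rw [hqgh, ← mul_assoc, ← map_mul, mul_comm w, hw, PowerSeries.map_X]
    have hhn : ∀ n, (∀ i ≤ n + 1, (qExpansion 1 g).coeff i ∈ I) →
        (qExpansion 1 h).coeff n ∈ I := by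
      intro n hi
      have := coeff_int_mul_mem I w (qExpansion 1 g) (n + 1) hi
      rwa [← hXh, PowerSeries.coeff_succ_X_mul] at this
    -- all coefficients of `h` lie in `I`
    have hhall : ∀ n, (qExpansion 1 h).coeff n ∈ I := by
      rcases Nat.lt_or_ge k 12 with hk12 | hk12
      · have h0 : h = 0 :=
          rank_zero_iff_forall_zero.mp (ModularForm.levelOne_neg_weight_rank_zero (by omega)) h
        intro n
        rw [qExpansion_eq_zero_of_eq_zero h0, map_zero]
        exact I.zero_mem
      · have hw' : (k : ℤ) - 12 = ((k - 12 : ℕ) : ℤ) := by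
          push_cast [Nat.cast_sub hk12]
          ring
        have := ih (k - 12) (by omega) (ModularForm.mcast hw' h) (by
          intro n hn
          rw [qExpansion_mcast]
          refine hhn n (fun i hi => (hgf i).mpr (hlow i ?_))
          omega)
        intro n
        have h2 := this n
        rwa [qExpansion_mcast] at h2
    intro n
    rw [← hgf n, hqgh]
    exact coeff_int_mul_mem I deltaInt (qExpansion 1 h) n (fun i _ => hhall i)

/-- **Valence / Sturm bound modulo an additive subgroup** for level-one forms of integral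
weight: if `a_n(f) ∈ I` for all `n ≤ k / 12` then `a_n(f) ∈ I` for all `n`. -/
theorem sturm_mod_levelOne (I : AddSubgroup ℂ) {k : ℤ} (f : ModularForm 𝒮ℒ k)
    (hlow : ∀ n ≤ k.toNat / 12, (qExpansion 1 f).coeff n ∈ I) :
    ∀ n, (qExpansion 1 f).coeff n ∈ I := by
  rcases lt_or_ge k 0 with hk | hk
  · have h0 : f = 0 :=
      rank_zero_iff_forall_zero.mp (ModularForm.levelOne_neg_weight_rank_zero hk) f
    intro n
    rw [qExpansion_eq_zero_of_eq_zero h0, map_zero]
    exact I.zero_mem
  · have hw : k = ((k.toNat : ℕ) : ℤ) := (Int.toNat_of_nonneg hk).symm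
    intro n
    have := sturm_mod_levelOne_nat I k.toNat (ModularForm.mcast hw f) (by
      intro m hm
      rw [qExpansion_mcast]
      exact hlow m hm) n
    rwa [qExpansion_mcast] at this

/-! ### corollaries in the shapes used by the consumers -/

/-- the additive subgroup `ℓ • O` of a subring `O` of `ℂ` -/
def mulSubgroup (O : Subring ℂ) (ℓ : ℂ) : AddSubgroup ℂ where
  carrier := {x | ∃ y ∈ O, x = ℓ * y}
  zero_mem' := ⟨0, O.zero_mem, by simp⟩
  add_mem' := by
    rintro _ _ ⟨y, hy, rfl⟩ ⟨y', hy', rfl⟩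
    exact ⟨y + y', O.add_mem hy hy', by ring⟩
  neg_mem' := by
    rintro _ ⟨y, hy, rfl⟩
    exact ⟨-y, O.neg_mem hy, by ring⟩

theorem mem_mulSubgroup {O : Subring ℂ} {ℓ x : ℂ} :
    x ∈ mulSubgroup O ℓ ↔ ∃ y ∈ O, x = ℓ * y := Iff.rfl

/-- **Sturm bound mod `ℓ` over `O`**: if `a_n(f) ∈ ℓ O` for `n ≤ k / 12`, then for all `n`. -/
theorem sturm_mod_subring (O : Subring ℂ) (ℓ : ℂ) {k : ℤ} (f : ModularForm 𝒮ℒ k)
    (hlow : ∀ n ≤ k.toNat / 12, ∃ y ∈ O, (qExpansion 1 f).coeff n = ℓ * y) :
    ∀ n, ∃ y ∈ O, (qExpansion 1 f).coeff n = ℓ * y :=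
  sturm_mod_levelOne (mulSubgroup O ℓ) f hlow

/-- integrality from the first coefficients: if `a_n(f) ∈ O` for `n ≤ k / 12` then for all `n` -/
theorem coeff_mem_of_le (O : Subring ℂ) {k : ℤ} (f : ModularForm 𝒮ℒ k)
    (hlow : ∀ n ≤ k.toNat / 12, (qExpansion 1 f).coeff n ∈ O) :
    ∀ n, (qExpansion 1 f).coeff n ∈ O :=
  sturm_mod_levelOne O.toAddSubgroup f hlow

/-- a level-one form whose first `⌊k/12⌋ + 1` coefficients vanish is zero on the level of
`q`-expansions (the case `I = 0`) -/
theorem qExpansion_eq_zero_of_le {k : ℤ} (f : ModularForm 𝒮ℒ k)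
    (hlow : ∀ n ≤ k.toNat / 12, (qExpansion 1 f).coeff n = 0) : qExpansion 1 f = 0 := by
  ext n
  have := sturm_mod_levelOne ⊥ f (fun m hm => by rw [AddSubgroup.mem_bot]; exact hlow m hm) n
  rw [AddSubgroup.mem_bot] at this
  rw [this, map_zero]

end Fermat.Agent.S16.helper25
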