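import Mathlib

/-!
# S16, packages [A4] and [A5] (helper5): power-series consequences of the identity (I4)

Setting (blueprint S16): `F`, `Ft` are the `q`-expansions of a weight-2 form on `Γ₀(p)` and of its
Fricke partner, so `F = U_p Ft`, `Ft = U_p F` and
`(I4)  p F² + U_p (Ft²) = (p+1) a₀(F)² E₄`  (and the same with `F`, `Ft` exchanged).
Everything here is pure algebra on formal power series.

* `core_U3a`, `core_U2a`, `core_U2b` : over any commutative ring `R` in which `l` is neither a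
  zero divisor nor a unit, for `F = a + L h`, `Ft = a + L ht` (`a` a unit);
* `no_cong_U3a`, `no_cong_U2a`, `no_cong_U2b` : the same for power series over a field `K` of
  characteristic zero whose coefficients lie in a subring `O` not containing `1/l`;
* `dvd_of_I4` : `m ∣ 5 (p+1) (p-1)²` from the coefficient of `q` in (I4);
* `no_cong_U3a_E4`, `no_cong_U2a_E4`, `no_cong_U2b_E4`, `dvd_of_I4_E4` : the same over `ℂ`, with
  the hypotheses in the shape produced by the `[A1]` package (indices `n * p`, coefficients of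
  Mathlib's `E₄`).
-/

set_option autoImplicit false

namespace Fermat.Agent.S16.helper5

open PowerSeries Finset

section Frob

variable {S : Type*} [CommRing S]

/-- In a ring where `2 = 0`, the coefficients of a square are the squares of the coefficients
(at even indices). -/
lemma coeff_sq_of_two_eq_zero (h2 : (2 : S) = 0) (f : PowerSeries S) (n : ℕ) :
    coeff n (f ^ 2) = if 2 ∣ n then (coeff (n / 2) f) ^ 2 else 0 := by
  classical
  rw [pow_two, coeff_mul]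
  rw [← Finset.sum_filter_add_sum_filter_not (antidiagonal n) (fun x : ℕ × ℕ => x.1 = x.2)]
  have hoff : ∑ x ∈ (antidiagonal n).filter (fun x : ℕ × ℕ => ¬ x.1 = x.2),
      coeff x.1 f * coeff x.2 f = 0 := by
    refine Finset.sum_involution (fun x _ => x.swap) ?_ ?_ ?_ ?_
    · intro x _
      simp only [Prod.fst_swap, Prod.snd_swap]
      rw [mul_comm (coeff x.2 f), ← two_mul, h2, zero_mul]
    · intro x hx _ hswap
      rw [Finset.mem_filter] at hx
      apply hx.2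
      have := congrArg Prod.fst hswap
      simpa using this.symm
    · intro x hx
      rw [Finset.mem_filter] at hx ⊢
      refine ⟨by simpa [add_comm] using hx.1, fun h => hx.2 ?_⟩
      simpa using h.symm
    · intro x _
      simp
  rw [hoff, add_zero]
  split_ifs with hn
  · obtain ⟨k, rfl⟩ := hn
    have : (antidiagonal (2 * k)).filter (fun x : ℕ × ℕ => x.1 = x.2) = {(k, k)} := by
      ext ⟨i, j⟩
      simp only [Finset.mem_filter, HasAntidiagonal.mem_antidiagonal, Finset.mem_singleton,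
        Prod.mk.injEq]
      constructor
      · rintro ⟨h1, h2⟩; subst h2; omega
      · rintro ⟨rfl, rfl⟩; omega
    rw [this, Finset.sum_singleton]
    simp [pow_two]
  · have : (antidiagonal n).filter (fun x : ℕ × ℕ => x.1 = x.2) = ∅ := by
      ext ⟨i, j⟩
      simp only [Finset.mem_filter, HasAntidiagonal.mem_antidiagonal, Finset.notMem_empty,
        iff_false, not_and]
      intro h1 h2
      subst h2
      exact hn ⟨i, by omega⟩
    rw [this, Finset.sum_empty]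

end Frob

section Core

variable {R : Type*} [CommRing R]

/-- expansion of the coefficients of `(a + L h)²` in positive degree -/
lemma coeff_sq_expand (a L : R) (h : PowerSeries R) (n : ℕ) (hn : 1 ≤ n) :
    coeff n ((C a + C L * h) ^ 2) = 2 * a * L * coeff n h + L ^ 2 * coeff n (h ^ 2) := by
  have h1 : (C a + C L * h) ^ 2 = C (a ^ 2) + C (2 * a * L) * h + C (L ^ 2) * h ^ 2 := by
    simp only [map_mul, map_pow, map_ofNat]
    ring
  rw [h1, map_add, map_add, coeff_C_mul, coeff_C_mul, coeff_C, if_neg (by omega), zero_add]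

/-- the basic identity `(*)`: consequence of `(I4)` for `F = a + L h`, `Ft = a + L ht`,
`h = U_p ht`. -/
lemma star_identity (p : ℕ) (hp : 1 ≤ p) (a L : R) (h ht : PowerSeries R)
    (hU : ∀ n, coeff n h = coeff (p * n) ht) (s : R) (n : ℕ) (hn : 1 ≤ n)
    (I4 : (p : R) * coeff n ((C a + C L * h) ^ 2) + coeff (p * n) ((C a + C L * ht) ^ 2) =
      ((p : R) + 1) * a ^ 2 * (240 * s)) :
    2 * a * L * ((p : R) + 1) * coeff n h +
      L ^ 2 * ((p : R) * coeff n (h ^ 2) + coeff (p * n) (ht ^ 2)) =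
      240 * ((p : R) + 1) * a ^ 2 * s := by
  have hpn : 1 ≤ p * n := Nat.one_le_iff_ne_zero.2 (Nat.mul_ne_zero (by omega) (by omega))
  rw [coeff_sq_expand a L h n hn, coeff_sq_expand a L ht (p * n) hpn, ← hU n] at I4
  linear_combination I4

/-- multiplication by a power of a non-zero-divisor is injective -/
lemma cancel_pow {l : R} (hl : ∀ x : R, l * x = 0 → x = 0) (k : ℕ) {x y : R}
    (h : l ^ k * x = l ^ k * y) : x = y := by
  induction k with
  | zero => simpa using h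
  | succ k ih =>
    apply ih
    have : l * (l ^ k * x - l ^ k * y) = 0 := by
      rw [pow_succ] at h
      linear_combination h
    have := hl _ this
    linear_combination this

/-- an integer coprime to `l` can be cancelled in divisibility by `l` -/
lemma dvd_of_dvd_intCast_mul {l : ℕ} {c : ℤ} (hc : IsCoprime c (l : ℤ)) {x : R}
    (h : (l : R) ∣ (c : R) * x) : (l : R) ∣ x := by
  obtain ⟨u, v, huv⟩ := hc
  obtain ⟨y, hy⟩ := h
  refine ⟨(u : R) * y + (v : R) * x, ?_⟩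
  have h1 : ((u * c + v * l : ℤ) : R) = 1 := by rw [huv]; simp
  push_cast at h1
  linear_combination (-x) * h1 + (u : R) * hy

/-- The final mismatch: `h ≡ c a σ₃`, `ht ≡ c a σ₃` modulo `l` and `h₁ = ht_p` are incompatible
for a prime `p ≠ l`. -/
lemma mismatch (l p : ℕ) (hp : p.Prime) (hlp : Nat.Coprime l p) (c : ℤ)
    (hc : IsCoprime c (l : ℤ)) (hl : ¬ IsUnit (l : R)) (a : R) (ha : IsUnit a)
    (h1 htp : R)
    (H1 : (l : R) ∣ a * h1 - (c : R) * a ^ 2 * ((ArithmeticFunction.sigma 3 1 : ℕ) : R))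
    (H2 : (l : R) ∣ a * htp - (c : R) * a ^ 2 * ((ArithmeticFunction.sigma 3 p : ℕ) : R))
    (h1p : h1 = htp) : False := by
  subst h1p
  have hs1 : ArithmeticFunction.sigma 3 1 = 1 := by simp
  have hsp : ArithmeticFunction.sigma 3 p = 1 + p ^ 3 := by
    rw [ArithmeticFunction.sigma_apply, hp.divisors]
    rw [Finset.sum_pair hp.one_lt.ne]
    simp
  rw [hs1] at H1
  rw [hsp] at H2
  have h3 : (l : R) ∣ ((c * (p : ℤ) ^ 3 : ℤ) : R) * a ^ 2 := by
    have := dvd_sub H1 H2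
    push_cast at this ⊢
    convert this using 1
    ring
  have hcp : IsCoprime (c * (p : ℤ) ^ 3) (l : ℤ) := by
    refine IsCoprime.mul_left hc (IsCoprime.pow_left ?_)
    exact (Nat.isCoprime_iff_coprime.2 hlp.symm)
  have h4 := dvd_of_dvd_intCast_mul hcp h3
  exact hl (isUnit_of_dvd_unit h4 (ha.pow 2))


open ArithmeticFunction in
/-- **(U3a)** core form: `p ≡ 1 mod 3`, `F = a + 3h`, `Ft = a + 3ht`. -/
theorem core_U3a (h3 : ∀ x : R, (3 : R) * x = 0 → x = 0) (h3u : ¬ IsUnit (3 : R))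
    (p : ℕ) (hp : p.Prime) (hp3 : p % 3 = 1) (a : R) (ha : IsUnit a) (h ht : PowerSeries R)
    (hU : ∀ n, coeff n h = coeff (p * n) ht) (hU' : ∀ n, coeff n ht = coeff (p * n) h)
    (I4 : ∀ n, 1 ≤ n →
      (p : R) * coeff n ((C a + C 3 * h) ^ 2) + coeff (p * n) ((C a + C 3 * ht) ^ 2) =
        ((p : R) + 1) * a ^ 2 * (240 * ((sigma 3 n : ℕ) : R)))
    (I4' : ∀ n, 1 ≤ n →
      (p : R) * coeff n ((C a + C 3 * ht) ^ 2) + coeff (p * n) ((C a + C 3 * h) ^ 2) =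
        ((p : R) + 1) * a ^ 2 * (240 * ((sigma 3 n : ℕ) : R))) : False := by
  have key : ∀ (h ht : PowerSeries R), (∀ n, coeff n h = coeff (p * n) ht) →
      (∀ n, 1 ≤ n →
        (p : R) * coeff n ((C a + C 3 * h) ^ 2) + coeff (p * n) ((C a + C 3 * ht) ^ 2) =
          ((p : R) + 1) * a ^ 2 * (240 * ((sigma 3 n : ℕ) : R))) →
      ∀ n, 1 ≤ n → ((3 : ℕ) : R) ∣ a * coeff n h - ((40 : ℤ) : R) * a ^ 2 * ((sigma 3 n : ℕ) : R) := by
    intro h ht hU I4 n hn
    have hs := star_identity p hp.one_le a 3 h ht hU _ n hn (I4 n hn)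
    have h1 : (3 : R) ^ 1 * (2 * ((p : R) + 1) * (a * coeff n h - 40 * a ^ 2 * ((sigma 3 n : ℕ) : R)))
        = (3 : R) ^ 1 * (-(3 * ((p : R) * coeff n (h ^ 2) + coeff (p * n) (ht ^ 2)))) := by
      linear_combination hs
    have h2 := cancel_pow h3 1 h1
    have hcop : IsCoprime (2 * ((p : ℤ) + 1)) ((3 : ℕ) : ℤ) := by
      obtain ⟨k, hk⟩ : ∃ k, p = 3 * k + 1 := ⟨p / 3, by omega⟩
      refine ⟨1, -(2 * (k : ℤ) + 1), ?_⟩
      rw [hk]
      push_cast
      ring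
    apply dvd_of_dvd_intCast_mul hcop
    refine ⟨-((p : R) * coeff n (h ^ 2) + coeff (p * n) (ht ^ 2)), ?_⟩
    push_cast
    linear_combination h2
  have hlp : Nat.Coprime 3 p := by
    rw [Nat.coprime_primes Nat.prime_three hp]
    rintro rfl
    omega
  refine mismatch (R := R) 3 p hp hlp 40 (by norm_num) (by simpa using h3u) a ha
    (coeff 1 h) (coeff p ht) (key h ht hU I4 1 le_rfl) (key ht h hU' I4' p hp.one_le) ?_
  simpa using hU 1


/-- Frobenius congruence: for `p` odd and `h = U_p ht`, `p (h²)_n + (ht²)_{pn} ≡ 0 mod 2`. -/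
lemma two_dvd_sq_add_sq (p : ℕ) (hp : p % 2 = 1) (h ht : PowerSeries R)
    (hU : ∀ n, coeff n h = coeff (p * n) ht) (n : ℕ) :
    ((2 : ℕ) : R) ∣ (p : R) * coeff n (h ^ 2) + coeff (p * n) (ht ^ 2) := by
  set I : Ideal R := Ideal.span {((2 : ℕ) : R)} with hI
  rw [← Ideal.mem_span_singleton, ← hI, ← Ideal.Quotient.eq_zero_iff_mem]
  have h2 : (2 : R ⧸ I) = 0 := by
    have : (Ideal.Quotient.mk I) ((2 : ℕ) : R) = 0 := by
      rw [Ideal.Quotient.eq_zero_iff_mem, hI]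
      exact Ideal.mem_span_singleton_self _
    rwa [Nat.cast_ofNat, map_ofNat] at this
  have hpbar : ((p : ℕ) : R ⧸ I) = 1 := by
    obtain ⟨k, hk⟩ : ∃ k, p = 2 * k + 1 := ⟨p / 2, by omega⟩
    rw [hk]
    push_cast
    rw [h2, zero_mul, zero_add]
  rw [map_add, map_mul, map_natCast, hpbar, one_mul]
  rw [← coeff_map, ← coeff_map, map_pow (PowerSeries.map (Ideal.Quotient.mk I)) h,
    map_pow (PowerSeries.map (Ideal.Quotient.mk I)) ht, coeff_sq_of_two_eq_zero h2,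
    coeff_sq_of_two_eq_zero h2]
  by_cases hn : 2 ∣ n
  · have hpn : 2 ∣ p * n := Dvd.dvd.mul_left hn p
    rw [if_pos hn, if_pos hpn]
    obtain ⟨m, rfl⟩ := hn
    have e1 : 2 * m / 2 = m := by omega
    have e2 : p * (2 * m) / 2 = p * m := by
      rw [show p * (2 * m) = 2 * (p * m) by ring]
      omega
    rw [e1, e2, coeff_map, coeff_map, hU m, ← two_mul, h2, zero_mul]
  · have hpn : ¬ 2 ∣ p * n := by
      intro hd
      rcases (Nat.Prime.dvd_mul Nat.prime_two).1 hd with h' | h'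
      · omega
      · exact hn h'
    rw [if_neg hn, if_neg hpn, add_zero]

open ArithmeticFunction in
/-- the key congruence for `l = 2`, `F = a + 8h`, when `p + 1 = 2^(j+1) w` with `w` odd and `j ≤ 1`:
here `j = 1` (`p ≡ 3 mod 8`). -/
lemma key_two_b (h2 : ∀ x : R, (2 : R) * x = 0 → x = 0)
    (p : ℕ) (hp : p.Prime) (hp8 : p % 8 = 3) (a : R) (h ht : PowerSeries R)
    (hU : ∀ n, coeff n h = coeff (p * n) ht)
    (I4 : ∀ n, 1 ≤ n →
      (p : R) * coeff n ((C a + C 8 * h) ^ 2) + coeff (p * n) ((C a + C 8 * ht) ^ 2) =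
        ((p : R) + 1) * a ^ 2 * (240 * ((sigma 3 n : ℕ) : R)))
    (n : ℕ) (hn : 1 ≤ n) :
    ((2 : ℕ) : R) ∣ a * coeff n h - ((15 : ℤ) : R) * a ^ 2 * ((sigma 3 n : ℕ) : R) := by
  have hs := star_identity p hp.one_le a 8 h ht hU _ n hn (I4 n hn)
  obtain ⟨k, hk⟩ : ∃ k, p = 8 * k + 3 := ⟨p / 8, by omega⟩
  have hp1 : (p : R) + 1 = 4 * (2 * (k : R) + 1) := by
    rw [hk]; push_cast; ring
  obtain ⟨y, hy⟩ := two_dvd_sq_add_sq p (by omega) h ht hU n
  have h1 : (2 : R) ^ 6 * ((2 * (k : R) + 1) *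
      (a * coeff n h - 15 * a ^ 2 * ((sigma 3 n : ℕ) : R)))
        = (2 : R) ^ 6 * (-((p : R) * coeff n (h ^ 2) + coeff (p * n) (ht ^ 2))) := by
    rw [hp1] at hs
    linear_combination hs
  have h3 := cancel_pow h2 6 h1
  have hcop : IsCoprime (2 * (k : ℤ) + 1) ((2 : ℕ) : ℤ) := ⟨1, -(k : ℤ), by push_cast; ring⟩
  apply dvd_of_dvd_intCast_mul hcop
  refine ⟨-y, ?_⟩
  push_cast at hy ⊢
  linear_combination h3 - hy

open ArithmeticFunction in
/-- **(U2b), `p ≡ 3 mod 8`**, core form: `F = a + 8h`, `Ft = a + 8ht`. -/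
theorem core_U2b (h2 : ∀ x : R, (2 : R) * x = 0 → x = 0) (h2u : ¬ IsUnit (2 : R))
    (p : ℕ) (hp : p.Prime) (hp8 : p % 8 = 3) (a : R) (ha : IsUnit a) (h ht : PowerSeries R)
    (hU : ∀ n, coeff n h = coeff (p * n) ht) (hU' : ∀ n, coeff n ht = coeff (p * n) h)
    (I4 : ∀ n, 1 ≤ n →
      (p : R) * coeff n ((C a + C 8 * h) ^ 2) + coeff (p * n) ((C a + C 8 * ht) ^ 2) =
        ((p : R) + 1) * a ^ 2 * (240 * ((sigma 3 n : ℕ) : R)))
    (I4' : ∀ n, 1 ≤ n →
      (p : R) * coeff n ((C a + C 8 * ht) ^ 2) + coeff (p * n) ((C a + C 8 * h) ^ 2) =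
        ((p : R) + 1) * a ^ 2 * (240 * ((sigma 3 n : ℕ) : R))) : False := by
  have hlp : Nat.Coprime 2 p := by
    rw [Nat.coprime_primes Nat.prime_two hp]
    rintro rfl
    omega
  refine mismatch (R := R) 2 p hp hlp 15 (by norm_num) (by simpa using h2u) a ha
    (coeff 1 h) (coeff p ht) (key_two_b h2 p hp hp8 a h ht hU I4 1 le_rfl)
    (key_two_b h2 p hp hp8 a ht h hU' I4' p hp.one_le) ?_
  simpa using hU 1


open ArithmeticFunction in
/-- first stage of (U2a): `F = a + 4h` forces `h ≡ 0 mod 2`. -/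
lemma key_two_a1 (h2 : ∀ x : R, (2 : R) * x = 0 → x = 0)
    (p : ℕ) (hp : p.Prime) (hp4 : p % 4 = 1) (a : R) (ha : IsUnit a) (h ht : PowerSeries R)
    (hU : ∀ n, coeff n h = coeff (p * n) ht)
    (I4 : ∀ n, 1 ≤ n →
      (p : R) * coeff n ((C a + C 4 * h) ^ 2) + coeff (p * n) ((C a + C 4 * ht) ^ 2) =
        ((p : R) + 1) * a ^ 2 * (240 * ((sigma 3 n : ℕ) : R)))
    (n : ℕ) (hn : 1 ≤ n) : (2 : R) ∣ coeff n h := by
  have hs := star_identity p hp.one_le a 4 h ht hU _ n hn (I4 n hn)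
  obtain ⟨k, hk⟩ : ∃ k, p = 4 * k + 1 := ⟨p / 4, by omega⟩
  have hp1 : (p : R) + 1 = 2 * (2 * (k : R) + 1) := by
    rw [hk]; push_cast; ring
  obtain ⟨y, hy⟩ := two_dvd_sq_add_sq p (by omega) h ht hU n
  have h1 : (2 : R) ^ 4 * ((2 * (k : R) + 1) * (a * coeff n h))
        = (2 : R) ^ 4 * (-((p : R) * coeff n (h ^ 2) + coeff (p * n) (ht ^ 2))
          + 2 * (15 * (2 * (k : R) + 1) * a ^ 2 * ((sigma 3 n : ℕ) : R))) := by
    rw [hp1] at hs
    linear_combination hs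
  have h3 := cancel_pow h2 4 h1
  have hcop : IsCoprime (2 * (k : ℤ) + 1) ((2 : ℕ) : ℤ) := ⟨1, -(k : ℤ), by push_cast; ring⟩
  have h4 : ((2 : ℕ) : R) ∣ a * coeff n h := by
    apply dvd_of_dvd_intCast_mul hcop
    refine ⟨-y + 15 * (2 * (k : R) + 1) * a ^ 2 * ((sigma 3 n : ℕ) : R), ?_⟩
    push_cast at hy ⊢
    linear_combination h3 - hy
  obtain ⟨b, hb⟩ := ha.exists_left_inv
  obtain ⟨z, hz⟩ := h4
  refine ⟨b * z, ?_⟩
  push_cast at hz
  linear_combination (-(coeff n h)) * hb + b * hz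

open ArithmeticFunction in
/-- second stage of (U2a): `F = a + 8h`, `p ≡ 1 mod 4`. -/
lemma key_two_a2 (h2 : ∀ x : R, (2 : R) * x = 0 → x = 0)
    (p : ℕ) (hp : p.Prime) (hp4 : p % 4 = 1) (a : R) (h ht : PowerSeries R)
    (hU : ∀ n, coeff n h = coeff (p * n) ht)
    (I4 : ∀ n, 1 ≤ n →
      (p : R) * coeff n ((C a + C 8 * h) ^ 2) + coeff (p * n) ((C a + C 8 * ht) ^ 2) =
        ((p : R) + 1) * a ^ 2 * (240 * ((sigma 3 n : ℕ) : R)))
    (n : ℕ) (hn : 1 ≤ n) :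
    ((2 : ℕ) : R) ∣ a * coeff n h - ((15 : ℤ) : R) * a ^ 2 * ((sigma 3 n : ℕ) : R) := by
  have hs := star_identity p hp.one_le a 8 h ht hU _ n hn (I4 n hn)
  obtain ⟨k, hk⟩ : ∃ k, p = 4 * k + 1 := ⟨p / 4, by omega⟩
  have hp1 : (p : R) + 1 = 2 * (2 * (k : R) + 1) := by
    rw [hk]; push_cast; ring
  have h1 : (2 : R) ^ 5 * ((2 * (k : R) + 1) *
      (a * coeff n h - 15 * a ^ 2 * ((sigma 3 n : ℕ) : R)))
        = (2 : R) ^ 5 * (-(2 * ((p : R) * coeff n (h ^ 2) + coeff (p * n) (ht ^ 2)))) := by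
    rw [hp1] at hs
    linear_combination hs
  have h3 := cancel_pow h2 5 h1
  have hcop : IsCoprime (2 * (k : ℤ) + 1) ((2 : ℕ) : ℤ) := ⟨1, -(k : ℤ), by push_cast; ring⟩
  apply dvd_of_dvd_intCast_mul hcop
  refine ⟨-((p : R) * coeff n (h ^ 2) + coeff (p * n) (ht ^ 2)), ?_⟩
  push_cast
  linear_combination h3

open ArithmeticFunction in
/-- **(U2a)**, core form: `p ≡ 1 mod 4`, `F = a + 4h`, `Ft = a + 4ht` (with `h₀ = ht₀ = 0`). -/
theorem core_U2a (h2 : ∀ x : R, (2 : R) * x = 0 → x = 0) (h2u : ¬ IsUnit (2 : R))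
    (p : ℕ) (hp : p.Prime) (hp4 : p % 4 = 1) (a : R) (ha : IsUnit a) (h ht : PowerSeries R)
    (h0 : coeff 0 h = 0) (ht0 : coeff 0 ht = 0)
    (hU : ∀ n, coeff n h = coeff (p * n) ht) (hU' : ∀ n, coeff n ht = coeff (p * n) h)
    (I4 : ∀ n, 1 ≤ n →
      (p : R) * coeff n ((C a + C 4 * h) ^ 2) + coeff (p * n) ((C a + C 4 * ht) ^ 2) =
        ((p : R) + 1) * a ^ 2 * (240 * ((sigma 3 n : ℕ) : R)))
    (I4' : ∀ n, 1 ≤ n →
      (p : R) * coeff n ((C a + C 4 * ht) ^ 2) + coeff (p * n) ((C a + C 4 * h) ^ 2) =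
        ((p : R) + 1) * a ^ 2 * (240 * ((sigma 3 n : ℕ) : R))) : False := by
  classical
  have hd : ∀ n, (2 : R) ∣ coeff n h := by
    intro n
    rcases Nat.eq_zero_or_pos n with rfl | hn
    · rw [h0]; exact dvd_zero _
    · exact key_two_a1 h2 p hp hp4 a ha h ht hU I4 n hn
  have hdt : ∀ n, (2 : R) ∣ coeff n ht := by
    intro n
    rcases Nat.eq_zero_or_pos n with rfl | hn
    · rw [ht0]; exact dvd_zero _
    · exact key_two_a1 h2 p hp hp4 a ha ht h hU' I4' n hn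
  choose g hg using hd
  choose gt hgt using hdt
  set h' : PowerSeries R := PowerSeries.mk g with hh'
  set ht' : PowerSeries R := PowerSeries.mk gt with hht'
  have e1 : h = C 2 * h' := by
    ext n
    rw [coeff_C_mul, hh', coeff_mk, hg n]
  have e2 : ht = C 2 * ht' := by
    ext n
    rw [coeff_C_mul, hht', coeff_mk, hgt n]
  have e3 : ∀ x : PowerSeries R, C (4 : R) * (C 2 * x) = C 8 * x := by
    intro x
    rw [← mul_assoc, ← map_mul]
    norm_num
  have hU2 : ∀ n, coeff n h' = coeff (p * n) ht' := by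
    intro n
    have := hU n
    rw [e1, e2, coeff_C_mul, coeff_C_mul] at this
    have h5 : (2 : R) * (coeff n h' - coeff (p * n) ht') = 0 := by linear_combination this
    have := h2 _ h5
    linear_combination this
  have hU2' : ∀ n, coeff n ht' = coeff (p * n) h' := by
    intro n
    have := hU' n
    rw [e1, e2, coeff_C_mul, coeff_C_mul] at this
    have h5 : (2 : R) * (coeff n ht' - coeff (p * n) h') = 0 := by linear_combination this
    have := h2 _ h5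
    linear_combination this
  rw [e1, e2] at I4 I4'
  simp only [e3] at I4 I4'
  have hlp : Nat.Coprime 2 p := by
    rw [Nat.coprime_primes Nat.prime_two hp]
    rintro rfl
    omega
  refine mismatch (R := R) 2 p hp hlp 15 (by norm_num) (by simpa using h2u) a ha
    (coeff 1 h') (coeff p ht') (key_two_a2 h2 p hp hp4 a h' ht' hU2 I4 1 le_rfl)
    (key_two_a2 h2 p hp hp4 a ht' h' hU2' I4' p hp.one_le) ?_
  simpa using hU2 1


end Core

section Wrapper

variable {K : Type*} [Field K] [CharZero K]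

open ArithmeticFunction in
/-- Transfer of the data from power series over `K` with coefficients in the subring `O`
to power series over `O`. -/
lemma transfer (O : Subring K) (L : ℕ) (hL : L ≠ 0) (p : ℕ) (hp0 : p ≠ 0) (a : K) (haO : a ∈ O)
    (F Ft : PowerSeries K) (hF0 : coeff 0 F = a) (hFt0 : coeff 0 Ft = a)
    (hF : ∀ n, 1 ≤ n → ∃ x ∈ O, coeff n F = (L : K) * x)
    (hFt : ∀ n, 1 ≤ n → ∃ x ∈ O, coeff n Ft = (L : K) * x)
    (hU : ∀ n, coeff n F = coeff (p * n) Ft) (hU' : ∀ n, coeff n Ft = coeff (p * n) F)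
    (I4 : ∀ n, 1 ≤ n → (p : K) * coeff n (F ^ 2) + coeff (p * n) (Ft ^ 2) =
      ((p : K) + 1) * a ^ 2 * (240 * ((sigma 3 n : ℕ) : K)))
    (I4' : ∀ n, 1 ≤ n → (p : K) * coeff n (Ft ^ 2) + coeff (p * n) (F ^ 2) =
      ((p : K) + 1) * a ^ 2 * (240 * ((sigma 3 n : ℕ) : K))) :
    ∃ (h ht : PowerSeries O), coeff 0 h = 0 ∧ coeff 0 ht = 0 ∧
      (∀ n, coeff n h = coeff (p * n) ht) ∧ (∀ n, coeff n ht = coeff (p * n) h) ∧
      (∀ n, 1 ≤ n →
        (p : O) * coeff n ((C (⟨a, haO⟩ : O) + C (L : O) * h) ^ 2) +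
            coeff (p * n) ((C (⟨a, haO⟩ : O) + C (L : O) * ht) ^ 2) =
          ((p : O) + 1) * (⟨a, haO⟩ : O) ^ 2 * (240 * ((sigma 3 n : ℕ) : O))) ∧
      (∀ n, 1 ≤ n →
        (p : O) * coeff n ((C (⟨a, haO⟩ : O) + C (L : O) * ht) ^ 2) +
            coeff (p * n) ((C (⟨a, haO⟩ : O) + C (L : O) * h) ^ 2) =
          ((p : O) + 1) * (⟨a, haO⟩ : O) ^ 2 * (240 * ((sigma 3 n : ℕ) : O))) := by
  classical
  have hLK : (L : K) ≠ 0 := Nat.cast_ne_zero.2 hL
  -- witnesses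
  have hw : ∀ (G : PowerSeries K), (∀ n, 1 ≤ n → ∃ x ∈ O, coeff n G = (L : K) * x) →
      ∀ n : ℕ, ∃ x : O, 1 ≤ n → coeff n G = (L : K) * (x : K) := by
    intro G hG n
    by_cases hn : 1 ≤ n
    · obtain ⟨x, hx, hx'⟩ := hG n hn
      exact ⟨⟨x, hx⟩, fun _ => hx'⟩
    · exact ⟨0, fun h => absurd h hn⟩
  choose g hg using hw F hF
  choose gt hgt using hw Ft hFt
  set h : PowerSeries O := PowerSeries.mk (fun n => if n = 0 then 0 else g n) with hh
  set ht : PowerSeries O := PowerSeries.mk (fun n => if n = 0 then 0 else gt n) with hht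
  have mF : PowerSeries.map O.subtype (C (⟨a, haO⟩ : O) + C (L : O) * h) = F := by
    ext n
    rw [coeff_map, map_add, coeff_C_mul, coeff_C, hh, coeff_mk]
    rcases Nat.eq_zero_or_pos n with rfl | hn
    · simp [hF0]
    · rw [if_neg (by omega), if_neg (by omega), hg n hn]
      simp
  have mFt : PowerSeries.map O.subtype (C (⟨a, haO⟩ : O) + C (L : O) * ht) = Ft := by
    ext n
    rw [coeff_map, map_add, coeff_C_mul, coeff_C, hht, coeff_mk]
    rcases Nat.eq_zero_or_pos n with rfl | hn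
    · simp [hFt0]
    · rw [if_neg (by omega), if_neg (by omega), hgt n hn]
      simp
  have hinj : Function.Injective (O.subtype) := Subtype.val_injective
  have hUO : ∀ (G Gt : PowerSeries K) (γ γt : ℕ → O),
      (∀ n, 1 ≤ n → coeff n G = (L : K) * (γ n : K)) →
      (∀ n, 1 ≤ n → coeff n Gt = (L : K) * (γt n : K)) →
      (∀ n, coeff n G = coeff (p * n) Gt) →
      ∀ n, coeff n (PowerSeries.mk (fun n => if n = 0 then (0 : O) else γ n)) =
        coeff (p * n) (PowerSeries.mk (fun n => if n = 0 then (0 : O) else γt n)) := by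
    intro G Gt γ γt hγ hγt hGU n
    rw [coeff_mk, coeff_mk]
    rcases Nat.eq_zero_or_pos n with rfl | hn
    · simp
    · have hpn : 1 ≤ p * n := Nat.one_le_iff_ne_zero.2 (Nat.mul_ne_zero hp0 (by omega))
      rw [if_neg (by omega), if_neg (by omega)]
      apply hinj
      have := hGU n
      rw [hγ n hn, hγt (p * n) hpn] at this
      exact mul_left_cancel₀ hLK this
  have e240 : ((240 : O) : K) = 240 := map_ofNat O.subtype 240
  refine ⟨h, ht, by simp [hh], by simp [hht], hUO F Ft g gt hg hgt hU,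
    hUO Ft F gt g hgt hg hU', ?_, ?_⟩
  · intro n hn
    apply hinj
    have := I4 n hn
    rw [← mF, ← mFt] at this
    simp only [← map_pow, coeff_map] at this
    simpa [e240] using this
  · intro n hn
    apply hinj
    have := I4' n hn
    rw [← mF, ← mFt] at this
    simp only [← map_pow, coeff_map] at this
    simpa [e240] using this

omit [CharZero K] in
lemma subring_not_isUnit (O : Subring K) (l : ℕ) (hl : ((l : ℕ) : K)⁻¹ ∉ O) :
    ¬ IsUnit ((l : ℕ) : O) := by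
  intro hu
  obtain ⟨y, hy⟩ := hu.exists_right_inv
  apply hl
  have h1 : ((l : ℕ) : K) * (y : K) = 1 := by
    have := congrArg (O.subtype) hy
    simpa using this
  have : ((l : ℕ) : K)⁻¹ = (y : K) := inv_eq_of_mul_eq_one_right h1
  rw [this]
  exact y.2

omit [CharZero K] in
lemma subring_isUnit (O : Subring K) (a : K) (ha0 : a ≠ 0) (haO : a ∈ O) (haO' : a⁻¹ ∈ O) :
    IsUnit (⟨a, haO⟩ : O) := by
  refine IsUnit.of_mul_eq_one (⟨a⁻¹, haO'⟩ : O) ?_
  apply Subtype.ext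
  simp [ha0]

open ArithmeticFunction in
/-- **(U3a)**: `p ≡ 1 mod 3` prime. There are no power series `F = a + 3(…)`, `Ft = a + 3(…)`
with coefficients in a subring `O ∌ 1/3` (`a` a unit of `O`), `F = U_p Ft`, `Ft = U_p F`, satisfying
`(I4)`: `p F² + U_p (Ft²) = (p+1) a² E₄` and its companion. -/
theorem no_cong_U3a (O : Subring K) (h3 : (3 : K)⁻¹ ∉ O) (p : ℕ) (hp : p.Prime)
    (hp3 : p % 3 = 1) (a : K) (ha0 : a ≠ 0) (haO : a ∈ O) (haO' : a⁻¹ ∈ O)
    (F Ft : PowerSeries K) (hF0 : coeff 0 F = a) (hFt0 : coeff 0 Ft = a)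
    (hF : ∀ n, 1 ≤ n → ∃ x ∈ O, coeff n F = 3 * x)
    (hFt : ∀ n, 1 ≤ n → ∃ x ∈ O, coeff n Ft = 3 * x)
    (hU : ∀ n, coeff n F = coeff (p * n) Ft) (hU' : ∀ n, coeff n Ft = coeff (p * n) F)
    (I4 : ∀ n, 1 ≤ n → (p : K) * coeff n (F ^ 2) + coeff (p * n) (Ft ^ 2) =
      ((p : K) + 1) * a ^ 2 * (240 * ((sigma 3 n : ℕ) : K)))
    (I4' : ∀ n, 1 ≤ n → (p : K) * coeff n (Ft ^ 2) + coeff (p * n) (F ^ 2) =
      ((p : K) + 1) * a ^ 2 * (240 * ((sigma 3 n : ℕ) : K))) : False := by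
  obtain ⟨h, ht, -, -, hUO, hUO', J, J'⟩ := transfer O 3 (by norm_num) p hp.ne_zero a haO F Ft
    hF0 hFt0 (by simpa using hF) (by simpa using hFt) hU hU' I4 I4'
  refine core_U3a (R := O) (by simp)
    (by simpa using subring_not_isUnit O 3 (by simpa using h3)) p hp hp3 ⟨a, haO⟩
    (subring_isUnit O a ha0 haO haO') h ht hUO hUO' ?_ ?_
  · simpa using J
  · simpa using J'

open ArithmeticFunction in
/-- **(U2a)**: `p ≡ 1 mod 4` prime, `F ≡ Ft ≡ a mod 4`. -/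
theorem no_cong_U2a (O : Subring K) (h2 : (2 : K)⁻¹ ∉ O) (p : ℕ) (hp : p.Prime)
    (hp4 : p % 4 = 1) (a : K) (ha0 : a ≠ 0) (haO : a ∈ O) (haO' : a⁻¹ ∈ O)
    (F Ft : PowerSeries K) (hF0 : coeff 0 F = a) (hFt0 : coeff 0 Ft = a)
    (hF : ∀ n, 1 ≤ n → ∃ x ∈ O, coeff n F = 4 * x)
    (hFt : ∀ n, 1 ≤ n → ∃ x ∈ O, coeff n Ft = 4 * x)
    (hU : ∀ n, coeff n F = coeff (p * n) Ft) (hU' : ∀ n, coeff n Ft = coeff (p * n) F)
    (I4 : ∀ n, 1 ≤ n → (p : K) * coeff n (F ^ 2) + coeff (p * n) (Ft ^ 2) =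
      ((p : K) + 1) * a ^ 2 * (240 * ((sigma 3 n : ℕ) : K)))
    (I4' : ∀ n, 1 ≤ n → (p : K) * coeff n (Ft ^ 2) + coeff (p * n) (F ^ 2) =
      ((p : K) + 1) * a ^ 2 * (240 * ((sigma 3 n : ℕ) : K))) : False := by
  obtain ⟨h, ht, h0, ht0, hUO, hUO', J, J'⟩ := transfer O 4 (by norm_num) p hp.ne_zero a haO F Ft
    hF0 hFt0 (by simpa using hF) (by simpa using hFt) hU hU' I4 I4'
  refine core_U2a (R := O) (by simp)
    (by simpa using subring_not_isUnit O 2 (by simpa using h2)) p hp hp4 ⟨a, haO⟩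
    (subring_isUnit O a ha0 haO haO') h ht h0 ht0 hUO hUO' ?_ ?_
  · simpa using J
  · simpa using J'

open ArithmeticFunction in
/-- **(U2b) for `p ≡ 3 mod 8`** prime, `F ≡ Ft ≡ a mod 8`. -/
theorem no_cong_U2b (O : Subring K) (h2 : (2 : K)⁻¹ ∉ O) (p : ℕ) (hp : p.Prime)
    (hp8 : p % 8 = 3) (a : K) (ha0 : a ≠ 0) (haO : a ∈ O) (haO' : a⁻¹ ∈ O)
    (F Ft : PowerSeries K) (hF0 : coeff 0 F = a) (hFt0 : coeff 0 Ft = a)
    (hF : ∀ n, 1 ≤ n → ∃ x ∈ O, coeff n F = 8 * x)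
    (hFt : ∀ n, 1 ≤ n → ∃ x ∈ O, coeff n Ft = 8 * x)
    (hU : ∀ n, coeff n F = coeff (p * n) Ft) (hU' : ∀ n, coeff n Ft = coeff (p * n) F)
    (I4 : ∀ n, 1 ≤ n → (p : K) * coeff n (F ^ 2) + coeff (p * n) (Ft ^ 2) =
      ((p : K) + 1) * a ^ 2 * (240 * ((sigma 3 n : ℕ) : K)))
    (I4' : ∀ n, 1 ≤ n → (p : K) * coeff n (Ft ^ 2) + coeff (p * n) (F ^ 2) =
      ((p : K) + 1) * a ^ 2 * (240 * ((sigma 3 n : ℕ) : K))) : False := by
  obtain ⟨h, ht, -, -, hUO, hUO', J, J'⟩ := transfer O 8 (by norm_num) p hp.ne_zero a haO F Ft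
    hF0 hFt0 (by simpa using hF) (by simpa using hFt) hU hU' I4 I4'
  refine core_U2b (R := O) (by simp)
    (by simpa using subring_not_isUnit O 2 (by simpa using h2)) p hp hp8 ⟨a, haO⟩
    (subring_isUnit O a ha0 haO haO') h ht hUO hUO' ?_ ?_
  · simpa using J
  · simpa using J'

end Wrapper

section A4

variable {K : Type*} [Field K] [CharZero K]

/-- **[A4]**: the coefficient of `q` in `(I4)` for `f = c + m h`, `ft = c + m ht`
(`c = (p-1)/24`, `h`, `ht` integral, `h₁ = ht_p`) shows `m ∣ 5 (p+1) (p-1)²`. -/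
theorem dvd_of_I4 (p : ℕ) (hp : 2 ≤ p) (m : ℤ) (c : K) (hc : 24 * c = (p : K) - 1)
    (f ft : PowerSeries K) (hf0 : coeff 0 f = c) (hft0 : coeff 0 ft = c)
    (hf1 : ∃ z : ℤ, coeff 1 f = (m : K) * z)
    (hft : ∀ n, 1 ≤ n → n < p → ∃ z : ℤ, coeff n ft = (m : K) * z)
    (hU1 : coeff 1 f = coeff p ft)
    (I4 : (p : K) * coeff 1 (f ^ 2) + coeff p (ft ^ 2) = ((p : K) + 1) * c ^ 2 * 240) :
    m ∣ 5 * ((p : ℤ) + 1) * ((p : ℤ) - 1) ^ 2 := by
  classical
  obtain ⟨z1, hz1⟩ := hf1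
  obtain ⟨q, rfl⟩ : ∃ q, p = q + 2 := ⟨p - 2, by omega⟩
  -- integral witnesses for the middle coefficients
  have hw : ∀ n : ℕ, ∃ z : ℤ, 1 ≤ n → n < q + 2 → coeff n ft = (m : K) * z := by
    intro n
    by_cases h : 1 ≤ n ∧ n < q + 2
    · obtain ⟨z, hz⟩ := hft n h.1 h.2
      exact ⟨z, fun _ _ => hz⟩
    · exact ⟨0, fun h1 h2 => absurd ⟨h1, h2⟩ h⟩
  choose zt hzt using hw
  have e1 : coeff 1 (f ^ 2) = 2 * c * ((m : K) * z1) := by
    rw [pow_two, coeff_mul, Finset.Nat.sum_antidiagonal_eq_sum_range_succ_mk]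
    simp only [Finset.sum_range_succ, Finset.sum_range_zero, zero_add]
    simp [hf0, hz1]
    ring
  have e2 : coeff (q + 2) (ft ^ 2) = 2 * c * ((m : K) * z1) +
      (m : K) ^ 2 * ((∑ k ∈ Finset.range (q + 1), zt (k + 1) * zt (q + 1 - k) : ℤ) : K) := by
    rw [pow_two, coeff_mul, Finset.Nat.sum_antidiagonal_eq_sum_range_succ_mk,
      Finset.sum_range_succ, Finset.sum_range_succ']
    simp only [Nat.sub_self, Nat.sub_zero, hft0, ← hU1, hz1]
    have : ∑ k ∈ Finset.range (q + 1), coeff (k + 1) ft * coeff (q + 2 - (k + 1)) ft =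
        (m : K) ^ 2 * ((∑ k ∈ Finset.range (q + 1), zt (k + 1) * zt (q + 1 - k) : ℤ) : K) := by
      push_cast
      rw [Finset.mul_sum]
      refine Finset.sum_congr rfl fun k hk => ?_
      rw [Finset.mem_range] at hk
      rw [hzt (k + 1) (by omega) (by omega), hzt (q + 1 - k) (by omega) (by omega)]
      ring
    rw [this]
    ring
  rw [e1, e2] at I4
  set E : ℤ := ∑ k ∈ Finset.range (q + 1), zt (k + 1) * zt (q + 1 - k) with hE
  refine ⟨(((q + 2 : ℕ) : ℤ) ^ 2 - 1) * z1 + 12 * m * E, ?_⟩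
  have : ((5 * (((q + 2 : ℕ) : ℤ) + 1) * (((q + 2 : ℕ) : ℤ) - 1) ^ 2 : ℤ) : K) =
      ((m * ((((q + 2 : ℕ) : ℤ) ^ 2 - 1) * z1 + 12 * m * E) : ℤ) : K) := by
    push_cast
    push_cast at I4 hc
    have hc' : c = ((q : K) + 2 - 1) / 24 := by
      rw [← hc]; ring
    rw [hc'] at I4
    linear_combination (-12 : K) * I4
  exact_mod_cast this

end A4

section Final

open ModularForm EisensteinSeries UpperHalfPlane

/-- the `q`-expansion of `E₄` in positive degree -/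
lemma E4_coeff (n : ℕ) (hn : 1 ≤ n) :
    (qExpansion 1 E₄).coeff n = 240 * ((ArithmeticFunction.sigma 3 n : ℕ) : ℂ) := by
  have hb : bernoulli 4 = -1 / 30 := by
    rw [bernoulli_eq_bernoulli'_of_ne_one (by norm_num), bernoulli'_four]
  rw [E_qExpansion_coeff _ ⟨2, rfl⟩, if_neg (by omega), hb]
  norm_num


variable (O : Subring ℂ) (p : ℕ) (a : ℂ) (F Ft : PowerSeries ℂ)

/-- **(U3a)**, form adapted to the `[A1]` interface (`quad_identity_coeff`, `qCoeff_tilde`):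
`p ≡ 1 mod 3`, `F ≡ a mod 3 O`, `a` a unit of `O`, `1/3 ∉ O`. -/
theorem no_cong_U3a_E4 (h3 : (3 : ℂ)⁻¹ ∉ O) (hp : p.Prime) (hp3 : p % 3 = 1)
    (ha0 : a ≠ 0) (haO : a ∈ O) (haO' : a⁻¹ ∈ O) (hF0 : coeff 0 F = a)
    (hF : ∀ n, 1 ≤ n → ∃ x ∈ O, coeff n F = 3 * x)
    (hU : ∀ n, coeff n F = coeff (n * p) Ft) (hU' : ∀ n, coeff n Ft = coeff (n * p) F)
    (I4 : ∀ n, (p : ℂ) * coeff n (F ^ 2) + coeff (n * p) (Ft ^ 2) =
      ((p : ℂ) + 1) * a ^ 2 * (qExpansion 1 E₄).coeff n)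
    (I4' : ∀ n, (p : ℂ) * coeff n (Ft ^ 2) + coeff (n * p) (F ^ 2) =
      ((p : ℂ) + 1) * a ^ 2 * (qExpansion 1 E₄).coeff n) : False := by
  have hFt0 : coeff 0 Ft = a := by rw [hU' 0, zero_mul, hF0]
  have hFt : ∀ n, 1 ≤ n → ∃ x ∈ O, coeff n Ft = 3 * x := fun n hn => by
    rw [hU' n]
    exact hF (n * p) (Nat.one_le_iff_ne_zero.2 (Nat.mul_ne_zero (by omega) hp.ne_zero))
  refine no_cong_U3a O h3 p hp hp3 a ha0 haO haO' F Ft hF0 hFt0 hF hFt
    (fun n => by rw [hU n, mul_comm]) (fun n => by rw [hU' n, mul_comm])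
    (fun n hn => by rw [mul_comm p n, I4 n, E4_coeff n hn])
    (fun n hn => by rw [mul_comm p n, I4' n, E4_coeff n hn])

/-- **(U2a)**, form adapted to the `[A1]` interface: `p ≡ 1 mod 4`, `F ≡ a mod 4 O`. -/
theorem no_cong_U2a_E4 (h2 : (2 : ℂ)⁻¹ ∉ O) (hp : p.Prime) (hp4 : p % 4 = 1)
    (ha0 : a ≠ 0) (haO : a ∈ O) (haO' : a⁻¹ ∈ O) (hF0 : coeff 0 F = a)
    (hF : ∀ n, 1 ≤ n → ∃ x ∈ O, coeff n F = 4 * x)
    (hU : ∀ n, coeff n F = coeff (n * p) Ft) (hU' : ∀ n, coeff n Ft = coeff (n * p) F)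
    (I4 : ∀ n, (p : ℂ) * coeff n (F ^ 2) + coeff (n * p) (Ft ^ 2) =
      ((p : ℂ) + 1) * a ^ 2 * (qExpansion 1 E₄).coeff n)
    (I4' : ∀ n, (p : ℂ) * coeff n (Ft ^ 2) + coeff (n * p) (F ^ 2) =
      ((p : ℂ) + 1) * a ^ 2 * (qExpansion 1 E₄).coeff n) : False := by
  have hFt0 : coeff 0 Ft = a := by rw [hU' 0, zero_mul, hF0]
  have hFt : ∀ n, 1 ≤ n → ∃ x ∈ O, coeff n Ft = 4 * x := fun n hn => by
    rw [hU' n]
    exact hF (n * p) (Nat.one_le_iff_ne_zero.2 (Nat.mul_ne_zero (by omega) hp.ne_zero))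
  refine no_cong_U2a O h2 p hp hp4 a ha0 haO haO' F Ft hF0 hFt0 hF hFt
    (fun n => by rw [hU n, mul_comm]) (fun n => by rw [hU' n, mul_comm])
    (fun n hn => by rw [mul_comm p n, I4 n, E4_coeff n hn])
    (fun n hn => by rw [mul_comm p n, I4' n, E4_coeff n hn])

/-- **(U2b) for `p ≡ 3 mod 8`**, form adapted to the `[A1]` interface: `F ≡ a mod 8 O`. -/
theorem no_cong_U2b_E4 (h2 : (2 : ℂ)⁻¹ ∉ O) (hp : p.Prime) (hp8 : p % 8 = 3)
    (ha0 : a ≠ 0) (haO : a ∈ O) (haO' : a⁻¹ ∈ O) (hF0 : coeff 0 F = a)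
    (hF : ∀ n, 1 ≤ n → ∃ x ∈ O, coeff n F = 8 * x)
    (hU : ∀ n, coeff n F = coeff (n * p) Ft) (hU' : ∀ n, coeff n Ft = coeff (n * p) F)
    (I4 : ∀ n, (p : ℂ) * coeff n (F ^ 2) + coeff (n * p) (Ft ^ 2) =
      ((p : ℂ) + 1) * a ^ 2 * (qExpansion 1 E₄).coeff n)
    (I4' : ∀ n, (p : ℂ) * coeff n (Ft ^ 2) + coeff (n * p) (F ^ 2) =
      ((p : ℂ) + 1) * a ^ 2 * (qExpansion 1 E₄).coeff n) : False := by
  have hFt0 : coeff 0 Ft = a := by rw [hU' 0, zero_mul, hF0]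
  have hFt : ∀ n, 1 ≤ n → ∃ x ∈ O, coeff n Ft = 8 * x := fun n hn => by
    rw [hU' n]
    exact hF (n * p) (Nat.one_le_iff_ne_zero.2 (Nat.mul_ne_zero (by omega) hp.ne_zero))
  refine no_cong_U2b O h2 p hp hp8 a ha0 haO haO' F Ft hF0 hFt0 hF hFt
    (fun n => by rw [hU n, mul_comm]) (fun n => by rw [hU' n, mul_comm])
    (fun n hn => by rw [mul_comm p n, I4 n, E4_coeff n hn])
    (fun n hn => by rw [mul_comm p n, I4' n, E4_coeff n hn])

/-- **[A4]**, form adapted to the `[A1]` interface: `f = c + m h`, `24 c = p - 1`, `h` with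
integer coefficients; then `m ∣ 5 (p+1) (p-1)²` (in particular `m ≠ 0`). -/
theorem dvd_of_I4_E4 (hp : 2 ≤ p) (m : ℤ) (c : ℂ) (hc : 24 * c = (p : ℂ) - 1)
    (hF0 : coeff 0 F = c)
    (hF : ∀ n, 1 ≤ n → ∃ z : ℤ, coeff n F = (m : ℂ) * z)
    (hU : ∀ n, coeff n F = coeff (n * p) Ft) (hU' : ∀ n, coeff n Ft = coeff (n * p) F)
    (I4 : ∀ n, (p : ℂ) * coeff n (F ^ 2) + coeff (n * p) (Ft ^ 2) =
      ((p : ℂ) + 1) * c ^ 2 * (qExpansion 1 E₄).coeff n) :
    m ∣ 5 * ((p : ℤ) + 1) * ((p : ℤ) - 1) ^ 2 := by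
  have hp0 : p ≠ 0 := by omega
  have hFt0 : coeff 0 Ft = c := by rw [hU' 0, zero_mul, hF0]
  have hFt : ∀ n, 1 ≤ n → n < p → ∃ z : ℤ, coeff n Ft = (m : ℂ) * z := fun n hn _ => by
    rw [hU' n]
    exact hF (n * p) (Nat.one_le_iff_ne_zero.2 (Nat.mul_ne_zero (by omega) hp0))
  refine dvd_of_I4 p hp m c hc F Ft hF0 hFt0 (hF 1 le_rfl) hFt (by rw [hU 1, one_mul]) ?_
  have := I4 1
  rw [one_mul, E₄_qExpansion_coeff_one] at this
  exact this

end Final

end Fermat.Agent.S16.helper5
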