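import Fermat.Agent.S16.helper66_UpperFinal
import Fermat.Agent.S16.helper5_Glue
import Fermat.Agent.S16.helper58_U5
import Fermat.Agent.S16.helper58_U3b
import Fermat.Agent.S16.helper76_H8Final

/-!
# S16: the upper bound (A'), unconditional

`upperBound p : helper16.UpperBound p` for every prime `p`: assembly of
* step (a) and the mismatch cases (U3a), (U2a), (U2b, `p ≡ 3 mod 8`) (helper5, via [A1] helper41),
* (U5) and (U3b) (helper58, Serre-derivative/norm argument),
* (U2b, `p ≡ 7 mod 8`) (helper76, the H8 argument),
* the Eisenstein series (helper24) and the small primes (S20),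
through `upperBound_of_inputs`.
-/

set_option autoImplicit false

namespace Fermat.Agent.S16.helper66

/-- **The form-level upper bound (A') of the S16 blueprint, for every prime `p`.** -/
theorem upperBound (p : ℕ) [Fact p.Prime] : helper16.UpperBound p :=
  upperBound_of_inputs p
    (fun _ => helper5.stepA (p := p))
    (fun _ ℓ hℓ h5 hℓp => helper58.not_unitConst_ge_five p ℓ hℓ h5 hℓp)
    (fun _ h => helper5.not_unitConst_U3a (p := p) h)
    (fun _ h => helper58.not_unitConst_three p h)
    (fun _ h => helper5.not_unitConst_U2a (p := p) h)
    (fun _ h => helper5.not_unitConst_U2b (p := p) h)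
    (fun _ h => helper76.not_unitConst_two_three p h)

end Fermat.Agent.S16.helper66
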