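import Mathlib
import Fermat.Agent.S24.helper37_TExp
import Fermat.Agent.S16.helper85_DerivQExp
import Fermat.Agent.S16.helper58_PO
import Fermat.Agent.S16.helper24_Eis

/-!
# S16 [A6] (helper85), part 2: `D` and `E₂` in the ring `P_O`

* `IsNice N g → IsNice N (D g)` with the coefficient formula; `D` preserves `PO p ℓ` and
  `POI p ℓ s` when `p` is prime to `ℓ`.
* `E₂` is `1`-periodic nice with integral `q`-expansion `1 - 24 ∑ σ₁(n) qⁿ`; `E₂ ∈ PO p ℓ`.
* `psiFun = E₂² - E₄` (the function `ψ` of the norm congruence) is `1`-periodic nice.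
-/

set_option autoImplicit false

noncomputable section

open UpperHalfPlane hiding I
open Complex Filter Function Real
open scoped Topology Manifold ModularForm Derivative MatrixGroups

namespace Fermat.Agent.S16.helper85

open Fermat.Agent.S24.helper37 Fermat.Agent.S16.helper58

local notation "𝕢" => Periodic.qParam

/-! ## `D` on nice functions -/

section DNice

variable {N : ℕ} [NeZero N] {g : ℍ → ℂ}

theorem isNice_normalizedDeriv (hg : IsNice N g) : IsNice N (D g) where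
  per τ := by
    have h := periodic_normalizedDeriv (natCast_pos_real N) hg.periodic hg.mdiff hg.bdd (τ : ℂ)
    simp only [Function.comp_apply, ofComplex_apply] at h
    rw [← h]
    congr 1
    have him : 0 < ((τ : ℂ) + ((N : ℝ) : ℂ)).im := by simpa using τ.im_pos
    rw [ofComplex_apply_of_im_pos him]
    ext
    simp [add_comm]
  mdiff := Derivative.normalizedDerivOfComplex_mdifferentiable hg.mdiff
  bdd := isBoundedAtImInfty_normalizedDeriv (natCast_pos_real N) hg.periodic hg.mdiff hg.bdd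

theorem qExpansion_normalizedDeriv_of_isNice (hg : IsNice N g) (n : ℕ) :
    PowerSeries.coeff n (UpperHalfPlane.qExpansion (N : ℝ) (D g)) =
      (n : ℂ) / (N : ℂ) * PowerSeries.coeff n (UpperHalfPlane.qExpansion (N : ℝ) g) := by
  have := qExpansion_normalizedDeriv_coeff (natCast_pos_real N) hg.periodic hg.mdiff hg.bdd n
  simpa using this

end DNice

section DPO

variable {p ℓ : ℕ} [NeZero p] {g : ℍ → ℂ}

omit [NeZero p] in
theorem natCast_div_mem_OInt (hpℓ : Nat.Coprime p ℓ) (n : ℕ) : (n : ℂ) / (p : ℂ) ∈ OInt ℓ := by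
  rw [div_eq_mul_inv]
  exact Subring.mul_mem _ (OInt.natCast_mem ℓ n) (OInt.inv_natCast_mem hpℓ)

/-- `D` preserves `P_O` when `p` is prime to `ℓ`. -/
theorem normalizedDeriv_mem_PO (hpℓ : Nat.Coprime p ℓ) (hg : g ∈ PO p ℓ) : D g ∈ PO p ℓ := by
  refine ⟨isNice_normalizedDeriv hg.1, fun n => ?_⟩
  rw [qExpansion_normalizedDeriv_of_isNice hg.1]
  exact Subring.mul_mem _ (natCast_div_mem_OInt hpℓ n) (hg.2 n)

/-- `D` preserves `ℓ ^ s P_O` when `p` is prime to `ℓ`. -/
theorem normalizedDeriv_mem_POI (hpℓ : Nat.Coprime p ℓ) {s : ℕ} (hg : g ∈ POI p ℓ s) :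
    D g ∈ POI p ℓ s := by
  refine ⟨isNice_normalizedDeriv hg.1, fun n => ?_⟩
  rw [qExpansion_normalizedDeriv_of_isNice hg.1]
  exact ellO.mul_mem (natCast_div_mem_OInt hpℓ n) (hg.2 n)

end DPO

/-! ## `E₂` -/

open EisensteinSeries

theorem isNice_E2 : IsNice 1 E2 where
  per τ := by
    have h1 := helper24.hasSum_E2_qParam ((((1 : ℕ) : ℝ)) +ᵥ τ)
    have h2 := helper24.hasSum_E2_qParam τ
    have hq : 𝕢 (1 : ℝ) ((((((1 : ℕ) : ℝ)) +ᵥ τ : ℍ)) : ℂ) = 𝕢 (1 : ℝ) (τ : ℂ) := by
      have := qParam_vadd (N := 1) τ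
      simpa using this
    rw [hq] at h1
    exact h1.unique h2
  mdiff := E2_mdifferentiable
  bdd := isBoundedAtImInfty_E2

/-- the `q`-expansion of `E₂`. -/
theorem qExpansion_E2_coeff (n : ℕ) :
    PowerSeries.coeff n (UpperHalfPlane.qExpansion (1 : ℝ) E2) =
      if n = 0 then 1 else -24 * (ArithmeticFunction.sigma 1 n : ℂ) := by
  have h := isNice_E2.coeff_unique (c := helper24.cE2) (fun τ => by
    have := helper24.hasSum_E2_qParam τ
    simpa [smul_eq_mul] using this) n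
  simpa [helper24.cE2] using h.symm

theorem qExpansion_E2_coeff_zero :
    PowerSeries.coeff 0 (UpperHalfPlane.qExpansion (1 : ℝ) E2) = 1 := by
  rw [qExpansion_E2_coeff, if_pos rfl]

theorem qExpansion_E2_coeff_int (n : ℕ) :
    ∃ c : ℤ, PowerSeries.coeff n (UpperHalfPlane.qExpansion (1 : ℝ) E2) = (c : ℂ) := by
  rw [qExpansion_E2_coeff]
  split_ifs
  · exact ⟨1, by simp⟩
  · exact ⟨-24 * (ArithmeticFunction.sigma 1 n : ℤ), by push_cast; ring⟩

theorem E2_mem_PO (p ℓ : ℕ) [NeZero p] : E2 ∈ PO p ℓ := by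
  refine mem_PO_of_isNice_one isNice_E2 fun n => ?_
  obtain ⟨c, hc⟩ := qExpansion_E2_coeff_int n
  rw [hc]
  exact intCast_mem _ c

/-! ## `E₄` and `ψ = E₂² - E₄` -/

theorem isNice_E4 : IsNice 1 (⇑ModularForm.E₄ : ℍ → ℂ) := isNice_one_of_levelOne _

/-- the function `ψ = E₂² - E₄` of the norm congruence. -/
def psiFun : ℍ → ℂ := E2 * E2 - ⇑ModularForm.E₄

theorem isNice_psiFun : IsNice 1 psiFun :=
  isNice_sub (isNice_E2.mul isNice_E2) isNice_E4

theorem qExpansion_psiFun :
    UpperHalfPlane.qExpansion (1 : ℝ) psiFun =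
      UpperHalfPlane.qExpansion (1 : ℝ) E2 * UpperHalfPlane.qExpansion (1 : ℝ) E2 -
        UpperHalfPlane.qExpansion (1 : ℝ) (⇑ModularForm.E₄ : ℍ → ℂ) := by
  have h1 := qExpansion_sub_of_isNice (isNice_E2.mul isNice_E2) isNice_E4
  have h2 := isNice_E2.qExpansion_mul isNice_E2
  simp only [Nat.cast_one] at h1 h2
  rw [psiFun, h1, h2]

end Fermat.Agent.S16.helper85
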