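import Mathlib
import Fermat.Agent.S20.Defs
import Fermat.Agent.S24.helper37_TExp
import Fermat.Agent.S16.helper85_DerivQExp

/-!
# S16 [A6] (helper85), part 3: the Serre derivative of a modular form on `Γ₀(N)`

* `isNice_slash` : the conjugates `f ∣[k] γ`, `γ ∈ SL(2, ℤ)`, of a modular form on `Γ₀(N)` are
  holomorphic, `N`-periodic and bounded at `i∞`.
* `isMF_serreDerivative` : the Serre derivative of a form of weight `k` on `Γ₀(N)` is a form of
  weight `k + 2` on `Γ₀(N)` (boundedness at all cusps included).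
* `serreForm`, `serreFormExists` : the bundled versions.
-/

set_option autoImplicit false

noncomputable section

open UpperHalfPlane hiding I
open Filter Function Derivative
open CongruenceSubgroup hiding Gamma
open scoped Topology Manifold ModularForm Derivative MatrixGroups

namespace Fermat.Agent.S16.helper85

open Fermat.Agent.S24.helper37 (IsNice natCast_pos_real)
open Fermat.Agent.S20 (IsMF isMF_coe)

/-! ## periodicity of the conjugates -/

theorem T_pow_mem_Gamma (N : ℕ) : ModularGroup.T ^ N ∈ CongruenceSubgroup.Gamma N := by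
  have h := ModularGroup_T_pow_mem_Gamma (N : ℤ) (N : ℤ) dvd_rfl
  rw [zpow_natCast, Int.natAbs_natCast] at h
  exact h

theorem Gamma_le_Gamma0 (N : ℕ) : CongruenceSubgroup.Gamma N ≤ Gamma0 N := by
  intro γ hγ
  rw [Gamma_mem] at hγ
  rw [Gamma0_mem]
  exact hγ.2.2.1

theorem conj_T_pow_mem_Gamma0 (N : ℕ) (γ : SL(2, ℤ)) :
    γ * ModularGroup.T ^ N * γ⁻¹ ∈ Gamma0 N :=
  Gamma_le_Gamma0 N ((Gamma_normal N).conj_mem _ (T_pow_mem_Gamma N) γ)

theorem denom_T_pow (n : ℕ) (τ : ℍ) : denom (ModularGroup.T ^ n : SL(2, ℤ)) τ = 1 := by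
  have h := ModularGroup.coe_T_zpow (n : ℤ)
  rw [zpow_natCast] at h
  rw [ModularGroup.denom_apply]
  have h10 : (ModularGroup.T ^ n : SL(2, ℤ)) 1 0 = 0 := by
    have := congrFun (congrFun h 1) 0
    simpa using this
  have h11 : (ModularGroup.T ^ n : SL(2, ℤ)) 1 1 = 1 := by
    have := congrFun (congrFun h 1) 1
    simpa using this
  rw [h10, h11]
  simp

theorem slash_T_pow_apply (k : ℤ) (f : ℍ → ℂ) (n : ℕ) (τ : ℍ) :
    (f ∣[k] (ModularGroup.T ^ n : SL(2, ℤ))) τ = f ((n : ℝ) +ᵥ τ) := by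
  rw [ModularForm.SL_slash_apply, denom_T_pow, one_zpow, mul_one]
  have h := UpperHalfPlane.modular_T_zpow_smul τ (n : ℤ)
  rw [zpow_natCast] at h
  rw [h]
  simp

/-- the conjugates of a modular form on `Γ₀(N)` are `N`-periodic. -/
theorem slash_vadd_of_isMF {N : ℕ} {k : ℤ} {f : ℍ → ℂ}
    (hf : ∀ γ ∈ Gamma0 N, f ∣[k] γ = f) (γ : SL(2, ℤ)) (τ : ℍ) :
    (f ∣[k] γ) ((N : ℝ) +ᵥ τ) = (f ∣[k] γ) τ := by
  rw [← slash_T_pow_apply k (f ∣[k] γ) N τ, ← SlashAction.slash_mul]
  have h : γ * ModularGroup.T ^ N = (γ * ModularGroup.T ^ N * γ⁻¹) * γ := by group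
  rw [h, SlashAction.slash_mul, hf _ (conj_T_pow_mem_Gamma0 N γ)]

theorem isNice_slash {N : ℕ} {k : ℤ} {f : ℍ → ℂ} (hf : IsMF N k f) (γ : SL(2, ℤ)) :
    IsNice N (f ∣[k] γ) where
  per τ := slash_vadd_of_isMF hf.slash γ τ
  mdiff := by
    rw [ModularForm.SL_slash]
    exact hf.holo.slash k _
  bdd := hf.bdd γ

/-! ## the Serre derivative -/

open EisensteinSeries in
theorem isBoundedAtImInfty_serreDerivative {N : ℕ} [NeZero N] {g : ℍ → ℂ} (hg : IsNice N g)
    (k : ℂ) : IsBoundedAtImInfty (serreDerivative k g) := by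
  have h1 : IsBoundedAtImInfty (D g) :=
    isBoundedAtImInfty_normalizedDeriv (natCast_pos_real N) hg.periodic hg.mdiff hg.bdd
  have h2 : IsBoundedAtImInfty (fun z : ℍ => k * 12⁻¹ * E2 z * g z) := by
    have h3 : IsBoundedAtImInfty ((k * 12⁻¹) • (E2 * g)) :=
      (isBoundedAtImInfty_E2.mul hg.bdd).const_smul_left _
    convert h3 using 1
    funext z
    simp [mul_assoc]
  exact h1.sub h2

/-- the Serre derivative of a modular form of weight `k` on `Γ₀(N)` is a modular form of weight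
`k + 2` on `Γ₀(N)`. -/
theorem isMF_serreDerivative {N : ℕ} [NeZero N] {k : ℤ} {f : ℍ → ℂ} (hf : IsMF N k f) :
    IsMF N (k + 2) (serreDerivative k f) where
  slash γ hγ := serreDerivative_slash_invariant hf.holo (hf.slash γ hγ)
  holo := serreDerivative_mdifferentiable _ hf.holo
  bdd γ := by
    rw [serreDerivative_slash_equivariant hf.holo]
    exact isBoundedAtImInfty_serreDerivative (isNice_slash hf γ) _

/-- the Serre derivative of a modular form of weight `2` on `Γ₀(N)`, as a modular form of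
weight `4`. -/
def serreForm {N : ℕ} [NeZero N] (F : ModularForm (Gamma0 N) 2) : ModularForm (Gamma0 N) 4 :=
  IsMF.toModularForm (f := serreDerivative 2 (F : ℍ → ℂ)) (by
    have h := isMF_serreDerivative (isMF_coe F)
    have e : ((2 : ℤ) : ℂ) = 2 := by norm_num
    rw [e] at h
    exact h)

theorem coe_serreForm {N : ℕ} [NeZero N] (F : ModularForm (Gamma0 N) 2) :
    (serreForm F : ℍ → ℂ) = serreDerivative 2 (F : ℍ → ℂ) := rfl

/-- the shape consumed by `helper58` (task S16-[A6-4]). -/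
theorem serreFormExists (p : ℕ) [NeZero p] :
    ∀ F : ModularForm (CongruenceSubgroup.Gamma0 p) 2,
      ∃ W : ModularForm (CongruenceSubgroup.Gamma0 p) 4,
        (W : ℍ → ℂ) = serreDerivative 2 (F : ℍ → ℂ) :=
  fun F => ⟨serreForm F, coe_serreForm F⟩

end Fermat.Agent.S16.helper85
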