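import Mathlib
import Fermat.Agent.S24.helper37_TExp
import Fermat.Agent.S16.helper77_LevelOneSturm

/-!
# S16 / tool (d): the norm congruence, abstract core

`O` is a subring of `ℂ`, `J` an additive subgroup of `ℂ` contained in `O` and stable under
multiplication by `O` (think `O` = the `ℓ`-integral algebraic numbers, `J = ℓ O`).

* `NiceIn p A g`: `g : ℍ → ℂ` is holomorphic, `p`-periodic, bounded at `i∞` and all coefficients
  of its expansion in `t = q^{1/p}` lie in `A`.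
* `qExpansion_coeff_of_isNice_one`: the `t`-expansion of a `1`-periodic function.
* `norm_congruence_core`: a level-one form `N` of weight `k` with `k / 12 < p + 1` whose
  function is a product of `p + 1` functions `Y i`, each `≡ u i • ψ` modulo `J`, where `ψ` is a
  `1`-periodic function with `O`-integral `q`-expansion `ψ₁ q + …` and `(∏ u i) ψ₁^(p+1)` is a
  unit modulo `J`: impossible.
-/

set_option autoImplicit false
set_option linter.unusedSectionVars false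

noncomputable section

open UpperHalfPlane Filter Topology Function ModularForm ModularFormClass
open scoped MatrixGroups Manifold

namespace Fermat.Agent.S16.helper94

open Fermat.Agent.S24.helper37

local notation "𝕢" => Function.Periodic.qParam

/-! ## Power series with coefficients in `O` / `J` -/

theorem coeff_mul_mem_of_mem (O : Subring ℂ) (J : AddSubgroup ℂ)
    (hOJ : ∀ a ∈ O, ∀ x ∈ J, a * x ∈ J) {A B : PowerSeries ℂ}
    (hA : ∀ n, A.coeff n ∈ J) (hB : ∀ n, B.coeff n ∈ O) (n : ℕ) :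
    (A * B).coeff n ∈ J := by
  rw [PowerSeries.coeff_mul]
  refine J.sum_mem fun x _ => ?_
  rw [mul_comm]
  exact hOJ _ (hB _) _ (hA _)

theorem coeff_mul_mem_subring (O : Subring ℂ) {A B : PowerSeries ℂ}
    (hA : ∀ n, A.coeff n ∈ O) (hB : ∀ n, B.coeff n ∈ O) (n : ℕ) :
    (A * B).coeff n ∈ O := by
  rw [PowerSeries.coeff_mul]
  exact O.sum_mem fun x _ => O.mul_mem (hA _) (hB _)

/-- If `A` has zero constant term then `A ^ (m)` has no terms of degree `< m` and its coefficient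
of degree `m` is `A₁ ^ m`. -/
theorem coeff_pow_of_coeff_zero {A : PowerSeries ℂ} (hA : A.coeff 0 = 0) (m n : ℕ) (hn : n ≤ m) :
    (A ^ m).coeff n = if n = m then A.coeff 1 ^ m else 0 := by
  obtain ⟨B, rfl⟩ : PowerSeries.X ∣ A := by
    rw [PowerSeries.X_dvd_iff]
    simpa using hA
  rw [mul_pow, PowerSeries.coeff_X_pow_mul']
  have h1 : (PowerSeries.X * B).coeff 1 = B.coeff 0 := by
    simp
  split_ifs with h2 h3 h3
  · subst h3
    simp [h1, PowerSeries.coeff_zero_eq_constantCoeff]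
  · exact absurd (le_antisymm hn h2) h3
  · subst h3
    exact absurd le_rfl h2
  · rfl

/-! ## Nice functions with coefficients in a given set -/

/-- `g` is holomorphic, `p`-periodic, bounded at `i∞`, with all `q^{1/p}`-coefficients in `A`. -/
def NiceIn (p : ℕ) (A : Set ℂ) (g : ℍ → ℂ) : Prop :=
  IsNice p g ∧ ∀ n, (qExpansion (p : ℝ) g).coeff n ∈ A

section NiceIn

variable {p : ℕ} [NeZero p] (O : Subring ℂ) (J : AddSubgroup ℂ)

theorem NiceIn.mono {A B : Set ℂ} (hAB : A ⊆ B) {g : ℍ → ℂ} (hg : NiceIn p A g) :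
    NiceIn p B g :=
  ⟨hg.1, fun n => hAB (hg.2 n)⟩

theorem NiceIn.add_subgroup {g₁ g₂ : ℍ → ℂ} (h₁ : NiceIn p (J : Set ℂ) g₁)
    (h₂ : NiceIn p (J : Set ℂ) g₂) : NiceIn p (J : Set ℂ) (g₁ + g₂) := by
  refine ⟨h₁.1.add h₂.1, fun n => ?_⟩
  rw [IsNice.qExpansion_add h₁.1 h₂.1, map_add]
  exact J.add_mem (h₁.2 n) (h₂.2 n)

theorem NiceIn.add_subring {g₁ g₂ : ℍ → ℂ} (h₁ : NiceIn p (O : Set ℂ) g₁)
    (h₂ : NiceIn p (O : Set ℂ) g₂) : NiceIn p (O : Set ℂ) (g₁ + g₂) := by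
  refine ⟨h₁.1.add h₂.1, fun n => ?_⟩
  rw [IsNice.qExpansion_add h₁.1 h₂.1, map_add]
  exact O.add_mem (h₁.2 n) (h₂.2 n)

theorem NiceIn.mul_subring {g₁ g₂ : ℍ → ℂ} (h₁ : NiceIn p (O : Set ℂ) g₁)
    (h₂ : NiceIn p (O : Set ℂ) g₂) : NiceIn p (O : Set ℂ) (g₁ * g₂) := by
  refine ⟨h₁.1.mul h₂.1, fun n => ?_⟩
  rw [IsNice.qExpansion_mul h₁.1 h₂.1]
  exact coeff_mul_mem_subring O h₁.2 h₂.2 n

theorem NiceIn.mul_mem (hOJ : ∀ a ∈ O, ∀ x ∈ J, a * x ∈ J) {g₁ g₂ : ℍ → ℂ}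
    (h₁ : NiceIn p (J : Set ℂ) g₁) (h₂ : NiceIn p (O : Set ℂ) g₂) :
    NiceIn p (J : Set ℂ) (g₁ * g₂) := by
  refine ⟨h₁.1.mul h₂.1, fun n => ?_⟩
  rw [IsNice.qExpansion_mul h₁.1 h₂.1]
  exact coeff_mul_mem_of_mem O J hOJ h₁.2 h₂.2 n

theorem NiceIn.one_subring : NiceIn p (O : Set ℂ) (1 : ℍ → ℂ) := by
  have h1 : IsNice p (1 : ℍ → ℂ) := IsNice.const (N := p) 1
  refine ⟨h1, fun n => ?_⟩
  rw [UpperHalfPlane.qExpansion_one, PowerSeries.coeff_one]
  split_ifs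
  · exact O.one_mem
  · exact O.zero_mem

theorem isNice_smul {g : ℍ → ℂ} (hg : IsNice p g) (c : ℂ) : IsNice p (c • g) := by
  have h := (IsNice.const (N := p) c).mul hg
  have e : (c • g : ℍ → ℂ) = (fun _ : ℍ => c) * g := by
    funext τ
    simp
  rw [e]
  exact h

theorem NiceIn.smul_subring {g : ℍ → ℂ} {c : ℂ} (hc : c ∈ O) (hg : NiceIn p (O : Set ℂ) g) :
    NiceIn p (O : Set ℂ) (c • g) := by
  refine ⟨isNice_smul hg.1 c, fun n => ?_⟩
  rw [UpperHalfPlane.qExpansion_smul hg.1.analyticAt, PowerSeries.coeff_smul]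
  exact O.mul_mem hc (hg.2 n)

theorem NiceIn.zero_subgroup : NiceIn p (J : Set ℂ) (0 : ℍ → ℂ) := by
  have h1 : IsNice p (0 : ℍ → ℂ) := IsNice.const (N := p) 0
  refine ⟨h1, fun n => ?_⟩
  rw [(IsNice.qExpansion_eq_zero_iff h1).mpr rfl]
  simp

/-- Products of congruent families are congruent. -/
theorem NiceIn.prod_sub_prod (hJO : ∀ x ∈ J, x ∈ O) (hOJ : ∀ a ∈ O, ∀ x ∈ J, a * x ∈ J)
    {ι : Type*} [DecidableEq ι] (Y Z : ι → ℍ → ℂ) (s : Finset ι)
    (hZ : ∀ i ∈ s, NiceIn p (O : Set ℂ) (Z i))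
    (hYZ : ∀ i ∈ s, NiceIn p (J : Set ℂ) (Y i - Z i)) :
    NiceIn p (J : Set ℂ) (∏ i ∈ s, Y i - ∏ i ∈ s, Z i) ∧
      NiceIn p (O : Set ℂ) (∏ i ∈ s, Z i) ∧ NiceIn p (O : Set ℂ) (∏ i ∈ s, Y i) := by
  induction s using Finset.induction_on with
  | empty =>
    simp only [Finset.prod_empty, sub_self]
    exact ⟨NiceIn.zero_subgroup J, NiceIn.one_subring O, NiceIn.one_subring O⟩
  | insert a s ha ih =>
    obtain ⟨ih1, ih2, ih3⟩ := ih (fun i hi => hZ i (Finset.mem_insert_of_mem hi))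
      (fun i hi => hYZ i (Finset.mem_insert_of_mem hi))
    have hZa := hZ a (Finset.mem_insert_self a s)
    have hYZa := hYZ a (Finset.mem_insert_self a s)
    have hJO' : (J : Set ℂ) ⊆ (O : Set ℂ) := fun x hx => hJO x hx
    have hYa : NiceIn p (O : Set ℂ) (Y a) := by
      have := NiceIn.add_subring O hZa (hYZa.mono hJO')
      simpa using this
    rw [Finset.prod_insert ha, Finset.prod_insert ha]
    refine ⟨?_, NiceIn.mul_subring O hZa ih2, NiceIn.mul_subring O hYa ih3⟩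
    have e : Y a * ∏ i ∈ s, Y i - Z a * ∏ i ∈ s, Z i =
        (Y a - Z a) * ∏ i ∈ s, Y i + (∏ i ∈ s, Y i - ∏ i ∈ s, Z i) * Z a := by ring
    rw [e]
    exact NiceIn.add_subgroup J (NiceIn.mul_mem O J hOJ hYZa ih3) (NiceIn.mul_mem O J hOJ ih1 hZa)

end NiceIn

/-! ## Period change `1 → p` -/

section PeriodChange

variable {p : ℕ} [NeZero p]

theorem isNice_of_isNice_one {g : ℍ → ℂ} (hg : IsNice 1 g) : IsNice p g where
  per τ := by
    have h1 : ∀ (n : ℕ) (τ : ℍ), g (((n : ℕ) : ℝ) +ᵥ τ) = g τ := by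
      intro n
      induction n with
      | zero => intro τ; simp
      | succ n ih =>
        intro τ
        have e : (((n + 1 : ℕ) : ℝ) +ᵥ τ : ℍ) = (((1 : ℕ) : ℝ) +ᵥ (((n : ℕ) : ℝ) +ᵥ τ) : ℍ) := by
          ext
          simp [UpperHalfPlane.coe_vadd]
          ring
        rw [e, hg.per, ih]
    exact h1 p τ
  mdiff := hg.mdiff
  bdd := hg.bdd

theorem qParam_one_eq_pow (τ : ℂ) : 𝕢 ((1 : ℕ) : ℝ) τ = 𝕢 (p : ℝ) τ ^ p := by
  have hp : (p : ℂ) ≠ 0 := Nat.cast_ne_zero.mpr (NeZero.ne p)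
  simp only [Function.Periodic.qParam, ← Complex.exp_nat_mul]
  congr 1
  push_cast
  field_simp

/-- The `q^{1/p}`-expansion of a `1`-periodic function. -/
theorem qExpansion_coeff_of_isNice_one' {g : ℍ → ℂ} (hg : IsNice 1 g) (m : ℕ) :
    (qExpansion (p : ℝ) g).coeff m =
      if p ∣ m then (qExpansion ((1 : ℕ) : ℝ) g).coeff (m / p) else 0 := by
  have hp0 : p ≠ 0 := NeZero.ne p
  have hpp : 0 < p := Nat.pos_of_ne_zero hp0
  have hinj : Function.Injective (fun n : ℕ => p * n) := fun a b h =>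
    Nat.eq_of_mul_eq_mul_left hpp h
  set c : ℕ → ℂ := fun m => if p ∣ m then (qExpansion ((1 : ℕ) : ℝ) g).coeff (m / p) else 0
    with hc
  have hsum : ∀ τ : ℍ, HasSum (fun m : ℕ => c m * 𝕢 (p : ℝ) τ ^ m) (g τ) := by
    intro τ
    have h1 := hg.hasSum τ
    have h2 : (fun n : ℕ => (qExpansion ((1 : ℕ) : ℝ) g).coeff n * 𝕢 ((1 : ℕ) : ℝ) τ ^ n) =
        (fun m : ℕ => c m * 𝕢 (p : ℝ) τ ^ m) ∘ (fun n : ℕ => p * n) := by
      funext n
      simp only [Function.comp_apply, hc, dvd_mul_right, if_true, Nat.mul_div_cancel_left _ hpp]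
      rw [qParam_one_eq_pow (p := p), ← pow_mul]
    rw [h2] at h1
    refine (hinj.hasSum_iff ?_).mp h1
    intro m hm
    have : ¬ p ∣ m := by
      rintro ⟨n, rfl⟩
      exact hm ⟨n, rfl⟩
    simp [hc, this]
  exact (IsNice.coeff_unique (isNice_of_isNice_one hg) hsum m).symm

theorem qExpansion_coeff_mul_of_isNice_one {g : ℍ → ℂ} (hg : IsNice 1 g) (n : ℕ) :
    (qExpansion (p : ℝ) g).coeff (p * n) = (qExpansion (1 : ℝ) g).coeff n := by
  have hpp : 0 < p := Nat.pos_of_ne_zero (NeZero.ne p)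
  rw [qExpansion_coeff_of_isNice_one' hg, if_pos (dvd_mul_right _ _),
    Nat.mul_div_cancel_left _ hpp, Nat.cast_one]

end PeriodChange

/-- A level-one modular form is a nice `1`-periodic function. -/
theorem isNice_one_levelOne {k : ℤ} (N : ModularForm 𝒮ℒ k) : IsNice 1 (⇑N) where
  per τ := by
    rw [Nat.cast_one]
    exact SlashInvariantForm.vAdd_apply_of_mem_strictPeriods N τ one_mem_strictPeriods_SL
  mdiff := ModularFormClass.holo N
  bdd := ModularFormClass.bdd_at_infty N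

/-! ## The norm congruence -/

/-- **Tool (d), abstract core.** -/
theorem norm_congruence_core (O : Subring ℂ) (J : AddSubgroup ℂ) (hJO : ∀ x ∈ J, x ∈ O)
    (hOJ : ∀ a ∈ O, ∀ x ∈ J, a * x ∈ J) (h1 : (1 : ℂ) ∉ J)
    (p : ℕ) [NeZero p] {k : ℤ} (hk : k / 12 < p + 1) (N : ModularForm 𝒮ℒ k)
    (Y : Fin (p + 1) → ℍ → ℂ) (hN : ⇑N = ∏ i, Y i)
    (ψ : ℍ → ℂ) (hψ : IsNice 1 ψ) (hψO : ∀ n, (qExpansion (1 : ℝ) ψ).coeff n ∈ O)
    (hψ0 : (qExpansion (1 : ℝ) ψ).coeff 0 = 0)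
    (u : Fin (p + 1) → ℂ) (hu : ∀ i, u i ∈ O)
    (hunit : ∃ v ∈ O, (∏ i, u i) * (qExpansion (1 : ℝ) ψ).coeff 1 ^ (p + 1) * v - 1 ∈ J)
    (hY : ∀ i, IsNice p (Y i - u i • ψ) ∧
      ∀ n, (qExpansion (p : ℝ) (Y i - u i • ψ)).coeff n ∈ J) : False := by
  classical
  have hpp : 0 < p := Nat.pos_of_ne_zero (NeZero.ne p)
  -- the functions `Z i = u i • ψ`
  have hψp : NiceIn p (O : Set ℂ) ψ := by
    refine ⟨isNice_of_isNice_one hψ, fun m => ?_⟩
    rw [qExpansion_coeff_of_isNice_one' hψ]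
    split_ifs
    · rw [Nat.cast_one]; exact hψO _
    · exact O.zero_mem
  have hZ : ∀ i ∈ (Finset.univ : Finset (Fin (p + 1))), NiceIn p (O : Set ℂ) (u i • ψ) :=
    fun i _ => NiceIn.smul_subring O (hu i) hψp
  have hYZ : ∀ i ∈ (Finset.univ : Finset (Fin (p + 1))),
      NiceIn p (J : Set ℂ) (Y i - u i • ψ) := fun i _ => hY i
  obtain ⟨hD, -, -⟩ := NiceIn.prod_sub_prod O J hJO hOJ Y (fun i => u i • ψ) Finset.univ hZ hYZ
  -- the product of the `Z i`
  have hprodZ : (∏ i, (fun i => u i • ψ) i : ℍ → ℂ) = (∏ i, u i) • ψ ^ (p + 1) := by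
    funext τ
    simp only [Finset.prod_apply, Pi.smul_apply, Pi.pow_apply, smul_eq_mul]
    rw [Finset.prod_mul_distrib, Finset.prod_const, Finset.card_univ, Fintype.card_fin]
  have hqψpow : ∀ m : ℕ, IsNice 1 (ψ ^ m) ∧
      qExpansion ((1 : ℕ) : ℝ) (ψ ^ m) = qExpansion ((1 : ℕ) : ℝ) ψ ^ m := by
    intro m
    induction m with
    | zero =>
      have h1' : IsNice 1 (1 : ℍ → ℂ) := IsNice.const (N := 1) 1
      refine ⟨by rw [pow_zero]; exact h1', ?_⟩
      rw [pow_zero, pow_zero, UpperHalfPlane.qExpansion_one]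
    | succ m ih =>
      refine ⟨by rw [pow_succ]; exact ih.1.mul hψ, ?_⟩
      rw [pow_succ, IsNice.qExpansion_mul ih.1 hψ, ih.2, pow_succ]
  have hψpow : IsNice 1 (ψ ^ (p + 1)) := (hqψpow _).1
  have hZprod1 : IsNice 1 ((∏ i, u i) • ψ ^ (p + 1)) := isNice_smul hψpow _
  have hqZ : ∀ n, (qExpansion ((1 : ℕ) : ℝ) ((∏ i, u i) • ψ ^ (p + 1))).coeff n =
      (∏ i, u i) * (qExpansion (1 : ℝ) ψ ^ (p + 1)).coeff n := by
    intro n
    rw [UpperHalfPlane.qExpansion_smul hψpow.analyticAt, (hqψpow (p + 1)).2,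
      PowerSeries.coeff_smul, Nat.cast_one, smul_eq_mul]
  -- coefficients of `N`
  have hNnice : IsNice 1 (⇑N) := isNice_one_levelOne N
  have hcoeffN : ∀ n, (qExpansion (1 : ℝ) N).coeff n -
      (∏ i, u i) * (qExpansion (1 : ℝ) ψ ^ (p + 1)).coeff n ∈ J := by
    intro n
    have h3 := hD.2 (p * n)
    rw [hprodZ, ← hN] at h3
    have h4 : (⇑N - (∏ i, u i) • ψ ^ (p + 1) : ℍ → ℂ) = ⇑N + -((∏ i, u i) • ψ ^ (p + 1)) := by
      rw [sub_eq_add_neg]
    have hZp : IsNice p ((∏ i, u i) • ψ ^ (p + 1)) := isNice_of_isNice_one hZprod1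
    rw [h4, IsNice.qExpansion_add (isNice_of_isNice_one hNnice) hZp.neg,
      IsNice.qExpansion_neg hZp, map_add, map_neg,
      qExpansion_coeff_mul_of_isNice_one hNnice, qExpansion_coeff_mul_of_isNice_one hZprod1,
      ← Nat.cast_one (R := ℝ), hqZ, ← sub_eq_add_neg] at h3
    simpa using h3
  have hψ0' : (qExpansion (1 : ℝ) ψ).coeff 0 = 0 := hψ0
  have hlow : ∀ n : ℕ, (n : ℤ) ≤ k / 12 → (qExpansion (1 : ℝ) N).coeff n ∈ J := by
    intro n hn
    have hnp : n ≤ p + 1 := by omega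
    have h5 := hcoeffN n
    rw [coeff_pow_of_coeff_zero hψ0' (p + 1) n hnp, if_neg (by omega), mul_zero, sub_zero] at h5
    exact h5
  have hall := Fermat.Agent.S16.helper77.levelOne_coeff_mem J k N hlow (p + 1)
  have h6 := hcoeffN (p + 1)
  rw [coeff_pow_of_coeff_zero hψ0' (p + 1) (p + 1) le_rfl, if_pos rfl] at h6
  have h7 : (∏ i, u i) * (qExpansion (1 : ℝ) ψ).coeff 1 ^ (p + 1) ∈ J := by
    have := J.sub_mem hall h6
    simpa using this
  obtain ⟨v, hv, hv1⟩ := hunit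
  have h8 : (∏ i, u i) * (qExpansion (1 : ℝ) ψ).coeff 1 ^ (p + 1) * v ∈ J := by
    rw [mul_comm]
    exact hOJ v hv _ h7
  have h9 := J.sub_mem h8 hv1
  rw [sub_sub_cancel] at h9
  exact h1 h9

end Fermat.Agent.S16.helper94
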