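import Mathlib
import Fermat.Agent.S16.helper94_NormCong
import Fermat.Agent.S16.helper41_Cosets

/-!
# S16 / tool (d): the norm congruence for forms on `Γ₀(p)` (coset form)

`norm_congruence_cosets`: let `X` be a modular form of weight `w < 12` on `Γ₀(p)` such that `X`
and all its conjugates `X ∣ S T^j` (`j < p`) are congruent modulo `J` (as functions with
`O`-integral `q^{1/p}`-expansion) to unit multiples of one `1`-periodic function
`ψ = ψ₁ q + …` with `ψ₁` a unit modulo `J`.  Contradiction (the norm of `X` is a level-one form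
of weight `w (p + 1)` congruent to a unit times `ψ^(p+1)`).
-/

set_option autoImplicit false
set_option linter.unusedSectionVars false

noncomputable section

open UpperHalfPlane Filter Topology Function ModularForm ModularFormClass CongruenceSubgroup
open scoped MatrixGroups Manifold

namespace Fermat.Agent.S16.helper94

open Fermat.Agent.S24.helper37

/-! ## Units modulo `J` -/

/-- `u ∈ O` is invertible modulo `J`. -/
def IsUnitModJ (O : Subring ℂ) (J : AddSubgroup ℂ) (u : ℂ) : Prop :=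
  u ∈ O ∧ ∃ v ∈ O, u * v - 1 ∈ J

section Units

variable {O : Subring ℂ} {J : AddSubgroup ℂ}

theorem IsUnitModJ.one : IsUnitModJ O J 1 :=
  ⟨O.one_mem, 1, O.one_mem, by simp⟩

theorem IsUnitModJ.mul (hOJ : ∀ a ∈ O, ∀ x ∈ J, a * x ∈ J) {a b : ℂ}
    (ha : IsUnitModJ O J a) (hb : IsUnitModJ O J b) : IsUnitModJ O J (a * b) := by
  obtain ⟨haO, va, hva, ha1⟩ := ha
  obtain ⟨hbO, vb, hvb, hb1⟩ := hb
  refine ⟨O.mul_mem haO hbO, va * vb, O.mul_mem hva hvb, ?_⟩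
  have e : a * b * (va * vb) - 1 = (b * vb) * (a * va - 1) + (b * vb - 1) := by ring
  rw [e]
  exact J.add_mem (hOJ _ (O.mul_mem hbO hvb) _ ha1) hb1

theorem IsUnitModJ.pow (hOJ : ∀ a ∈ O, ∀ x ∈ J, a * x ∈ J) {a : ℂ}
    (ha : IsUnitModJ O J a) (n : ℕ) : IsUnitModJ O J (a ^ n) := by
  induction n with
  | zero => simpa using IsUnitModJ.one
  | succ n ih => rw [pow_succ]; exact ih.mul hOJ ha

theorem IsUnitModJ.prod (hOJ : ∀ a ∈ O, ∀ x ∈ J, a * x ∈ J) {ι : Type*} (s : Finset ι)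
    (u : ι → ℂ) (hu : ∀ i ∈ s, IsUnitModJ O J (u i)) : IsUnitModJ O J (∏ i ∈ s, u i) := by
  classical
  induction s using Finset.induction_on with
  | empty => simpa using IsUnitModJ.one
  | insert a s ha ih =>
    rw [Finset.prod_insert ha]
    exact (hu a (Finset.mem_insert_self a s)).mul hOJ
      (ih fun i hi => hu i (Finset.mem_insert_of_mem hi))

theorem IsUnitModJ.not_mem (hOJ : ∀ a ∈ O, ∀ x ∈ J, a * x ∈ J) (h1 : (1 : ℂ) ∉ J) {a : ℂ}
    (ha : IsUnitModJ O J a) : a ∉ J := by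
  intro haJ
  obtain ⟨-, v, hv, hv1⟩ := ha
  have h2 : a * v ∈ J := by
    rw [mul_comm]
    exact hOJ v hv a haJ
  have h3 := J.sub_mem h2 hv1
  rw [sub_sub_cancel] at h3
  exact h1 h3

end Units

/-! ## The coset form -/

/-- **Tool (d), coset form**, abstract in the pair `(O, J)`. -/
theorem norm_congruence_cosets (O : Subring ℂ) (J : AddSubgroup ℂ) (hJO : ∀ x ∈ J, x ∈ O)
    (hOJ : ∀ a ∈ O, ∀ x ∈ J, a * x ∈ J) (h1 : (1 : ℂ) ∉ J)
    (p : ℕ) [Fact p.Prime] {w : ℤ} (hw : w < 12) (X : ModularForm (Gamma0 p) w)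
    (ψ : ℍ → ℂ) (hψ : IsNice 1 ψ) (hψO : ∀ n, (qExpansion (1 : ℝ) ψ).coeff n ∈ O)
    (hψ0 : (qExpansion (1 : ℝ) ψ).coeff 0 = 0)
    (hψ1 : IsUnitModJ O J ((qExpansion (1 : ℝ) ψ).coeff 1))
    (u₀ : ℂ) (u₁ : ℕ → ℂ) (hu₀ : IsUnitModJ O J u₀) (hu₁ : ∀ j < p, IsUnitModJ O J (u₁ j))
    (hX₀ : IsNice p (⇑X - u₀ • ψ) ∧ ∀ n, (qExpansion (p : ℝ) (⇑X - u₀ • ψ)).coeff n ∈ J)
    (hX₁ : ∀ j < p,
      IsNice p ((⇑X ∣[w] (ModularGroup.S * ModularGroup.T ^ j : SL(2, ℤ))) - u₁ j • ψ) ∧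
      ∀ n, (qExpansion (p : ℝ)
        ((⇑X ∣[w] (ModularGroup.S * ModularGroup.T ^ j : SL(2, ℤ))) - u₁ j • ψ)).coeff n ∈ J) :
    False := by
  have : NeZero p := ⟨(Fact.out : p.Prime).ne_zero⟩
  have hcard := Fermat.Agent.S16.helper41.card_quot_Gamma0 p
  have hk : (w * (Nat.card (𝒮ℒ ⧸ ((Gamma0 p : Subgroup (GL (Fin 2) ℝ)).subgroupOf 𝒮ℒ)) : ℤ)) / 12
      < (p : ℤ) + 1 := by
    rw [hcard]
    push_cast
    apply Int.ediv_lt_of_lt_mul (by norm_num)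
    have hp0 : (0 : ℤ) < (p : ℤ) + 1 := by positivity
    nlinarith
  set Y : Fin (p + 1) → ℍ → ℂ := Fin.cons (⇑X)
    (fun j : Fin p => ⇑X ∣[w] (ModularGroup.S * ModularGroup.T ^ (j : ℕ) : SL(2, ℤ))) with hY
  set u : Fin (p + 1) → ℂ := Fin.cons u₀ (fun j : Fin p => u₁ (j : ℕ)) with hu
  have hN : (ModularForm.norm 𝒮ℒ X : ℍ → ℂ) = ∏ i, Y i := by
    rw [Fermat.Agent.S16.helper41.coe_norm_Gamma0, Fin.prod_univ_succ]
    simp only [hY, Fin.cons_zero, Fin.cons_succ]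
    rw [Fin.prod_univ_eq_prod_range
      (fun j => (X : ℍ → ℂ) ∣[w] (ModularGroup.S * ModularGroup.T ^ j : SL(2, ℤ))) p]
  have huprod : IsUnitModJ O J ((∏ i, u i) * (qExpansion (1 : ℝ) ψ).coeff 1 ^ (p + 1)) := by
    refine IsUnitModJ.mul hOJ ?_ (hψ1.pow hOJ _)
    rw [Fin.prod_univ_succ]
    simp only [hu, Fin.cons_zero, Fin.cons_succ]
    exact hu₀.mul hOJ (IsUnitModJ.prod hOJ _ _ fun j _ => hu₁ j j.2)
  refine norm_congruence_core O J hJO hOJ h1 p hk (ModularForm.norm 𝒮ℒ X) Y hN ψ hψ hψO hψ0 u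
    ?_ huprod.2 ?_
  · intro i
    refine Fin.cases ?_ (fun j => ?_) i
    · simp only [hu, Fin.cons_zero]; exact hu₀.1
    · simp only [hu, Fin.cons_succ]; exact (hu₁ j j.2).1
  · intro i
    refine Fin.cases ?_ (fun j => ?_) i
    · simp only [hY, hu, Fin.cons_zero]; exact hX₀
    · simp only [hY, hu, Fin.cons_succ]; exact hX₁ j j.2

end Fermat.Agent.S16.helper94
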