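import Fermat.Prelude.Def_CuspForm_HeckeLocal
import Fermat.Prelude.Def_CuspForm_HeckeEvalForms
import Fermat.Prelude.Def_HeckeGalois_EichlerShimura
import Fermat.Prelude.Def_ModularCurve_ModularUnit

/-!
# S16, package [D1]: ring-theoretic skeleton (helper98)

For surjective ring homomorphisms `φ : A →+* T` and `χ : A →+* ℤ`, the quotients
`T ⧸ φ(ker χ)` and `ℤ ⧸ χ(ker φ)` are both isomorphic to `A ⧸ (ker φ ⊔ ker χ)`.
Applied to the Hecke polynomial ring, `φ` the action on the integral lattice of weight-2 cusp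
forms and `χ` the Eisenstein system, this reduces S16 to the computation of the ideal
`χ(ker φ)` of `ℤ`.
-/

set_option autoImplicit false

namespace Fermat.Agent.S16.helper98

open ModularCurve CuspForm

section Generic

variable {A T : Type*} [CommRing A] [CommRing T]

/-- The comap of `φ(ker χ)` under a surjective `φ` is `ker χ ⊔ ker φ`. -/
theorem comap_map_ker_eq_sup {B : Type*} [CommRing B] (φ : A →+* T) (hφ : Function.Surjective φ)
    (χ : A →+* B) :
    Ideal.comap φ (Ideal.map φ (RingHom.ker χ)) = RingHom.ker χ ⊔ RingHom.ker φ := by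
  rw [Ideal.comap_map_of_surjective φ hφ]
  rfl

/-- `T ⧸ J ≃ A ⧸ comap φ J` for surjective `φ`. -/
noncomputable def quotientComapEquiv (φ : A →+* T) (hφ : Function.Surjective φ) (J : Ideal T) :
    (A ⧸ Ideal.comap φ J) ≃+* (T ⧸ J) :=
  (Ideal.quotEquivOfEq (by
      ext x
      simp [RingHom.mem_ker, Ideal.Quotient.eq_zero_iff_mem, Ideal.mem_comap])).trans
    (RingHom.quotientKerEquivOfSurjective
      (f := (Ideal.Quotient.mk J).comp φ)
      (Ideal.Quotient.mk_surjective.comp hφ))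

theorem card_quotient_map_ker_eq (φ : A →+* T) (hφ : Function.Surjective φ)
    (χ : A →+* ℤ) (hχ : Function.Surjective χ) :
    Nat.card (T ⧸ Ideal.map φ (RingHom.ker χ)) = Nat.card (ℤ ⧸ Ideal.map χ (RingHom.ker φ)) := by
  have e1 := quotientComapEquiv φ hφ (Ideal.map φ (RingHom.ker χ))
  have e2 := quotientComapEquiv χ hχ (Ideal.map χ (RingHom.ker φ))
  have h1 := comap_map_ker_eq_sup φ hφ χ
  have h2 := comap_map_ker_eq_sup χ hχ φ
  have e3 : (A ⧸ Ideal.comap φ (Ideal.map φ (RingHom.ker χ))) ≃+*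
      (A ⧸ Ideal.comap χ (Ideal.map χ (RingHom.ker φ))) :=
    Ideal.quotEquivOfEq (by rw [h1, h2, sup_comm])
  exact Nat.card_congr ((e1.symm.trans e3).trans e2).toEquiv

theorem card_int_quotient_span (n : ℕ) : Nat.card (ℤ ⧸ Ideal.span {(n : ℤ)}) = n := by
  rw [Nat.card_congr (Int.quotientSpanNatEquivZMod n).toEquiv, Nat.card_zmod]

theorem card_quotient_eq_of_map_ker_eq_span (φ : A →+* T) (hφ : Function.Surjective φ)
    (χ : A →+* ℤ) (hχ : Function.Surjective χ) (n : ℕ)
    (h : Ideal.map χ (RingHom.ker φ) = Ideal.span {(n : ℤ)}) :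
    Nat.card (T ⧸ Ideal.map φ (RingHom.ker χ)) = n := by
  rw [card_quotient_map_ker_eq φ hφ χ hχ, h, card_int_quotient_span]

/-- The ideal `χ(ker φ)` equals `span {n}` as soon as `n` divides every value and is a value. -/
theorem map_ker_eq_span_of_dvd_of_mem (φ : A →+* T) (χ : A →+* ℤ)
    (n : ℤ) (hdvd : ∀ P : A, φ P = 0 → n ∣ χ P) (hmem : ∃ P : A, φ P = 0 ∧ χ P = n) :
    Ideal.map χ (RingHom.ker φ) = Ideal.span {n} := by
  apply le_antisymm
  · rw [Ideal.map_le_iff_le_comap]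
    intro P hP
    rw [Ideal.mem_comap, Ideal.mem_span_singleton]
    exact hdvd P (RingHom.mem_ker.mp hP)
  · rw [Ideal.span_le, Set.singleton_subset_iff]
    obtain ⟨P, hP, hPn⟩ := hmem
    rw [← hPn]
    exact Ideal.mem_map_of_mem χ (RingHom.mem_ker.mpr hP)

end Generic

section Hecke

variable (N : ℕ)

section

variable [NeZero N]

theorem heckeEvalForms_surjective (k : ℤ) :
    Function.Surjective (heckeEvalForms N k) := by
  rintro ⟨x, hx⟩
  suffices h : ∃ P : HeckeAlg, ((heckeEvalForms N k P : heckeAlgebra N k ∅) :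
      Module.End ℂ (CuspForm (CongruenceSubgroup.Gamma0 N) k)) = x by
    obtain ⟨P, hP⟩ := h
    exact ⟨P, Subtype.ext hP⟩
  induction hx using Algebra.adjoin_induction with
  | mem x hx =>
    rcases hx with ⟨ℓ, hℓ, hℓN, -, rfl⟩ | ⟨q, hqN, hq, -, rfl⟩
    · refine ⟨heckeGen ⟨ℓ, hℓ⟩, ?_⟩
      rw [heckeEvalForms_heckeGen_of_not_dvd (N := N) (k := k) (ℓ := ⟨ℓ, hℓ⟩) hℓN]
      rfl
    · refine ⟨heckeGen ⟨q, hq⟩, ?_⟩
      rw [heckeEvalForms_heckeGen_of_dvd (N := N) (k := k) (q := ⟨q, hq⟩) hqN]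
      rfl
  | algebraMap r =>
    refine ⟨MvPolynomial.C r, ?_⟩
    rw [heckeEvalForms_C]
    rfl
  | add x y _ _ hx hy =>
    obtain ⟨P, rfl⟩ := hx
    obtain ⟨Q, rfl⟩ := hy
    exact ⟨P + Q, by rw [map_add]; rfl⟩
  | mul x y _ _ hx hy =>
    obtain ⟨P, rfl⟩ := hx
    obtain ⟨Q, rfl⟩ := hy
    exact ⟨P * Q, by rw [map_mul]; rfl⟩

/-- The action of the Hecke polynomial ring on the integral lattice. -/
noncomputable def latticeHom : HeckeAlg →+* ↥(heckeLatticeAlgebra N ∅) :=
  (latticeRestrictHom N ∅).toRingHom.comp (heckeEvalForms N 2)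

theorem latticeHom_surjective : Function.Surjective (latticeHom N) :=
  (latticeRestrictHom_surjective N ∅).comp (heckeEvalForms_surjective N 2)

end

/-- The Eisenstein character `T_ℓ ↦ 1 + ℓ`, `U_q ↦ 1`. -/
noncomputable def eisChar : HeckeAlg →+* ℤ :=
  (MvPolynomial.aeval (R := ℤ) (eisensteinSystem N)).toRingHom

theorem eisChar_C (a : ℤ) : eisChar N (MvPolynomial.C a) = a := by
  simp [eisChar]

theorem eisChar_heckeGen (ℓ : Nat.Primes) : eisChar N (heckeGen ℓ) = eisensteinSystem N ℓ :=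
  MvPolynomial.aeval_X _ ℓ

theorem eisChar_surjective : Function.Surjective (eisChar N) :=
  fun a => ⟨MvPolynomial.C a, eisChar_C N a⟩

theorem eisensteinIdeal_eq_ker : eisensteinIdeal N = RingHom.ker (eisChar N) := rfl

variable [NeZero N]

theorem card_quotient_eq_of_map_ker_eq (n : ℕ)
    (h : Ideal.map (eisChar N) (RingHom.ker (latticeHom N)) = Ideal.span {(n : ℤ)}) :
    Nat.card (↥(heckeLatticeAlgebra N ∅) ⧸
        Ideal.map ((latticeRestrictHom N ∅).toRingHom.comp (heckeEvalForms N 2))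
          (eisensteinIdeal N)) = n :=
  card_quotient_eq_of_map_ker_eq_span (latticeHom N) (latticeHom_surjective N)
    (eisChar N) (eisChar_surjective N) n h

theorem card_quotient_eq_of_dvd_of_mem (n : ℕ)
    (hdvd : ∀ P : HeckeAlg, latticeHom N P = 0 → (n : ℤ) ∣ eisChar N P)
    (hmem : ∃ P : HeckeAlg, latticeHom N P = 0 ∧ eisChar N P = n) :
    Nat.card (↥(heckeLatticeAlgebra N ∅) ⧸
        Ideal.map ((latticeRestrictHom N ∅).toRingHom.comp (heckeEvalForms N 2))
          (eisensteinIdeal N)) = n :=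
  card_quotient_eq_of_map_ker_eq N n
    (map_ker_eq_span_of_dvd_of_mem (latticeHom N) (eisChar N) n hdvd hmem)

end Hecke

end Fermat.Agent.S16.helper98
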