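import Fermat.Agent.S16.helper16_Interface
import Fermat.Agent.S16.helper98_Skeleton

/-!
# S16, package [D1]: the cardinality from the ideal-level bounds (helper98)

`card_eq_of_ideal_bounds`: the frozen statement S16 follows from `helper16.UpperIdeal p` and
`helper16.LowerBound p`.
-/

set_option autoImplicit false

namespace Fermat.Agent.S16.helper98

open ModularCurve CuspForm

theorem eisChar_apply (N : ℕ) (P : HeckeAlg) :
    eisChar N P = MvPolynomial.aeval (eisensteinSystem N) P := rfl

theorem latticeHom_apply (N : ℕ) [NeZero N] (P : HeckeAlg) :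
    latticeHom N P = ((latticeRestrictHom N ∅).toRingHom.comp (heckeEvalForms N 2)) P := rfl

/-- **Package [D1]**: S16 from the two ideal-level bounds. -/
theorem card_eq_of_ideal_bounds (p : ℕ) [Fact p.Prime]
    (hA : Fermat.Agent.S16.helper16.UpperIdeal p)
    (hB : Fermat.Agent.S16.helper16.LowerBound p) :
    Nat.card (↥(heckeLatticeAlgebra p ∅) ⧸
        Ideal.map ((latticeRestrictHom p ∅).toRingHom.comp (heckeEvalForms p 2))
          (eisensteinIdeal p)) =
      eisensteinNumerator p := by
  refine card_quotient_eq_of_dvd_of_mem p (eisensteinNumerator p) (fun P hP => hB P hP) ?_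
  obtain ⟨P, hP, hdvd⟩ := hA
  have hdvd' : (eisensteinNumerator p : ℤ) ∣ MvPolynomial.aeval (eisensteinSystem p) P := hB P hP
  have habs : (MvPolynomial.aeval (eisensteinSystem p) P : ℤ).natAbs = eisensteinNumerator p :=
    Nat.dvd_antisymm (Int.natAbs_dvd_natAbs.mpr hdvd |>.trans (by simp))
      ((by simp : eisensteinNumerator p ∣ ((eisensteinNumerator p : ℕ) : ℤ).natAbs).trans
        (Int.natAbs_dvd_natAbs.mpr hdvd'))
  rcases Int.natAbs_eq (MvPolynomial.aeval (eisensteinSystem p) P : ℤ) with h | h
  all_goals rw [habs] at h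
  · exact ⟨P, hP, h⟩
  · refine ⟨-P, ?_, ?_⟩
    · have hP' : latticeHom p P = 0 := hP
      rw [map_neg, hP', neg_zero]
    · rw [map_neg, eisChar_apply, h, neg_neg]

end Fermat.Agent.S16.helper98
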